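/-
The levels of the general descent: a principal congruence group of one modulus at the bad places,
the Iwahori group at the auxiliary places, and `GL₂(O)` elsewhere.
-/
import Fermat.Agent.LT.Descent.Levels
import Fermat.Agent.LT.Tame.SplitLevels

set_option autoImplicit false

noncomputable section

namespace Fermat.Agent.Extra.LTGen

open IsDedekindDomain IsDedekindDomain.HeightOneSpectrum Matrix NumberField
open Fermat.Agent.LT.Adelic Fermat.Agent.LT.Aleph Fermat.Agent.LT.Tame Fermat.Agent.LT.Descent
open scoped MatrixGroups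

variable {K : Type*} [Field K] [NumberField K]

/-- The local principal congruence group of radius `b`. -/
def congrLoc (v : HeightOneSpectrum (𝓞 K)) (b : WithZero (Multiplicative ℤ)) :
    Subgroup (GL (Fin 2) (v.adicCompletion K)) where
  carrier := {γ | IsIntLocal γ ∧ (∀ i j, Valued.v ((γ.1 - 1) i j) ≤ b) ∧
    ∀ i j, Valued.v (((γ⁻¹).1 - 1) i j) ≤ b}
  one_mem' := ⟨isIntLocal_one, by simp, by simp⟩
  inv_mem' h := ⟨h.1.inv, h.2.2, by rw [inv_inv]; exact h.2.1⟩
  mul_mem' {x y} hx hy := by
    have key : ∀ {A B : Matrix (Fin 2) (Fin 2) (v.adicCompletion K)},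
        (∀ i j, Valued.v (A i j) ≤ 1) → (∀ i j, Valued.v ((A - 1) i j) ≤ b) →
        (∀ i j, Valued.v ((B - 1) i j) ≤ b) → ∀ i j, Valued.v ((A * B - 1) i j) ≤ b := by
      intro A B hAi hA hB i j
      rw [show A * B - 1 = A * (B - 1) + (A - 1) by noncomm_ring, Matrix.add_apply]
      refine (Valuation.map_add _ _ _).trans (max_le ?_ (hA i j))
      rw [Matrix.mul_apply]
      refine Valuation.map_sum_le _ fun k _ => ?_
      rw [map_mul]
      exact (mul_le_mul' (hAi i k) (hB k j)).trans (one_mul b).le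
    refine ⟨hx.1.mul hy.1, ?_, ?_⟩
    · rw [Units.val_mul]
      exact key (fun i j => (hx.1 i j).1) hx.2.1 hy.2.1
    · rw [_root_.mul_inv_rev, Units.val_mul]
      exact key (fun i j => (hy.1 i j).2) hy.2.2 hx.2.2

theorem mem_congrLoc {v : HeightOneSpectrum (𝓞 K)} {b : WithZero (Multiplicative ℤ)}
    {γ : GL (Fin 2) (v.adicCompletion K)} :
    γ ∈ congrLoc v b ↔ IsIntLocal γ ∧ (∀ i j, Valued.v ((γ.1 - 1) i j) ≤ b) ∧
      ∀ i j, Valued.v (((γ⁻¹).1 - 1) i j) ≤ b := Iff.rfl

variable (K) in
/-- The local data of a level of the general descent. -/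
structure GenLevel where
  /-- the modulus at the bad places -/
  N : ℕ
  N_ne : N ≠ 0
  /-- the bad places -/
  bad : Set (HeightOneSpectrum (𝓞 K))
  bad_finite : bad.Finite
  /-- the auxiliary places with Iwahori level -/
  aux : Set (HeightOneSpectrum (𝓞 K))
  aux_finite : aux.Finite

namespace GenLevel

variable (D : GenLevel K)

open Classical in
/-- The local levels. -/
def loc (v : HeightOneSpectrum (𝓞 K)) : Subgroup (GL (Fin 2) (v.adicCompletion K)) :=
  if v ∈ D.bad then congrLoc v (v.intValuation (D.N : 𝓞 K))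
  else if v ∈ D.aux then iwahori v
  else localFull K v

/-- The level. -/
def level : Subgroup (GfK K) := productLevel D.loc

theorem loc_le (v : HeightOneSpectrum (𝓞 K)) : D.loc v ≤ localFull K v := by
  unfold loc
  split_ifs
  · exact fun γ h => h.1
  · exact fun γ h => h.1
  · exact le_rfl

theorem loc_of_bad {v : HeightOneSpectrum (𝓞 K)} (h : v ∈ D.bad) :
    D.loc v = congrLoc v (v.intValuation (D.N : 𝓞 K)) := if_pos h

theorem loc_of_aux {v : HeightOneSpectrum (𝓞 K)} (hb : v ∉ D.bad) (h : v ∈ D.aux) :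
    D.loc v = iwahori v := by
  rw [loc, if_neg hb, if_pos h]

theorem loc_of_good {v : HeightOneSpectrum (𝓞 K)} (hb : v ∉ D.bad) (h : v ∉ D.aux) :
    D.loc v = localFull K v := by
  rw [loc, if_neg hb, if_neg h]

open Classical in
/-- A modulus killing the level. -/
def modulus : ℕ :=
  D.N * ∏ v ∈ D.bad_finite.toFinset ∪ D.aux_finite.toFinset, Ideal.absNorm v.asIdeal

theorem modulus_ne_zero : D.modulus ≠ 0 :=
  mul_ne_zero D.N_ne (Finset.prod_ne_zero_iff.2 fun v _ => by
    rw [Ne, Ideal.absNorm_eq_zero_iff]; exact v.ne_bot)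

theorem principalLevel_le : principalLevel K (D.modulus : 𝓞 K) ≤ D.level := by
  classical
  refine principalLevel_le_productLevel fun v γ hint hcong => ?_
  have hA : ∀ i j, Valued.v (((γ : Matrix (Fin 2) (Fin 2) (v.adicCompletion K)) - 1) i j) ≤
      v.intValuation (D.modulus : 𝓞 K) := hcong
  by_cases hb : v ∈ D.bad
  · rw [D.loc_of_bad hb, mem_congrLoc]
    have hle : v.intValuation (D.modulus : 𝓞 K) ≤ v.intValuation (D.N : 𝓞 K) := by
      rw [modulus, Nat.cast_mul, map_mul]
      exact (mul_le_mul' le_rfl (v.intValuation_le_one _)).trans (mul_one _).le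
    refine ⟨hint, fun i j => (hA i j).trans hle, fun i j => ?_⟩
    rw [show (((γ⁻¹ : GL (Fin 2) (v.adicCompletion K)) :
        Matrix (Fin 2) (Fin 2) (v.adicCompletion K)) - 1) =
        -((((γ⁻¹ : GL (Fin 2) (v.adicCompletion K)) : Matrix (Fin 2) (Fin 2) _)) *
          ((γ : Matrix (Fin 2) (Fin 2) (v.adicCompletion K)) - 1)) by
        rw [mul_sub, Units.inv_mul, mul_one, neg_sub],
      Matrix.neg_apply, Valuation.map_neg, Matrix.mul_apply]
    refine Valuation.map_sum_le _ fun k _ => ?_
    rw [map_mul]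
    exact (mul_le_mul' (hint i k).2 ((hA k j).trans hle)).trans (one_mul _).le
  by_cases ha : v ∈ D.aux
  · rw [D.loc_of_aux hb ha, mem_iwahori]
    have hlt : v.intValuation (D.modulus : 𝓞 K) < 1 := by
      rw [v.intValuation_lt_one_iff_mem, modulus, Nat.cast_mul, Nat.cast_prod]
      refine v.asIdeal.mul_mem_left _ (Ideal.prod_mem v.asIdeal (i := v) ?_ (Ideal.absNorm_mem _))
      simpa using Or.inr ha
    have h10 : Valued.v ((γ : Matrix (Fin 2) (Fin 2) (v.adicCompletion K)) 1 0) < 1 := by
      simpa using lt_of_le_of_lt (hA 1 0) hlt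
    refine ⟨hint, h10, ?_⟩
    rw [Matrix.coe_units_inv, Matrix.inv_def, Matrix.smul_apply, Matrix.adjugate_fin_two]
    simp only [Matrix.cons_val', Matrix.cons_val_one, Matrix.cons_val_zero, Matrix.of_apply,
      Matrix.empty_val', Matrix.cons_val_fin_one, smul_eq_mul]
    rw [map_mul, Valuation.map_neg]
    refine lt_of_le_of_lt ((mul_le_mul' ?_ le_rfl).trans (one_mul _).le) h10
    have hd : ((γ : Matrix (Fin 2) (Fin 2) (v.adicCompletion K)).det)⁻¹ =
        ((γ⁻¹ : GL (Fin 2) (v.adicCompletion K)) : Matrix (Fin 2) (Fin 2) _).det := by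
      refine inv_eq_of_mul_eq_one_right ?_
      rw [← Matrix.det_mul, Units.mul_inv, Matrix.det_one]
    rw [Ring.inverse_eq_inv', hd, Matrix.det_fin_two]
    refine le_trans (Valuation.map_sub _ _ _) (max_le ?_ ?_) <;> rw [map_mul] <;>
      exact mul_le_one' (hint _ _).2 (hint _ _).2
  · rw [D.loc_of_good hb ha]
    exact hint

theorem level_le : D.level ≤ principalLevel K (1 : 𝓞 K) := productLevel_le D.loc_le

theorem isLevel : IsLevel D.level :=
  ⟨(D.modulus : 𝓞 K), Nat.cast_ne_zero.2 D.modulus_ne_zero, D.principalLevel_le, D.level_le⟩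

theorem eventually_full : ∀ᶠ v in Filter.cofinite, localFull K v ≤ D.loc v := by
  filter_upwards [(D.bad_finite.union D.aux_finite).compl_mem_cofinite] with v hv
  simp only [Set.mem_compl_iff, Set.mem_union, not_or] at hv
  rw [D.loc_of_good hv.1 hv.2]

end GenLevel


/-! ### Integral maps, split places and the twist -/

section Transport

variable {L : Type*} [Field L] [NumberField L] {v : HeightOneSpectrum (𝓞 K)}
  {u : HeightOneSpectrum (𝓞 L)} {e : v.adicCompletion K →+* u.adicCompletion L}

/-- A natural number has the valuation of its image in the completion. -/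
theorem intValuation_natCast (v : HeightOneSpectrum (𝓞 K)) (N : ℕ) :
    v.intValuation (N : 𝓞 K) = Valued.v (N : v.adicCompletion K) := by
  rw [show (N : v.adicCompletion K) = ((algebraMap (𝓞 K) K (N : 𝓞 K) : K) : v.adicCompletion K) by
    rw [← FinitePlace.embedding_apply, map_natCast, map_natCast],
    valuedAdicCompletion_eq_valuation', valuation_of_algebraMap]

/-- Integral maps carry principal groups of one modulus to each other. -/
theorem mem_congrLoc_natCast_iff (he : IsIntegralMap e) (N : ℕ)
    (γ : GL (Fin 2) (v.adicCompletion K)) :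
    GeneralLinearGroup.map e γ ∈ congrLoc u (u.intValuation (N : 𝓞 L)) ↔
      γ ∈ congrLoc v (v.intValuation (N : 𝓞 K)) := by
  have key : ∀ (A : Matrix (Fin 2) (Fin 2) (v.adicCompletion K)) i j,
      Valued.v ((A.map e - 1) i j) ≤ Valued.v (e N) ↔
        Valued.v ((A - 1) i j) ≤ Valued.v (N : v.adicCompletion K) := fun A i j => by
    rw [show (A.map e - 1) i j = e ((A - 1) i j) by
      rcases eq_or_ne i j with rfl | h <;> simp [*], he.le_iff]
  rw [mem_congrLoc, mem_congrLoc, he.isIntLocal_iff, intValuation_natCast, intValuation_natCast,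
    ← map_natCast e, ← map_inv]
  exact and_congr Iff.rfl (and_congr (forall_congr' fun i => forall_congr' fun j => key _ i j)
    (forall_congr' fun i => forall_congr' fun j => key _ i j))

/-- The local levels of corresponding data correspond under integral maps. -/
theorem GenLevel.mem_loc_iff (he : IsIntegralMap e) {D : GenLevel K} {D' : GenLevel L}
    (hN : D'.N = D.N) (hb : u ∈ D'.bad ↔ v ∈ D.bad) (haux : u ∈ D'.aux ↔ v ∈ D.aux)
    (γ : GL (Fin 2) (v.adicCompletion K)) :
    GeneralLinearGroup.map e γ ∈ D'.loc u ↔ γ ∈ D.loc v := by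
  by_cases h : v ∈ D.bad
  · rw [D.loc_of_bad h, D'.loc_of_bad (hb.2 h), hN]
    exact mem_congrLoc_natCast_iff he D.N γ
  · by_cases ha : v ∈ D.aux
    · rw [D.loc_of_aux h ha, D'.loc_of_aux (mt hb.1 h) (haux.2 ha)]
      exact he.mem_iwahori_iff γ
    · rw [D.loc_of_good h ha, D'.loc_of_good (mt hb.1 h) (mt haux.1 ha), mem_localFull,
        mem_localFull]
      exact he.isIntLocal_iff γ

variable {K' : Type*} [Field K'] [NumberField K'] [Algebra K K'] {σ : K' ≃ₐ[K] K'}

/-- The levels over a split place. -/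
theorem GenLevel.isSplitLevel_loc (D : GenLevel K) (D' : GenLevel K') (hN : D'.N = D.N)
    (hb : ∀ u, SplitPlace σ v u → (u ∈ D'.bad ↔ v ∈ D.bad))
    (haux : ∀ u, SplitPlace σ v u → (u ∈ D'.aux ↔ v ∈ D.aux)) :
    SplitPlace.IsSplitLevel σ v D.loc D'.loc := by
  refine SplitPlace.isSplitLevel_of_map fun u Q => ?_
  have key := GenLevel.mem_loc_iff Q.isIntegralMap_emb hN (hb u Q) (haux u Q)
  refine le_antisymm (fun γ hγ => ?_) (Subgroup.map_le_iff_le_comap.2 fun γ hγ => (key γ).2 hγ)
  have hback : GeneralLinearGroup.map Q.emb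
      (GeneralLinearGroup.map Q.embEquiv.symm.toRingHom γ) = γ :=
    Units.ext (Matrix.ext fun i j => Q.embEquiv.apply_symm_apply _)
  exact ⟨_, (key _).1 (by rwa [hback]), hback⟩

omit [Algebra K K'] in
/-- A ring automorphism is integral on completions. -/
theorem isIntegralMap_completionEquiv (τ : K' ≃+* K') (w : HeightOneSpectrum (𝓞 K')) :
    IsIntegralMap (completionEquiv τ (valuation_apply_placePerm τ w)).toRingHom := fun x =>
  ⟨fun hx => by
    have := completionEquiv_mem_integers τ.symm
      (valuation_symm_apply τ (valuation_apply_placePerm τ w))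
      (x := completionEquiv τ (valuation_apply_placePerm τ w) x) hx
    rwa [show completionEquiv τ.symm (valuation_symm_apply τ (valuation_apply_placePerm τ w))
        (completionEquiv τ (valuation_apply_placePerm τ w) x) = x from
      (completionEquiv τ (valuation_apply_placePerm τ w)).symm_apply_apply x] at this,
    fun hx => completionEquiv_mem_integers τ (valuation_apply_placePerm τ w) hx⟩

omit [Algebra K K'] in
/-- An automorphism fixing the bad and auxiliary sets carries the levels to each other. -/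
theorem GenLevel.map_completionEquiv_mem_loc (τ : K' ≃+* K') (D' : GenLevel K')
    (hb : ∀ u, placePerm τ u ∈ D'.bad ↔ u ∈ D'.bad)
    (haux : ∀ u, placePerm τ u ∈ D'.aux ↔ u ∈ D'.aux)
    (w : HeightOneSpectrum (𝓞 K')) (g : GL (Fin 2) ((placePerm τ w).adicCompletion K'))
    (hg : g ∈ D'.loc (placePerm τ w)) :
    GeneralLinearGroup.map (completionEquiv τ (valuation_apply_placePerm τ w)).toRingHom g ∈
      D'.loc w :=
  (GenLevel.mem_loc_iff (isIntegralMap_completionEquiv τ w) rfl (hb w).symm (haux w).symm g).2 hg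

end Transport

namespace GenLevel

/-- These levels are local levels. -/
theorem isLocalLevel_loc (D : GenLevel K) : IsLocalLevel D.loc := ⟨D.loc_le, D.eventually_full⟩

/-- The level is maximal at `v`. -/
def IsFullAt (D : GenLevel K) (v : HeightOneSpectrum (𝓞 K)) : Prop := D.loc v = localFull K v

theorem isFullAt_of_good (D : GenLevel K) {v : HeightOneSpectrum (𝓞 K)} (hb : v ∉ D.bad)
    (ha : v ∉ D.aux) : D.IsFullAt v :=
  D.loc_of_good hb ha

end GenLevel

theorem congrLoc_mono (v : HeightOneSpectrum (𝓞 K)) {b c : WithZero (Multiplicative ℤ)}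
    (h : b ≤ c) : congrLoc v b ≤ congrLoc v c := fun _ hγ =>
  ⟨hγ.1, fun i j => (hγ.2.1 i j).trans h, fun i j => (hγ.2.2 i j).trans h⟩

end Fermat.Agent.Extra.LTGen
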