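/-
The data of the general cubic descent.
-/
import Fermat.Agent.Extra.LTGen.Descent.Levels
import Fermat.Agent.LT.Descent.Setup
import Fermat.Agent.LT.Descent.CoeffFromWhittaker

/-!
# The data of the general descent

The bad places are finitely many, contain the places over `3` and the ramified places of `K'/K`,
and carry the principal group of one modulus `N` on both sides. A bad place is either split or has
one place above; at the second kind the transfer needs `N` deep, recorded by `deep`.
-/

set_option autoImplicit false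

noncomputable section

namespace Fermat.Agent.Extra.LTGen

open Fermat.Agent.LT Fermat.Agent.LT.Adelic Fermat.Agent.LT.Tame Fermat.Agent.LT.Descent
open Fermat.Agent.LT.Descent.Places
open NumberField IsDedekindDomain
open scoped MatrixGroups

variable {K : Type*} [Field K] [NumberField K] {K' : Type*} [Field K'] [NumberField K']
  [Algebra K K']

/-- The inputs of the general descent along `tw`, before the choice of the modulus. -/
structure GenBase {Φ : Frame K Unit} {Φ' : Frame K' (Fin 3)} (tw : CubicTwist Φ Φ') where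
  gen : IsCubicGen tw.σ
  exists_cubeRoot : ∃ ζ : K, IsPrimitiveRoot ζ 3
  /-- the bad places -/
  bad : Set (HeightOneSpectrum (𝓞 K))
  bad_finite : bad.Finite
  three_bad : threePlaces K ⊆ bad
  tame_bad : tamePlaces tw.σ ⊆ bad
  /-- the auxiliary place -/
  u : HeightOneSpectrum (𝓞 K)
  u_not_bad : u ∉ bad
  u_split : IsSplit tw.σ u
  /-- the eigenvalues upstairs -/
  eig : HeightOneSpectrum (𝓞 K') → ℂ
  eig_real : ∀ w, w ∉ placesAbove bad → (eig w).im = 0
  eig_le : ∀ w, w ∉ placesAbove bad → ‖eig w‖ ≤ 2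
  eig_twist : ∀ v w, v ∉ bad → IsSplit tw.σ v → IsAbove v w →
    eig (placePerm tw.σ.toRingEquiv w) = eig w
  eig_ne_ray : ∀ M : ℕ, M ≠ 0 → ∀ η : Ideal (𝓞 K') → ℂ,
    (∀ I J, IsCoprime I (Ideal.span {(M : 𝓞 K')}) → IsCoprime J (Ideal.span {(M : 𝓞 K')}) →
      η (I * J) = η I * η J) →
    (∀ x : 𝓞 K', x ≠ 0 → x - 1 ∈ Ideal.span {(M : 𝓞 K')} → η (Ideal.span {x}) = 1) →
    ∀ T : Finset (HeightOneSpectrum (𝓞 K')), ∃ w ∉ T, (M : 𝓞 K') ∉ w.asIdeal ∧
      w ∉ placesAbove bad ∧ eig w ≠ η w.asIdeal + (η w.asIdeal)⁻¹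
  /-- the form upstairs -/
  ψ : (Fin 3 → HSpace) → GfK K' → ℂ
  isForm : IsSForm Φ' (placesAbove bad) eig ψ
  ne_zero : ψ ≠ 0

namespace GenBase

variable {Φ : Frame K Unit} {Φ' : Frame K' (Fin 3)} {tw : CubicTwist Φ Φ'} (B : GenBase tw)

/-- The bad places upstairs. -/
abbrev bad' : Set (HeightOneSpectrum (𝓞 K')) := placesAbove B.bad

theorem finite_bad' : B.bad'.Finite := finite_placesAbove B.gen B.bad_finite

/-- The bad places with one place above. -/
def deepPlaces : Set (HeightOneSpectrum (𝓞 K)) := {v ∈ B.bad | ¬ IsSplit tw.σ v}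

theorem mem_bad'_iff {v : HeightOneSpectrum (𝓞 K)} {w : HeightOneSpectrum (𝓞 K')}
    (h : IsAbove v w) : w ∈ B.bad' ↔ v ∈ B.bad :=
  ⟨fun ⟨_, hv', hw⟩ => isAbove_unique h hw ▸ hv', fun hv => ⟨v, hv, h⟩⟩

theorem isInert_or_isSplit {v : HeightOneSpectrum (𝓞 K)} (hv : v ∉ B.bad) :
    IsInert tw.σ v ∨ IsSplit tw.σ v :=
  (trichotomy B.gen v fun h => hv (B.three_bad h)).resolve_left fun h => hv (B.tame_bad h)

theorem absNorm_mod_three {v : HeightOneSpectrum (𝓞 K)} (hv : v ∉ B.bad) :
    Ideal.absNorm v.asIdeal % 3 = 1 := by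
  obtain ⟨ζ, hζ⟩ := B.exists_cubeRoot
  exact Places.absNorm_mod_three hζ v fun h => hv (B.three_bad h)

/-- The level downstairs of modulus `N`, with Iwahori structure at `u`. -/
def levOf (N : ℕ) (hN : N ≠ 0) : GenLevel K where
  N := N
  N_ne := hN
  bad := B.bad
  bad_finite := B.bad_finite
  aux := {B.u}
  aux_finite := Set.finite_singleton _

/-- The level upstairs of modulus `N`, with Iwahori structure over `u`. -/
def levOf' (N : ℕ) (hN : N ≠ 0) : GenLevel K' where
  N := N
  N_ne := hN
  bad := B.bad'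
  bad_finite := B.finite_bad'
  aux := placesAbove {B.u}
  aux_finite := finite_placesAbove B.gen (Set.finite_singleton _)

/-- The forms upstairs with the system of the data. -/
abbrev forms : Submodule ℂ ((Fin 3 → HSpace) → GfK K' → ℂ) := sForms Φ' B.bad' B.eig

/-- Translations on those forms. -/
abbrev formsRep : gfSupported B.bad' →* (B.forms →ₗ[ℂ] B.forms) :=
  translateRep Φ' B.bad' B.eig B.finite_bad'

/-- The elements living at the bad places with one place above. -/
def deepPart : Subgroup (gfSupported B.bad') where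
  carrier := {x | ∀ w ∉ placesAbove B.deepPlaces, Aleph.localGL K' w (x : GfK K') = 1}
  one_mem' := fun w _ => map_one _
  mul_mem' := fun {x y} hx hy w hw => by rw [Subgroup.coe_mul, map_mul, hx w hw, hy w hw, one_mul]
  inv_mem' := fun {x} hx w hw => by rw [Subgroup.coe_inv, map_inv, hx w hw, inv_one]

end GenBase

/-- Characters at the deep places: at each a `σ`-stable group between two principal groups with
a `σ`-invariant character. -/
structure DeepLoc {Φ : Frame K Unit} {Φ' : Frame K' (Fin 3)} {tw : CubicTwist Φ Φ'}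
    (B : GenBase tw) where
  /-- the modulus containing the supports -/
  N₀ : ℕ
  /-- a modulus on which the characters are trivial -/
  N₁ : ℕ
  N₁_ne : N₁ ≠ 0
  dvd : N₀ ∣ N₁
  /-- the supports -/
  H : ∀ w : HeightOneSpectrum (𝓞 K'), Subgroup (GL (Fin 2) (w.adicCompletion K'))
  le_H : ∀ w ∈ placesAbove B.deepPlaces, congrLoc w (w.intValuation (N₁ : 𝓞 K')) ≤ H w
  H_le : ∀ w ∈ placesAbove B.deepPlaces, H w ≤ congrLoc w (w.intValuation (N₀ : 𝓞 K'))
  /-- the characters -/
  χ : ∀ w : HeightOneSpectrum (𝓞 K'), H w →* ℂˣ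
  trivial : ∀ w ∈ placesAbove B.deepPlaces, ∀ k : H w,
    (k : GL (Fin 2) (w.adicCompletion K')) ∈ congrLoc w (w.intValuation (N₁ : 𝓞 K')) → χ w k = 1
  /-- the twist preserves supports and characters -/
  stable : ∀ w ∈ placesAbove (K' := K') B.deepPlaces,
    ∀ k : H (placePerm tw.σ.toRingEquiv w), ∃ k' : H w,
      (k' : GL (Fin 2) (w.adicCompletion K')) = Matrix.GeneralLinearGroup.map
        (completionEquiv tw.σ.toRingEquiv
          (valuation_apply_placePerm tw.σ.toRingEquiv w)).toRingHom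
        (k : GL (Fin 2) ((placePerm tw.σ.toRingEquiv w).adicCompletion K')) ∧
      χ w k' = χ (placePerm tw.σ.toRingEquiv w) k

/-- The forms on which each group at a deep place acts by its character. -/
def DeepLoc.IsIsotypic {Φ : Frame K Unit} {Φ' : Frame K' (Fin 3)} {tw : CubicTwist Φ Φ'}
    {B : GenBase tw} (C : DeepLoc B) (φ : B.forms) : Prop :=
  ∀ w ∈ placesAbove (K' := K') B.deepPlaces, ∀ (x : gfSupported B.bad')
    (hx : Aleph.localGL K' w (x : GfK K') ∈ C.H w),
    (∀ u ≠ w, Aleph.localGL K' u (x : GfK K') = 1) →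
      B.formsRep x φ = (C.χ w ⟨_, hx⟩ : ℂ) • φ

/-- Characters whose isotypic forms are a line tensor the split places. -/
structure DeepChar {Φ : Frame K Unit} {Φ' : Frame K' (Fin 3)} {tw : CubicTwist Φ Φ'}
    (B : GenBase tw) extends DeepLoc B where
  /-- a nonzero isotypic form of every level of modulus divisible by `N₁` -/
  exists_vector : ∀ (N : ℕ) (hN : N ≠ 0), N₁ ∣ N →
    ∃ φ : B.forms, φ ≠ 0 ∧ toDeepLoc.IsIsotypic φ ∧
      ∀ h ∈ supLevel B.bad' ({ B.levOf' N hN with aux := ∅, aux_finite := Set.finite_empty } :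
        GenLevel K').level, B.formsRep h φ = φ
  /-- combinations of translations at the deep places are scalars on the isotypic forms -/
  scalar : ∀ c : gfSupported B.bad' →₀ ℂ, (∀ x ∈ c.support, x ∈ B.deepPart) →
    (∀ φ, toDeepLoc.IsIsotypic φ → toDeepLoc.IsIsotypic (c.sum fun x r => r • B.formsRep x φ)) →
    ∃ s : ℂ, ∀ φ, toDeepLoc.IsIsotypic φ → (c.sum fun x r => r • B.formsRep x φ) = s • φ

/-- **The nonvanishing piece**: characters of arbitrary depth exist. -/
def StmtDeepChar {Φ : Frame K Unit} {Φ' : Frame K' (Fin 3)} {tw : CubicTwist Φ Φ'}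
    (B : GenBase tw) : Prop :=
  ∀ n : ℕ, n ≠ 0 → ∃ C : DeepChar B, n ∣ C.N₀

/-- The inputs of the general descent: a base, characters at the deep places and a modulus. -/
structure GenData {Φ : Frame K Unit} {Φ' : Frame K' (Fin 3)} (tw : CubicTwist Φ Φ') where
  base : GenBase tw
  deep : DeepChar base
  /-- the modulus of the levels -/
  N : ℕ
  N_ne : N ≠ 0
  dvd : 27 * deep.N₁ ∣ N

namespace GenData

variable {Φ : Frame K Unit} {Φ' : Frame K' (Fin 3)} {tw : CubicTwist Φ Φ'} (D : GenData tw)

/-- The excluded places downstairs. -/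
abbrev bad : Set (HeightOneSpectrum (𝓞 K)) := D.base.bad

/-- The excluded places upstairs. -/
abbrev bad' : Set (HeightOneSpectrum (𝓞 K')) := D.base.bad'

/-- The auxiliary place. -/
abbrev u : HeightOneSpectrum (𝓞 K) := D.base.u

/-- The eigenvalues upstairs. -/
abbrev eig : HeightOneSpectrum (𝓞 K') → ℂ := D.base.eig

include D in
theorem gen : IsCubicGen tw.σ := D.base.gen

include D in
theorem exists_cubeRoot : ∃ ζ : K, IsPrimitiveRoot ζ 3 := D.base.exists_cubeRoot

theorem u_not_bad : D.u ∉ D.bad := D.base.u_not_bad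

theorem u_split : IsSplit tw.σ D.u := D.base.u_split

theorem finite_bad : D.bad.Finite := D.base.bad_finite

theorem finite_bad' : D.bad'.Finite := D.base.finite_bad'

theorem isInert_or_isSplit {v : HeightOneSpectrum (𝓞 K)} (hv : v ∉ D.bad) :
    IsInert tw.σ v ∨ IsSplit tw.σ v :=
  D.base.isInert_or_isSplit hv

theorem absNorm_mod_three {v : HeightOneSpectrum (𝓞 K)} (hv : v ∉ D.bad) :
    Ideal.absNorm v.asIdeal % 3 = 1 :=
  D.base.absNorm_mod_three hv

theorem mem_bad'_iff {v : HeightOneSpectrum (𝓞 K)} {w : HeightOneSpectrum (𝓞 K')}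
    (h : IsAbove v w) : w ∈ D.bad' ↔ v ∈ D.bad :=
  D.base.mem_bad'_iff h

theorem eig_real : ∀ w, w ∉ D.bad' → (D.eig w).im = 0 := D.base.eig_real

theorem eig_le : ∀ w, w ∉ D.bad' → ‖D.eig w‖ ≤ 2 := D.base.eig_le

theorem eig_twist : ∀ v w, v ∉ D.bad → IsSplit tw.σ v → IsAbove v w →
    D.eig (placePerm tw.σ.toRingEquiv w) = D.eig w :=
  D.base.eig_twist

theorem isForm : IsSForm Φ' D.bad' D.eig D.base.ψ := D.base.isForm

theorem ne_zero : D.base.ψ ≠ 0 := D.base.ne_zero

/-- The level downstairs with Iwahori structure at `u`. -/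
def lev : GenLevel K := D.base.levOf D.N D.N_ne

/-- The level downstairs, maximal at `u`. -/
def lev₀ : GenLevel K := { D.lev with aux := ∅, aux_finite := Set.finite_empty }

/-- The level upstairs with Iwahori structure over `u`. -/
def lev' : GenLevel K' := D.base.levOf' D.N D.N_ne

/-- The level upstairs, maximal over `u`. -/
def lev₀' : GenLevel K' := { D.lev' with aux := ∅, aux_finite := Set.finite_empty }

/-- A cusp eigenform downstairs, maximal at `u`, with real eigenvalues lying below those upstairs. -/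
structure IsDescended (φ : Space Φ D.lev₀.level → ℂ) (a : HeightOneSpectrum (𝓞 K) → ℂ) :
    Prop where
  eigen : IsCuspEigen φ
  hecke : ∀ v ∉ D.base.bad, IsHeckeEigenAt φ v (a v)
  real : ∀ v ∉ D.base.bad, (a v).im = 0
  split : ∀ v ∉ D.base.bad, IsSplit tw.σ v → ∀ w, IsAbove v w → a v = D.base.eig w
  inert : ∀ v ∉ D.base.bad, IsInert tw.σ v → ∀ w, IsAbove v w → a v ^ 3 - 3 * a v = D.base.eig w

/-- A descended form exists. -/
def HasDescended : Prop := ∃ φ a, D.IsDescended φ a

end GenData

end Fermat.Agent.Extra.LTGen
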