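import Fermat.Agent.Extra.LTGen.Descent.TestPair
import Fermat.Agent.Extra.LTGen.Deep.Place
import Fermat.Agent.LT.Descent.TensorEventually
import Fermat.Agent.LT.Descent.NoNorm
import Fermat.Agent.LT.Tame.PlaceInstances
import Fermat.Agent.LT.Tame.SplitPull
import Fermat.Agent.LT.Inert.HeckeMul
import Fermat.Agent.LT.Descent.Transfer

/-!
# Locally matched test pairs

A pair of families of local matrices is matched at a place when it is trivial or a deep pair at a
bad place with one place above, a base change at a good inert one and a product of three at a split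
one; matched pairs transfer classes, and the property passes to compositions.
-/

set_option autoImplicit false

noncomputable section

namespace Fermat.Agent.Extra.LTGen

open Fermat.Agent.LT Fermat.Agent.LT.Descent

open IsDedekindDomain IsDedekindDomain.HeightOneSpectrum NumberField Matrix IsLocalRing Polynomial
open Fermat.Agent.LT.Adelic Fermat.Agent.LT.Tame Fermat.Agent.LT.Geom Fermat.Agent.LT.Inert
open Fermat.Agent.LT.Descent.Places
open scoped MatrixGroups

variable {K : Type*} [Field K] [NumberField K] {K' : Type*} [Field K'] [NumberField K']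
  [Algebra K K'] {Φ : Frame K Unit} {Φ' : Frame K' (Fin 3)} {tw : CubicTwist Φ Φ'}

namespace GenData

variable (D : GenData tw)

theorem mem_lev'_bad_iff {v : HeightOneSpectrum (𝓞 K)} {w : HeightOneSpectrum (𝓞 K')}
    (h : IsAbove v w) : w ∈ D.lev'.bad ↔ v ∈ D.lev.bad :=
  D.mem_bad'_iff h

theorem mem_deepPlaces_iff {v : HeightOneSpectrum (𝓞 K)} :
    v ∈ D.base.deepPlaces ↔ v ∈ D.bad ∧ ¬ IsSplit tw.σ v := Iff.rfl

theorem mem_lev'_aux_iff {v : HeightOneSpectrum (𝓞 K)} {w : HeightOneSpectrum (𝓞 K')}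
    (h : IsAbove v w) : w ∈ D.lev'.aux ↔ v ∈ D.lev.aux := by
  constructor
  · rintro ⟨v', hv', hw⟩
    rwa [isAbove_unique h hw]
  · exact fun hv => ⟨v, hv, h⟩

/-- Over a split place the levels are the level below. -/
theorem isSplitLevel {v : HeightOneSpectrum (𝓞 K)} (_h : IsSplit tw.σ v) :
    SplitPlace.IsSplitLevel tw.σ v D.lev.loc D.lev'.loc :=
  GenLevel.isSplitLevel_loc D.lev D.lev' rfl (fun _ Q => D.mem_lev'_bad_iff Q.above)
    fun _ Q => D.mem_lev'_aux_iff Q.above

/-- At a good inert place both levels are maximal. -/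
theorem loc_inert {v : HeightOneSpectrum (𝓞 K)} {w : HeightOneSpectrum (𝓞 K')}
    (hb : v ∉ D.bad) (h : IsInert tw.σ v) (hw : IsAbove v w) :
    D.lev.loc v = localFull K v ∧ D.lev'.loc w = localFull K' w := by
  have ha : v ∉ D.lev.aux := fun hv => h.not_isSplit (Set.mem_singleton_iff.1 hv ▸ D.u_split)
  exact ⟨D.lev.loc_of_good hb ha,
    D.lev'.loc_of_good (mt (D.mem_lev'_bad_iff hw).1 hb) (mt (D.mem_lev'_aux_iff hw).1 ha)⟩

/-- The place over a bad place with one place above. -/
theorem deepPlace {v : HeightOneSpectrum (𝓞 K)} {w : HeightOneSpectrum (𝓞 K')}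
    (hv : v ∈ D.base.deepPlaces) (hw : IsAbove v w) : Deep.DeepPlace tw.σ v w where
  ne_one := D.gen.ne_one
  order_three := D.gen.order_three
  fixed := D.gen.fixed
  above := hw
  fixed_place := by
    obtain ⟨w₀, hw₀, hfix⟩ : ∃ w₀, IsAbove v w₀ ∧ placePerm tw.σ.toRingEquiv w₀ = w₀ := by
      by_contra h
      push Not at h
      exact hv.2 h
    rwa [unique_of_fixed D.gen hw₀ hfix hw]

/-- The moduli of the data over a place that is deep for the modulus of the supports. -/
theorem depth {w : HeightOneSpectrum (𝓞 K')} (h : Deep.DeepAt w D.deep.N₀) :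
    Deep.Depth w D.deep.N₀ D.deep.N₁ D.N :=
  ⟨h, D.deep.dvd, D.dvd, D.N_ne⟩

theorem map_loc_deep {v : HeightOneSpectrum (𝓞 K)} (hv : v ∈ D.base.deepPlaces) :
    (D.lev.loc v).map ProjGenLinGroup.mk = Deep.congrPGL v (Deep.natVal v D.N) := by
  rw [D.lev.loc_of_bad hv.1]
  rfl

theorem map_loc'_deep {v : HeightOneSpectrum (𝓞 K)} {w : HeightOneSpectrum (𝓞 K')}
    (hv : v ∈ D.base.deepPlaces) (hw : IsAbove v w) :
    (D.lev'.loc w).map ProjGenLinGroup.mk = Deep.congrPGL w (Deep.natVal w D.N) := by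
  rw [D.lev'.loc_of_bad ((D.mem_lev'_bad_iff hw).2 hv.1)]
  rfl

/-- A deep pair at `v`: the matrix over `v` is supported in the group of modulus `N₀` and invariant
under the one of modulus `N₁`, and the matrix at `v` is its transfer. -/
def IsDeepPair (k : KerFamily D.lev.loc) (k' : KerFamily D.lev'.loc)
    (v : HeightOneSpectrum (𝓞 K)) : Prop :=
  ∃ (w : HeightOneSpectrum (𝓞 K')) (P : Deep.DeepPlace tw.σ v w)
    (Dp : Deep.Depth w D.deep.N₀ D.deep.N₁ D.N)
    (hV : (D.lev.loc v).map ProjGenLinGroup.mk = Deep.congrPGL v (Deep.natVal v D.N))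
    (hV' : (D.lev'.loc w).map ProjGenLinGroup.mk = Deep.congrPGL w (Deep.natVal w D.N))
    (hl : Deep.DeepPlace.IsDeepKer w D.deep.N₀ D.deep.N₁ (k'.ker w)),
    k.ker v = P.transfer Dp hV hV' hl

theorem isDeepPair_of {k : KerFamily D.lev.loc} {k' : KerFamily D.lev'.loc}
    {v : HeightOneSpectrum (𝓞 K)} {w : HeightOneSpectrum (𝓞 K')} (hv : v ∈ D.base.deepPlaces)
    (hw : IsAbove v w) (hN : Deep.DeepAt w D.deep.N₀)
    (hl : Deep.DeepPlace.IsDeepKer w D.deep.N₀ D.deep.N₁ (k'.ker w))
    (hk : k.ker v = (D.deepPlace hv hw).transfer (D.depth hN) (D.map_loc_deep hv)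
      (D.map_loc'_deep hv hw) hl) :
    D.IsDeepPair k k' v :=
  ⟨w, _, _, _, _, hl, hk⟩

/-- The matrices are the identity at `v` and over it. -/
def IsTrivialAt (k : KerFamily D.lev.loc) (k' : KerFamily D.lev'.loc)
    (v : HeightOneSpectrum (𝓞 K)) : Prop :=
  k.ker v = 1 ∧ ∀ w, IsAbove v w → k'.ker w = 1

/-- The matrices correspond at `v`. -/
structure IsMatchedAt (k : KerFamily D.lev.loc) (k' : KerFamily D.lev'.loc)
    (v : HeightOneSpectrum (𝓞 K)) : Prop where
  deep : v ∈ D.base.deepPlaces → D.IsTrivialAt k k' v ∨ D.IsDeepPair k k' v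
  inert : v ∉ D.bad → IsInert tw.σ v → ∀ w (P : InertPlace tw.σ v w),
    ∃ (hH₀ : IsUnimodularLevel (v.adicCompletionIntegers K)
        ((D.lev.loc v).map ProjGenLinGroup.mk))
      (hH : IsUnimodularLevel (w.adicCompletionIntegers K')
        ((D.lev'.loc w).map ProjGenLinGroup.mk))
      (p : ℂ[X]),
      k.ker v = radKer P.cubic.baseData hH₀ (heckePoly (resCard (v.adicCompletionIntegers K))
        (p.comp (X ^ 3 - C (3 * resCard (v.adicCompletionIntegers K) : ℂ) * X))) ∧
      k'.ker w = radKer P.cubic.treeData hH (heckePoly (resCard (w.adicCompletionIntegers K')) p)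
  split : ∀ h : IsSplit tw.σ v, ∃ (w : HeightOneSpectrum (𝓞 K')) (P : SplitPlace tw.σ v w),
    k.ker v = P.pullKer (D.isSplitLevel h) (k'.ker w) *
      (P.next.pullKer (D.isSplitLevel h) (k'.ker _) *
        P.next.next.pullKer (D.isSplitLevel h) (k'.ker _))

/-- The matrices correspond at every place. -/
def IsLocallyMatched (k : KerFamily D.lev.loc) (k' : KerFamily D.lev'.loc) : Prop :=
  ∀ v, D.IsMatchedAt k k' v

variable {D} {k m : KerFamily D.lev.loc} {k' m' : KerFamily D.lev'.loc}

/-- Trivial matrices correspond. -/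
theorem IsTrivialAt.isMatchedAt {v : HeightOneSpectrum (𝓞 K)} (h : D.IsTrivialAt k k' v) :
    D.IsMatchedAt k k' v where
  deep _ := Or.inl h
  inert hb hi w P := by
    obtain ⟨l, l'⟩ := D.loc_inert hb hi P.above
    refine ⟨isUnimodularLevel_of_eq l, isUnimodularLevel_of_eq l', 1, ?_, ?_⟩
    · rw [Polynomial.one_comp, heckePoly_one, radKer_single_zero]
      exact h.1
    · rw [heckePoly_one, radKer_single_zero]
      exact h.2 w P.above
  split hs := by
    obtain ⟨w, hw⟩ := exists_isAbove (K' := K') v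
    have P : SplitPlace tw.σ v w := ⟨D.gen.order_three, D.gen.fixed, hw, hs w hw⟩
    refine ⟨w, P, ?_⟩
    rw [h.1, h.2 _ hw, h.2 _ P.next.above, h.2 _ P.next.next.above, P.pullKer_one,
      P.next.pullKer_one, P.next.next.pullKer_one, one_mul, one_mul]

theorem isLocallyMatched_one :
    D.IsLocallyMatched (KerFamily.one D.lev.loc) (KerFamily.one D.lev'.loc) :=
  fun _ => IsTrivialAt.isMatchedAt ⟨rfl, fun _ _ => rfl⟩

variable (D) in
/-- All matrices of the two families over a split place commute with each other below. -/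
def CommutesAt (k' m' : KerFamily D.lev'.loc) (v : HeightOneSpectrum (𝓞 K)) : Prop :=
  ∀ h : IsSplit tw.σ v,
    {l | ∃ (w : HeightOneSpectrum (𝓞 K')) (P : SplitPlace tw.σ v w),
      l = P.pullKer (D.isSplitLevel h) (k'.ker w) ∨
        l = P.pullKer (D.isSplitLevel h) (m'.ker w)}.Pairwise Commute

/-- A trivial factor on the left changes nothing at the place. -/
theorem IsTrivialAt.comp_left' {v : HeightOneSpectrum (𝓞 K)} (h : D.IsTrivialAt k k' v)
    (m : KerFamily D.lev.loc) :
    (k.comp m).ker v = m.ker v ∧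
      ∀ {m' : KerFamily D.lev'.loc} w, IsAbove v w → (k'.comp m').ker w = m'.ker w := by
  refine ⟨?_, fun {m'} w hw => ?_⟩
  · show k.ker v * m.ker v = _
    rw [h.1, one_mul]
  · show k'.ker w * m'.ker w = _
    rw [h.2 w hw, one_mul]

/-- A trivial factor on the right changes nothing at the place. -/
theorem IsTrivialAt.comp_right' {v : HeightOneSpectrum (𝓞 K)} (h : D.IsTrivialAt m m' v)
    (k : KerFamily D.lev.loc) :
    (k.comp m).ker v = k.ker v ∧
      ∀ {k' : KerFamily D.lev'.loc} w, IsAbove v w → (k'.comp m').ker w = k'.ker w := by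
  refine ⟨?_, fun {k'} w hw => ?_⟩
  · show k.ker v * m.ker v = _
    rw [h.1, mul_one]
  · show k'.ker w * m'.ker w = _
    rw [h.2 w hw, mul_one]

theorem IsTrivialAt.comp_left {v : HeightOneSpectrum (𝓞 K)} (h : D.IsTrivialAt k k' v)
    (hm : D.IsTrivialAt m m' v) : D.IsTrivialAt (k.comp m) (k'.comp m') v :=
  ⟨(h.comp_left' m).1.trans hm.1, fun w hw => ((h.comp_left' m).2 w hw).trans (hm.2 w hw)⟩

theorem IsTrivialAt.comp_right {v : HeightOneSpectrum (𝓞 K)} (h : D.IsTrivialAt m m' v)
    (hk : D.IsTrivialAt k k' v) : D.IsTrivialAt (k.comp m) (k'.comp m') v :=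
  hk.comp_left h

/-- The property depends on the matrices at the place and over it only. -/
theorem IsDeepPair.congr {v : HeightOneSpectrum (𝓞 K)} (h : D.IsDeepPair k k' v)
    (e : m.ker v = k.ker v) (e' : ∀ w, IsAbove v w → m'.ker w = k'.ker w) :
    D.IsDeepPair m m' v := by
  obtain ⟨w, P, Dp, hV, hV', hl, hk⟩ := h
  have ew := e' w P.above
  refine ⟨w, P, Dp, hV, hV', by rw [ew]; exact hl, ?_⟩
  rw [e, hk]
  unfold Deep.DeepPlace.transfer
  congr 1 <;> rw [ew]

/-- **Compositions of matched pairs are matched.** -/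
theorem IsMatchedAt.comp {v : HeightOneSpectrum (𝓞 K)} (hk : D.IsMatchedAt k k' v)
    (hm : D.IsMatchedAt m m' v)
    (hc : D.IsTrivialAt k k' v ∨ D.IsTrivialAt m m' v ∨ D.CommutesAt k' m' v)
    (hd : v ∈ D.base.deepPlaces → D.IsTrivialAt k k' v ∨ D.IsTrivialAt m m' v) :
    D.IsMatchedAt (k.comp m) (k'.comp m') v where
  deep hv := by
    rcases hd hv with h | h
    · exact (hm.deep hv).imp h.comp_left fun h' => h'.congr (h.comp_left' m).1 (h.comp_left' m).2
    · exact (hk.deep hv).imp h.comp_right fun h' => h'.congr (h.comp_right' k).1 (h.comp_right' k).2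
  inert hb hi w P := by
    obtain ⟨hH₀, hH, p, e, e'⟩ := hk.inert hb hi w P
    obtain ⟨_, _, q, f, f'⟩ := hm.inert hb hi w P
    refine ⟨hH₀, hH, p * q, ?_, ?_⟩
    · show k.ker v * m.ker v = _
      rw [e, f, Polynomial.mul_comp, radKer_heckePoly_mul]
    · show k'.ker w * m'.ker w = _
      rw [e', f', radKer_heckePoly_mul]
  split h := by
    obtain ⟨w, P, e⟩ := hk.split h
    obtain ⟨w₀, P₀, f⟩ := hm.split h
    rcases hc with hc | hc | hc
    · refine ⟨w₀, P₀, ?_⟩
      show k.ker v * m.ker v = P₀.pullKer _ (k'.ker _ * m'.ker _) *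
        (P₀.next.pullKer _ (k'.ker _ * m'.ker _) * P₀.next.next.pullKer _ (k'.ker _ * m'.ker _))
      rw [hc.1, hc.2 _ P₀.above, hc.2 _ P₀.next.above, hc.2 _ P₀.next.next.above, one_mul, one_mul,
        one_mul, one_mul, f]
    · refine ⟨w, P, ?_⟩
      show k.ker v * m.ker v = P.pullKer _ (k'.ker _ * m'.ker _) *
        (P.next.pullKer _ (k'.ker _ * m'.ker _) * P.next.next.pullKer _ (k'.ker _ * m'.ker _))
      rw [hc.1, hc.2 _ P.above, hc.2 _ P.next.above, hc.2 _ P.next.next.above, mul_one, mul_one,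
        mul_one, mul_one, e]
    · refine ⟨w, P, ?_⟩
      set hS := D.isSplitLevel h
      have hcm : ∀ {a b : LKer PGL(2, v.adicCompletion K) (LocY D.lev.loc v)},
          (∃ (u : HeightOneSpectrum (𝓞 K')) (Q : SplitPlace tw.σ v u),
            a = Q.pullKer hS (k'.ker u) ∨ a = Q.pullKer hS (m'.ker u)) →
          (∃ (u : HeightOneSpectrum (𝓞 K')) (Q : SplitPlace tw.σ v u),
            b = Q.pullKer hS (k'.ker u) ∨ b = Q.pullKer hS (m'.ker u)) → Commute a b :=
        fun {a b} ha hb => by
          rcases eq_or_ne a b with rfl | hab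
          · exact Commute.refl a
          · exact hc h ha hb hab
      have key : ∀ (u : HeightOneSpectrum (𝓞 K')) (Q : SplitPlace tw.σ v u), u = w →
          Q.pullKer hS (m'.ker u) = P.pullKer hS (m'.ker w) := by
        rintro u Q rfl
        rfl
      have hrot : m.ker v = P.pullKer hS (m'.ker w) *
          (P.next.pullKer hS (m'.ker _) * P.next.next.pullKer hS (m'.ker _)) := by
        rw [f]
        rcases eq_or_eq_of_isAbove D.gen P.above P₀.above with h0 | h0 | h0 <;> subst h0
        · rfl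
        · rw [key _ P₀.next.next (placePerm_cube D.gen w)]
          rw [← mul_assoc]
          exact ((hcm ⟨_, P, Or.inr rfl⟩ ⟨_, P.next, Or.inr rfl⟩).mul_right
            (hcm ⟨_, P, Or.inr rfl⟩ ⟨_, P.next.next, Or.inr rfl⟩)).eq.symm
        · rw [key _ P₀.next (placePerm_cube D.gen w),
            show P₀.next.next.pullKer hS (m'.ker _) = P.next.pullKer hS (m'.ker _) from ?_]
          · exact ((hcm ⟨_, P.next.next, Or.inr rfl⟩ ⟨_, P, Or.inr rfl⟩).mul_right
              (hcm ⟨_, P.next.next, Or.inr rfl⟩ ⟨_, P.next, Or.inr rfl⟩)).eq.trans (mul_assoc _ _ _)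
          · have key' : ∀ (u : HeightOneSpectrum (𝓞 K')) (Q : SplitPlace tw.σ v u),
                u = placePerm tw.σ.toRingEquiv w →
                  Q.pullKer hS (m'.ker u) = P.next.pullKer hS (m'.ker _) := by
              rintro u Q rfl
              rfl
            exact key' _ P₀.next.next (congrArg _ (placePerm_cube D.gen w))
      show k.ker v * m.ker v = P.pullKer hS (k'.ker _ * m'.ker _) *
        (P.next.pullKer hS (k'.ker _ * m'.ker _) * P.next.next.pullKer hS (k'.ker _ * m'.ker _))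
      rw [e, hrot, SplitPlace.pullKer_mul, SplitPlace.pullKer_mul, SplitPlace.pullKer_mul,
        DescentData.mul_mul_mul_comm3 (hcm ⟨_, P, Or.inr rfl⟩ ⟨_, P.next, Or.inl rfl⟩)
          (hcm ⟨_, P, Or.inr rfl⟩ ⟨_, P.next.next, Or.inl rfl⟩)
          (hcm ⟨_, P.next, Or.inr rfl⟩ ⟨_, P.next.next, Or.inl rfl⟩)]

theorem IsLocallyMatched.comp (hk : D.IsLocallyMatched k k') (hm : D.IsLocallyMatched m m')
    (hc : ∀ v, IsSplit tw.σ v →
      D.IsTrivialAt k k' v ∨ D.IsTrivialAt m m' v ∨ D.CommutesAt k' m' v)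
    (hd : ∀ v ∈ D.base.deepPlaces, D.IsTrivialAt k k' v ∨ D.IsTrivialAt m m' v) :
    D.IsLocallyMatched (k.comp m) (k'.comp m') := fun v => by
  by_cases h : IsSplit tw.σ v
  · exact (hk v).comp (hm v) (hc v h) (hd v)
  · exact (hk v).comp (hm v) (Or.inr (Or.inr fun h' => absurd h' h)) (hd v)

/-- **Locally matched pairs transfer classes.** -/
theorem IsLocallyMatched.transfers {t : D.TestPair} (hk : D.IsLocallyMatched t.fam t.fam')
    (hdeep : ∀ v ∈ D.base.deepPlaces, D.IsDeepPair t.fam t.fam' v) :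
    TransfersClasses tw D.sigmaY t.ker t.ker' := by
  obtain ⟨ζ, hζ⟩ := D.exists_cubeRoot
  have hzeta : ζ ^ 2 + ζ + 1 = 0 := by
    have h0 : (ζ - 1) * (ζ ^ 2 + ζ + 1) = 0 := by linear_combination hζ.pow_eq_one
    exact (mul_eq_zero.1 h0).resolve_left (sub_ne_zero.2 (hζ.ne_one (by norm_num)))
  refine ⟨fun c hc he δ hN => ?_, fun c hc he hno => ?_⟩
  · have h1 : classRep c hc ≠ 1 := fun h => by
      have h' := congrArg classInv h
      rw [classInv_classRep, ← map_one (ProjGenLinGroup.mk (n := Fin 2) (R := K)), classInv_mk] at h'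
      refine he.2.1 (h'.trans ?_)
      norm_num [matInv, Matrix.trace_fin_two]
    refine matchesAt_of_places tw D.isLocal D.isLocal' D.stable t.fam t.fam' hc hN fun v => ?_
    have hπ := isPlaceCover_placeUnder D.gen
    have hsplit : IsSplit tw.σ v → MatchesAtPlace hπ tw.σ D.stable t.fam t.fam'
        (classRep c hc) δ v := fun h => by
      obtain ⟨w, P, e⟩ := (hk v).split h
      exact P.matchesAtPlace hπ D.stable (D.isSplitLevel h)
        (fun u => placeUnder_eq_iff_orbit D.gen P.above u) e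
        (fun _ _ => rfl) (fun _ _ => rfl) (fun _ _ => rfl) hN
    by_cases hvb : v ∈ D.bad
    · by_cases hs : IsSplit tw.σ v
      · exact hsplit hs
      obtain ⟨w, P, Dp, hV, hV', hl, e⟩ := hdeep v ⟨hvb, hs⟩
      exact P.matchesAtPlace hπ D.stable
        (fun u => placeUnder_eq_iff_fixed D.gen P.above P.fixed_place u) Dp hV hV' hl e
        (by rw [classInv_classRep]; exact hc) (by rw [classInv_classRep]; exact he.2.1) hN
    obtain ⟨w, hw⟩ := exists_isAbove (K' := K') v
    rcases D.isInert_or_isSplit hvb with h | h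
    · have P := inertPlace_of_isInert D.gen h hw
      obtain ⟨hH₀, hH, p, e, e'⟩ := (hk v).inert hvb h w P
      exact P.matchesAtPlace hπ D.stable
        (fibre_iff_of_isInert hπ D.gen h (placeUnder_eq_iff.2 hw)) hH₀ hH
        (isBaseChange_heckePoly P.resCard_cube p) e e' h1 (by rw [classInv_classRep]; exact hc) hN
    · exact hsplit h
  · obtain ⟨θ, hθ, hσθ⟩ := exists_radical D.gen hzeta
    obtain ⟨w, hw, hloc⟩ := exists_place_not_isLocalNorm tw.σ D.gen.fixed D.gen.order_three hzeta
      hθ hσθ hc he.2.2 hno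
    obtain ⟨v, hv⟩ := exists_below (K := K) w
    refine vanishesAt_of_local D.isLocal t.fam c hc v ?_
    by_cases hvb : v ∈ D.bad
    · obtain ⟨w₁, P, Dp, hV, hV', hl, e⟩ := hdeep v ⟨hvb, fun h => h w hv hw⟩
      obtain rfl : w₁ = w := unique_of_fixed D.gen hv hw P.above
      exact P.vanishesAtPlace Dp hV hV' hl e hloc
    · have hI : IsInert tw.σ v :=
        (D.isInert_or_isSplit hvb).resolve_right fun h => h w hv hw
      have P := inertPlace_of_isInert D.gen hI hv
      obtain ⟨hH₀, _, p, e, -⟩ := (hk v).inert hvb hI w P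
      exact P.vanishesAtPlace hH₀ (isBaseChange_heckePoly P.resCard_cube p) e
        (by rw [classInv_classRep]; exact hc)
        (twNorm_ne_of_not_isLocalNorm tw.σ hloc (Tame.continuous_completionEquiv _ _) P.aut_coe
          P.emb_coe)

end GenData

end Fermat.Agent.Extra.LTGen

end
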