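import Fermat.Agent.Extra.LTGen.Descent.GoodKer
import Fermat.Agent.Extra.LTGen.Descent.Transfer
import Fermat.Agent.LT.Descent.AtomsGood
import Fermat.Agent.Extra.LTGen.Descent.Setup

/-!
# The atoms at the good places

At a place of maximal levels the normalised Hecke matrix upstairs corresponds to the one below at
a split place and to `T³ - 3 T` at an inert one.  Products of these atoms have corresponding local
factors, so their matrices transfer classes.
-/

set_option autoImplicit false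
set_option linter.unusedSectionVars false

noncomputable section

namespace Fermat.Agent.Extra.LTGen

open Fermat.Agent.LT Fermat.Agent.LT.Descent

open IsDedekindDomain IsDedekindDomain.HeightOneSpectrum IsLocalRing NumberField Matrix Polynomial
open Fermat.Agent.LT.Adelic Fermat.Agent.LT.Tame Fermat.Agent.LT.Aleph Fermat.Agent.LT.Inert
open Fermat.Agent.LT.Descent.Places
open scoped MatrixGroups

variable {K K' : Type*} [Field K] [NumberField K] [Field K'] [NumberField K'] [Algebra K K']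
  {σ : K' ≃ₐ[K] K'} {D : GenLevel K} {D' : GenLevel K'}

/-- **At a split place the Hecke algebras are carried to each other.** -/
theorem carries_goodPoly_split {v : HeightOneSpectrum (𝓞 K)} {w : HeightOneSpectrum (𝓞 K')}
    (hgen : IsCubicGen σ) (h : IsSplit σ v) (P : SplitPlace σ v w)
    (hL : SplitPlace.IsSplitLevel σ v D.loc D'.loc) (hv : D.IsFullAt v) (hw : D'.IsFullAt w)
    (R : ℂ[X]) :
    LKer.Carries (P.locEquiv hL) ((goodPoly D v R).ker v) ((goodPoly D' w R).ker w) := by
  intro a c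
  rw [goodPoly_ker_self D hv, goodPoly_ker_self D' hw]
  have hemb : ∀ x : v.adicCompletion K, x ∈ v.adicCompletionIntegers K →
      P.emb x ∈ w.adicCompletionIntegers K' := fun x hx => (P.emb_mem_integers_iff x).2 hx
  obtain ⟨π₀, hπ₀⟩ := v.valuation_exists_uniformizer K
  have hπv : Valued.v (π₀ : v.adicCompletion K) = WithZero.exp (-1 : ℤ) := by
    rw [valuedAdicCompletion_eq_valuation', hπ₀]
  have hπw : Valued.v (P.emb (π₀ : v.adicCompletion K)) = WithZero.exp (-1 : ℤ) := by
    rw [P.emb_coe, valuedAdicCompletion_eq_valuation', h.valuation_algebraMap hgen P.above, hπ₀]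
  have hmem : (π₀ : v.adicCompletion K) ∈ v.adicCompletionIntegers K := by
    rw [mem_adicCompletionIntegers, hπv, ← WithZero.exp_zero, WithZero.exp_le_exp]; omega
  let T : TreeData (v.adicCompletionIntegers K) :=
    ⟨RingEquiv.refl _, ⟨_, hmem⟩, irreducible_of_valuation v _ hπv, rfl⟩
  let T' : TreeData (w.adicCompletionIntegers K') :=
    ⟨RingEquiv.refl _, ⟨_, hemb _ hmem⟩, irreducible_of_valuation w _ hπw, rfl⟩
  rw [goodRad, radKer_congr_data (placeData w) hw.isUnimodular T', goodRad,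
    radKer_congr_data (placeData v) hv.isUnimodular T]
  have hd : (stepMat T).det ≠ 0 := by rw [det_stepMat]; exact T.irreducible.ne_zero
  have hd' : (stepMat T').det ≠ 0 := by rw [det_stepMat]; exact T'.irreducible.ne_zero
  have hstep : P.pglEquiv' (toL (v.adicCompletion K) (stepMat T) hd) =
      toL (w.adicCompletion K') (stepMat T') hd' := by
    rw [P.pglEquiv'_apply, toL, Geom.pglMap_mk]
    refine congrArg ProjGenLinGroup.mk (Units.ext (Matrix.ext fun i j => ?_))
    fin_cases i <;> fin_cases j <;> simp [T, T', stepMat]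
  refine radKer_heckePoly_transport T hv.isUnimodular T' hw.isUnimodular (P.locEquiv hL)
    (fun a c => ?_) R a c
  classical
  rw [radKer_apply, radKer_apply, Finsupp.single_apply, Finsupp.single_apply]
  refine if_congr ?_ rfl rfl
  refine (eq_comm.trans (dist_eq_one_iff hw.isUnimodular T' _ _)).trans
    (Iff.trans ?_ (eq_comm.trans (dist_eq_one_iff hv.isUnimodular T _ _)).symm)
  rw [Equiv.apply_symm_apply, Equiv.apply_symm_apply, Equiv.apply_symm_apply,
    Equiv.apply_symm_apply]
  constructor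
  · rintro ⟨g, h1, h2⟩
    obtain ⟨g₀, rfl⟩ := P.pglEquiv'.surjective g
    refine ⟨g₀, (P.locEquiv hL).injective ?_, (P.locEquiv hL).injective ?_⟩
    · exact h1.trans (P.locEquiv_mk hL g₀).symm
    · rw [h2, P.locEquiv_mk, ← hstep, ← map_mul, P.pglEquiv'_apply]
  · rintro ⟨g, rfl, rfl⟩
    refine ⟨P.pglEquiv' g, P.locEquiv_mk hL g, ?_⟩
    rw [P.locEquiv_mk, ← hstep, ← map_mul, P.pglEquiv'_apply]

namespace GenData

variable {Φ : Frame K Unit} {Φ' : Frame K' (Fin 3)} {tw : CubicTwist Φ Φ'} (E : GenData tw)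

/-- The good places. -/
def good : Set (HeightOneSpectrum (𝓞 K)) := {v | v ∉ E.bad ∧ v ≠ E.u}

theorem isFullAt_lev {v : HeightOneSpectrum (𝓞 K)} (h : v ∈ E.good) : E.lev.IsFullAt v :=
  E.lev.isFullAt_of_good h.1 fun ha => h.2 ha

theorem isFullAt_lev' {v : HeightOneSpectrum (𝓞 K)} {w : HeightOneSpectrum (𝓞 K')}
    (h : v ∈ E.good) (hw : IsAbove v w) : E.lev'.IsFullAt w :=
  E.lev'.isFullAt_of_good (mt (E.mem_lev'_bad_iff hw).1 h.1)
    (mt (E.mem_lev'_aux_iff hw).1 fun ha => h.2 ha)

theorem not_deep_of_good {v : HeightOneSpectrum (𝓞 K)} (h : v ∈ E.good) :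
    v ∉ E.base.deepPlaces := fun hd => h.1 hd.1

/-- Outside the good places both families are trivial, at them they are corresponding polynomials
in the Hecke matrices. -/
structure IsGoodMatched (k : KerFamily E.lev.loc) (k' : KerFamily E.lev'.loc) : Prop where
  off : ∀ v ∉ E.good, E.IsTrivialAt k k' v
  on : ∀ v ∈ E.good, ∃ (Q : ℂ[X]) (R : HeightOneSpectrum (𝓞 K') → ℂ[X]),
    k.ker v = (goodPoly E.lev v Q).ker v ∧
    (∀ w, IsAbove v w → k'.ker w = (goodPoly E.lev' w (R w)).ker w) ∧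
    (IsInert tw.σ v → ∀ w, IsAbove v w →
      Q = (R w).comp (cubicPoly (Ideal.absNorm v.asIdeal))) ∧
    (IsSplit tw.σ v → ∀ w, IsAbove v w → Q = R w * R (placePerm tw.σ.toRingEquiv w) *
      R (placePerm tw.σ.toRingEquiv (placePerm tw.σ.toRingEquiv w)))

variable {E} {k l : KerFamily E.lev.loc} {k' l' : KerFamily E.lev'.loc}

theorem isGoodMatched_one :
    E.IsGoodMatched (KerFamily.one E.lev.loc) (KerFamily.one E.lev'.loc) where
  off _ _ := ⟨rfl, fun _ _ => rfl⟩
  on v _ := ⟨1, fun _ => 1, by rw [goodPoly_one], fun w _ => by rw [goodPoly_one],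
    fun _ _ _ => one_comp.symm, fun _ _ _ => by rw [mul_one, mul_one]⟩

/-- **Corresponding families are closed under composition.** -/
theorem IsGoodMatched.comp (h : E.IsGoodMatched k k') (h' : E.IsGoodMatched l l') :
    E.IsGoodMatched (k.comp l) (k'.comp l') where
  off v hv := by
    obtain ⟨e, e'⟩ := h.off v hv
    obtain ⟨f, f'⟩ := h'.off v hv
    refine ⟨?_, fun w hw => ?_⟩
    · show k.ker v * l.ker v = 1
      rw [e, f, one_mul]
    · show k'.ker w * l'.ker w = 1
      rw [e' w hw, f' w hw, one_mul]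
  on v hv := by
    obtain ⟨Q, R, e, e', hi, hs⟩ := h.on v hv
    obtain ⟨Q₁, R₁, f, f', hi₁, hs₁⟩ := h'.on v hv
    refine ⟨Q * Q₁, fun w => R w * R₁ w, ?_, fun w hw => ?_, fun hI w hw => ?_, fun hS w hw => ?_⟩
    · show (k.ker v).comp (l.ker v) = _
      rw [e, f, ← goodPoly_mul]; rfl
    · show (k'.ker w).comp (l'.ker w) = _
      rw [e' w hw, f' w hw, ← goodPoly_mul]; rfl
    · rw [hi hI w hw, hi₁ hI w hw, mul_comp]
    · rw [hs hS w hw, hs₁ hS w hw]; ring

/-- At a split good place the matrices upstairs, read below, are Hecke polynomials. -/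
theorem IsGoodMatched.pullKer_eq (h : E.IsGoodMatched k k') {v : HeightOneSpectrum (𝓞 K)}
    (hv : v ∈ E.good) (hs : IsSplit tw.σ v) {w : HeightOneSpectrum (𝓞 K')}
    (P : SplitPlace tw.σ v w) :
    ∃ R : ℂ[X], P.pullKer (E.isSplitLevel hs) (k'.ker w) = (goodPoly E.lev v R).ker v := by
  obtain ⟨Q, R, -, e', -, -⟩ := h.on v hv
  exact ⟨R w, P.pullKer_of_carries _ (e' w P.above ▸ carries_goodPoly_split E.gen hs P
    (E.isSplitLevel hs) (E.isFullAt_lev hv) (E.isFullAt_lev' hv P.above) _)⟩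

/-- **Corresponding families are locally matched.** -/
theorem IsGoodMatched.isLocallyMatched (h : E.IsGoodMatched k k') :
    E.IsLocallyMatched k k' := fun v => by
  by_cases hv : v ∈ E.good
  swap
  · exact IsTrivialAt.isMatchedAt (h.off v hv)
  obtain ⟨Q, R, e, e', hi, hs⟩ := h.on v hv
  refine ⟨fun hd => absurd hd (E.not_deep_of_good hv), fun hb hI w P => ?_, fun hS => ?_⟩
  · obtain ⟨hl, hl'⟩ := E.loc_inert hb hI P.above
    refine ⟨isUnimodularLevel_of_eq hl, isUnimodularLevel_of_eq hl', R w, ?_, ?_⟩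
    · rw [e, goodPoly_ker_self' E.lev hl P.cubic.baseData (isUnimodularLevel_of_eq hl),
        hi hI w P.above, resCard_eq_absNorm]
      rfl
    · rw [e' w P.above, goodPoly_ker_self' E.lev' hl' P.cubic.treeData]
  · obtain ⟨w, hw⟩ := exists_isAbove (K' := K') v
    have P : SplitPlace tw.σ v w := SplitPlace.mk E.gen.order_three E.gen.fixed hw (hS w hw)
    have key : ∀ (u : HeightOneSpectrum (𝓞 K')) (Q : SplitPlace tw.σ v u),
        Q.pullKer (E.isSplitLevel hS) (k'.ker u) = (goodPoly E.lev v (R u)).ker v := fun u Q => by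
      rw [e' u Q.above]
      exact Q.pullKer_of_carries _ (carries_goodPoly_split E.gen hS Q (E.isSplitLevel hS)
        (E.isFullAt_lev hv) (E.isFullAt_lev' hv Q.above) _)
    refine ⟨w, P, ?_⟩
    rw [key _ P, key _ P.next, key _ P.next.next, e, hs hS w hw, mul_assoc, ← goodPoly_mul,
      ← goodPoly_mul]
    rfl

/-- Good families commute upstairs at every good split place. -/
theorem IsGoodMatched.commutesAt (h : E.IsGoodMatched k k') (h' : E.IsGoodMatched l l')
    {v : HeightOneSpectrum (𝓞 K)} (hv : v ∈ E.good) : E.CommutesAt k' l' v := by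
  rintro hs a ⟨w, P, ha⟩ b ⟨u, Q, hb⟩ -
  obtain ⟨Ra, rfl⟩ : ∃ R, a = (goodPoly E.lev v R).ker v := by
    rcases ha with rfl | rfl
    exacts [h.pullKer_eq hv hs P, h'.pullKer_eq hv hs P]
  obtain ⟨Rb, rfl⟩ : ∃ R, b = (goodPoly E.lev v R).ker v := by
    rcases hb with rfl | rfl
    exacts [h.pullKer_eq hv hs Q, h'.pullKer_eq hv hs Q]
  exact congrArg (fun F : KerFamily E.lev.loc => F.ker v) (goodPoly_comm E.lev v Ra Rb)

variable (E)

/-- `T_v / √q`. -/
def goodT (v : HeightOneSpectrum (𝓞 K)) : KerFamily E.lev.loc :=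
  goodPoly E.lev v (unitHecke (Ideal.absNorm v.asIdeal))

/-- `T_w / √Q`. -/
def goodT' (w : HeightOneSpectrum (𝓞 K')) : KerFamily E.lev'.loc :=
  goodPoly E.lev' w (unitHecke (Ideal.absNorm w.asIdeal))

open scoped Classical in
/-- The atom below: `T` at a split place, `T³ - 3 T` at an inert one. -/
def goodAtom (v : HeightOneSpectrum (𝓞 K)) : KerFamily E.lev.loc :=
  if IsSplit tw.σ v then E.goodT v
  else goodPoly E.lev v
    ((unitHecke (Ideal.absNorm v.asIdeal ^ 3)).comp (cubicPoly (Ideal.absNorm v.asIdeal)))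

/-- A chosen place above. -/
def aboveOf (_E : GenData tw) (v : HeightOneSpectrum (𝓞 K)) : HeightOneSpectrum (𝓞 K') :=
  (exists_isAbove (K' := K') v).choose

theorem isAbove_aboveOf (v : HeightOneSpectrum (𝓞 K)) : IsAbove v (E.aboveOf v) :=
  (exists_isAbove (K' := K') v).choose_spec

/-- The atom upstairs. -/
def goodAtom' (v : HeightOneSpectrum (𝓞 K)) : KerFamily E.lev'.loc := E.goodT' (E.aboveOf v)

theorem goodAtom_eq_of_split {v : HeightOneSpectrum (𝓞 K)} (h : IsSplit tw.σ v) :
    E.goodAtom v = E.goodT v := if_pos h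

theorem goodAtom_ker_of_inert {v : HeightOneSpectrum (𝓞 K)} (hg : v ∈ E.good)
    (h : IsInert tw.σ v) : (E.goodAtom v).ker v =
      (E.goodT v).ker v ^ 3 - (3 : ℂ) • (E.goodT v).ker v := by
  have hv := E.isFullAt_lev hg
  rw [goodAtom, if_neg h.not_isSplit, goodT, goodPoly_ker_self _ hv, goodPoly_ker_self _ hv, goodRad,
    goodRad, radKer_heckePoly, radKer_heckePoly,
    unitHecke_comp_cubicPoly (Nat.pos_of_ne_zero fun h0 =>
      v.ne_bot (Ideal.absNorm_eq_zero_iff.1 h0)), map_sub, map_mul, map_pow, aeval_C,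
    ← Algebra.smul_def]

theorem goodAtom_ker_ne (v : HeightOneSpectrum (𝓞 K)) {u : HeightOneSpectrum (𝓞 K)} (hu : u ≠ v) :
    (E.goodAtom v).ker u = LKer.one _ _ := by
  simp only [goodAtom, goodT]
  split_ifs <;> exact goodPoly_ker_ne _ hu _

/-- **The atom at an inert place is `T³ - 3 T` on `Yf`.** -/
theorem goodAtom_toHKer_apply {v : HeightOneSpectrum (𝓞 K)} (hg : v ∈ E.good)
    (h : IsInert tw.σ v) (y z : Yf (productLevel E.lev.loc)) :
    ((E.goodAtom v).toHKer E.lev.isLocalLevel_loc) y z =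
      (((E.goodT v).comp ((E.goodT v).comp (E.goodT v))).toHKer E.lev.isLocalLevel_loc) y z -
        3 * ((E.goodT v).toHKer E.lev.isLocalLevel_loc) y z := by
  have hT : ∀ u, u ≠ v → (E.goodT v).ker u = LKer.one _ _ := fun u hu => goodPoly_ker_ne _ hu _
  have key : ∀ F : KerFamily E.lev.loc, (∀ u, u ≠ v → F.ker u = LKer.one _ _) →
      (F.toHKer E.lev.isLocalLevel_loc) y z = F.ker v (locY E.lev.loc v y) (locY E.lev.loc v z) *
        ∏ᶠ (u) (_ : u ≠ v), LKer.one PGL(2, u.adicCompletion K) (LocY E.lev.loc u)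
          (locY E.lev.loc u y) (locY E.lev.loc u z) := fun F hF => by
    rw [KerFamily.toHKer_eq_mul _ _ v]
    refine congrArg _ (finprod_congr fun u => finprod_congr fun hu => ?_)
    rw [hF u hu]
  have h3 : ∀ u, u ≠ v →
      ((E.goodT v).comp ((E.goodT v).comp (E.goodT v))).ker u = LKer.one _ _ := fun u hu => by
    show ((E.goodT v).ker u).comp (((E.goodT v).ker u).comp ((E.goodT v).ker u)) = _
    rw [hT u hu, LKer.one_comp, LKer.one_comp]
  have hcube : ((E.goodT v).comp ((E.goodT v).comp (E.goodT v))).ker v = (E.goodT v).ker v ^ 3 := by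
    rw [pow_three]; rfl
  rw [key _ fun u hu => E.goodAtom_ker_ne v hu, key _ h3, key _ hT, hcube,
    E.goodAtom_ker_of_inert hg h, LKer.sub_apply, LKer.smul_apply]
  ring

/-- **An atom below corresponds to the Hecke matrix at any place above.** -/
theorem isGoodMatched_goodT' {v : HeightOneSpectrum (𝓞 K)} (hv : v ∈ E.good)
    {w₀ : HeightOneSpectrum (𝓞 K')} (hw₀ : IsAbove v w₀) :
    E.IsGoodMatched (E.goodAtom v) (E.goodT' w₀) := by
  classical
  have hne : ∀ u, u ≠ v → (E.goodAtom v).ker u = LKer.one _ _ ∧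
      ∀ w, IsAbove u w → (E.goodT' w₀).ker w = LKer.one _ _ := fun u hu => by
    refine ⟨?_, fun w hw => goodPoly_ker_ne _ (fun e => hu ?_) _⟩
    · rw [goodAtom]
      split_ifs <;> exact goodPoly_ker_ne _ hu _
    · subst e
      exact isAbove_unique hw hw₀
  refine ⟨fun u hu => hne u fun e => hu (e ▸ hv), fun u hu => ?_⟩
  rcases eq_or_ne u v with rfl | huv
  swap
  · obtain ⟨e, e'⟩ := hne u huv
    exact ⟨1, fun _ => 1, by rw [e, goodPoly_one]; rfl,
      fun w hw => by rw [e' w hw, goodPoly_one]; rfl, fun _ _ _ => one_comp.symm,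
      fun _ _ _ => by rw [mul_one, mul_one]⟩
  set R : HeightOneSpectrum (𝓞 K') → ℂ[X] :=
    fun w => if w = w₀ then unitHecke (Ideal.absNorm w.asIdeal) else 1 with hR
  have hup : ∀ w, (E.goodT' w₀).ker w = (goodPoly E.lev' w (R w)).ker w := fun w => by
    rcases eq_or_ne w w₀ with rfl | hw
    · simp only [hR, if_pos]; rfl
    · simp only [hR, if_neg hw, goodPoly_one]
      exact goodPoly_ker_ne _ hw _
  rcases E.isInert_or_isSplit hv.1 with hI | hS
  · refine ⟨(R w₀).comp (cubicPoly (Ideal.absNorm u.asIdeal)), R, ?_, fun w _ => hup w,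
      fun _ w hw => by rw [hI.unique E.gen hw₀ hw], fun hS => absurd hS hI.not_isSplit⟩
    rw [goodAtom, if_neg hI.not_isSplit]
    simp only [hR, if_pos]
    rw [hI.absNorm E.gen hw₀]
  · refine ⟨unitHecke (Ideal.absNorm u.asIdeal), R, by rw [E.goodAtom_eq_of_split hS]; rfl,
      fun w _ => hup w, fun hI => absurd hS hI.not_isSplit, fun _ w hw => ?_⟩
    obtain ⟨h1, h2, h12⟩ := hS.distinct E.gen hw
    have hN := hS.absNorm E.gen hw₀
    rcases eq_or_eq_of_isAbove E.gen hw hw₀ with e | e | e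
    · simp only [hR, e, if_pos, if_neg h1, if_neg h2, mul_one]
      rw [← e, hN]
    · simp only [hR, e, if_pos, if_neg (Ne.symm h1), if_neg h12, mul_one, one_mul]
      rw [← e, hN]
    · simp only [hR, e, if_pos, if_neg (Ne.symm h2), if_neg (Ne.symm h12), mul_one, one_mul]
      rw [← e, hN]

/-- **An atom and its partner correspond.** -/
theorem isGoodMatched_goodAtom {v : HeightOneSpectrum (𝓞 K)} (hv : v ∈ E.good) :
    E.IsGoodMatched (E.goodAtom v) (E.goodAtom' v) :=
  E.isGoodMatched_goodT' hv (E.isAbove_aboveOf v)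

theorem goodT_comm (v u : HeightOneSpectrum (𝓞 K)) :
    (E.goodT v).comp (E.goodT u) = (E.goodT u).comp (E.goodT v) := goodPoly_comm _ _ _ _

theorem goodT'_comm (w u : HeightOneSpectrum (𝓞 K')) :
    (E.goodT' w).comp (E.goodT' u) = (E.goodT' u).comp (E.goodT' w) := goodPoly_comm _ _ _ _

theorem goodAtom_comm (v u : HeightOneSpectrum (𝓞 K)) :
    (E.goodAtom v).comp (E.goodAtom u) = (E.goodAtom u).comp (E.goodAtom v) := by
  simp only [goodAtom, goodT]
  split_ifs <;> exact goodPoly_comm _ _ _ _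

theorem goodAtom_comm_goodT (v u : HeightOneSpectrum (𝓞 K)) :
    (E.goodAtom v).comp (E.goodT u) = (E.goodT u).comp (E.goodAtom v) := by
  simp only [goodAtom, goodT]
  split_ifs <;> exact goodPoly_comm _ _ _ _

theorem goodT_transpose (v : HeightOneSpectrum (𝓞 K)) : (E.goodT v).transpose = E.goodT v :=
  goodPoly_transpose _ _

theorem goodT'_transpose (w : HeightOneSpectrum (𝓞 K')) : (E.goodT' w).transpose = E.goodT' w :=
  goodPoly_transpose _ _

theorem goodAtom_transpose (v : HeightOneSpectrum (𝓞 K)) :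
    (E.goodAtom v).transpose = E.goodAtom v := by
  simp only [goodAtom, goodT]
  split_ifs <;> exact goodPoly_transpose _ _

theorem goodT_real (v u : HeightOneSpectrum (𝓞 K)) (a c : LocY E.lev.loc u) :
    ((E.goodT v).ker u a c).im = 0 := by
  rw [goodT, unitHecke_im]; exact goodPoly_im _ _ u a c

theorem goodT'_real (w u : HeightOneSpectrum (𝓞 K')) (a c : LocY E.lev'.loc u) :
    ((E.goodT' w).ker u a c).im = 0 := by
  rw [goodT', unitHecke_im]; exact goodPoly_im _ _ u a c

theorem goodAtom_real (v u : HeightOneSpectrum (𝓞 K)) (a c : LocY E.lev.loc u) :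
    ((E.goodAtom v).ker u a c).im = 0 := by
  have hcub : cubicPoly (Ideal.absNorm v.asIdeal) =
      (X ^ 3 - C (3 * (Ideal.absNorm v.asIdeal : ℝ)) * X : ℝ[X]).map Complex.ofRealHom := by
    simp [cubicPoly]
  simp only [goodAtom]
  split_ifs
  · exact E.goodT_real v u a c
  · rw [unitHecke_im, hcub, ← Polynomial.map_comp]
    exact goodPoly_im _ _ u a c

/-- **`T_v / √q` is the normalised double coset of every uniformiser.** -/
theorem goodT_toHKer {v : HeightOneSpectrum (𝓞 K)} (hv : v ∈ E.good)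
    {ϖ : (FiniteAdeleRing (𝓞 K) K)ˣ} (hϖ : IsUniformiserAt v ϖ) :
    (E.goodT v).toHKer E.lev.isLocalLevel_loc =
      hkerSmul ((Real.sqrt (Ideal.absNorm v.asIdeal))⁻¹ : ℝ)
        (HKer.ofDoubleCoset E.lev.isLevel (heckeMatrix K ϖ)) :=
  goodPoly_C_mul_X_toHKer E.lev hϖ E.lev.isLocalLevel_loc E.lev.isLevel (E.isFullAt_lev hv) _

/-- The same upstairs. -/
theorem goodT'_toHKer {v : HeightOneSpectrum (𝓞 K)} {w : HeightOneSpectrum (𝓞 K')}
    (hv : v ∈ E.good) (hw : IsAbove v w)
    {ϖ : (FiniteAdeleRing (𝓞 K') K')ˣ} (hϖ : IsUniformiserAt w ϖ) :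
    (E.goodT' w).toHKer (E.lev'.isLocalLevel_loc) =
      hkerSmul ((Real.sqrt (Ideal.absNorm w.asIdeal))⁻¹ : ℝ)
        (HKer.ofDoubleCoset E.lev'.isLevel (heckeMatrix K' ϖ)) :=
  goodPoly_C_mul_X_toHKer E.lev' hϖ (E.lev'.isLocalLevel_loc) E.lev'.isLevel
    (E.isFullAt_lev' hv hw) _

end GenData

end Fermat.Agent.Extra.LTGen

end
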