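import Fermat.Agent.Extra.LTGen.Descent.AtomsAux
import Fermat.Agent.Extra.LTGen.Descent.AtomsGood
import Fermat.Agent.Extra.LTGen.Descent.Base
import Fermat.Agent.LT.Descent.Atoms

/-!
# The atoms of the comparison

The index sets of the commuting families on the two sides, their operators, the permutation by
the twist and the exponential pairs at the auxiliary place.
-/

set_option autoImplicit false

noncomputable section

namespace Fermat.Agent.Extra.LTGen

open Fermat.Agent.LT Fermat.Agent.LT.Descent

open Fermat.Agent.LT.Adelic Fermat.Agent.LT.Tame Fermat.Agent.LT.Spectral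
open Fermat.Agent.LT.Descent.Places
open MeasureTheory NumberField IsDedekindDomain Matrix
open scoped MatrixGroups ComplexConjugate InnerProductSpace

variable {K : Type*} [Field K] [NumberField K] {K' : Type*} [Field K'] [NumberField K']
  [Algebra K K'] {Φ : Frame K Unit} {Φ' : Frame K' (Fin 3)} {tw : CubicTwist Φ Φ'}

namespace GenData

variable (D : GenData tw)

/-- Base kernels with given finite parts. -/
def withFam (k : KerFamily D.lev.loc) (k' : KerFamily D.lev'.loc) : D.TestPair where
  arch := comp3 fun _ => baseKer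
  arch' _ := baseKer
  fam := k
  fam' := k'

theorem base_eq_withFam : D.basePair = D.withFam (KerFamily.one _) (KerFamily.one _) := rfl

variable {D}

/-- A pair whose finite parts are corresponding Hecke polynomials at good places. -/
structure TestPair.IsPlain (t : D.TestPair) : Prop where
  composite : IsComposite3 t.arch t.arch'
  good : D.IsGoodMatched t.fam t.fam'

theorem TestPair.IsPlain.comp {t s : D.TestPair} (ht : t.IsPlain) (hs : s.IsPlain) :
    (t.comp s).IsPlain := ⟨ht.composite.comp hs.composite, ht.good.comp hs.good⟩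

theorem isPlain_base : D.basePair.IsPlain := ⟨fun _ _ => rfl, isGoodMatched_one⟩

theorem isPlain_archAtom (i : Fin 3) (k : RealProfile) : (D.archAtom i k).IsPlain :=
  ⟨isComposite3_baseAt i _, isGoodMatched_one⟩

theorem isPlain_withFam {v : HeightOneSpectrum (𝓞 K)} (hv : v ∈ D.good) :
    (D.withFam (D.goodAtom v) (D.goodAtom' v)).IsPlain :=
  ⟨fun _ _ => rfl, D.isGoodMatched_goodAtom hv⟩

/-- Matched families living at the bad places, deep at those with one place above. -/
structure IsBadPart (k : KerFamily D.lev.loc) (k' : KerFamily D.lev'.loc) : Prop where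
  matched : D.IsLocallyMatched k k'
  off : ∀ v ∉ D.bad, k.ker v = 1
  off' : ∀ w ∉ D.bad', k'.ker w = 1
  deep : ∀ v ∈ D.base.deepPlaces, D.IsDeepPair k k' v

theorem IsBadPart.isTrivialAt {k : KerFamily D.lev.loc} {k' : KerFamily D.lev'.loc}
    (h : D.IsBadPart k k') {v : HeightOneSpectrum (𝓞 K)} (hv : v ∉ D.bad) :
    D.IsTrivialAt k k' v :=
  ⟨h.off v hv, fun w hw => h.off' w (mt (D.mem_bad'_iff hw).1 hv)⟩

/-! ### Commutation and self-adjointness -/

theorem TestPair.commute_op (t s : D.TestPair) (h : t.fam.comp s.fam = s.fam.comp t.fam) :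
    Commute t.op s.op := cuspOp_commute _ _ fun y z => by
  show _ = _
  rw [TestPair.ker, TestPair.ker, ← KerFamily.toHKer_comp, ← KerFamily.toHKer_comp, h]

theorem TestPair.commute_op' (t s : D.TestPair) (h : t.fam'.comp s.fam' = s.fam'.comp t.fam') :
    Commute t.op' s.op' := cuspOp_commute _ _ fun y z => by
  show _ = _
  rw [TestPair.ker', TestPair.ker', ← KerFamily.toHKer_comp, ← KerFamily.toHKer_comp, h]

theorem TestPair.isSelfAdjoint_op (t : D.TestPair) (ha : t.arch.conjKer = t.arch)
    (ht : t.fam.transpose = t.fam) (hr : ∀ v a c, (t.fam.ker v a c).im = 0) :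
    IsSelfAdjoint t.op :=
  isSelfAdjoint_cuspOp (fun _ p q => congrArg (fun k : PPKer => k p q) ha) fun y z => by
    rw [TestPair.ker, KerFamily.adj_toHKer D.isLocal hr, ht]

theorem TestPair.isSelfAdjoint_op' (t : D.TestPair) (ha : ∀ i, (t.arch' i).conjKer = t.arch' i)
    (ht : t.fam'.transpose = t.fam') (hr : ∀ v a c, (t.fam'.ker v a c).im = 0) :
    IsSelfAdjoint t.op' :=
  isSelfAdjoint_cuspOp (fun i p q => congrArg (fun k : PPKer => k p q) (ha i)) fun y z => by
    rw [TestPair.ker', KerFamily.adj_toHKer D.isLocal' hr, ht]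

/-! ### The indices -/

variable (D)

/-- The atoms shared by the two sides. -/
inductive AtomIdx
  | base
  | good (v : D.good)
  | aux
  | arch (k : RealProfile)

/-- The atoms upstairs. -/
inductive AtomIdx'
  | base
  | good (w : {w : HeightOneSpectrum (𝓞 K') // ∃ v ∈ D.good, IsAbove v w})
  | aux (w : {w : HeightOneSpectrum (𝓞 K') // IsAbove D.u w})
  | arch (i : Fin 3) (k : RealProfile)

/-- The place chosen over `u`. -/
def uAbove : {w : HeightOneSpectrum (𝓞 K') // IsAbove D.u w} :=
  ⟨D.aboveOf D.u, D.isAbove_aboveOf D.u⟩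

/-- The atom upstairs of a shared atom. -/
def idxUp : D.AtomIdx → D.AtomIdx'
  | .base => .base
  | .good v => .good ⟨D.aboveOf v, v, v.2, D.isAbove_aboveOf v⟩
  | .aux => .aux D.uAbove
  | .arch k => .arch 0 k

/-- The pair of a shared atom. -/
def atom : D.AtomIdx → D.TestPair
  | .base => D.basePair
  | .good v => D.withFam (D.goodAtom v) (D.goodAtom' v)
  | .aux => D.withFam D.auxX (D.auxX' D.uAbove)
  | .arch k => D.archAtom 0 k

/-- The finite part of an atom upstairs. -/
def atomFam' : D.AtomIdx' → KerFamily D.lev'.loc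
  | .base => KerFamily.one _
  | .good w => D.goodT' w
  | .aux w => D.auxX' w
  | .arch _ _ => KerFamily.one _

/-- The kernels of an atom upstairs. -/
def atomArch' : D.AtomIdx' → Fin 3 → PPKer
  | .arch i k => baseAt i (PPKer.comp k.toKer baseKer)
  | _ => fun _ => baseKer

/-- The operator of an atom upstairs. -/
def atomOp' (j : D.AtomIdx') : cuspClasses D.quot' →L[ℂ] cuspClasses D.quot' :=
  cuspOp D.quot' (D.atomArch' j) ((D.atomFam' j).toHKer D.isLocal')

theorem atomOp'_idxUp (j : D.AtomIdx) : D.atomOp' (D.idxUp j) = (D.atom j).op' := by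
  cases j <;> rfl

/-- The place moved twice. -/
def permTwice (w : HeightOneSpectrum (𝓞 K')) : HeightOneSpectrum (𝓞 K') :=
  placePerm tw.σ.toRingEquiv (placePerm tw.σ.toRingEquiv w)

/-- The permutation of the atoms upstairs by the twist. -/
def atomPerm : Equiv.Perm D.AtomIdx' where
  toFun
    | .base => .base
    | .good w => .good ⟨permTwice (tw := tw) w, w.2.imp fun _ h =>
        ⟨h.1, isAbove_placePerm (isAbove_placePerm h.2)⟩⟩
    | .aux w => .aux ⟨permTwice (tw := tw) w, isAbove_placePerm (isAbove_placePerm w.2)⟩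
    | .arch i k => .arch (i - 1) k
  invFun
    | .base => .base
    | .good w => .good ⟨placePerm tw.σ.toRingEquiv w, w.2.imp fun _ h =>
        ⟨h.1, isAbove_placePerm h.2⟩⟩
    | .aux w => .aux ⟨placePerm tw.σ.toRingEquiv w, isAbove_placePerm w.2⟩
    | .arch i k => .arch (i + 1) k
  left_inv j := by
    cases j with
    | base => rfl
    | good w =>
      exact congrArg AtomIdx'.good (Subtype.ext (Places.placePerm_cube D.gen w.1))
    | aux w =>
      exact congrArg AtomIdx'.aux (Subtype.ext (Places.placePerm_cube D.gen w.1))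
    | arch i k => exact congrArg (AtomIdx'.arch · k) (sub_add_cancel i 1)
  right_inv j := by
    cases j with
    | base => rfl
    | good w =>
      exact congrArg AtomIdx'.good (Subtype.ext (Places.placePerm_cube D.gen w.1))
    | aux w =>
      exact congrArg AtomIdx'.aux (Subtype.ext (Places.placePerm_cube D.gen w.1))
    | arch i k => exact congrArg (AtomIdx'.arch · k) (add_sub_cancel_right i 1)

/-- Every atom upstairs is moved to a shared one. -/
theorem exists_iterate_idxUp (j' : D.AtomIdx') :
    ∃ (j : D.AtomIdx) (n : ℕ), (⇑D.atomPerm)^[n] (D.idxUp j) = j' := by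
  cases j' with
  | base => exact ⟨.base, 0, rfl⟩
  | good w =>
    obtain ⟨v, hv, hw⟩ := w.2
    rcases eq_or_eq_of_isAbove D.gen (D.isAbove_aboveOf v) hw with e | e | e
    · exact ⟨.good ⟨v, hv⟩, 0, congrArg AtomIdx'.good (Subtype.ext e.symm)⟩
    · refine ⟨.good ⟨v, hv⟩, 2, congrArg AtomIdx'.good (Subtype.ext ?_)⟩
      show permTwice (tw := tw) (permTwice (tw := tw) (D.aboveOf v)) = w.1
      rw [e]
      exact Places.placePerm_cube D.gen _
    · exact ⟨.good ⟨v, hv⟩, 1, congrArg AtomIdx'.good (Subtype.ext e.symm)⟩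
  | aux w =>
    rcases eq_or_eq_of_isAbove D.gen (D.isAbove_aboveOf D.u) w.2 with e | e | e
    · exact ⟨.aux, 0, congrArg AtomIdx'.aux (Subtype.ext e.symm)⟩
    · refine ⟨.aux, 2, congrArg AtomIdx'.aux (Subtype.ext ?_)⟩
      show permTwice (tw := tw) (permTwice (tw := tw) (D.aboveOf D.u)) = w.1
      rw [e]
      exact Places.placePerm_cube D.gen _
    · exact ⟨.aux, 1, congrArg AtomIdx'.aux (Subtype.ext e.symm)⟩
  | arch i k =>
    rcases (by decide : ∀ i : Fin 3, i = 0 ∨ i = 2 ∨ i = 1) i with rfl | rfl | rfl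
    · exact ⟨.arch k, 0, rfl⟩
    · exact ⟨.arch k, 1, rfl⟩
    · exact ⟨.arch k, 2, rfl⟩

/-! ### The powers at the auxiliary place -/

/-- The pair with `U^(3n)` at `u` and `Uⁿ` over it. -/
def upow (n : ℕ) : D.TestPair := D.withFam (D.auxU n) (D.auxU' n)

/-! ### The target values -/

/-- The transform of the base kernel. -/
def baseHat : ℝ := (PPKer.hat baseKer 0).re

/-- The eigenvalue of the base operators on the target. -/
def targetMu : ℝ := baseHat ^ 3

theorem baseHat_ne_zero : baseHat ≠ 0 := by
  obtain ⟨c, hc, h⟩ := exists_hat_baseKer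
  rw [baseHat, h, Complex.ofReal_re]
  exact hc

theorem targetMu_ne_zero : targetMu ≠ 0 := pow_ne_zero _ baseHat_ne_zero

theorem coe_baseHat : (baseHat : ℂ) = PPKer.hat baseKer 0 := by
  obtain ⟨c, -, h⟩ := exists_hat_baseKer
  rw [baseHat, h, Complex.ofReal_re]

/-- The eigenvalues of the atoms on the target. -/
def targetVal : D.AtomIdx' → ℝ
  | .base => targetMu
  | .good w => targetMu * (D.eig w).re
  | .aux w => targetMu * (Real.sqrt (Ideal.absNorm D.u.asIdeal) * (D.eig w).re)
  | .arch _ k => targetMu * (PPKer.hat k.toKer 0).re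

theorem targetVal_atomPerm (j : D.AtomIdx') : D.targetVal (D.atomPerm j) = D.targetVal j := by
  have key : ∀ (v : HeightOneSpectrum (𝓞 K)) (w : HeightOneSpectrum (𝓞 K')),
      v ∉ D.bad → IsSplit tw.σ v → IsAbove v w →
        D.eig (permTwice (tw := tw) w) = D.eig w := fun v w h3 hs hw =>
    (D.eig_twist v _ h3 hs (isAbove_placePerm hw)).trans (D.eig_twist v w h3 hs hw)
  cases j with
  | base => rfl
  | arch i k => rfl
  | good w =>
    show targetMu * (D.eig (permTwice (tw := tw) w)).re = targetMu * (D.eig w).re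
    obtain ⟨v, hv, hw⟩ := w.2
    rcases D.isInert_or_isSplit hv.1 with hi | hs
    · rw [hi.unique D.gen hw (show IsAbove v (permTwice (tw := tw) w.1) from
        isAbove_placePerm (isAbove_placePerm hw))]
    · rw [key v w.1 hv.1 hs hw]
  | aux w =>
    show targetMu * (Real.sqrt _ * (D.eig (permTwice (tw := tw) w)).re) = _
    rw [key D.u w.1 D.u_not_bad D.u_split w.2]
    rfl

/-- The target classes upstairs. -/
def targetSpace : Submodule ℂ (cuspClasses D.quot') :=
  jointSpace D.basePair.op' D.atomOp' (targetMu, D.targetVal)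

/-- The classes downstairs with the data of the target. -/
def IsTargetVector (e : cuspClasses D.quot) : Prop :=
  e ≠ 0 ∧ D.basePair.op e = (targetMu : ℂ) • e ∧
    ∀ j, (D.atom j).op e = (D.targetVal (D.idxUp j) : ℂ) • e

end GenData

end Fermat.Agent.Extra.LTGen

end
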