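import Fermat.Agent.Extra.LTGen.Descent.AtomsGood
import Fermat.Agent.Extra.LTGen.Descent.Base
import Fermat.Agent.LT.Descent.AtomsTwist
import Fermat.Agent.LT.Descent.KirillovModel

/-!
# The twist of the Hecke matrices upstairs

The generator carries the normalised Hecke matrix at `w` to the one at `σ⁻¹ w`, and products of
such matrices along a word to the corresponding products.
-/

set_option autoImplicit false
set_option linter.unusedSectionVars false

noncomputable section

namespace Fermat.Agent.Extra.LTGen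

open Fermat.Agent.LT Fermat.Agent.LT.Descent

open IsDedekindDomain IsDedekindDomain.HeightOneSpectrum NumberField Matrix
open Fermat.Agent.LT.Adelic Fermat.Agent.LT.Tame Fermat.Agent.LT.Aleph
open Fermat.Agent.LT.Descent.Places
open scoped MatrixGroups

variable {K : Type*} [Field K] [NumberField K] {K' : Type*} [Field K'] [NumberField K']
  [Algebra K K'] {Φ : Frame K Unit} {Φ' : Frame K' (Fin 3)} {tw : CubicTwist Φ Φ'}

namespace GenData

variable (D : GenData tw)

theorem absNorm_placePerm_of_above {v : HeightOneSpectrum (𝓞 K)} {w : HeightOneSpectrum (𝓞 K')}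
    (hv : v ∈ D.good) (hw : IsAbove v w) :
    Ideal.absNorm (placePerm tw.σ.toRingEquiv w).asIdeal = Ideal.absNorm w.asIdeal := by
  rcases D.isInert_or_isSplit hv.1 with h | h
  · rw [h.unique D.gen hw (isAbove_placePerm hw)]
  · rw [h.absNorm D.gen hw, h.absNorm D.gen (isAbove_placePerm hw)]

/-- **The twist of the matrix at `w` is the matrix at `σ⁻¹ w`.** -/
theorem goodT'_toHKer_sigmaY {v : HeightOneSpectrum (𝓞 K)} {w : HeightOneSpectrum (𝓞 K')}
    (hv : v ∈ D.good) (hw : IsAbove v w) (y z : Yf (productLevel D.lev'.loc)) :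
    ((D.goodT' (placePerm tw.σ.toRingEquiv w)).toHKer D.lev'.isLocalLevel_loc) y z =
      ((D.goodT' w).toHKer D.lev'.isLocalLevel_loc) (D.sigmaY y) (D.sigmaY z) := by
  classical
  obtain ⟨ϖ, hϖ⟩ := exists_uniformiser (placePerm tw.σ.toRingEquiv w)
  rw [D.goodT'_toHKer hv (isAbove_placePerm hw) hϖ,
    D.goodT'_toHKer hv hw (isUniformiserAt_adeleAut _ hϖ), D.absNorm_placePerm_of_above hv hw]
  show _ * (if z ∈ nbrs (heckeMatrix K' ϖ) y then (1 : ℂ) else 0) = _ *
    (if D.sigmaY z ∈ nbrs (heckeMatrix K' (Units.map (adeleAut _).toMonoidHom ϖ)) (D.sigmaY y)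
      then (1 : ℂ) else 0)
  rw [← gfAut_heckeMatrix]
  simp only [sigmaY, mem_nbrs_gfAut_iff tw.σ.toRingEquiv (fun x => D.gen.order_three x)]

end GenData

namespace GenData

variable {D : GenData tw} {A B : Type*}

/-- Words in corresponding atoms correspond. -/
theorem isGoodMatched_wordFam {gen : A → KerFamily D.lev.loc} {gen' : A → KerFamily D.lev'.loc}
    (h : ∀ a, D.IsGoodMatched (gen a) (gen' a)) :
    ∀ l : List (A ⊕ B), D.IsGoodMatched (wordFam gen l) (wordFam gen' l)
  | [] => isGoodMatched_one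
  | Sum.inl a :: l => (h a).comp (isGoodMatched_wordFam h l)
  | Sum.inr _ :: l => isGoodMatched_wordFam h l

/-- The twist of a word. -/
theorem wordFam_toHKer_sigmaY {gen gen₁ : A → KerFamily D.lev'.loc}
    (h : ∀ a y z, ((gen₁ a).toHKer D.isLocal') y z =
      ((gen a).toHKer D.isLocal') (D.sigmaY y) (D.sigmaY z)) :
    ∀ (l : List (A ⊕ B)) y z, ((wordFam gen₁ l).toHKer D.isLocal') y z =
      ((wordFam gen l).toHKer D.isLocal') (D.sigmaY y) (D.sigmaY z)
  | [], y, z => by
    classical
    simp only [wordFam, KerFamily.toHKer_one]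
    show (if y = z then (1 : ℂ) else 0) = if D.sigmaY y = D.sigmaY z then 1 else 0
    exact if_congr D.bijective_sigmaY.1.eq_iff.symm rfl rfl
  | Sum.inl a :: l, y, z => by
    simp only [wordFam, KerFamily.toHKer_comp]
    show ∑ᶠ u, _ * _ = ∑ᶠ u, _ * _
    simp only [h a, wordFam_toHKer_sigmaY h l]
    exact finsum_comp_equiv (Equiv.ofBijective _ D.bijective_sigmaY)
      (f := fun u => ((gen a).toHKer D.isLocal') (D.sigmaY y) u *
        ((wordFam gen l).toHKer D.isLocal') u (D.sigmaY z))
  | Sum.inr _ :: l, y, z => wordFam_toHKer_sigmaY h l y z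

end GenData

end Fermat.Agent.Extra.LTGen

end
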