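import Fermat.Agent.LT.Aleph.Pair
import Fermat.Agent.LT.Aleph.RayAdapter
import Fermat.Agent.Extra.LTGen.Descent.AtomsTwist
import Fermat.Agent.LT.Descent.Cuspidal
import Fermat.Agent.LT.Descent.TensorCover
import Mathlib.Analysis.Calculus.BumpFunction.Normed

/-!
# The cuspidal combination of test pairs

One polynomial in Hecke matrices at good places and archimedean shifts whose images have zero
mean on both sides and whose value at the eigenvalues upstairs is nonzero, with the pairs of its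
words.
-/

set_option autoImplicit false
set_option linter.unusedSectionVars false

noncomputable section

namespace Fermat.Agent.Extra.LTGen

open Fermat.Agent.LT Fermat.Agent.LT.Descent

open Fermat.Agent.LT.Adelic Fermat.Agent.LT.Aleph Fermat.Agent.LT.Spectral Fermat.Agent.LT.Tame
open Fermat.Agent.LT.Descent.Places
open MeasureTheory NumberField IsDedekindDomain
open scoped MatrixGroups

variable {K K' : Type} [Field K] [NumberField K] [Field K'] [NumberField K'] [Algebra K K']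
  {Φ : Frame K Unit} {Φ' : Frame K' (Fin 3)} {tw : CubicTwist Φ Φ'}

namespace GenData

variable (D : GenData tw)

/-- The pair of a word. -/
def alephTerm {V S : Type} (place : S → Fin 3) (len : S → ℝ) {A : ℝ → ℂ} (hA : AbelTest A)
    (v : V → HeightOneSpectrum (𝓞 K)) (w : V → HeightOneSpectrum (𝓞 K')) (l : List (V ⊕ S)) :
    D.TestPair where
  arch := composite3 fun i => testPP (abelTest_wordArch place len (fun _ => hA) l i)
  arch' i := testPP (abelTest_wordArch place len (fun _ => hA) l i)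
  fam := wordFam (fun a => D.goodAtom (v a)) l
  fam' := wordFam (fun a => D.goodT' (w a)) l

/-- Places with eigenvalue off any given pair of rays. -/
theorem exists_places {M : ℕ} (hM : M ≠ 0) (η : Ideal (𝓞 K') → ℂ)
    (hmul : ∀ I J, IsCoprime I (Ideal.span {(M : 𝓞 K')}) → IsCoprime J (Ideal.span {(M : 𝓞 K')}) →
      η (I * J) = η I * η J)
    (hray : ∀ x : 𝓞 K', x ≠ 0 → x - 1 ∈ Ideal.span {(M : 𝓞 K')} → η (Ideal.span {x}) = 1) :
    ∃ (v : HeightOneSpectrum (𝓞 K)) (w : HeightOneSpectrum (𝓞 K')) (f : ℕ),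
      v ∈ D.good ∧ IsAbove v w ∧ (M : 𝓞 K') ∉ w.asIdeal ∧
      Ideal.absNorm w.asIdeal = Ideal.absNorm v.asIdeal ^ f ∧
      (f = 1 ∧ IsSplit tw.σ v ∨ f = 3 ∧ IsInert tw.σ v) ∧
      D.eig w ≠ η w.asIdeal + (η w.asIdeal)⁻¹ := by
  classical
  have hu := finite_placesAbove (K' := K') D.gen (Set.finite_singleton D.u)
  obtain ⟨w, hwT, hwM, hwb, hne⟩ := D.base.eig_ne_ray M hM η hmul hray hu.toFinset
  obtain ⟨v, hv⟩ := exists_below (K := K) w
  have hvb : v ∉ D.bad := mt (D.mem_bad'_iff hv).2 hwb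
  have hgood : v ∈ D.good :=
    ⟨hvb, fun e => hwT (hu.mem_toFinset.2 ⟨v, e, hv⟩)⟩
  rcases D.isInert_or_isSplit hvb with h | h
  · exact ⟨v, w, 3, hgood, hv, hwM, h.absNorm D.gen hv, Or.inr ⟨rfl, h⟩, hne⟩
  · exact ⟨v, w, 1, hgood, hv, hwM, by rw [pow_one, h.absNorm D.gen hv], Or.inl ⟨rfl, h⟩, hne⟩

theorem goodT'_eq_heckeKer {v : HeightOneSpectrum (𝓞 K)} {w : HeightOneSpectrum (𝓞 K')}
    (hv : v ∈ D.good) (hw : IsAbove v w)
    {ϖ : (FiniteAdeleRing (𝓞 K') K')ˣ} (hϖ : IsUniformiserAt w ϖ) :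
    (D.goodT' w).toHKer D.isLocal' = heckeKer D.lev'.isLevel w ϖ :=
  D.goodT'_toHKer hv hw hϖ

theorem goodAtom_eq_matchedKer {v : HeightOneSpectrum (𝓞 K)} (hv : v ∈ D.good) {f : ℕ}
    (hf : f = 1 ∧ IsSplit tw.σ v ∨ f = 3 ∧ IsInert tw.σ v)
    {ϖ : (FiniteAdeleRing (𝓞 K) K)ˣ} (hϖ : IsUniformiserAt v ϖ) :
    (D.goodAtom v).toHKer D.isLocal = matchedKer D.lev.isLevel v ϖ f := by
  have hT : (D.goodT v).toHKer D.isLocal = heckeKer D.lev.isLevel v ϖ := D.goodT_toHKer hv hϖ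
  rcases hf with ⟨rfl, h⟩ | ⟨rfl, h⟩
  · rw [D.goodAtom_eq_of_split h, hT, matchedKer, if_neg (by norm_num)]
  · refine HKer.ext' fun y z => ?_
    rw [D.goodAtom_toHKer_apply hv h, KerFamily.toHKer_comp, KerFamily.toHKer_comp, hT, matchedKer,
      if_pos rfl]
    exact (sub_eq_add_neg _ _).trans (congrArg _ (neg_mul _ _).symm)

/-- The parameters of the combination: a polynomial killing the constant terms on both sides with
nonzero value at the eigenvalues upstairs. -/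
theorem exists_alephData :
    ∃ (V S : Type) (place : S → Fin 3) (len : S → ℝ) (A : ℝ → ℂ) (hA : AbelTest A)
      (v : V → HeightOneSpectrum (𝓞 K)) (w : V → HeightOneSpectrum (𝓞 K'))
      (P : MvPolynomial (V ⊕ S) ℂ),
      (∀ i, v i ∈ D.good ∧ IsAbove (v i) (w i)) ∧ (∫ t, A t) ≠ 0 ∧
      MvPolynomial.eval (Sum.elim (fun i => D.eig (w i)) fun _ => 2) P ≠ 0 ∧
      (∀ φ : Space Φ' (productLevel D.lev'.loc) → ℂ, IsNice φ → HasZeroMean
        (alephOp place len (fun i => (D.goodT' (w i)).toHKer D.isLocal') (fun _ => hA) P φ)) ∧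
      ∀ (place' : S → Fin 3) (φ : Space Φ (productLevel D.lev.loc) → ℂ), IsNice φ → HasZeroMean
        (alephOp3 place' len (fun i => (D.goodAtom (v i)).toHKer D.isLocal) (fun _ => hA) P φ) := by
  classical
  set M := D.lev.modulus * D.lev'.modulus with hMdef
  have hM : M ≠ 0 := mul_ne_zero D.lev.modulus_ne_zero D.lev'.modulus_ne_zero
  have hM' : ((M : ℕ) : 𝓞 K') ≠ 0 := Nat.cast_ne_zero.mpr hM
  have hMF : ((M : ℕ) : 𝓞 K) ≠ 0 := Nat.cast_ne_zero.mpr hM
  have := finite_quotient_vecIota Φ' _ hM'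
  have := finite_quotient_vecIota Φ _ hMF
  have hnU : principalLevel K (M : 𝓞 K) ≤ productLevel D.lev.loc :=
    (principalLevel_mono (Dvd.intro _ (Nat.cast_mul _ _).symm)).trans D.lev.principalLevel_le
  have hnU' : principalLevel K' (M : 𝓞 K') ≤ productLevel D.lev'.loc :=
    (principalLevel_mono (Dvd.intro_left _ (Nat.cast_mul _ _).symm)).trans D.lev'.principalLevel_le
  have h1 := fun η : RayChar Φ' (M : 𝓞 K') => D.exists_places hM (rayEta Φ' η)
    (fun I J hI hJ => rayEta_mul' Φ' η hI hJ) fun x hx h => rayEta_ray Φ' η hx h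
  have h2 := fun θ : RayChar Φ (M : 𝓞 K) => D.exists_places hM (rayEtaNorm Φ θ)
    (fun I J hI hJ => rayEtaNorm_mul Φ θ hI hJ) fun x hx h => rayEtaNorm_ray Φ θ hM hx h
  choose v1 w1 f1 hgood1 habove1 hwM1 hnorm1 hf1 hne1 using h1
  choose v2 w2 f2 hgood2 habove2 hwM2 hnorm2 hf2 hne2 using h2
  let v : PairVar Φ Φ' (M : 𝓞 K) (M : 𝓞 K') → HeightOneSpectrum (𝓞 K) := Sum.elim v1 v2
  let w : PairVar Φ Φ' (M : 𝓞 K) (M : 𝓞 K') → HeightOneSpectrum (𝓞 K') := Sum.elim w1 w2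
  let f : PairVar Φ Φ' (M : 𝓞 K) (M : 𝓞 K') → ℕ := Sum.elim f1 f2
  have hgood : ∀ i, v i ∈ D.good := Sum.rec hgood1 hgood2
  have habove : ∀ i, IsAbove (v i) (w i) := Sum.rec habove1 habove2
  have hwM : ∀ i, (M : 𝓞 K') ∉ (w i).asIdeal := Sum.rec hwM1 hwM2
  have hvM : ∀ i, (M : 𝓞 K) ∉ (v i).asIdeal := fun i h =>
    hwM i (by simpa using (habove i _).2 h)
  have hf : ∀ i, f i = 1 ∧ IsSplit tw.σ (v i) ∨ f i = 3 ∧ IsInert tw.σ (v i) := Sum.rec hf1 hf2
  choose ϖ hϖ using fun i => exists_uniformiser (v i)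
  choose ϖ' hϖ' using fun i => exists_uniformiser (w i)
  obtain ⟨A, hA, -, hA0⟩ := exists_abelTest
  obtain ⟨ℓ', ℓ, hℓ⟩ :=
    exists_pairLen (Φ := Φ) (Φ' := Φ') D.lev.isLevel D.lev'.isLevel hnU hnU'
  let sel' : RayChar Φ' (M : 𝓞 K') → ClassC Φ' (M : 𝓞 K') := fun η =>
    classMk Φ' _ (ϖ' (Sum.inl η)) 0
  let sel : RayChar Φ (M : 𝓞 K) → ClassC Φ (M : 𝓞 K) := fun θ =>
    f (Sum.inr θ) • classMk Φ _ (ϖ (Sum.inr θ)) 0
  obtain ⟨hup, hdown⟩ := hℓ sel' sel (fun i => (D.goodT' (w i)).toHKer D.isLocal')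
    (fun i => (D.goodAtom (v i)).toHKer D.isLocal)
    (fun i => symElt (classMk Φ' _ (ϖ' i) 0)) (fun i => symElt (f i • classMk Φ _ (ϖ i) 0))
    (fun i => by
      rw [D.goodT'_eq_heckeKer (hgood i) (habove i) (hϖ' i)]
      exact realises_heckeKer D.lev'.isLevel hnU' D.lev'.level_le
        (intValuation_eq_one_of_notMem (hwM i)) (hϖ' i))
    (fun i => by
      rw [D.goodAtom_eq_matchedKer (hgood i) (hf i) (hϖ i)]
      exact realises_matchedKer D.lev.isLevel hnU D.lev.level_le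
        (intValuation_eq_one_of_notMem (hvM i)) (hϖ i) ((hf i).imp And.left And.left))
    (fun _ => rfl) (fun _ => rfl) (fun _ => A) fun _ => hA
  refine ⟨_, _, pairPlace, pairLen ℓ' ℓ sel' sel, A, hA, v, w, pairMv sel' sel,
    fun i => ⟨hgood i, habove i⟩, hA0, ?_, hup, hdown⟩
  refine eval_pairMv_ne_zero sel' sel (fun η => ?_) fun θ => ?_
  · have h := charTrace_nsmul Φ' η (a := ϖ' (Sum.inl η)) 1
    rw [one_smul, pow_one] at h
    rw [h, ← rayEta_eq Φ' η (isRayRep_uniformiser (hwM (Sum.inl η)) (hϖ' (Sum.inl η)))]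
    exact hne1 η
  · have h := hne2 θ
    rw [rayEtaNorm, exists_relNorm_eq (habove2 θ) (hnorm2 θ)] at h
    rw [charTrace_nsmul, ← rayEta_pow Φ θ (hvM (Sum.inr θ)) (hϖ (Sum.inr θ)) _]
    exact h

end GenData

end Fermat.Agent.Extra.LTGen

end
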