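import Fermat.Agent.Extra.LTGen.Descent.Base
import Fermat.Agent.LT.Descent.TwistTrace
import Fermat.Agent.LT.Descent.PairTrace

/-!
# The two diagonals of a test pair

For a matched pair with a high power at the places over `u` the diagonal integrals on the two
quotients agree; these are the integrals that the trace formulas on cusp classes produce.
-/

set_option autoImplicit false

noncomputable section

namespace Fermat.Agent.Extra.LTGen

open Fermat.Agent.LT Fermat.Agent.LT.Descent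

open Fermat.Agent.LT.Adelic Fermat.Agent.LT.Spectral Fermat.Agent.LT.Descent.Places
open MeasureTheory NumberField IsDedekindDomain Matrix
open scoped MatrixGroups

variable {K : Type*} [Field K] [NumberField K] {K' : Type*} [Field K'] [NumberField K']
  [Algebra K K'] {Φ : Frame K Unit} {Φ' : Frame K' (Fin 3)} {tw : CubicTwist Φ Φ'}

namespace GenData

variable (D : GenData tw)

/-- The diagonal integral downstairs. -/
def TestPair.diag (t : D.TestPair) : ℂ :=
  ∫ x, perKer PGL(2, K) (testKernel (fun _ => t.arch) t.ker) x x ∂D.quot.ν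

/-- The twisted diagonal integral upstairs. -/
def TestPair.diag' (t : D.TestPair) : ℂ :=
  ∫ x, perKer PGL(2, K') (testKernel t.arch' t.ker') x (twistPt D.sigmaY x) ∂D.quot'.ν

/-- The exponents at the places over `u` and the bounds elsewhere of a test pair. -/
structure TestPair.IsBounded (t : D.TestPair) (a b : 𝓞 K) (a' b' : 𝓞 K') (T : ℝ) (n : ℕ) :
    Prop where
  range : ∀ p q, t.arch p q ≠ 0 → HSpace.coshDist p q ≤ T
  range' : ∀ i p q, t.arch' i p q ≠ 0 → HSpace.coshDist p q ≤ T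
  big : ∃ P : Set ℤ, P.Finite ∧ (∀ m ∈ P, (n : ℤ) < m) ∧ IsBigOn t.ker {D.u} a b P
  big' : ∃ P : Set ℤ, P.Finite ∧ (∀ m ∈ P, (n : ℤ) < m) ∧
    IsBigOn t.ker' (placesAbove {D.u}) a' b' P

theorem TestPair.IsBounded.mono {t : D.TestPair} {a b : 𝓞 K} {a' b' : 𝓞 K'} {T : ℝ} {m n : ℕ}
    (h : t.IsBounded D a b a' b' T n) (hmn : m ≤ n) : t.IsBounded D a b a' b' T m where
  range := h.range
  range' := h.range'
  big := h.big.imp fun _ hP => ⟨hP.1, fun k hk =>
    lt_of_le_of_lt (by exact_mod_cast hmn) (hP.2.1 k hk), hP.2.2⟩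
  big' := h.big'.imp fun _ hP => ⟨hP.1, fun k hk =>
    lt_of_le_of_lt (by exact_mod_cast hmn) (hP.2.1 k hk), hP.2.2⟩

/-- **The diagonals of matched pairs agree.** -/
theorem exists_diag_eq {a b : 𝓞 K} (ha : a ≠ 0) (hb : b ≠ 0) {a' b' : 𝓞 K'} (ha' : a' ≠ 0)
    (hb' : b' ≠ 0) (T : ℝ) :
    ∃ n0 : ℕ, ∀ t : D.TestPair, t.IsMatched → t.IsBounded D a b a' b' T n0 →
      t.diag D = t.diag' D := by
  obtain ⟨w, hw⟩ := exists_isAbove (K' := K') D.u
  obtain ⟨n0, h⟩ := exists_trace_identity tw (u := D.u) (S := placesAbove {D.u})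
    (fun v hv => (D.placePerm_mem_placesAbove_iff _ v).2 hv)
    (fun x hx => by
      obtain ⟨v, hv, hvx⟩ := hx
      rw [Set.mem_singleton_iff] at hv
      exact hv ▸ IsAbove.liesOver hvx)
    ⟨w, ⟨D.u, rfl, hw⟩, fun x => D.u_split.valuation_algebraMap D.gen hw x⟩ ha hb ha' hb' T
  refine ⟨n0, fun t hm hbd => ?_⟩
  obtain ⟨P, hP, hPn, hbig⟩ := hbd.big
  obtain ⟨P', hP', hPn', hbig'⟩ := hbd.big'
  exact h _ _ D.quot D.quot' D.sigmaY D.isTwistMap_sigmaY (fun _ => rfl) _ _ t.ker t.ker' P P'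
    hm.composite (fun _ => hbd.range) hbd.range' hbig hbig' hP hP' hPn hPn' hm.transfers

end GenData

end Fermat.Agent.Extra.LTGen

end
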