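/-
Cutting the Kirillov functions at some of the places.
-/
import Fermat.Agent.LT.Descent.KirillovSeparation

/-!
# Cutting the Kirillov functions

The Kirillov functions are bounded at every place, and a combination of additive characters
supported at a set `S'` of places is the indicator of a congruence neighbourhood of `1` there on
bounded ideles.
-/

set_option autoImplicit false

noncomputable section

namespace Fermat.Agent.Extra.LTGen

open IsDedekindDomain NumberField Matrix
open Fermat.Agent.LT.Adelic Fermat.Agent.LT.Aleph Fermat.Agent.LT.Descent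
open Fermat.Agent.LT.RankinSelberg (sum_addChar_reps valued_int_apply)

variable {K : Type*} [Field K] [NumberField K] {ι : Type*} [Fintype ι] [DecidableEq ι]
  {Φ : Frame K ι} {S : Set (HeightOneSpectrum (𝓞 K))} {a : HeightOneSpectrum (𝓞 K) → ℂ}

/-- The Kirillov functions are bounded at every place. -/
theorem torusCoeff_bound (D : CoeffData Φ S a) (φ : sForms Φ S a) {n : 𝓞 K}
    (hinv : ∀ (τ : ι → HSpace) (g : GfK K), ∀ u ∈ principalLevel K n, φ.1 τ (g * u) = φ.1 τ g)
    {x : (FiniteAdeleRing (𝓞 K) K)ˣ} (hx : D.torusCoeff φ x ≠ 0)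
    (v : HeightOneSpectrum (𝓞 K)) :
    Valued.v ((x : FiniteAdeleRing (𝓞 K) K) v) * v.intValuation n ≤ 1 := by
  by_contra hlt
  rw [not_le] at hlt
  obtain ⟨s, hs0, hsv, hs1⟩ := D.psi_exact v
  obtain ⟨t, ht0, htv⟩ := exists_single v (s v / (x : FiniteAdeleRing (𝓞 K) K) v)
  have hxt : (x : FiniteAdeleRing (𝓞 K) K) * t = s := FiniteAdeleRing.ext K fun w => by
    rw [coe_apply_mul]
    by_cases hw : w = v
    · subst hw; rw [htv, mul_div_cancel₀ _ (idele_ne_zero x w)]
    · rw [ht0 w hw, hs0 w hw, mul_zero]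
  have htn : ∀ w, Valued.v (t w) ≤ w.intValuation n := fun w => by
    by_cases hw : w = v
    · subst hw
      rw [htv, map_div₀]
      exact div_le_of_one_lt_mul hsv hlt
    · rw [ht0 w hw, map_zero]; exact zero_le
  have hmem : unipotent t ∈ principalLevel K n := mem_principalLevel.2
    ⟨fun i j w => by
      fin_cases i <;> fin_cases j <;>
        simp [Matrix.sub_apply, coe_apply_sub, coe_apply_one, coe_apply_zero, htn],
    fun i j w => by
      rw [show (unipotent t : GfK K)⁻¹ = unipotent (-t) from inv_eq_of_mul_eq_one_right (by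
        apply GL.ext_fin_two; ext i j; fin_cases i <;> fin_cases j <;> simp)]
      fin_cases i <;> fin_cases j <;>
        simp [Matrix.sub_apply, coe_apply_sub, coe_apply_one, coe_apply_zero, coe_apply_neg, htn]⟩
  have h1 := D.coeff_invariant φ (diag2 (x * D.delta) 1) _ (fun τ g => hinv τ g _ hmem) 1
  have h2 := D.torusCoeff_mul_unipotent φ x t 1
  simp only [mul_one, hxt, h1] at h2
  exact hs1 (mul_right_cancel₀ hx (h2.symm.trans (one_mul _).symm))

theorem kirillov_translate (D : CoeffData Φ S a) (hS : S.Finite) (t x : ideleSupported S)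
    (φ : sForms Φ S a) :
    D.kirillov (translateRep Φ S a hS (torusHom t) φ) x = D.kirillov φ (x * t) := by
  show D.torusCoeff _ _ = D.torusCoeff _ _
  rw [CoeffData.torusCoeff, CoeffData.torusCoeff, D.coeff_translate,
    show ((torusHom t : gfSupported S) : GfK K) = diag2 t.1 1 from rfl, diag2_mul_diag2, one_mul,
    mul_right_comm x.1 D.delta t.1]
  rfl

theorem kirillov_modulate (D : CoeffData Φ S a) (hS : S.Finite) (y : adeleSupported S)
    (x : ideleSupported S) (φ : sForms Φ S a) :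
    D.kirillov (translateRep Φ S a hS (unipElt y) φ) x =
      D.psi ((D.delta : FiniteAdeleRing (𝓞 K) K) * ((x.1 : FiniteAdeleRing (𝓞 K) K) * y.1)) *
        D.kirillov φ x := by
  show D.torusCoeff _ _ = _ * D.torusCoeff _ _
  rw [CoeffData.torusCoeff, CoeffData.torusCoeff, D.coeff_translate,
    show ((unipElt y : gfSupported S) : GfK K) = unipotent y.1 * 1 from (mul_one _).symm,
    D.torusCoeff_mul_unipotent, mul_one]

/-- The lower unipotent matrix over a ring. -/
def lowerRing {A : Type*} [CommRing A] (t : A) : GL (Fin 2) A :=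
  ⟨!![1, 0; t, 1], !![1, 0; -t, 1], by ext i j; fin_cases i <;> fin_cases j <;> simp,
    by ext i j; fin_cases i <;> fin_cases j <;> simp⟩

/-- A matrix with unit lower right entry is upper unipotent times torus times lower unipotent. -/
theorem eq_unipotent_mul_diag2_mul_lowerRing {A : Type*} [CommRing A] (x : GL (Fin 2) A) (r : Aˣ)
    (hr : x.1 1 1 = r) :
    x = unipotent (x.1 0 1 * (r⁻¹ : Aˣ)) *
      (diag2 (GeneralLinearGroup.det x * r⁻¹) r * lowerRing (x.1 1 0 * (r⁻¹ : Aˣ))) := by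
  apply GL.ext_fin_two
  have hd : ((GeneralLinearGroup.det x : Aˣ) : A) = x.1 0 0 * x.1 1 1 - x.1 0 1 * x.1 1 0 := by
    rw [GeneralLinearGroup.val_det_apply, Matrix.det_fin_two]
  have h1 : (r : A) * (r⁻¹ : Aˣ) = 1 := r.mul_inv
  ext i j
  rw [Units.val_mul, Units.val_mul, Matrix.mul_apply, Fin.sum_univ_two, Matrix.mul_apply,
    Matrix.mul_apply, Fin.sum_univ_two, Fin.sum_univ_two]
  fin_cases i <;> fin_cases j <;> simp [unipotent, diag2, lowerRing, hd, hr] <;>
    first
    | linear_combination (-(x.1 0 0) - x.1 0 1 * x.1 1 0 * (r⁻¹ : Aˣ)) * h1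
    | linear_combination (-(x.1 1 0)) * h1

/-- Characters supported at `S'` cut out a neighbourhood of `1` among the bounded ideles. -/
theorem exists_cut (D : CoeffData Φ S a) (S' : Set (HeightOneSpectrum (𝓞 K))) {n₀ : 𝓞 K}
    (hn₀ : n₀ ≠ 0) (k m : ℕ) :
    ∃ c : adeleSupported S' →₀ ℂ, ∀ x : (FiniteAdeleRing (𝓞 K) K)ˣ,
      (∀ v ∈ S', Valued.v ((x : FiniteAdeleRing (𝓞 K) K) v) * v.intValuation (n₀ ^ k) ≤ 1) →
      ((∀ v ∈ S', Valued.v ((x : FiniteAdeleRing (𝓞 K) K) v - 1) ≤ v.intValuation (n₀ ^ m)) →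
        (c.sum fun y r => r * D.psi ((D.delta : FiniteAdeleRing (𝓞 K) K) *
          ((x : FiniteAdeleRing (𝓞 K) K) * y.1))) = 1) ∧
      ((¬ ∀ v ∈ S', Valued.v ((x : FiniteAdeleRing (𝓞 K) K) v - 1) ≤ v.intValuation (n₀ ^ m)) →
        (c.sum fun y r => r * D.psi ((D.delta : FiniteAdeleRing (𝓞 K) K) *
          ((x : FiniteAdeleRing (𝓞 K) K) * y.1))) = 0) := by
  classical
  set N := fun (i : ℕ) (v : HeightOneSpectrum (𝓞 K)) => v.intValuation (n₀ ^ i) with hN
  have hN0 : ∀ i v, N i v ≠ 0 := fun i v => v.intValuation_ne_zero _ (pow_ne_zero _ hn₀)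
  let e : FiniteAdeleRing (𝓞 K) K := algebraMap (𝓞 K) _ (n₀ ^ m)
  have he : ∀ v, Valued.v (e v) = N m v := fun v => by
    rw [valued_int_apply]
  set fT := fun v => (N m v)⁻¹ with hfT
  set f0 := N k with hf0
  have := finite_adeleBall_quotient (S := S') (f := fT) (g := f0) (e := e) (j := m + k) hn₀
    (fun v _ => by rw [he]; exact (mul_inv_cancel₀ (hN0 m v)).le)
    (fun v _ => by
      rw [he, pow_add, map_mul])
    (fun v _ => by rw [he]; exact hN0 m v)
  have := Fintype.ofFinite (adeleBall S' fT ⧸ (adeleBall S' f0).addSubgroupOf (adeleBall S' fT))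
  set Q := adeleBall S' fT ⧸ (adeleBall S' f0).addSubgroupOf (adeleBall S' fT)
  let pt : Q → adeleSupported S' := fun q => ⟨(q.out : FiniteAdeleRing (𝓞 K) K), q.out.2.1⟩
  refine ⟨∑ q : Q, Finsupp.single (pt q) ((Fintype.card Q : ℂ)⁻¹ *
    D.psi ((D.delta : FiniteAdeleRing (𝓞 K) K) * -(pt q).1)), fun x hx => ?_⟩
  set d := (x : FiniteAdeleRing (𝓞 K) K) - 1 with hd
  have hdv : ∀ v, d v = (x : FiniteAdeleRing (𝓞 K) K) v - 1 := fun v => by
    rw [hd, coe_apply_sub, coe_apply_one]
  let χ : AddChar (FiniteAdeleRing (𝓞 K) K) ℂ :=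
    D.psi.compAddMonoidHom (AddMonoidHom.mulLeft ((D.delta : FiniteAdeleRing (𝓞 K) K) * d))
  have hχ : ∀ y, χ y = D.psi ((D.delta : FiniteAdeleRing (𝓞 K) K) * (d * y)) := fun y => by
    simp [χ, mul_assoc]
  rw [← Finsupp.sum_finsetSum_index (fun _ => zero_mul _) (fun _ _ _ => add_mul _ _ _)]
  rw [Finset.sum_congr rfl fun q _ => Finsupp.sum_single_index
    (h := fun (y : adeleSupported S') r => r * D.psi ((D.delta : FiniteAdeleRing (𝓞 K) K) *
      ((x : FiniteAdeleRing (𝓞 K) K) * y.1))) (zero_mul _)]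
  have hterm : ∀ q : Q, (Fintype.card Q : ℂ)⁻¹ *
      D.psi ((D.delta : FiniteAdeleRing (𝓞 K) K) * -(pt q).1) *
        D.psi ((D.delta : FiniteAdeleRing (𝓞 K) K) * ((x : FiniteAdeleRing (𝓞 K) K) * (pt q).1)) =
      (Fintype.card Q : ℂ)⁻¹ * χ (q.out : FiniteAdeleRing (𝓞 K) K) := fun q => by
    rw [mul_assoc, ← AddChar.map_add_eq_mul, hχ]
    congr 2
    rw [hd]; ring
  rw [Finset.sum_congr rfl fun q _ => hterm q, ← Finset.mul_sum]
  have hsmall : ∀ y ∈ adeleBall S' f0, χ y = 1 := fun y hy => by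
    rw [hχ]
    refine D.psi_int _ fun v => ?_
    rw [coe_apply_mul, map_mul]
    by_cases hv : v ∈ S'
    · refine (mul_le_mul' le_rfl (hy.2 v hv)).trans ?_
      rw [hdv]
      refine (mul_le_mul' (Valuation.map_sub _ _ _) le_rfl).trans ?_
      rw [max_mul, map_one, one_mul]
      exact max_le (hx v hv) (v.intValuation_le_one _)
    · rw [hy.1 v hv, map_zero, mul_zero]; exact zero_le
  rw [sum_addChar_reps (adeleBall S' fT) (adeleBall S' f0) χ hsmall]
  have hiff : (∀ y ∈ adeleBall S' fT, χ y = 1) ↔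
      ∀ v ∈ S', Valued.v ((x : FiniteAdeleRing (𝓞 K) K) v - 1) ≤ v.intValuation (n₀ ^ m) := by
    constructor
    · intro h v hv
      rw [← hdv]
      by_contra hgt
      rw [not_le] at hgt
      obtain ⟨s, hs0, hsv, hs1⟩ := D.psi_exact v
      obtain ⟨t, ht0, htv⟩ := exists_single v (s v / d v)
      have hd0 : d v ≠ 0 := fun h0 => by
        rw [h0, map_zero] at hgt; exact absurd hgt (not_lt.2 zero_le)
      have hmem : t ∈ adeleBall S' fT :=
        ⟨fun w hw => ht0 w fun e' => hw (e' ▸ hv), fun w hw => by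
          by_cases hwv : w = v
          · subst hwv
            rw [htv, map_div₀]
            refine div_le_of_one_lt_mul hsv ?_
            rw [hfT, ← div_eq_mul_inv, one_lt_div₀ (zero_lt_iff.2 (hN0 m w))]
            exact hgt
          · rw [ht0 w hwv, map_zero]; exact zero_le⟩
      refine hs1 ?_
      rw [← h t hmem, hχ]
      congr 2
      refine FiniteAdeleRing.ext K fun w => ?_
      rw [coe_apply_mul]
      by_cases hwv : w = v
      · subst hwv; rw [htv, mul_div_cancel₀ _ hd0]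
      · rw [ht0 w hwv, hs0 w hwv, mul_zero]
    · intro h y hy
      rw [hχ]
      refine D.psi_int _ fun v => ?_
      rw [coe_apply_mul, map_mul]
      by_cases hv : v ∈ S'
      · rw [hdv]
        refine (mul_le_mul' (h v hv) (hy.2 v hv)).trans (le_of_eq ?_)
        exact mul_inv_cancel₀ (hN0 m v)
      · rw [hy.1 v hv, map_zero, mul_zero]; exact zero_le
  refine ⟨fun h => ?_, fun h => ?_⟩
  · rw [if_pos (hiff.2 h)]
    exact inv_mul_cancel₀ (Nat.cast_ne_zero.2 Fintype.card_ne_zero)
  · rw [if_neg (fun h' => h (hiff.1 h')), mul_zero]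

end Fermat.Agent.Extra.LTGen
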