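/-
The projection of the forms upstairs onto those with the given characters at the deep places, and
its compatibility with the twist.
-/
import Fermat.Agent.Extra.LTGen.Descent.Setup
import Fermat.Agent.LT.Descent.OrbitAverage
import Fermat.Agent.LT.Descent.TameFactor
import Fermat.Agent.LT.Descent.TwistForm
import Fermat.Agent.LT.Descent.SFormLevels

set_option autoImplicit false

noncomputable section

namespace Fermat.Agent.Extra.LTGen

open Fermat.Agent.LT Fermat.Agent.LT.Descent
open IsDedekindDomain IsDedekindDomain.HeightOneSpectrum NumberField Matrix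
open Fermat.Agent.LT.Adelic Fermat.Agent.LT.Aleph Fermat.Agent.LT.Tame
open Fermat.Agent.LT.Descent.Places
open scoped MatrixGroups

section Generic

variable {G V : Type*} [Group G] [AddCommGroup V] [Module ℂ V] {R : G →* (V →ₗ[ℂ] V)}
  {J : Subgroup G} {e : V →ₗ[ℂ] V}

/-- The values of the level projection are fixed by the level. -/
theorem apply_levelProj_of_mem (he : ∀ v H, IsStab R J H v → e v = avgOver R J H v)
    (hsm : ∀ v, ∃ H : Subgroup J, IsStab R J H v) {j : G} (hj : j ∈ J) (v : V) :
    R j (e v) = e v := by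
  classical
  obtain ⟨H, hH⟩ := hsm v
  have hinj : Function.Injective (R j) := fun a b h => by
    simpa [← Module.End.mul_apply, ← map_mul] using congrArg (R j⁻¹) h
  rw [levelProj_eq_orbit he hH, map_smul, map_sum]
  congr 1
  refine (Finset.sum_image (s := (finite_range_of_isStab hH).toFinset) (f := fun w => w)
    fun a _ b _ h => hinj h).symm.trans (congrArg (fun T => ∑ w ∈ T, w) ?_)
  refine Finset.eq_of_subset_of_card_le (fun w hw => ?_)
    (Finset.card_image_of_injective _ hinj).ge
  obtain ⟨x, hx, rfl⟩ := Finset.mem_image.1 hw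
  rw [Set.Finite.mem_toFinset] at hx ⊢
  obtain ⟨i, rfl⟩ := hx
  exact ⟨⟨j, hj⟩ * i, by simp only [Subgroup.coe_mul, map_mul, Module.End.mul_apply]⟩

/-- A fixed vector is its own projection. -/
theorem levelProj_of_fixed (he : ∀ v H, IsStab R J H v → e v = avgOver R J H v) {v : V}
    (hv : v ∈ fixedVectors R J) : e v = v := by
  have htop : IsStab R J ⊤ v := ⟨inferInstance, fun h _ => hv h h.2⟩
  have := Fintype.ofFinite (J ⧸ (⊤ : Subgroup J))
  rw [he v ⊤ htop, avgOver_eq htop.1, Finset.sum_congr rfl fun q _ => hv _ q.out.2,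
    Finset.sum_const, Finset.card_univ, ← Nat.cast_smul_eq_nsmul ℂ, smul_smul,
    inv_mul_cancel₀ (Nat.cast_ne_zero.2 Fintype.card_ne_zero), one_smul]

end Generic

section Levels

variable {K : Type*} [Field K] [NumberField K]

/-- A principal level lies in the congruence groups of its modulus. -/
theorem principalLevel_le_congr (n : 𝓞 K) :
    principalLevel K n ≤ productLevel fun v => congrLoc v (v.intValuation n) := by
  refine principalLevel_le_productLevel fun v γ hint hA => mem_congrLoc.2 ⟨hint, hA, fun i j => ?_⟩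
  rw [show (((γ⁻¹ : GL (Fin 2) (v.adicCompletion K)) :
      Matrix (Fin 2) (Fin 2) (v.adicCompletion K)) - 1) =
      -((((γ⁻¹ : GL (Fin 2) (v.adicCompletion K)) : Matrix (Fin 2) (Fin 2) _)) *
        ((γ : Matrix (Fin 2) (Fin 2) (v.adicCompletion K)) - 1)) by
      rw [mul_sub, Units.inv_mul, mul_one, neg_sub],
    Matrix.neg_apply, Valuation.map_neg, Matrix.mul_apply]
  refine Valuation.map_sum_le _ fun k _ => ?_
  rw [map_mul]
  exact (mul_le_mul' (hint i k).2 (hA k j)).trans (one_mul _).le

theorem congrLoc_le_localFull (v : HeightOneSpectrum (𝓞 K)) (b : WithZero (Multiplicative ℤ)) :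
    congrLoc v b ≤ localFull K v := fun _ h => h.1

/-- The integral elements normalise the congruence groups. -/
theorem conj_mem_congrLoc {v : HeightOneSpectrum (𝓞 K)} {b : WithZero (Multiplicative ℤ)}
    {h k : GL (Fin 2) (v.adicCompletion K)} (hh : IsIntLocal h) (hk : k ∈ congrLoc v b) :
    h * k * h⁻¹ ∈ congrLoc v b := by
  have key : ∀ k : GL (Fin 2) (v.adicCompletion K),
      (∀ i j, Valued.v ((k.1 - 1) i j) ≤ b) → ∀ i j, Valued.v (((h * k * h⁻¹).1 - 1) i j) ≤ b := by
    intro k hk i j
    have e : (h * k * h⁻¹).1 - 1 = h.1 * (k.1 - 1) * (h⁻¹).1 := by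
      rw [mul_sub, sub_mul, mul_one, ← Units.val_mul, ← Units.val_mul, Units.mul_inv]
    rw [e, Matrix.mul_apply]
    refine Valuation.map_sum_le _ fun l _ => ?_
    rw [map_mul]
    refine (mul_le_mul' ?_ (hh l j).2).trans (mul_one b).le
    rw [Matrix.mul_apply]
    refine Valuation.map_sum_le _ fun m _ => ?_
    rw [map_mul]
    exact (mul_le_mul' (hh i m).1 (hk m l)).trans (one_mul b).le
  refine mem_congrLoc.2 ⟨(hh.mul hk.1).mul hh.inv, key k hk.2.1, ?_⟩
  rw [show (h * k * h⁻¹)⁻¹ = h * k⁻¹ * h⁻¹ by group]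
  exact key k⁻¹ hk.2.2

theorem intValuation_le_of_dvd {v : HeightOneSpectrum (𝓞 K)} {a b : ℕ} (h : a ∣ b) :
    v.intValuation (b : 𝓞 K) ≤ v.intValuation (a : 𝓞 K) := by
  obtain ⟨c, rfl⟩ := h
  rw [Nat.cast_mul, map_mul]
  exact (mul_le_mul' le_rfl (v.intValuation_le_one _)).trans (mul_one _).le

end Levels

variable {K : Type*} [Field K] [NumberField K] {K' : Type*} [Field K'] [NumberField K']
  [Algebra K K'] {Φ : Frame K Unit} {Φ' : Frame K' (Fin 3)} {tw : CubicTwist Φ Φ'}
  {B : GenBase tw}

namespace GenBase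

variable (B)

/-- The places over the deep places. -/
abbrev deep' : Set (HeightOneSpectrum (𝓞 K')) := placesAbove B.deepPlaces

theorem finite_deep' : B.deep'.Finite :=
  finite_placesAbove B.gen (B.bad_finite.subset fun _ hv => hv.1)

theorem deep'_subset_bad' : B.deep' ⊆ B.bad' := fun _ ⟨v, hv, hw⟩ => ⟨v, hv.1, hw⟩

include B in
theorem placePerm_mem_placesAbove (T : Set (HeightOneSpectrum (𝓞 K)))
    (w : HeightOneSpectrum (𝓞 K')) :
    placePerm tw.σ.toRingEquiv w ∈ placesAbove T ↔ w ∈ placesAbove (K' := K') T := by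
  constructor
  · rintro ⟨v, hv, h⟩
    refine ⟨v, hv, ?_⟩
    have := isAbove_placePerm (σ := tw.σ) (isAbove_placePerm (σ := tw.σ) h)
    rwa [placePerm_cube B.gen] at this
  · rintro ⟨v, hv, h⟩
    exact ⟨v, hv, isAbove_placePerm h⟩

theorem eig_placePerm (w : HeightOneSpectrum (𝓞 K')) (hw : w ∉ B.bad') :
    B.eig (placePerm tw.σ.toRingEquiv w) = B.eig w := by
  obtain ⟨v, hv⟩ := exists_below (K := K) w
  have hvb : v ∉ B.bad := fun h => hw ((B.mem_bad'_iff hv).2 h)
  rcases B.isInert_or_isSplit hvb with h | h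
  · rw [(h w hv).1]
  · exact B.eig_twist v w hvb h hv

/-- The twist on the forms. -/
def twistMap : B.forms →ₗ[ℂ] B.forms :=
  twistForm tw (B.placePerm_mem_placesAbove B.bad) B.eig_placePerm

/-- The twist of an element living at the bad places. -/
def gfTwist (x : gfSupported B.bad') : gfSupported B.bad' :=
  ⟨gfAut tw.σ.toRingEquiv (x : GfK K'),
    gfAut_mem_gfSupported (tw := tw) (B.placePerm_mem_placesAbove B.bad) x.2⟩

theorem formsRep_twistMap (x : gfSupported B.bad') (φ : B.forms) :
    B.formsRep x (B.twistMap φ) = B.twistMap (B.formsRep (B.gfTwist x) φ) := by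
  refine Subtype.ext (funext fun τ => funext fun g => ?_)
  show twistFn tw φ.1 τ (g * (x : GfK K')) =
    φ.1 (fun i => τ (i + 1)) (gfAut tw.σ.toRingEquiv g * (B.gfTwist x : GfK K'))
  simp only [twistFn, map_mul]
  rfl

end GenBase

namespace DeepLoc

variable (C : DeepLoc B)

/-- The group of the characters. -/
def group : Subgroup (gfSupported B.bad') where
  carrier := {x | ∀ w, (w ∈ B.deep' → localGL K' w (x : GfK K') ∈ C.H w) ∧
    (w ∉ B.deep' → localGL K' w (x : GfK K') = 1)}
  one_mem' := fun w => ⟨fun _ => by rw [OneMemClass.coe_one, map_one]; exact one_mem _,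
    fun _ => map_one _⟩
  mul_mem' := fun hx hy w => ⟨fun h => by
      rw [Subgroup.coe_mul, map_mul]; exact mul_mem ((hx w).1 h) ((hy w).1 h),
    fun h => by rw [Subgroup.coe_mul, map_mul, (hx w).2 h, (hy w).2 h, one_mul]⟩
  inv_mem' := fun {x} hx w => ⟨fun h => by
      rw [Subgroup.coe_inv, map_inv]; exact inv_mem ((hx w).1 h),
    fun h => by rw [Subgroup.coe_inv, map_inv, (hx w).2 h, inv_one]⟩

theorem group_le_deepPart : C.group ≤ B.deepPart := fun _ hx w hw => (hx w).2 hw

/-- The component at a deep place. -/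
def locHom {w : HeightOneSpectrum (𝓞 K')} (hw : w ∈ B.deep') : C.group →* C.H w where
  toFun x := ⟨localGL K' w ((x : gfSupported B.bad') : GfK K'), (x.2 w).1 hw⟩
  map_one' := Subtype.ext (map_one _)
  map_mul' _ _ := Subtype.ext (map_mul _ _ _)

/-- The product of the characters. -/
def char : C.group →* ℂˣ :=
  ∏ w : B.finite_deep'.toFinset,
    (C.χ w.1).comp (C.locHom (B.finite_deep'.mem_toFinset.1 w.2))

theorem char_apply (x : C.group) : C.char x =
    ∏ w : B.finite_deep'.toFinset, C.χ w.1 (C.locHom (B.finite_deep'.mem_toFinset.1 w.2) x) := by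
  rw [char, MonoidHom.finsetProd_apply]
  rfl

theorem char_eq_of_single {w : HeightOneSpectrum (𝓞 K')} (hw : w ∈ B.deep') (x : C.group)
    (h : ∀ u ≠ w, localGL K' u ((x : gfSupported B.bad') : GfK K') = 1) :
    C.char x = C.χ w (C.locHom hw x) := by
  rw [char_apply, Fintype.prod_eq_single ⟨w, B.finite_deep'.mem_toFinset.2 hw⟩ fun u hu => ?_]
  rw [show C.locHom (B.finite_deep'.mem_toFinset.1 u.2) x = 1 from
    Subtype.ext (h u.1 fun e => hu (Subtype.ext e)), map_one]

theorem isIntLocal_of_mem {x : gfSupported B.bad'} (hx : x ∈ C.group)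
    (w : HeightOneSpectrum (𝓞 K')) : IsIntLocal (localGL K' w (x : GfK K')) := by
  by_cases hw : w ∈ B.deep'
  · exact (C.H_le w hw ((hx w).1 hw)).1
  · rw [(hx w).2 hw]; exact isIntLocal_one

theorem group_le_one (x : C.group) :
    ((x : gfSupported B.bad') : GfK K') ∈ principalLevel K' (1 : 𝓞 K') :=
  Aleph.mem_principalLevel_one_iff.2 (C.isIntLocal_of_mem x.2)

/-- The characters are trivial on the principal group of modulus `N₁`. -/
theorem char_eq_one_of_mem (x : C.group) {n : 𝓞 K'}
    (hn : (C.N₁ : 𝓞 K') ∣ n)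
    (hx : ((x : gfSupported B.bad') : GfK K') ∈ principalLevel K' n) : C.char x = 1 := by
  rw [char_apply]
  refine Finset.prod_eq_one fun w _ => C.trivial w.1 (B.finite_deep'.mem_toFinset.1 w.2) _ ?_
  exact (mem_productLevel _).1 (principalLevel_le_congr _ (principalLevel_mono hn hx)) w.1

theorem mem_group_of_mem {x : gfSupported B.bad'} (hx : x ∈ B.deepPart)
    (h : (x : GfK K') ∈ principalLevel K' (C.N₁ : 𝓞 K')) : x ∈ C.group := fun w =>
  ⟨fun hw => C.le_H w hw ((mem_productLevel _).1 (principalLevel_le_congr _ h) w), hx w⟩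

variable {C}

/-- **Isotypic forms are those transforming by the product of the characters.** -/
theorem isIsotypic_iff {φ : B.forms} :
    C.IsIsotypic φ ↔ ∀ h : C.group, B.formsRep h φ = (C.char h : ℂ) • φ := by
  classical
  constructor
  · intro hφ
    suffices key : ∀ T : Finset (HeightOneSpectrum (𝓞 K')), ∀ h : C.group,
        (∀ w ∉ T, localGL K' w ((h : gfSupported B.bad') : GfK K') = 1) →
          B.formsRep h φ = (C.char h : ℂ) • φ by
      exact fun h => key B.finite_deep'.toFinset h fun w hw =>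
        (h.2 w).2 fun hd => hw (B.finite_deep'.mem_toFinset.2 hd)
    intro T
    induction T using Finset.induction_on with
    | empty =>
      intro h hh
      have h1 : h = 1 := Subtype.ext (Subtype.ext (Aleph.gf_ext fun w => by
        rw [hh w (Finset.notMem_empty w)]; exact (map_one _).symm))
      rw [h1, map_one, OneMemClass.coe_one, map_one, Units.val_one, one_smul,
        Module.End.one_apply]
    | insert a T _ ih =>
      intro h hh
      by_cases ha : a ∈ B.deep'
      · obtain ⟨p, hp, hp'⟩ := exists_part {a} (h : gfSupported B.bad')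
        have hpg : p ∈ C.group := fun w => by
          rcases eq_or_ne w a with rfl | hw
          · rw [hp w rfl]; exact h.2 w
          · rw [hp' w hw]; exact ⟨fun _ => one_mem _, fun _ => rfl⟩
        set q : C.group := ⟨p, hpg⟩⁻¹ * h
        have e : h = ⟨p, hpg⟩ * q := (mul_inv_cancel_left _ _).symm
        have hq : ∀ w ∉ T, localGL K' w ((q : gfSupported B.bad') : GfK K') = 1 := fun w hw => by
          show localGL K' w (((p⁻¹ * (h : gfSupported B.bad') : gfSupported B.bad')) : GfK K') = 1
          rw [Subgroup.coe_mul, Subgroup.coe_inv, map_mul, map_inv]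
          rcases eq_or_ne w a with rfl | hwa
          · rw [hp w rfl, inv_mul_cancel]
          · rw [hp' w hwa, inv_one, one_mul, hh w]
            rw [Finset.mem_insert]
            exact not_or.2 ⟨hwa, hw⟩
        have h1 : B.formsRep p φ = (C.char ⟨p, hpg⟩ : ℂ) • φ := by
          rw [C.char_eq_of_single ha ⟨p, hpg⟩ fun u hu => hp' u hu]
          exact hφ a ha p ((hpg a).1 ha) fun u hu => hp' u hu
        rw [e, Subgroup.coe_mul, map_mul, map_mul, Module.End.mul_apply, ih q hq, map_smul, h1,
          smul_smul, Units.val_mul, mul_comm]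
      · exact ih h fun w hw => by
          rcases eq_or_ne w a with rfl | hwa
          · exact (h.2 w).2 ha
          · exact hh w (by rw [Finset.mem_insert]; exact not_or.2 ⟨hwa, hw⟩)
  · intro hφ w hw x hx hx'
    have hg : x ∈ C.group := fun u => by
      rcases eq_or_ne u w with rfl | hu
      · exact ⟨fun _ => hx, fun h => absurd hw h⟩
      · rw [hx' u hu]; exact ⟨fun _ => one_mem _, fun _ => rfl⟩
    rw [hφ ⟨x, hg⟩, C.char_eq_of_single hw ⟨x, hg⟩ hx']
    rfl

variable (C)

/-- Translations divided by the characters. -/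
def rep : C.group →* (B.forms →ₗ[ℂ] B.forms) where
  toFun h := (C.char h : ℂ)⁻¹ • B.formsRep (h : gfSupported B.bad')
  map_one' := by rw [map_one, Units.val_one, inv_one, one_smul, OneMemClass.coe_one, map_one]
  map_mul' x y := by
    rw [map_mul, Units.val_mul, Subgroup.coe_mul, map_mul, smul_mul_smul_comm, mul_inv]

theorem rep_apply (h : C.group) (φ : B.forms) :
    C.rep h φ = (C.char h : ℂ)⁻¹ • B.formsRep (h : gfSupported B.bad') φ := rfl

/-- The finite index groups of principal moduli. -/
def modulusSubgroup (n : 𝓞 K') : Subgroup (⊤ : Subgroup C.group) :=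
  (principalLevel K' n).comap
    (((gfSupported B.bad').subtype.comp C.group.subtype).comp (⊤ : Subgroup C.group).subtype)

theorem finiteIndex_modulusSubgroup {n : 𝓞 K'} (hn : n ≠ 0) :
    (C.modulusSubgroup n).FiniteIndex :=
  finiteIndex_comap_principalLevel _ (fun j => C.group_le_one j.1) hn

theorem mem_modulusSubgroup {n : 𝓞 K'} {h : (⊤ : Subgroup C.group)} :
    h ∈ C.modulusSubgroup n ↔
      (((h : C.group) : gfSupported B.bad') : GfK K') ∈ principalLevel K' n := Iff.rfl

/-- A modulus fixing the translates of the forms of a modulus. -/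
theorem isStab_of_modulus {m : 𝓞 K'} (hm : m ≠ 0) {φ : B.forms}
    (h : ∀ u : gfSupported B.bad', u ∈ B.deepPart → (u : GfK K') ∈ principalLevel K' m →
      B.formsRep u φ = φ) :
    IsStab C.rep ⊤ (C.modulusSubgroup (m * (C.N₁ : 𝓞 K'))) φ := by
  refine ⟨C.finiteIndex_modulusSubgroup (mul_ne_zero hm (Nat.cast_ne_zero.2 C.N₁_ne)),
    fun j hj => ?_⟩
  rw [mem_modulusSubgroup] at hj
  rw [rep_apply, C.char_eq_one_of_mem _ (dvd_mul_left _ _) hj, Units.val_one, inv_one, one_smul]
  exact h _ (C.group_le_deepPart j.1.2) (principalLevel_mono (dvd_mul_right _ _) hj)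

theorem exists_isStab (φ : B.forms) : ∃ H : Subgroup (⊤ : Subgroup C.group),
    IsStab C.rep ⊤ H φ := by
  obtain ⟨m, hm, hfix⟩ := φ.2.smooth
  exact ⟨_, C.isStab_of_modulus hm.1 fun u _ hu =>
    Subtype.ext (funext fun τ => funext fun g => hfix τ g _ hu)⟩

/-- **The projection onto the isotypic forms.** -/
def proj : B.forms →ₗ[ℂ] B.forms := (exists_levelProj C.exists_isStab).choose

theorem proj_eq : ∀ φ H, IsStab C.rep ⊤ H φ → C.proj φ = avgOver C.rep ⊤ H φ :=
  (exists_levelProj C.exists_isStab).choose_spec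

theorem proj_formsRep (h : C.group) (φ : B.forms) :
    C.proj (B.formsRep h φ) = (C.char h : ℂ) • C.proj φ := by
  have h1 := levelProj_left C.proj_eq C.exists_isStab (Subgroup.mem_top h) φ
  rw [rep_apply, map_smul, inv_smul_eq_iff₀ (Units.ne_zero _)] at h1
  exact h1

theorem isIsotypic_proj (φ : B.forms) : C.IsIsotypic (C.proj φ) :=
  isIsotypic_iff.2 fun h => by
    have h1 := apply_levelProj_of_mem C.proj_eq C.exists_isStab (Subgroup.mem_top h) φ
    rwa [rep_apply, inv_smul_eq_iff₀ (Units.ne_zero _)] at h1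

theorem proj_of_isIsotypic {φ : B.forms} (hφ : C.IsIsotypic φ) : C.proj φ = φ :=
  levelProj_of_fixed C.proj_eq fun h _ => by
    rw [rep_apply, (isIsotypic_iff.1 hφ) h, inv_smul_smul₀ (Units.ne_zero _)]

/-- Isotypic forms are fixed by the deep elements of modulus `N₁`. -/
theorem formsRep_of_isIsotypic {φ : B.forms} (hφ : C.IsIsotypic φ) {u : gfSupported B.bad'}
    (hu : u ∈ B.deepPart) (hu' : (u : GfK K') ∈ principalLevel K' (C.N₁ : 𝓞 K')) :
    B.formsRep u φ = φ := by
  have h1 := (isIsotypic_iff.1 hφ) ⟨u, C.mem_group_of_mem hu hu'⟩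
  have h2 : C.char ⟨u, C.mem_group_of_mem hu hu'⟩ = 1 :=
    C.char_eq_one_of_mem ⟨u, C.mem_group_of_mem hu hu'⟩ (dvd_refl (C.N₁ : 𝓞 K')) hu'
  rwa [h2, Units.val_one, one_smul] at h1

/-- Projected translations of isotypic forms are one combination of translations. -/
theorem exists_comb_proj {x : gfSupported B.bad'} (hx : x ∈ B.deepPart) :
    ∃ c : gfSupported B.bad' →₀ ℂ, (∀ y ∈ c.support, y ∈ B.deepPart) ∧
      ∀ φ, C.IsIsotypic φ →
        C.proj (B.formsRep x φ) = c.sum fun y r => r • B.formsRep y φ := by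
  classical
  obtain ⟨m, hm, hconj⟩ := exists_conj_le ((x : GfK K')⁻¹) (n := (C.N₁ : 𝓞 K'))
    (Nat.cast_ne_zero.2 C.N₁_ne)
  set M := C.modulusSubgroup (m * (C.N₁ : 𝓞 K'))
  have hM : M.FiniteIndex :=
    C.finiteIndex_modulusSubgroup (mul_ne_zero hm (Nat.cast_ne_zero.2 C.N₁_ne))
  have := Fintype.ofFinite ((⊤ : Subgroup C.group) ⧸ M)
  set k : ℂ := (Fintype.card ((⊤ : Subgroup C.group) ⧸ M) : ℂ)⁻¹
  refine ⟨∑ q : (⊤ : Subgroup C.group) ⧸ M,
    Finsupp.single (((q.out : C.group) : gfSupported B.bad') * x)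
      (k * (C.char (q.out : C.group) : ℂ)⁻¹), fun y hy => ?_, fun φ hφ => ?_⟩
  · obtain ⟨q, -, hq⟩ := Finset.mem_biUnion.1 (Finsupp.support_finsetSum hy)
    rw [Finset.mem_singleton.1 (Finsupp.support_single_subset hq)]
    exact mul_mem (C.group_le_deepPart (q.out : C.group).2) hx
  · have hst : IsStab C.rep ⊤ M (B.formsRep x φ) := C.isStab_of_modulus hm fun u hu hu' => by
      have h1 := C.formsRep_of_isIsotypic hφ
        (mul_mem (mul_mem (inv_mem hx) hu) hx) (u := x⁻¹ * u * x) (by
          have := hconj _ hu'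
          rw [inv_inv] at this
          exact this)
      conv_rhs => rw [← h1]
      rw [← Module.End.mul_apply, ← map_mul, ← Module.End.mul_apply, ← map_mul, mul_assoc x⁻¹ u x,
        mul_inv_cancel_left]
    rw [C.proj_eq _ _ hst, avgOver_eq hM, Finset.smul_sum,
      ← Finsupp.sum_finsetSum_index (h := fun y r => r • B.formsRep y φ) (fun _ => zero_smul ℂ _)
        (fun _ _ _ => add_smul _ _ _)]
    refine Finset.sum_congr rfl fun q _ => ?_
    rw [Finsupp.sum_single_index (h := fun y r => r • B.formsRep y φ) (zero_smul ℂ _), rep_apply,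
      smul_smul, map_mul]
    rfl

/-- The twist permutes the group of the characters. -/
theorem gfTwist_mem_group (h : C.group) :
    B.gfTwist (h : gfSupported B.bad') ∈ C.group ∧
      ∀ hh, C.char ⟨B.gfTwist (h : gfSupported B.bad'), hh⟩ = C.char h := by
  classical
  have hloc : ∀ w, localGL K' w (B.gfTwist (h : gfSupported B.bad') : GfK K') =
      GeneralLinearGroup.map (completionEquiv tw.σ.toRingEquiv
        (valuation_apply_placePerm tw.σ.toRingEquiv w)).toRingHom
        (localGL K' (placePerm tw.σ.toRingEquiv w) ((h : gfSupported B.bad') : GfK K')) :=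
    fun w => localGL_gfHom _ _ _ _ w
  have hmem : B.gfTwist (h : gfSupported B.bad') ∈ C.group := fun w => by
    rw [hloc]
    refine ⟨fun hw => ?_, fun hw => ?_⟩
    · obtain ⟨k', hk', -⟩ := C.stable w hw
        (C.locHom ((B.placePerm_mem_placesAbove _ w).2 hw) h)
      exact hk' ▸ k'.2
    · rw [(h.2 _).2 fun hd => hw ((B.placePerm_mem_placesAbove _ w).1 hd), map_one]
  refine ⟨hmem, fun hh => ?_⟩
  have key : ∀ w (hw : w ∈ B.deep'), C.χ w (C.locHom hw ⟨_, hh⟩) =
      C.χ _ (C.locHom ((B.placePerm_mem_placesAbove _ w).2 hw) h) := fun w hw => by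
    obtain ⟨k', hk', hχ⟩ := C.stable w hw
      (C.locHom ((B.placePerm_mem_placesAbove _ w).2 hw) h)
    rw [← hχ]
    exact congrArg (C.χ w) (Subtype.ext ((hloc w).trans hk'.symm))
  rw [char_apply, char_apply]
  refine Fintype.prod_equiv ((placePerm tw.σ.toRingEquiv).subtypeEquiv fun w => by
    rw [B.finite_deep'.mem_toFinset, B.finite_deep'.mem_toFinset,
      B.placePerm_mem_placesAbove]) _ _ fun w => key w.1 _

/-- **The twist preserves isotypic forms.** -/
theorem isIsotypic_twistMap {φ : B.forms} (hφ : C.IsIsotypic φ) :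
    C.IsIsotypic (B.twistMap φ) :=
  isIsotypic_iff.2 fun h => by
    obtain ⟨hh, hchar⟩ := C.gfTwist_mem_group h
    rw [B.formsRep_twistMap, (isIsotypic_iff.1 hφ) ⟨_, hh⟩, hchar hh, map_smul]

end DeepLoc

namespace DeepChar

variable (C : DeepChar B)

/-- **Projected translations at the deep places are scalars on the isotypic forms.** -/
theorem exists_proj_formsRep_eq {x : gfSupported B.bad'} (hx : x ∈ B.deepPart) :
    ∃ s : ℂ, ∀ φ, C.IsIsotypic φ → C.proj (B.formsRep x φ) = s • φ := by
  obtain ⟨c, hc, hcφ⟩ := C.exists_comb_proj hx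
  obtain ⟨s, hs⟩ := C.scalar c hc fun φ hφ => by
    rw [← hcφ φ hφ]
    exact C.isIsotypic_proj _
  exact ⟨s, fun φ hφ => (hcφ φ hφ).trans (hs φ hφ)⟩

end DeepChar

end Fermat.Agent.Extra.LTGen

end
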