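/-
Local groups with additive characters at the deep places, and the invariance of the additive
character under the twist.
-/
import Fermat.Agent.Extra.LTGen.Descent.TargetDeep
import Fermat.Agent.LT.Descent.KirillovSeparation
import Fermat.Agent.LT.Descent.TwistForm
import Fermat.Agent.LT.Asai.Lifts

/-!
# Groups and characters of arbitrary depth

At a place `v` the group `deepGroup v e b c` consists of the matrices congruent to `1` modulo `e`
with upper right entry at most `b` and lower left entry at most `c`; for `|a| e b ≤ |δ|` the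
function `g ↦ ψ(a g₀₁)` is a character of it.
-/

set_option autoImplicit false

noncomputable section

namespace Fermat.Agent.Extra.LTGen

open Fermat.Agent.LT Fermat.Agent.LT.Adelic Fermat.Agent.LT.Aleph
open Fermat.Agent.LT.Tame (placePerm adeleAut adeleHom_algebraMap adeleHom_apply completionEquiv
  valuation_apply_placePerm)
open Fermat.Agent.LT.Descent
open IsDedekindDomain IsDedekindDomain.HeightOneSpectrum NumberField Matrix
open scoped MatrixGroups

section Field

variable {K : Type*} [Field K] [NumberField K]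

/-- The adele supported at `v` with component `z`. -/
def adeleSingle (v : HeightOneSpectrum (𝓞 K)) (z : v.adicCompletion K) :
    FiniteAdeleRing (𝓞 K) K :=
  (exists_single v z).choose

theorem adeleSingle_self (v : HeightOneSpectrum (𝓞 K)) (z : v.adicCompletion K) :
    adeleSingle v z v = z :=
  (exists_single v z).choose_spec.2

theorem adeleSingle_of_ne {v w : HeightOneSpectrum (𝓞 K)} (h : w ≠ v) (z : v.adicCompletion K) :
    adeleSingle v z w = 0 :=
  (exists_single v z).choose_spec.1 w h

theorem adeleSingle_add (v : HeightOneSpectrum (𝓞 K)) (z z' : v.adicCompletion K) :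
    adeleSingle v (z + z') = adeleSingle v z + adeleSingle v z' :=
  FiniteAdeleRing.ext K fun w => by
    by_cases h : w = v
    · subst h; simp [coe_apply_add, adeleSingle_self]
    · simp [coe_apply_add, adeleSingle_of_ne h]

theorem adeleSingle_zero (v : HeightOneSpectrum (𝓞 K)) :
    adeleSingle v (0 : v.adicCompletion K) = 0 :=
  FiniteAdeleRing.ext K fun w => by
    by_cases h : w = v
    · subst h; simp [coe_apply_zero, adeleSingle_self]
    · simp [coe_apply_zero, adeleSingle_of_ne h]

/-- The additive character is trivial below the conductor. -/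
theorem psiF_eq_one_of_le {y : FiniteAdeleRing (𝓞 K) K}
    (h : ∀ v, Valued.v (y v) ≤ Valued.v ((conductorIdele K : FiniteAdeleRing (𝓞 K) K) v)) :
    psiF y = 1 := by
  have hy : y = (conductorIdele K : FiniteAdeleRing (𝓞 K) K) *
      (((conductorIdele K)⁻¹ : (FiniteAdeleRing (𝓞 K) K)ˣ) * y) := by
    rw [← mul_assoc, Units.mul_inv, one_mul]
  rw [hy]
  refine (exists_conductor_psiF K).choose_spec.1 _ fun v => ?_
  rw [coe_apply_mul, map_mul, inv_apply, map_inv₀]
  exact inv_mul_le_one_of_le₀ (h v) zero_le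

theorem psiF_eq_of_le {x y : FiniteAdeleRing (𝓞 K) K}
    (h : ∀ v, Valued.v (x v - y v) ≤ Valued.v ((conductorIdele K : FiniteAdeleRing (𝓞 K) K) v)) :
    psiF x = psiF y := by
  have h1 : psiF (x - y) = 1 := psiF_eq_one_of_le fun v => by rw [coe_apply_sub]; exact h v
  conv_lhs => rw [← sub_add_cancel x y, AddChar.map_add_eq_mul, h1, one_mul]

theorem psiF_adeleSingle_eq_one {v : HeightOneSpectrum (𝓞 K)} {z : v.adicCompletion K}
    (h : Valued.v z ≤ Valued.v ((conductorIdele K : FiniteAdeleRing (𝓞 K) K) v)) :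
    psiF (adeleSingle v z) = 1 :=
  psiF_eq_one_of_le fun w => by
    by_cases hw : w = v
    · subst hw; rwa [adeleSingle_self]
    · rw [adeleSingle_of_ne hw, map_zero]; exact zero_le

/-- The additive character is invariant under automorphisms. -/
theorem psiF_adeleAut (σ : K ≃+* K) (t : FiniteAdeleRing (𝓞 K) K) :
    psiF (adeleAut σ t) = psiF t := by
  obtain ⟨x, hx⟩ := exists_sub_mem_intAdele t
  have hx' : adeleAut σ t - algebraMap K _ (σ x) ∈ intAdele (𝓞 K) K := by
    rw [← adeleHom_algebraMap σ (placePerm σ) (valuation_apply_placePerm σ)]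
    intro v
    rw [adeleAut, ← map_sub, adeleHom_apply, valued_completionEquiv]
    exact hx (placePerm σ v)
  rw [psiF_apply_of_sub_mem hx', psiF_apply_of_sub_mem hx]
  have hq : ∀ q : ℚ, σ (algebraMap ℚ K q) = algebraMap ℚ K q := fun q => by simp
  rw [show Algebra.trace ℚ K (σ x) = Algebra.trace ℚ K x from
    Algebra.trace_eq_of_algEquiv (AlgEquiv.ofRingEquiv (f := σ) hq) x]

theorem valued_le_of_sub_one {v : HeightOneSpectrum (𝓞 K)}
    {A : Matrix (Fin 2) (Fin 2) (v.adicCompletion K)} {b : WithZero (Multiplicative ℤ)}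
    (hb : b ≤ 1) (h : ∀ i j, Valued.v ((A - 1) i j) ≤ b) (i j : Fin 2) : Valued.v (A i j) ≤ 1 := by
  rw [show A i j = (A - 1) i j + (1 : Matrix (Fin 2) (Fin 2) (v.adicCompletion K)) i j by
    rw [Matrix.sub_apply, sub_add_cancel]]
  refine (Valuation.map_add _ _ _).trans (max_le ((h i j).trans hb) ?_)
  rw [Matrix.one_apply]
  split <;> simp

theorem mem_congrLoc_of_le {v : HeightOneSpectrum (𝓞 K)} {b : WithZero (Multiplicative ℤ)}
    (hb : b ≤ 1) {γ : GL (Fin 2) (v.adicCompletion K)}
    (h : ∀ i j, Valued.v ((γ.1 - 1) i j) ≤ b) (h' : ∀ i j, Valued.v (((γ⁻¹).1 - 1) i j) ≤ b) :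
    γ ∈ congrLoc v b :=
  ⟨fun i j => ⟨valued_le_of_sub_one hb h i j, valued_le_of_sub_one hb h' i j⟩, h, h'⟩

/-- The principal levels are given place by place. -/
theorem mem_principalLevel_iff_congrLoc {n : 𝓞 K} {x : GfK K} :
    x ∈ principalLevel K n ↔ ∀ v, localGL K v x ∈ congrLoc v (v.intValuation n) := by
  have key : ∀ (y : GfK K) (v : HeightOneSpectrum (𝓞 K)) (i j : Fin 2),
      (((y : Matrix (Fin 2) (Fin 2) (FiniteAdeleRing (𝓞 K) K)) - 1) i j) v =
        ((localGL K v y : Matrix (Fin 2) (Fin 2) (v.adicCompletion K)) - 1) i j := fun y v i j => by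
    rw [Matrix.sub_apply, coe_apply_sub, ← localGL_apply, Matrix.sub_apply]
    congr 1
    rw [Matrix.one_apply, Matrix.one_apply]
    split <;> simp [coe_apply_one, coe_apply_zero]
  rw [mem_principalLevel]
  refine ⟨fun h v => mem_congrLoc_of_le (v.intValuation_le_one n) (fun i j => ?_) fun i j => ?_,
    fun h => ⟨fun i j v => ?_, fun i j v => ?_⟩⟩
  · rw [← key]; exact h.1 i j v
  · rw [← map_inv, ← key]; exact h.2 i j v
  · rw [key]; exact (h v).2.1 i j
  · rw [key, map_inv]; exact (h v).2.2 i j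

/-- Conjugation by integral elements preserves the principal levels. -/
theorem conj_mem_principalLevel_of_int {n : 𝓞 K} {q x : GfK K}
    (hq : q ∈ principalLevel K (1 : 𝓞 K)) (hx : x ∈ principalLevel K n) :
    q⁻¹ * x * q ∈ principalLevel K n := by
  rw [mem_principalLevel_iff_congrLoc] at hx ⊢
  intro v
  rw [map_mul, map_mul, map_inv]
  simpa only [inv_inv] using conj_mem_congrLoc (mem_principalLevel_one_iff.1 hq v).inv (hx v)

/-- Matrices congruent to `1` modulo `e` with off diagonal entries bounded by `b` and `c`. -/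
def deepGroup (v : HeightOneSpectrum (𝓞 K)) (e b c : WithZero (Multiplicative ℤ)) :
    Subgroup (GL (Fin 2) (v.adicCompletion K)) where
  carrier := {g | g ∈ congrLoc v e ∧ (Valued.v (g.1 0 1) ≤ b ∧ Valued.v (g.1 1 0) ≤ c) ∧
    (Valued.v ((g⁻¹).1 0 1) ≤ b ∧ Valued.v ((g⁻¹).1 1 0) ≤ c)}
  one_mem' := ⟨one_mem _, by simp, by simp⟩
  inv_mem' h := ⟨inv_mem h.1, h.2.2, by rw [inv_inv]; exact h.2.1⟩
  mul_mem' {x y} hx hy := by
    have key : ∀ {A B : Matrix (Fin 2) (Fin 2) (v.adicCompletion K)},
        (∀ i j, Valued.v (A i j) ≤ 1) → (∀ i j, Valued.v (B i j) ≤ 1) →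
        (Valued.v (A 0 1) ≤ b ∧ Valued.v (A 1 0) ≤ c) →
        (Valued.v (B 0 1) ≤ b ∧ Valued.v (B 1 0) ≤ c) →
        Valued.v ((A * B) 0 1) ≤ b ∧ Valued.v ((A * B) 1 0) ≤ c := by
      intro A B hAi hBi hA hB
      constructor <;> rw [Matrix.mul_apply, Fin.sum_univ_two] <;>
        refine (Valuation.map_add _ _ _).trans (max_le ?_ ?_) <;> rw [map_mul]
      · exact (mul_le_mul' (hAi 0 0) hB.1).trans (one_mul b).le
      · exact (mul_le_mul' hA.1 (hBi 1 1)).trans (mul_one b).le
      · exact (mul_le_mul' hA.2 (hBi 0 0)).trans (mul_one c).le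
      · exact (mul_le_mul' (hAi 1 1) hB.2).trans (one_mul c).le
    refine ⟨mul_mem hx.1 hy.1, ?_, ?_⟩
    · rw [Units.val_mul]
      exact key (fun i j => (hx.1.1 i j).1) (fun i j => (hy.1.1 i j).1) hx.2.1 hy.2.1
    · rw [_root_.mul_inv_rev, Units.val_mul]
      exact key (fun i j => (hy.1.1 i j).2) (fun i j => (hx.1.1 i j).2) hy.2.2 hx.2.2

theorem mem_deepGroup {v : HeightOneSpectrum (𝓞 K)} {e b c : WithZero (Multiplicative ℤ)}
    {g : GL (Fin 2) (v.adicCompletion K)} :
    g ∈ deepGroup v e b c ↔ g ∈ congrLoc v e ∧ (Valued.v (g.1 0 1) ≤ b ∧ Valued.v (g.1 1 0) ≤ c) ∧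
      (Valued.v ((g⁻¹).1 0 1) ≤ b ∧ Valued.v ((g⁻¹).1 1 0) ≤ c) := Iff.rfl

theorem deepGroup_le (v : HeightOneSpectrum (𝓞 K)) (e b c : WithZero (Multiplicative ℤ)) :
    deepGroup v e b c ≤ congrLoc v e := fun _ h => h.1

theorem congrLoc_le_deepGroup {v : HeightOneSpectrum (𝓞 K)}
    {r e b c : WithZero (Multiplicative ℤ)} (he : r ≤ e) (hb : r ≤ b) (hc : r ≤ c) :
    congrLoc v r ≤ deepGroup v e b c := fun g hg =>
  ⟨congrLoc_mono v he hg,
    ⟨(le_of_eq (by simp)).trans ((hg.2.1 0 1).trans hb),
      (le_of_eq (by simp)).trans ((hg.2.1 1 0).trans hc)⟩,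
    (le_of_eq (by simp)).trans ((hg.2.2 0 1).trans hb),
    (le_of_eq (by simp)).trans ((hg.2.2 1 0).trans hc)⟩

variable {v : HeightOneSpectrum (𝓞 K)} {e b c : WithZero (Multiplicative ℤ)}
  {a : v.adicCompletion K}

/-- The character `g ↦ ψ(a g₀₁)`. -/
def deepHom
    (hab : Valued.v a * e * b ≤ Valued.v ((conductorIdele K : FiniteAdeleRing (𝓞 K) K) v)) :
    deepGroup v e b c →* ℂˣ :=
  MonoidHom.toHomUnits
    { toFun := fun g => psiF (adeleSingle v (a * (g : GL (Fin 2) (v.adicCompletion K)).1 0 1))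
      map_one' := by simp [adeleSingle_zero]
      map_mul' := fun g h => by
        set A := (g : GL (Fin 2) (v.adicCompletion K)).1
        set C := (h : GL (Fin 2) (v.adicCompletion K)).1
        have he : a * ((g * h : deepGroup v e b c) : GL (Fin 2) (v.adicCompletion K)).1 0 1 =
            a * A 0 1 + a * C 0 1 +
              (a * ((A 0 0 - 1) * C 0 1) + a * (A 0 1 * (C 1 1 - 1))) := by
          rw [Subgroup.coe_mul, Units.val_mul, Matrix.mul_apply, Fin.sum_univ_two]
          ring
        rw [he, adeleSingle_add, adeleSingle_add, AddChar.map_add_eq_mul, AddChar.map_add_eq_mul]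
        conv_rhs => rw [← mul_one (_ * _)]
        congr 1
        refine psiF_adeleSingle_eq_one ((Valuation.map_add _ _ _).trans (max_le ?_ ?_)) <;>
          rw [map_mul, map_mul] <;> refine le_trans ?_ hab <;> rw [mul_assoc]
        · refine mul_le_mul' le_rfl (mul_le_mul' ?_ h.2.2.1.1)
          have := g.2.1.2.1 0 0
          rwa [Matrix.sub_apply, Matrix.one_apply_eq] at this
        · rw [mul_comm e b]
          refine mul_le_mul' le_rfl (mul_le_mul' g.2.2.1.1 ?_)
          have := h.2.1.2.1 1 1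
          rwa [Matrix.sub_apply, Matrix.one_apply_eq] at this }

theorem deepHom_apply
    (hab : Valued.v a * e * b ≤ Valued.v ((conductorIdele K : FiniteAdeleRing (𝓞 K) K) v))
    (g : deepGroup v e b c) :
    (deepHom hab g : ℂ) =
      psiF (adeleSingle v (a * (g : GL (Fin 2) (v.adicCompletion K)).1 0 1)) :=
  rfl

end Field

section Twist

variable {K : Type*} [Field K] [NumberField K] (σ : K ≃+* K)

theorem adeleAut_apply_eq_zero {v w : HeightOneSpectrum (𝓞 K)} (h : placePerm σ v ≠ placePerm σ w)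
    (z : (placePerm σ w).adicCompletion K) : adeleAut σ (adeleSingle (placePerm σ w) z) v = 0 := by
  rw [adeleAut, adeleHom_apply, adeleSingle_of_ne h, map_zero]

/-- The additive character on single components is invariant under the twist. -/
theorem psiF_adeleSingle_completionEquiv (w : HeightOneSpectrum (𝓞 K))
    (z : (placePerm σ w).adicCompletion K) :
    psiF (adeleSingle w (completionEquiv σ (valuation_apply_placePerm σ w) z)) =
      psiF (adeleSingle (placePerm σ w) z) := by
  rw [← psiF_adeleAut σ (adeleSingle (placePerm σ w) z)]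
  congr 1
  refine FiniteAdeleRing.ext K fun v => ?_
  by_cases hv : v = w
  · subst hv
    rw [adeleSingle_self, adeleAut, adeleHom_apply, adeleSingle_self]
  · rw [adeleSingle_of_ne hv, adeleAut_apply_eq_zero σ ((placePerm σ).injective.ne hv)]

theorem map_mem_deepGroup {v w : HeightOneSpectrum (𝓞 K)} {σ : K ≃+* K}
    (h : ∀ x, w.valuation K (σ x) = v.valuation K x) {e b c : WithZero (Multiplicative ℤ)}
    (he : e ≤ 1) {g : GL (Fin 2) (v.adicCompletion K)} (hg : g ∈ deepGroup v e b c) :
    GeneralLinearGroup.map (completionEquiv σ h).toRingHom g ∈ deepGroup w e b c := by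
  have hentry : ∀ (γ : GL (Fin 2) (v.adicCompletion K)) i j,
      (GeneralLinearGroup.map (completionEquiv σ h).toRingHom γ).1 i j =
        completionEquiv σ h (γ.1 i j) := fun _ _ _ => rfl
  have hval : ∀ (γ : GL (Fin 2) (v.adicCompletion K)) i j,
      Valued.v ((GeneralLinearGroup.map (completionEquiv σ h).toRingHom γ).1 i j) =
        Valued.v (γ.1 i j) := fun γ i j => by
    rw [hentry, valued_completionEquiv]
  have hsub : ∀ (γ : GL (Fin 2) (v.adicCompletion K)) i j,
      Valued.v (((GeneralLinearGroup.map (completionEquiv σ h).toRingHom γ).1 - 1) i j) =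
        Valued.v ((γ.1 - 1) i j) := fun γ i j => by
    rw [← valued_completionEquiv σ h ((γ.1 - 1) i j), Matrix.sub_apply, Matrix.sub_apply,
      map_sub (completionEquiv σ h),
      hentry]
    congr 2
    rw [Matrix.one_apply, Matrix.one_apply]
    split <;> simp
  obtain ⟨⟨-, hg1, hg2⟩, ⟨hb1, hc1⟩, hb2, hc2⟩ := hg
  refine ⟨mem_congrLoc_of_le he (fun i j => ?_) fun i j => ?_, ⟨?_, ?_⟩, ?_, ?_⟩
  · rw [hsub]; exact hg1 i j
  · rw [← map_inv, hsub]; exact hg2 i j
  · rw [hval]; exact hb1
  · rw [hval]; exact hc1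
  · rw [← map_inv, hval]; exact hb2
  · rw [← map_inv, hval]; exact hc2

end Twist

end Fermat.Agent.Extra.LTGen
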