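/-
The characters at the deep places attached to a modulus.
-/
import Fermat.Agent.Extra.LTGen.Descent.DeepLocal

/-!
# The deep characters of a modulus

For a modulus `N₀`, small at the bad places, and `a = N₀ ^ (-j)` with `j` large, the groups are
cut out by `|g - 1| ≤ |N₀|`, `|g₀₁| ≤ |δ| |N₀| ^ j / |N₀|` and `|g₁₀| ≤ |N₀| ^ k`.
-/

set_option autoImplicit false

noncomputable section

namespace Fermat.Agent.Extra.LTGen

open Fermat.Agent.LT Fermat.Agent.LT.Adelic Fermat.Agent.LT.Aleph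
open Fermat.Agent.LT.Tame (placePerm completionEquiv completionEquiv_coe valuation_apply_placePerm)
open Fermat.Agent.LT.Descent Fermat.Agent.LT.Descent.Places
open IsDedekindDomain IsDedekindDomain.HeightOneSpectrum NumberField Matrix
open scoped MatrixGroups

variable {K : Type*} [Field K] [NumberField K] {K' : Type*} [Field K'] [NumberField K']
  [Algebra K K'] {Φ : Frame K Unit} {Φ' : Frame K' (Fin 3)} {tw : CubicTwist Φ Φ'}

namespace GenBase

variable (B : GenBase tw)

theorem placePerm_deep' {w : HeightOneSpectrum (𝓞 K')} (hw : w ∈ B.deep') :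
    placePerm tw.σ.toRingEquiv w = w := by
  obtain ⟨v, ⟨-, hv⟩, h⟩ := hw
  rw [IsSplit] at hv
  push Not at hv
  obtain ⟨w₀, h₀, hfix⟩ := hv
  rw [unique_of_fixed B.gen h₀ hfix h]
  exact hfix

end GenBase

/-- A modulus and an exponent for the deep characters. -/
structure DeepParam (B : GenBase tw) where
  N₀ : ℕ
  N₀_ne : N₀ ≠ 0
  /-- the exponent of the twist -/
  j : ℕ
  small : ∀ w ∈ B.bad', w.intValuation (N₀ : 𝓞 K') < 1
  depth : ∀ w ∈ B.bad',
    Valued.v ((conductorIdele K' : FiniteAdeleRing (𝓞 K') K') w) *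
      w.intValuation (N₀ : 𝓞 K') ^ j ≤ w.intValuation (N₀ : 𝓞 K') ^ 2

namespace DeepParam

variable {B : GenBase tw} (P : DeepParam B)

/-- The size of the modulus. -/
def eps (w : HeightOneSpectrum (𝓞 K')) : WithZero (Multiplicative ℤ) :=
  w.intValuation (P.N₀ : 𝓞 K')

theorem eps_ne (w : HeightOneSpectrum (𝓞 K')) : P.eps w ≠ 0 :=
  w.intValuation_ne_zero _ (Nat.cast_ne_zero.2 P.N₀_ne)

theorem eps_le_one (w : HeightOneSpectrum (𝓞 K')) : P.eps w ≤ 1 := w.intValuation_le_one _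

/-- The twist. -/
def aK : K' := ((P.N₀ : K') ^ P.j)⁻¹

theorem aK_ne : P.aK ≠ 0 := inv_ne_zero (pow_ne_zero _ (Nat.cast_ne_zero.2 P.N₀_ne))

/-- The twist as an idele. -/
def aI : (FiniteAdeleRing (𝓞 K') K')ˣ :=
  Units.map (algebraMap K' (FiniteAdeleRing (𝓞 K') K')).toMonoidHom (Units.mk0 P.aK P.aK_ne)

theorem aI_apply (w : HeightOneSpectrum (𝓞 K')) :
    (P.aI : FiniteAdeleRing (𝓞 K') K') w = algebraMap K' (w.adicCompletion K') P.aK := rfl

theorem valued_aI (w : HeightOneSpectrum (𝓞 K')) :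
    Valued.v ((P.aI : FiniteAdeleRing (𝓞 K') K') w) = (P.eps w ^ P.j)⁻¹ := by
  show Valued.v ((algebraMap K' (FiniteAdeleRing (𝓞 K') K') P.aK) w) = _
  rw [valued_algebraMap, aK, map_inv₀, map_pow,
    show (P.N₀ : K') = algebraMap (𝓞 K') K' (P.N₀ : 𝓞 K') from (map_natCast _ _).symm,
    valuation_of_algebraMap]
  rfl

/-- The bound of the upper right entries. -/
def beta (w : HeightOneSpectrum (𝓞 K')) : WithZero (Multiplicative ℤ) :=
  Valued.v ((conductorIdele K' : FiniteAdeleRing (𝓞 K') K') w) * P.eps w ^ P.j / P.eps w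

theorem beta_mul_eps (w : HeightOneSpectrum (𝓞 K')) :
    P.beta w * P.eps w =
      Valued.v ((conductorIdele K' : FiniteAdeleRing (𝓞 K') K') w) * P.eps w ^ P.j :=
  div_mul_cancel₀ _ (P.eps_ne w)

theorem beta_ne (w : HeightOneSpectrum (𝓞 K')) : P.beta w ≠ 0 :=
  div_ne_zero (mul_ne_zero ((Valuation.ne_zero_iff _).2 (idele_ne_zero _ w))
    (pow_ne_zero _ (P.eps_ne w))) (P.eps_ne w)

theorem beta_le_eps {w : HeightOneSpectrum (𝓞 K')} (hw : w ∈ B.bad') : P.beta w ≤ P.eps w := by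
  rw [beta, div_le_iff₀ (zero_lt_iff.2 (P.eps_ne w)), ← pow_two]
  exact P.depth w hw

theorem bound (w : HeightOneSpectrum (𝓞 K')) :
    Valued.v ((P.aI : FiniteAdeleRing (𝓞 K') K') w) * P.eps w * P.beta w =
      Valued.v ((conductorIdele K' : FiniteAdeleRing (𝓞 K') K') w) := by
  rw [mul_assoc, mul_comm (P.eps w), P.beta_mul_eps, valued_aI, mul_left_comm,
    inv_mul_cancel₀ (pow_ne_zero _ (P.eps_ne w)), mul_one]

/-- The supports, with lower left entries bounded by the `k`th power of the modulus. -/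
def group (k : ℕ) (w : HeightOneSpectrum (𝓞 K')) : Subgroup (GL (Fin 2) (w.adicCompletion K')) :=
  deepGroup w (P.eps w) (P.beta w) (w.intValuation ((P.N₀ ^ k : ℕ) : 𝓞 K'))

/-- The characters. -/
def char (k : ℕ) (w : HeightOneSpectrum (𝓞 K')) : P.group k w →* ℂˣ :=
  deepHom (P.bound w).le

theorem char_apply (k : ℕ) (w : HeightOneSpectrum (𝓞 K')) (g : P.group k w) :
    (P.char k w g : ℂ) = psiF (adeleSingle w ((P.aI : FiniteAdeleRing (𝓞 K') K') w *
      (g : GL (Fin 2) (w.adicCompletion K')).1 0 1)) :=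
  rfl

theorem intValuation_modulus (k : ℕ) (w : HeightOneSpectrum (𝓞 K')) :
    w.intValuation ((P.N₀ ^ k : ℕ) : 𝓞 K') = P.eps w ^ k := by
  rw [Nat.cast_pow, map_pow]; rfl

theorem group_params (k : ℕ) {w w' : HeightOneSpectrum (𝓞 K')} (h : w' = w) :
    deepGroup w (P.eps w') (P.beta w') (w'.intValuation ((P.N₀ ^ k : ℕ) : 𝓞 K')) = P.group k w := by
  subst h; rfl

theorem aI_twist (w : HeightOneSpectrum (𝓞 K')) :
    (P.aI : FiniteAdeleRing (𝓞 K') K') w =
      completionEquiv tw.σ.toRingEquiv (valuation_apply_placePerm tw.σ.toRingEquiv w)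
        ((P.aI : FiniteAdeleRing (𝓞 K') K') (placePerm tw.σ.toRingEquiv w)) := by
  have h : tw.σ.toRingEquiv P.aK = P.aK := by simp [aK]
  rw [aI_apply, aI_apply, algebraMap_adicCompletion, Function.comp_apply, Algebra.algebraMap_self,
    RingHom.id_apply, algebraMap_adicCompletion, Function.comp_apply, Algebra.algebraMap_self,
    RingHom.id_apply, completionEquiv_coe, h]

theorem psiF_twist (w : HeightOneSpectrum (𝓞 K'))
    (z : (placePerm tw.σ.toRingEquiv w).adicCompletion K') :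
    psiF (adeleSingle w
        (completionEquiv tw.σ.toRingEquiv (valuation_apply_placePerm tw.σ.toRingEquiv w)
            ((P.aI : FiniteAdeleRing (𝓞 K') K') (placePerm tw.σ.toRingEquiv w)) *
          completionEquiv tw.σ.toRingEquiv (valuation_apply_placePerm tw.σ.toRingEquiv w) z)) =
      psiF (adeleSingle (placePerm tw.σ.toRingEquiv w)
        ((P.aI : FiniteAdeleRing (𝓞 K') K') (placePerm tw.σ.toRingEquiv w) * z)) := by
  rw [← map_mul]
  exact psiF_adeleSingle_completionEquiv tw.σ.toRingEquiv w _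

/-- The deep data with lower left entries bounded by the `k`th power of the modulus. -/
def loc (k : ℕ) (hk : k ≠ 0) (hkb : ∀ w ∈ B.deep', P.eps w ^ k ≤ P.beta w * P.eps w) :
    DeepLoc B where
  N₀ := P.N₀
  N₁ := P.N₀ ^ k
  N₁_ne := pow_ne_zero _ P.N₀_ne
  dvd := dvd_pow_self _ hk
  H := P.group k
  le_H w hw := by
    refine congrLoc_le_deepGroup ?_ ?_ le_rfl <;> rw [P.intValuation_modulus]
    · exact pow_le_of_le_one zero_le (P.eps_le_one w) hk
    · exact (hkb w hw).trans ((mul_le_mul' le_rfl (P.eps_le_one w)).trans (mul_one _).le)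
  H_le w _ := deepGroup_le w _ _ _
  χ := P.char k
  trivial w hw g hg := by
    refine Units.ext ?_
    rw [P.char_apply, Units.val_one]
    refine psiF_adeleSingle_eq_one ?_
    rw [map_mul, ← P.bound w, mul_assoc]
    refine mul_le_mul' le_rfl ?_
    rw [mul_comm (P.eps w)]
    refine le_trans ?_ (hkb w hw)
    rw [← P.intValuation_modulus k]
    have := hg.2.1 0 1
    rwa [Matrix.sub_apply, Matrix.one_apply_ne (by decide), sub_zero] at this
  stable w hw g := by
    have hmem := map_mem_deepGroup (valuation_apply_placePerm tw.σ.toRingEquiv w)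
      (P.eps_le_one _) g.2
    rw [P.group_params k (B.placePerm_deep' hw)] at hmem
    refine ⟨⟨_, hmem⟩, rfl, Units.ext ?_⟩
    rw [P.char_apply, P.char_apply, P.aI_twist w]
    exact P.psiF_twist w _

theorem loc_H (k : ℕ) (hk : k ≠ 0) (hkb : ∀ w ∈ B.deep', P.eps w ^ k ≤ P.beta w * P.eps w) :
    (P.loc k hk hkb).H = P.group k := rfl

theorem loc_χ (k : ℕ) (hk : k ≠ 0) (hkb : ∀ w ∈ B.deep', P.eps w ^ k ≤ P.beta w * P.eps w) :
    (P.loc k hk hkb).χ = P.char k := rfl

end DeepParam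

/-- A modulus of arbitrary divisibility with a deep enough exponent. -/
theorem GenBase.exists_deepParam (B : GenBase tw) {n : ℕ} (hn : n ≠ 0) :
    ∃ P : DeepParam B, n ∣ P.N₀ := by
  classical
  set N₀ := n * ∏ w ∈ B.finite_bad'.toFinset, Ideal.absNorm w.asIdeal with hN₀
  have hne : N₀ ≠ 0 := mul_ne_zero hn (Finset.prod_ne_zero_iff.2 fun w _ => by
    rw [Ne, Ideal.absNorm_eq_zero_iff]; exact w.ne_bot)
  have hsmall : ∀ w ∈ B.bad', w.intValuation (N₀ : 𝓞 K') < 1 := fun w hw => by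
    rw [w.intValuation_lt_one_iff_mem, hN₀, Nat.cast_mul, Nat.cast_prod]
    exact w.asIdeal.mul_mem_left _
      (Ideal.prod_mem w.asIdeal (i := w) (B.finite_bad'.mem_toFinset.2 hw) (Ideal.absNorm_mem _))
  have h0 : ∀ w : HeightOneSpectrum (𝓞 K'), w.intValuation (N₀ : 𝓞 K') ≠ 0 :=
    fun w => w.intValuation_ne_zero _ (Nat.cast_ne_zero.2 hne)
  have hd : ∀ w, Valued.v ((conductorIdele K' : FiniteAdeleRing (𝓞 K') K') w) ≠ 0 :=
    fun w => (Valuation.ne_zero_iff _).2 (idele_ne_zero _ w)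
  obtain ⟨j, hj⟩ := exists_pow_le B.finite_bad' hsmall
    (fun w => w.intValuation (N₀ : 𝓞 K') ^ 2 /
      Valued.v ((conductorIdele K' : FiniteAdeleRing (𝓞 K') K') w))
    fun w _ => div_ne_zero (pow_ne_zero _ (h0 w)) (hd w)
  refine ⟨⟨N₀, hne, j, hsmall, fun w hw => ?_⟩, Dvd.intro _ rfl⟩
  have h := hj j le_rfl w hw
  rw [map_pow, le_div_iff₀ (zero_lt_iff.2 (hd w))] at h
  rwa [mul_comm]

end Fermat.Agent.Extra.LTGen
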