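/-
The Kirillov functions of the isotypic forms.
-/
import Fermat.Agent.Extra.LTGen.Descent.DeepData
import Fermat.Agent.Extra.LTGen.Descent.DeepCut

/-!
# The Kirillov functions of the isotypic forms

At the deep places the Kirillov function of an isotypic form lives on the coset
`δ⁻¹ a (1 + N₀ O)` and is constant there.
-/

set_option autoImplicit false

noncomputable section

namespace Fermat.Agent.Extra.LTGen

open Fermat.Agent.LT Fermat.Agent.LT.Adelic Fermat.Agent.LT.Aleph Fermat.Agent.LT.Asai
open Fermat.Agent.LT.Descent Fermat.Agent.LT.Descent.Places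
open IsDedekindDomain IsDedekindDomain.HeightOneSpectrum NumberField Matrix
open scoped MatrixGroups

variable {K : Type*} [Field K] [NumberField K] {K' : Type*} [Field K'] [NumberField K']
  [Algebra K K'] {Φ : Frame K Unit} {Φ' : Frame K' (Fin 3)} {tw : CubicTwist Φ Φ'}

/-- The coefficient data of the forms upstairs. -/
abbrev GenBase.coeffs (B : GenBase tw) : CoeffData Φ' B.bad' B.eig := coeffData Φ' B.bad' B.eig

theorem GenBase.coeffs_psi (B : GenBase tw) : B.coeffs.psi = psiF := rfl

theorem GenBase.coeffs_delta (B : GenBase tw) : B.coeffs.delta = conductorIdele K' := rfl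

namespace DeepParam

variable {B : GenBase tw} (P : DeepParam B)

open Classical in
/-- The idele `δ⁻¹ a` at the deep places. -/
def base : ideleSupported B.bad' :=
  ⟨ideleOn B.deep' (P.aI * (conductorIdele K')⁻¹), fun w hw => by
    rw [ideleOn_apply, if_neg fun h => hw (B.deep'_subset_bad' h)]⟩

theorem base_apply_deep {w : HeightOneSpectrum (𝓞 K')} (hw : w ∈ B.deep') :
    (P.base.1 : FiniteAdeleRing (𝓞 K') K') w = (P.aI : FiniteAdeleRing (𝓞 K') K') w /
      ((conductorIdele K' : FiniteAdeleRing (𝓞 K') K') w) := by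
  classical
  rw [base, ideleOn_apply, if_pos hw, Units.val_mul, coe_apply_mul, inv_apply, div_eq_mul_inv]

theorem base_apply_of_not {w : HeightOneSpectrum (𝓞 K')} (hw : w ∉ B.deep') :
    (P.base.1 : FiniteAdeleRing (𝓞 K') K') w = 1 := by
  classical
  rw [base, ideleOn_apply, if_neg hw]

open Classical in
/-- The part of an idele at the other bad places. -/
def splitPart (x : ideleSupported B.bad') : ideleSupported B.bad' :=
  ⟨ideleOn (B.bad' \ B.deep') x.1, fun w hw => by
    rw [ideleOn_apply, if_neg fun h => hw h.1]⟩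

theorem splitPart_apply_deep (x : ideleSupported B.bad') {w : HeightOneSpectrum (𝓞 K')}
    (hw : w ∈ B.deep') : ((splitPart x).1 : FiniteAdeleRing (𝓞 K') K') w = 1 := by
  classical
  rw [splitPart, ideleOn_apply, if_neg fun h => h.2 hw]

theorem splitPart_apply_of_not (x : ideleSupported B.bad') {w : HeightOneSpectrum (𝓞 K')}
    (hw : w ∉ B.deep') :
    ((splitPart x).1 : FiniteAdeleRing (𝓞 K') K') w = (x.1 : FiniteAdeleRing (𝓞 K') K') w := by
  classical
  rw [splitPart, ideleOn_apply]
  by_cases h : w ∈ B.bad'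
  · rw [if_pos ⟨h, hw⟩]
  · rw [if_neg fun h' => h h'.1, x.2 w h]

/-- The value of the Kirillov function at `δ⁻¹ a`. -/
def value : B.forms →ₗ[ℂ] ℂ :=
  (LinearMap.proj P.base).comp B.coeffs.kirillov

theorem value_apply (φ : B.forms) : P.value φ = B.coeffs.kirillov φ P.base := rfl

theorem value_translate (x : gfSupported B.bad') (φ : B.forms) :
    P.value (B.formsRep x φ) =
      B.coeffs.coeff φ (diag2 (P.base.1 * B.coeffs.delta) 1 * (x : GfK K')) 1 :=
  B.coeffs.coeff_translate B.finite_bad' x φ (diag2 (P.base.1 * B.coeffs.delta) 1) 1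

theorem eps_lt_one {w : HeightOneSpectrum (𝓞 K')} (hw : w ∈ B.bad') : P.eps w < 1 := P.small w hw

/-- The forms with the characters of depth `k`. -/
def IsIso (k : ℕ) (φ : B.forms) : Prop :=
  ∀ w ∈ B.deep', ∀ (x : gfSupported B.bad')
    (hx : localGL K' w (x : GfK K') ∈ P.group k w),
    (∀ u ≠ w, localGL K' u (x : GfK K') = 1) →
      B.formsRep x φ = (P.char k w ⟨_, hx⟩ : ℂ) • φ

theorem isIsotypic_iff {k : ℕ} (hk : k ≠ 0)
    (hkb : ∀ w ∈ B.deep', P.eps w ^ k ≤ P.beta w * P.eps w) {φ : B.forms} :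
    (P.loc k hk hkb).IsIsotypic φ ↔ P.IsIso k φ := Iff.rfl

variable {P}

theorem IsIso.add {k : ℕ} {φ φ' : B.forms} (h : P.IsIso k φ) (h' : P.IsIso k φ') :
    P.IsIso k (φ + φ') := fun w hw x hx hu => by
  rw [map_add, h w hw x hx hu, h' w hw x hx hu, smul_add]

theorem IsIso.smul {k : ℕ} {φ : B.forms} (h : P.IsIso k φ) (r : ℂ) : P.IsIso k (r • φ) :=
  fun w hw x hx hu => by rw [map_smul, h w hw x hx hu, smul_comm]

theorem IsIso.sub {k : ℕ} {φ φ' : B.forms} (h : P.IsIso k φ) (h' : P.IsIso k φ') :
    P.IsIso k (φ - φ') := fun w hw x hx hu => by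
  rw [map_sub, h w hw x hx hu, h' w hw x hx hu, smul_sub]

theorem formsRep_comm {x y : gfSupported B.bad'}
    (h : ∀ v, localGL K' v (x : GfK K') = 1 ∨ localGL K' v (y : GfK K') = 1) (φ : B.forms) :
    B.formsRep x (B.formsRep y φ) = B.formsRep y (B.formsRep x φ) := by
  have hxy : x * y = y * x := Subtype.ext (commute_of_disjoint h)
  rw [← Module.End.mul_apply, ← map_mul, hxy, map_mul, Module.End.mul_apply]

/-- Translations away from the deep places preserve the isotypic forms. -/
theorem IsIso.translate {k : ℕ} {φ : B.forms} (h : P.IsIso k φ) {g : gfSupported B.bad'}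
    (hg : ∀ w ∈ B.deep', localGL K' w (g : GfK K') = 1) : P.IsIso k (B.formsRep g φ) :=
  fun w hw x hx hu => by
    rw [formsRep_comm (fun v => ?_), h w hw x hx hu, map_smul]
    by_cases hv : v = w
    · exact Or.inr (hv ▸ hg w hw)
    · exact Or.inl (hu v hv)

variable (P)

theorem localGL_unipotent_mem (k : ℕ) {w : HeightOneSpectrum (𝓞 K')} (hw : w ∈ B.bad')
    {z : w.adicCompletion K'} (hz : Valued.v z ≤ P.beta w) :
    localGL K' w (unipotent (adeleSingle w z)) ∈ P.group k w := by
  have hz' : Valued.v z ≤ P.eps w := hz.trans (P.beta_le_eps hw)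
  have hinv : (unipotent (adeleSingle w z) : GfK K')⁻¹ = unipotent (-adeleSingle w z) :=
    inv_eq_of_mul_eq_one_right (by
      apply GL.ext_fin_two; ext i j; fin_cases i <;> fin_cases j <;> simp)
  refine mem_deepGroup.2 ⟨mem_congrLoc_of_le (P.eps_le_one w) (fun i j => ?_) fun i j => ?_,
    ⟨?_, ?_⟩, ?_, ?_⟩
  · rw [Matrix.sub_apply, localGL_apply]
    fin_cases i <;> fin_cases j <;> simp [coe_apply_one, coe_apply_zero, adeleSingle_self, hz']
  · rw [← map_inv, hinv, Matrix.sub_apply, localGL_apply]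
    fin_cases i <;> fin_cases j <;>
      simp [coe_apply_one, coe_apply_zero, coe_apply_neg, adeleSingle_self, hz']
  · rw [localGL_apply]; simp [adeleSingle_self, hz]
  · rw [localGL_apply]; simp [coe_apply_zero]
  · rw [← map_inv, hinv, localGL_apply]; simp [coe_apply_neg, adeleSingle_self, hz]
  · rw [← map_inv, hinv, localGL_apply]; simp [coe_apply_zero]

variable {P}

/-- The support of the Kirillov functions of the isotypic forms. -/
theorem IsIso.support {k : ℕ} {φ : B.forms} (hφ : P.IsIso k φ) {x : ideleSupported B.bad'}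
    (hx : B.coeffs.kirillov φ x ≠ 0) {w : HeightOneSpectrum (𝓞 K')} (hw : w ∈ B.deep') :
    Valued.v ((x.1 : FiniteAdeleRing (𝓞 K') K') w *
        (conductorIdele K' : FiniteAdeleRing (𝓞 K') K') w -
          (P.aI : FiniteAdeleRing (𝓞 K') K') w) ≤
      Valued.v ((P.aI : FiniteAdeleRing (𝓞 K') K') w) * P.eps w := by
  set δ := (conductorIdele K' : FiniteAdeleRing (𝓞 K') K') with hδ
  set d := (x.1 : FiniteAdeleRing (𝓞 K') K') w * δ w - (P.aI : FiniteAdeleRing (𝓞 K') K') w
  by_contra hgt
  rw [not_le] at hgt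
  have hδ0 : δ w ≠ 0 := idele_ne_zero _ w
  have hd0 : d ≠ 0 := fun h0 => by
    rw [h0, map_zero] at hgt; exact absurd hgt (not_lt.2 zero_le)
  obtain ⟨s, hs0, hsv, hs1⟩ := B.coeffs.psi_exact w
  set z := δ w * s w / d with hz
  have hzb : Valued.v z ≤ P.beta w := by
    rw [hz, show δ w * s w / d = s w / (d / δ w) by field_simp, map_div₀, map_div₀]
    refine div_le_of_one_lt_mul hsv ?_
    rw [div_mul_eq_mul_div, one_lt_div₀ (zero_lt_iff.2 ((Valuation.ne_zero_iff _).2 hδ0))]
    refine (P.bound w).symm.le.trans_lt ?_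
    exact mul_lt_mul_of_pos_right hgt (zero_lt_iff.2 (P.beta_ne w))
  let y : adeleSupported B.bad' :=
    ⟨adeleSingle w z, fun v hv => adeleSingle_of_ne (fun e : v = w => hv (e ▸ B.deep'_subset_bad' hw)) z⟩
  have hmem : localGL K' w ((unipElt y : gfSupported B.bad') : GfK K') ∈ P.group k w :=
    P.localGL_unipotent_mem k (B.deep'_subset_bad' hw) hzb
  have h := congrArg (fun f => B.coeffs.kirillov f x)
    (hφ w hw (unipElt y) hmem fun v hv => localGL_unipotent_eq_one (adeleSingle_of_ne hv z))
  simp only [map_smul, Pi.smul_apply, smul_eq_mul, kirillov_modulate] at h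
  have he : psiF (δ * ((x.1 : FiniteAdeleRing (𝓞 K') K') * y.1)) =
      psiF (adeleSingle w ((P.aI : FiniteAdeleRing (𝓞 K') K') w * z)) * psiF (δ * s) := by
    rw [← AddChar.map_add_eq_mul]
    congr 1
    refine FiniteAdeleRing.ext K' fun v => ?_
    rw [coe_apply_add, coe_apply_mul, coe_apply_mul, coe_apply_mul]
    by_cases hv : v = w
    · subst hv
      have hdz : d * z = δ v * s v := by rw [hz, mul_div_cancel₀ _ hd0]
      rw [adeleSingle_self, adeleSingle_self, ← hdz]
      ring
    · rw [adeleSingle_of_ne hv, adeleSingle_of_ne hv, hs0 v hv]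
      ring
  have hc : (P.char k w ⟨_, hmem⟩ : ℂ) =
      psiF (adeleSingle w ((P.aI : FiniteAdeleRing (𝓞 K') K') w * z)) := by
    rw [P.char_apply]
    congr 2
    rw [localGL_apply]
    simp [unipElt, y, adeleSingle_self]
  rw [hc] at h
  have h' : psiF (δ * ((x.1 : FiniteAdeleRing (𝓞 K') K') * y.1)) * B.coeffs.kirillov φ x =
      psiF (adeleSingle w ((P.aI : FiniteAdeleRing (𝓞 K') K') w * z)) * B.coeffs.kirillov φ x := h
  rw [he, mul_assoc] at h'
  have hne : psiF (adeleSingle w ((P.aI : FiniteAdeleRing (𝓞 K') K') w * z)) ≠ 0 := by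
    rw [← hc]; exact (P.char k w _).ne_zero
  exact hs1 (mul_right_cancel₀ hx ((mul_left_cancel₀ hne h').trans (one_mul _).symm))

/-- Units congruent to `1` at the deep places fix the isotypic forms. -/
theorem IsIso.torus {k : ℕ} {φ : B.forms} (hφ : P.IsIso k φ) (u : ideleSupported B.bad')
    (hu : ∀ w ∉ B.deep', (u.1 : FiniteAdeleRing (𝓞 K') K') w = 1)
    (hu' : ∀ w ∈ B.deep', Valued.v ((u.1 : FiniteAdeleRing (𝓞 K') K') w - 1) ≤ P.eps w) :
    B.formsRep (torusHom u) φ = φ := by
  classical
  suffices main : ∀ (s : Finset (HeightOneSpectrum (𝓞 K'))) (u : ideleSupported B.bad'),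
      (∀ w, w ∉ s → (u.1 : FiniteAdeleRing (𝓞 K') K') w = 1) →
      (∀ w ∈ s, w ∈ B.deep' ∧ Valued.v ((u.1 : FiniteAdeleRing (𝓞 K') K') w - 1) ≤ P.eps w) →
      B.formsRep (torusHom u) φ = φ from
    main B.finite_deep'.toFinset u (fun w hw => hu w fun h => hw (B.finite_deep'.mem_toFinset.2 h))
      fun w hw => ⟨B.finite_deep'.mem_toFinset.1 hw, hu' w (B.finite_deep'.mem_toFinset.1 hw)⟩
  intro s
  induction s using Finset.induction_on with
  | empty =>
    intro u h _
    have h1 : u = 1 := Subtype.ext (Units.ext (FiniteAdeleRing.ext K' fun w => by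
      rw [h w (Finset.notMem_empty w)]
      exact (coe_apply_one w).symm))
    rw [h1, map_one, map_one]
    rfl
  | @insert w s hws ih =>
    intro u h hb
    let u₁ : ideleSupported B.bad' :=
      ⟨ideleOn {w} u.1, fun v hv => by
        rw [ideleOn_apply]
        split
        · exact u.2 v hv
        · rfl⟩
    have hv1 : ∀ v, (u₁.1 : FiniteAdeleRing (𝓞 K') K') v =
        if v = w then (u.1 : FiniteAdeleRing (𝓞 K') K') v else 1 := fun v => by
      simp only [u₁, ideleOn_apply, Set.mem_singleton_iff]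
    have hrest : B.formsRep (torusHom (u₁⁻¹ * u)) φ = φ := by
      refine ih _ (fun v hv => ?_) fun v hv => ?_ <;>
        rw [Subgroup.coe_mul, Subgroup.coe_inv, Units.val_mul, coe_apply_mul, inv_apply, hv1]
      · by_cases hvw : v = w
        · rw [if_pos hvw, inv_mul_cancel₀ (idele_ne_zero u.1 v)]
        · rw [if_neg hvw, inv_one, one_mul]
          exact h v fun h' => (Finset.mem_insert.1 h').elim hvw hv
      · rw [if_neg fun e : v = w => hws (e ▸ hv), inv_one, one_mul]
        exact hb v (Finset.mem_insert_of_mem hv)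
    obtain ⟨hw, hwb⟩ := hb w (Finset.mem_insert_self w s)
    set z := (u.1 : FiniteAdeleRing (𝓞 K') K') w
    have hz1 : Valued.v z = 1 := by
      have h1 : Valued.v (1 + (z - 1)) = 1 :=
        Valuation.map_one_add_of_lt _ (hwb.trans_lt (P.eps_lt_one (B.deep'_subset_bad' hw)))
      rwa [add_sub_cancel] at h1
    have hz : z ≠ 0 := idele_ne_zero u.1 w
    have hzi : Valued.v (z⁻¹ - 1) ≤ P.eps w := by
      rw [show z⁻¹ - 1 = -((z - 1) / z) by field_simp; ring, Valuation.map_neg, map_div₀, hz1,
        div_one]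
      exact hwb
    have hloc : localGL K' w ((torusHom u₁ : gfSupported B.bad') : GfK K') ∈ P.group k w := by
      have hinv : ((torusHom u₁ : gfSupported B.bad') : GfK K')⁻¹ = diag2 (u₁.1)⁻¹ 1 :=
        inv_eq_of_mul_eq_one_right (by
          show diag2 u₁.1 1 * diag2 (u₁.1)⁻¹ 1 = 1
          rw [diag2_mul_diag2, mul_inv_cancel, one_mul]
          apply GL.ext_fin_two; ext i j; fin_cases i <;> fin_cases j <;> simp)
      refine mem_deepGroup.2 ⟨mem_congrLoc_of_le (P.eps_le_one w) (fun i j => ?_) fun i j => ?_,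
        ⟨?_, ?_⟩, ?_, ?_⟩
      · rw [Matrix.sub_apply, localGL_apply]
        fin_cases i <;> fin_cases j <;> simp [torusHom, coe_apply_one, coe_apply_zero, hv1]
        exact hwb
      · rw [← map_inv, hinv, Matrix.sub_apply, localGL_apply]
        fin_cases i <;> fin_cases j <;>
          simp [coe_apply_one, coe_apply_zero, inv_apply, hv1]
        exact hzi
      · rw [localGL_apply]; simp [torusHom, coe_apply_zero]
      · rw [localGL_apply]; simp [torusHom, coe_apply_zero]
      · rw [← map_inv, hinv, localGL_apply]; simp [coe_apply_zero]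
      · rw [← map_inv, hinv, localGL_apply]; simp [coe_apply_zero]
    have h1 : B.formsRep (torusHom u₁) φ = φ := by
      rw [hφ w hw (torusHom u₁) hloc fun v hv =>
        localGL_diag2_eq_one (by rw [hv1, if_neg hv]), P.char_apply]
      have h0 : (localGL K' w ((torusHom u₁ : gfSupported B.bad') : GfK K')).1 0 1 = 0 := by
        rw [localGL_apply]; simp [torusHom, coe_apply_zero]
      show psiF (adeleSingle w (_ * _)) • φ = φ
      rw [h0, mul_zero, adeleSingle_zero, AddChar.map_zero_eq_one, one_smul]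
    rw [show u = u₁ * (u₁⁻¹ * u) from (mul_inv_cancel_left u₁ u).symm, map_mul, map_mul,
      Module.End.mul_apply, hrest, h1]

/-- The Kirillov function of an isotypic form is given by its values at the split places. -/
theorem IsIso.kirillov_eq {k : ℕ} {φ : B.forms} (hφ : P.IsIso k φ) {x : ideleSupported B.bad'}
    (hx : B.coeffs.kirillov φ x ≠ 0) :
    B.coeffs.kirillov φ x = B.coeffs.kirillov φ (P.base * splitPart x) := by
  set u := (P.base * splitPart x)⁻¹ * x with hu
  have hval : ∀ w, (u.1 : FiniteAdeleRing (𝓞 K') K') w =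
      ((P.base.1 : FiniteAdeleRing (𝓞 K') K') w *
        ((splitPart x).1 : FiniteAdeleRing (𝓞 K') K') w)⁻¹ *
        (x.1 : FiniteAdeleRing (𝓞 K') K') w := fun w => by
    rw [hu, Subgroup.coe_mul, Units.val_mul, coe_apply_mul, Subgroup.coe_inv, inv_apply,
      Subgroup.coe_mul, Units.val_mul, coe_apply_mul]
  have h := hφ.torus u (fun w hw => ?_) fun w hw => ?_
  · conv_rhs => rw [← h, kirillov_translate, hu, mul_inv_cancel_left]
  · rw [hval, P.base_apply_of_not hw, splitPart_apply_of_not x hw, one_mul,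
      inv_mul_cancel₀ (idele_ne_zero x.1 w)]
  · have ha : (P.aI : FiniteAdeleRing (𝓞 K') K') w ≠ 0 := idele_ne_zero _ w
    rw [hval, P.base_apply_deep hw, splitPart_apply_deep x hw, mul_one, inv_div,
      show (conductorIdele K' : FiniteAdeleRing (𝓞 K') K') w /
          (P.aI : FiniteAdeleRing (𝓞 K') K') w * (x.1 : FiniteAdeleRing (𝓞 K') K') w - 1 =
        ((x.1 : FiniteAdeleRing (𝓞 K') K') w *
          (conductorIdele K' : FiniteAdeleRing (𝓞 K') K') w -
          (P.aI : FiniteAdeleRing (𝓞 K') K') w) / (P.aI : FiniteAdeleRing (𝓞 K') K') w by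
        field_simp,
      map_div₀, div_le_iff₀ (zero_lt_iff.2 ((Valuation.ne_zero_iff _).2 ha)), mul_comm (P.eps w)]
    exact hφ.support hx hw

/-- An isotypic form is determined by the values at `δ⁻¹ a` of its split translates. -/
theorem IsIso.eq_zero {k : ℕ} {φ : B.forms} (hφ : P.IsIso k φ)
    (h : ∀ t : ideleSupported B.bad', (∀ w ∈ B.deep', (t.1 : FiniteAdeleRing (𝓞 K') K') w = 1) →
      P.value (B.formsRep (torusHom t) φ) = 0) : φ = 0 := by
  refine B.coeffs.kirillov_injective B.finite_bad' ?_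
  rw [map_zero]
  funext x
  by_contra hx
  rw [Pi.zero_apply] at hx
  refine hx ?_
  rw [hφ.kirillov_eq hx]
  have h1 := h (splitPart x) fun w hw => splitPart_apply_deep x hw
  rwa [P.value_apply, kirillov_translate] at h1

end DeepParam

end Fermat.Agent.Extra.LTGen
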