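/-
Combinations of translations at the deep places are scalars on the isotypic forms.
-/
import Fermat.Agent.Extra.LTGen.Descent.DeepForms

/-!
# The isotypic forms are a line tensor the split places

An isotypic form vanishing at `δ⁻¹ a` has vanishing coefficient at `δ⁻¹ a` times every element
living at the deep places: cutting it at the split places gives zero.
-/

set_option autoImplicit false

noncomputable section

namespace Fermat.Agent.Extra.LTGen

open Fermat.Agent.LT Fermat.Agent.LT.Adelic Fermat.Agent.LT.Aleph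
open Fermat.Agent.LT.Descent Fermat.Agent.LT.Descent.Places
open IsDedekindDomain IsDedekindDomain.HeightOneSpectrum NumberField Matrix
open scoped MatrixGroups

variable {K : Type*} [Field K] [NumberField K] {K' : Type*} [Field K'] [NumberField K']
  [Algebra K K'] {Φ : Frame K Unit} {Φ' : Frame K' (Fin 3)} {tw : CubicTwist Φ Φ'}

namespace DeepParam

variable {B : GenBase tw} {P : DeepParam B}

theorem IsIso.value_eq_zero {k : ℕ} {φ : B.forms} (hφ : P.IsIso k φ) (h0 : P.value φ = 0)
    {g : gfSupported B.bad'} (hg : g ∈ B.deepPart) : P.value (B.formsRep g φ) = 0 := by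
  classical
  obtain ⟨n₀, hn₀, hlt⟩ := exists_supportedIn (S := B.bad') B.finite_bad'
  obtain ⟨n, hn, hinv⟩ := φ.2.smooth
  obtain ⟨k₁, hk₁⟩ := exists_pow_le B.finite_bad' hlt (fun v => v.intValuation n)
    fun v _ => v.intValuation_ne_zero n hn.1
  obtain ⟨m₀, hm₀⟩ := (B.coeffs.isKirillovModel B.finite_bad' hn₀ hlt).invariant φ
  set m := max m₀ 1 with hm
  obtain ⟨c, hc⟩ := exists_cut B.coeffs (B.bad' \ B.deep') hn₀.1 k₁ m
  let incl : adeleSupported (B.bad' \ B.deep') → adeleSupported B.bad' :=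
    fun y => ⟨y.1, fun v hv => y.2 v fun h => hv h.1⟩
  set φ' : B.forms := c.sum fun y r => r • B.formsRep (unipElt (incl y)) φ with hφ'
  have hbound : ∀ x : ideleSupported B.bad', B.coeffs.kirillov φ x ≠ 0 → ∀ v ∈ B.bad' \ B.deep',
      Valued.v ((x.1 : FiniteAdeleRing (𝓞 K') K') v) * v.intValuation (n₀ ^ k₁) ≤ 1 :=
    fun x hx v hv => (mul_le_mul' le_rfl (hk₁ k₁ le_rfl v hv.1)).trans
      (torusCoeff_bound B.coeffs φ hinv hx v)
  have hzero : φ' = 0 := by
    refine B.coeffs.kirillov_injective B.finite_bad' ?_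
    rw [map_zero]
    funext x
    rw [Pi.zero_apply, hφ', map_finsuppSum, Finsupp.sum_apply']
    simp only [map_smul, Pi.smul_apply, smul_eq_mul, kirillov_modulate]
    rw [Finsupp.sum_congr (g2 := fun y r => r * B.coeffs.psi
        ((B.coeffs.delta : FiniteAdeleRing (𝓞 K') K') *
          ((x.1 : FiniteAdeleRing (𝓞 K') K') * y.1)) * B.coeffs.kirillov φ x)
      fun y _ => (mul_assoc _ _ _).symm, ← Finsupp.sum_mul]
    by_cases hx : B.coeffs.kirillov φ x = 0
    · rw [hx, mul_zero]
    refine mul_eq_zero_of_left ((hc x.1 (hbound x hx)).2 fun hnear => hx ?_) _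
    rw [hφ.kirillov_eq hx]
    have hmem : splitPart x ∈ torusCongr B.bad' n₀ m := by
      rw [mem_torusCongr_iff fun v hv => by
        rw [map_pow]
        exact pow_lt_one₀ zero_le (hlt v hv) (by omega)]
      intro v hv
      by_cases hvd : v ∈ B.deep'
      · rw [splitPart_apply_deep x hvd, sub_self, map_zero]; exact zero_le
      · rw [splitPart_apply_of_not x hvd]; exact hnear v ⟨hv, hvd⟩
    rw [hm₀ m (le_max_left _ _) P.base _ hmem]
    exact h0
  have hbase : ∀ v ∈ B.bad' \ B.deep',
      (P.base.1 : FiniteAdeleRing (𝓞 K') K') v = 1 := fun v hv => P.base_apply_of_not hv.2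
  have hone : (c.sum fun y r => r * B.coeffs.psi ((B.coeffs.delta : FiniteAdeleRing (𝓞 K') K') *
      ((P.base.1 : FiniteAdeleRing (𝓞 K') K') * y.1))) = 1 := by
    refine (hc P.base.1 fun v hv => ?_).1 fun v hv => ?_
    · rw [hbase v hv, map_one, one_mul]; exact v.intValuation_le_one _
    · rw [hbase v hv, sub_self, map_zero]; exact zero_le
  have h2 : P.value (B.formsRep g φ') = P.value (B.formsRep g φ) := by
    rw [hφ', map_finsuppSum, map_finsuppSum]
    have hterm : ∀ y : adeleSupported (B.bad' \ B.deep'), ∀ r : ℂ,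
        P.value (B.formsRep g (r • B.formsRep (unipElt (incl y)) φ)) =
          r * B.coeffs.psi ((B.coeffs.delta : FiniteAdeleRing (𝓞 K') K') *
            ((P.base.1 : FiniteAdeleRing (𝓞 K') K') * y.1)) * P.value (B.formsRep g φ) := by
      intro y r
      rw [map_smul, map_smul, smul_eq_mul, formsRep_comm (fun v => ?_), P.value_apply,
        kirillov_modulate, P.value_apply, mul_assoc]
      by_cases hv : v ∈ B.deep'
      · exact Or.inr (localGL_unipotent_eq_one (y.2 v fun h => h.2 hv))
      · exact Or.inl (hg v hv)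
    rw [Finsupp.sum_congr (g2 := fun y r => r * B.coeffs.psi
        ((B.coeffs.delta : FiniteAdeleRing (𝓞 K') K') *
          ((P.base.1 : FiniteAdeleRing (𝓞 K') K') * y.1)) * P.value (B.formsRep g φ))
      fun y _ => hterm y _, ← Finsupp.sum_mul, hone, one_mul]
  rw [← h2, hzero, map_zero, map_zero]

/-- Combinations of translations at the deep places are scalars on the isotypic forms. -/
theorem exists_scalar (k : ℕ) (c : gfSupported B.bad' →₀ ℂ) (hc : ∀ x ∈ c.support, x ∈ B.deepPart)
    (hiso : ∀ φ, P.IsIso k φ → P.IsIso k (c.sum fun x r => r • B.formsRep x φ)) :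
    ∃ s : ℂ, ∀ φ, P.IsIso k φ → (c.sum fun x r => r • B.formsRep x φ) = s • φ := by
  classical
  set T : B.forms →ₗ[ℂ] B.forms := c.sum fun x r => r • B.formsRep x with hT
  have hTa : ∀ φ, (c.sum fun x r => r • B.formsRep x φ) = T φ := fun φ => by
    rw [hT, Finsupp.sum, Finsupp.sum, LinearMap.sum_apply]
    rfl
  simp only [hTa] at hiso ⊢
  have hkill : ∀ φ, P.IsIso k φ → P.value φ = 0 → P.value (T φ) = 0 := fun φ hφ h0 => by
    rw [← hTa, map_finsuppSum]
    exact Finset.sum_eq_zero fun x hx => by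
      show P.value (c x • B.formsRep x φ) = 0
      rw [map_smul, hφ.value_eq_zero h0 (hc x hx), smul_zero]
  obtain ⟨s, hs⟩ : ∃ s : ℂ, ∀ φ, P.IsIso k φ → P.value (T φ) = s * P.value φ := by
    by_cases hex : ∃ φ, P.IsIso k φ ∧ P.value φ ≠ 0
    · obtain ⟨φ₀, hφ₀, hne⟩ := hex
      refine ⟨P.value (T φ₀) / P.value φ₀, fun φ hφ => ?_⟩
      have h := hkill _ (hφ.sub (hφ₀.smul (P.value φ / P.value φ₀)))
        (by rw [map_sub, map_smul, smul_eq_mul, div_mul_cancel₀ _ hne, sub_self])
      rw [map_sub, map_sub, map_smul, map_smul, smul_eq_mul, sub_eq_zero] at h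
      rw [h]
      ring
    · push Not at hex
      exact ⟨0, fun φ hφ => by rw [hkill φ hφ (hex φ hφ), zero_mul]⟩
  refine ⟨s, fun φ hφ => sub_eq_zero.1 (IsIso.eq_zero ((hiso φ hφ).sub (hφ.smul s)) fun t ht => ?_)⟩
  have htl : ∀ w ∈ B.deep', localGL K' w ((torusHom t : gfSupported B.bad') : GfK K') = 1 :=
    fun w hw => localGL_diag2_eq_one (ht w hw)
  have hcomm : B.formsRep (torusHom t) (T φ) = T (B.formsRep (torusHom t) φ) := by
    rw [← hTa, ← hTa, map_finsuppSum]
    refine Finsupp.sum_congr fun x hx => ?_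
    rw [map_smul, formsRep_comm fun v => ?_]
    by_cases hv : v ∈ B.deep'
    · exact Or.inl (htl v hv)
    · exact Or.inr (hc x hx v hv)
  rw [map_sub, map_sub, map_smul, map_smul, hcomm, hs _ (hφ.translate htl), smul_eq_mul, sub_self]

end DeepParam

end Fermat.Agent.Extra.LTGen
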