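/-
A nonzero isotypic form.
-/
import Fermat.Agent.Extra.LTGen.Descent.DeepForms

/-!
# A nonzero isotypic form

A form with Kirillov function constant near `δ⁻¹ a` and zero elsewhere, averaged against the
characters over the deep groups, has nonzero value at `δ⁻¹ a`.
-/

set_option autoImplicit false

noncomputable section

namespace Fermat.Agent.Extra.LTGen

open Fermat.Agent.LT Fermat.Agent.LT.Adelic Fermat.Agent.LT.Aleph
open Fermat.Agent.LT.Descent Fermat.Agent.LT.Descent.Places
open IsDedekindDomain IsDedekindDomain.HeightOneSpectrum NumberField Matrix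
open scoped MatrixGroups

variable {K : Type*} [Field K] [NumberField K] {K' : Type*} [Field K'] [NumberField K']
  [Algebra K K'] {Φ : Frame K Unit} {Φ' : Frame K' (Fin 3)} {tw : CubicTwist Φ Φ'}

namespace DeepParam

variable {B : GenBase tw} (P : DeepParam B)

/-- A form with Kirillov function zero or constant on the translates of `δ⁻¹ a`. -/
theorem exists_seed : ∃ φ : B.forms, P.value φ ≠ 0 ∧ ∀ u : ideleSupported B.bad',
    B.coeffs.kirillov φ (P.base * u) = 0 ∨ B.coeffs.kirillov φ (P.base * u) = P.value φ := by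
  classical
  obtain ⟨n₀, hn₀, hlt⟩ := exists_supportedIn (S := B.bad') B.finite_bad'
  set φ₀ : B.forms := ⟨B.ψ, B.isForm⟩
  obtain ⟨x₀, hx₀⟩ : ∃ x₀, B.coeffs.kirillov φ₀ x₀ ≠ 0 := by
    by_contra hno
    push Not at hno
    refine B.ne_zero (congrArg Subtype.val
      (B.coeffs.kirillov_injective B.finite_bad' (a₁ := φ₀) (a₂ := 0) ?_))
    rw [map_zero]
    exact funext hno
  set φ₁ := B.formsRep (torusHom (P.base⁻¹ * x₀)) φ₀
  have h1 : B.coeffs.kirillov φ₁ P.base ≠ 0 := by
    rw [kirillov_translate, mul_inv_cancel_left]; exact hx₀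
  have hK := B.coeffs.isKirillovModel B.finite_bad' hn₀ hlt
  obtain ⟨m₁, hm₁⟩ := hK.separate φ₁ P.base
  obtain ⟨m₂, hm₂⟩ := hK.invariant φ₁
  set m := max m₁ m₂
  obtain ⟨c, hc⟩ := hm₁ m (le_max_left _ _)
  set φ₂ : B.forms := c.sum fun y r => r • B.formsRep (unipElt y) φ₁ with hφ₂
  have hval : ∀ x, B.coeffs.kirillov φ₂ x =
      (torusCongr B.bad' n₀ m : Set (ideleSupported B.bad')).indicator 1 (P.base⁻¹ * x) *
        B.coeffs.kirillov φ₁ x := fun x => by
    rw [hφ₂, map_finsuppSum, Finsupp.sum_apply']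
    simp only [map_smul, Pi.smul_apply, smul_eq_mul]
    rw [Finsupp.sum_congr (g2 := fun y r => r * B.coeffs.modChar y x * B.coeffs.kirillov φ₁ x)
      fun y _ => by rw [kirillov_modulate, CoeffData.modChar, mul_assoc], ← Finsupp.sum_mul]
    by_cases hx : B.coeffs.kirillov φ₁ x = 0
    · rw [hx, mul_zero, mul_zero]
    · rw [hc x hx]
  have hL : P.value φ₂ = B.coeffs.kirillov φ₁ P.base := by
    rw [P.value_apply, hval, inv_mul_cancel, Set.indicator_of_mem (SetLike.mem_coe.2 (one_mem _)),
      Pi.one_apply, one_mul]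
  refine ⟨φ₂, hL ▸ h1, fun u => ?_⟩
  rw [hval, inv_mul_cancel_left]
  by_cases hu : u ∈ torusCongr B.bad' n₀ m
  · refine Or.inr ?_
    rw [Set.indicator_of_mem (SetLike.mem_coe.2 hu), Pi.one_apply, one_mul, hL,
      hm₂ m (le_max_right _ _) P.base u hu]
  · exact Or.inl (by rw [Set.indicator_of_notMem (fun h => hu h), zero_mul])

/-- The elements of the groups of depth `k`, supported at the deep places. -/
def deepSupp (k : ℕ) : Subgroup (gfSupported B.bad') where
  carrier := {x | (∀ w ∉ B.deep', localGL K' w (x : GfK K') = 1) ∧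
    ∀ w ∈ B.deep', localGL K' w (x : GfK K') ∈ P.group k w}
  one_mem' := ⟨fun w _ => map_one _, fun w _ => by rw [Subgroup.coe_one, map_one]; exact one_mem _⟩
  mul_mem' {x y} hx hy := ⟨fun w hw => by
      rw [Subgroup.coe_mul, map_mul, hx.1 w hw, hy.1 w hw, one_mul],
    fun w hw => by rw [Subgroup.coe_mul, map_mul]; exact mul_mem (hx.2 w hw) (hy.2 w hw)⟩
  inv_mem' {x} hx := ⟨fun w hw => by rw [Subgroup.coe_inv, map_inv, hx.1 w hw, inv_one],
    fun w hw => by rw [Subgroup.coe_inv, map_inv]; exact inv_mem (hx.2 w hw)⟩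

/-- The product of the characters. -/
def phase (x : gfSupported B.bad') : ℂ :=
  psiF ((P.aI : FiniteAdeleRing (𝓞 K') K') * (x : GfK K').1 0 1)

theorem localGL_entry_eq_zero {x : GfK K'} {w : HeightOneSpectrum (𝓞 K')}
    (h : localGL K' w x = 1) : (x.1 0 1) w = 0 := by
  rw [← localGL_apply, h]; simp

theorem phase_ne_zero (x : gfSupported B.bad') : P.phase x ≠ 0 := fun h => by
  have := AddChar.map_add_eq_mul (psiF (K := K'))
    ((P.aI : FiniteAdeleRing (𝓞 K') K') * (x : GfK K').1 0 1)
    (-((P.aI : FiniteAdeleRing (𝓞 K') K') * (x : GfK K').1 0 1))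
  rw [add_neg_cancel, AddChar.map_zero_eq_one] at this
  exact one_ne_zero (this.trans (by rw [← phase, h, zero_mul]))

theorem phase_mul {k : ℕ} {x y : gfSupported B.bad'} (hx : x ∈ P.deepSupp k)
    (hy : y ∈ P.deepSupp k) : P.phase (x * y) = P.phase x * P.phase y := by
  rw [phase, phase, phase, ← AddChar.map_add_eq_mul]
  refine psiF_eq_of_le fun w => ?_
  set A := (localGL K' w (x : GfK K')).1 with hA
  set C := (localGL K' w (y : GfK K')).1 with hC
  set t := (P.aI : FiniteAdeleRing (𝓞 K') K') w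
  have he : ((P.aI : FiniteAdeleRing (𝓞 K') K') * ((x * y : gfSupported B.bad') : GfK K').1 0 1) w -
      ((P.aI : FiniteAdeleRing (𝓞 K') K') * (x : GfK K').1 0 1 +
        (P.aI : FiniteAdeleRing (𝓞 K') K') * (y : GfK K').1 0 1) w =
      t * ((A 0 0 - 1) * C 0 1 + A 0 1 * (C 1 1 - 1)) := by
    rw [coe_apply_add, coe_apply_mul, coe_apply_mul, coe_apply_mul, Subgroup.coe_mul,
      ← localGL_apply, ← localGL_apply, ← localGL_apply, map_mul, Units.val_mul, Matrix.mul_apply,
      Fin.sum_univ_two]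
    ring
  rw [he, map_mul]
  by_cases hw : w ∈ B.deep'
  · refine le_trans ?_ (P.bound w).le
    rw [mul_assoc]
    refine mul_le_mul' le_rfl ((Valuation.map_add _ _ _).trans (max_le ?_ ?_)) <;> rw [map_mul]
    · refine mul_le_mul' ?_ (hy.2 w hw).2.1.1
      have := (hx.2 w hw).1.2.1 0 0
      rwa [Matrix.sub_apply, Matrix.one_apply_eq] at this
    · rw [mul_comm (P.eps w)]
      refine mul_le_mul' (hx.2 w hw).2.1.1 ?_
      have := (hy.2 w hw).1.2.1 1 1
      rwa [Matrix.sub_apply, Matrix.one_apply_eq] at this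
  · rw [hA, hC, hx.1 w hw, hy.1 w hw]
    simp

theorem phase_single {k : ℕ} {w : HeightOneSpectrum (𝓞 K')} {x : gfSupported B.bad'}
    (hx : localGL K' w (x : GfK K') ∈ P.group k w)
    (hu : ∀ v ≠ w, localGL K' v (x : GfK K') = 1) :
    P.phase x = (P.char k w ⟨_, hx⟩ : ℂ) := by
  rw [phase, P.char_apply]
  congr 1
  refine FiniteAdeleRing.ext K' fun v => ?_
  rw [coe_apply_mul]
  by_cases hv : v = w
  · subst hv; rw [adeleSingle_self, ← localGL_apply]
  · rw [adeleSingle_of_ne hv, localGL_entry_eq_zero (hu v hv), mul_zero]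

variable {n₂ : 𝓞 K'} {φ : B.forms}

theorem formsRep_eq_self
    (hinv : ∀ τ g, ∀ u ∈ principalLevel K' n₂, φ.1 τ (g * u) = φ.1 τ g)
    {p : gfSupported B.bad'} (hp : (p : GfK K') ∈ principalLevel K' n₂) : B.formsRep p φ = φ :=
  Subtype.ext (funext fun τ => funext fun g => hinv τ g _ hp)

theorem deepSupp_valued {k : ℕ} {x : gfSupported B.bad'} (hx : x ∈ P.deepSupp k)
    (w : HeightOneSpectrum (𝓞 K')) : Valued.v (((x : GfK K').1 1 1) w) = 1 := by
  rw [← localGL_apply]
  by_cases hw : w ∈ B.deep'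
  · have h : Valued.v ((localGL K' w (x : GfK K')).1 1 1 - 1) ≤ P.eps w := by
      have := (hx.2 w hw).1.2.1 1 1
      rwa [Matrix.sub_apply, Matrix.one_apply_eq] at this
    have h1 : Valued.v (1 + ((localGL K' w (x : GfK K')).1 1 1 - 1)) = 1 :=
      Valuation.map_one_add_of_lt _ (h.trans_lt (P.eps_lt_one (B.deep'_subset_bad' hw)))
    rwa [add_sub_cancel] at h1
  · rw [hx.1 w hw]; simp

/-- The value of a translate of the seed is the phase times zero or the value of the seed. -/
theorem value_deepSupp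
    (hinv : ∀ τ g, ∀ u ∈ principalLevel K' n₂, φ.1 τ (g * u) = φ.1 τ g)
    (hseed : ∀ u : ideleSupported B.bad',
      B.coeffs.kirillov φ (P.base * u) = 0 ∨ B.coeffs.kirillov φ (P.base * u) = P.value φ)
    {k : ℕ} (hk : ∀ w ∈ B.bad', P.eps w ^ k ≤ w.intValuation n₂)
    {x : gfSupported B.bad'} (hx : x ∈ P.deepSupp k) :
    P.value (B.formsRep x φ) = 0 ∨ P.value (B.formsRep x φ) = P.phase x * P.value φ := by
  have hunit : IsUnit ((x : GfK K').1 1 1) := isUnit_of_forall
    (fun w h => by
      have h1 := P.deepSupp_valued hx w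
      rw [h, map_zero] at h1; exact zero_ne_one h1)
    (Filter.Eventually.of_forall (P.deepSupp_valued hx))
  set r := hunit.unit with hr
  have hr' : (x : GfK K').1 1 1 = r := hunit.unit_spec.symm
  set t := (x : GfK K').1 0 1 * ((r⁻¹ : (FiniteAdeleRing (𝓞 K') K')ˣ) : FiniteAdeleRing (𝓞 K') K')
  set s := (x : GfK K').1 1 0 * ((r⁻¹ : (FiniteAdeleRing (𝓞 K') K')ˣ) : FiniteAdeleRing (𝓞 K') K')
  set p := GeneralLinearGroup.det (x : GfK K') * r⁻¹
  have hrv : ∀ w ∉ B.deep', (r : FiniteAdeleRing (𝓞 K') K') w = 1 := fun w hw => by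
    rw [← hr', ← localGL_apply, hx.1 w hw]; simp
  let u : ideleSupported B.bad' := ⟨p * r⁻¹, fun w hw => by
    have hw' : w ∉ B.deep' := fun h => hw (B.deep'_subset_bad' h)
    simp only [p, Units.val_mul, coe_apply_mul, inv_apply, hrv w hw', inv_one, mul_one]
    rw [GeneralLinearGroup.val_det_apply, Matrix.det_fin_two, coe_apply_sub, coe_apply_mul,
      coe_apply_mul, ← localGL_apply, ← localGL_apply, ← localGL_apply, ← localGL_apply,
      hx.1 w hw']
    simp⟩
  have hs : lowerRing s ∈ principalLevel K' n₂ := by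
    have hsv : ∀ w, Valued.v (s w) ≤ w.intValuation n₂ := fun w => by
      simp only [s, coe_apply_mul, map_mul, inv_apply, map_inv₀, ← hr', P.deepSupp_valued hx w,
        inv_one, mul_one]
      rw [← localGL_apply]
      by_cases hw : w ∈ B.deep'
      · refine ((hx.2 w hw).2.1.2.trans ?_)
        rw [P.intValuation_modulus]
        exact hk w (B.deep'_subset_bad' hw)
      · rw [hx.1 w hw]; simp
    refine mem_principalLevel.2 ⟨fun i j w => ?_, fun i j w => ?_⟩
    · fin_cases i <;> fin_cases j <;>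
        simp [lowerRing, Matrix.sub_apply, coe_apply_sub, coe_apply_one, coe_apply_zero, hsv]
    · fin_cases i <;> fin_cases j <;>
        simp [lowerRing, Matrix.sub_apply, coe_apply_sub, coe_apply_one, coe_apply_zero,
          coe_apply_neg, hsv]
  have hd : diag2 p r * lowerRing s = diag2 u.1 1 * lowerRing s * scalarHom (𝓞 K') K' r := by
    apply GL.ext_fin_two
    have h1 : ((r⁻¹ : (FiniteAdeleRing (𝓞 K') K')ˣ) : FiniteAdeleRing (𝓞 K') K') *
        (r : FiniteAdeleRing (𝓞 K') K') = 1 := r.inv_mul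
    ext i j
    fin_cases i <;> fin_cases j <;>
      simp [u, lowerRing, scalarHom, Matrix.mul_apply, Fin.sum_univ_two, mul_assoc, h1, mul_comm]
  have hphase : psiF ((conductorIdele K' : FiniteAdeleRing (𝓞 K') K') *
      ((P.base.1 : FiniteAdeleRing (𝓞 K') K') * t)) = P.phase x := by
    refine psiF_eq_of_le fun w => ?_
    rw [coe_apply_mul, coe_apply_mul, coe_apply_mul]
    simp only [t, coe_apply_mul, inv_apply, ← hr', ← localGL_apply]
    by_cases hw : w ∈ B.deep'
    · have hδ : (conductorIdele K' : FiniteAdeleRing (𝓞 K') K') w ≠ 0 := idele_ne_zero _ w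
      rw [P.base_apply_deep hw, ← mul_assoc, mul_div_cancel₀ _ hδ]
      set C := (localGL K' w (x : GfK K')).1
      have h11v : Valued.v (C 1 1) = 1 := P.deepSupp_valued hx w
      have h11 : C 1 1 ≠ 0 := fun h => by rw [h, map_zero] at h11v; exact zero_ne_one h11v
      rw [show (P.aI : FiniteAdeleRing (𝓞 K') K') w * (C 0 1 * (C 1 1)⁻¹) -
          (P.aI : FiniteAdeleRing (𝓞 K') K') w * C 0 1 =
        (P.aI : FiniteAdeleRing (𝓞 K') K') w * -(C 0 1 * (C 1 1 - 1) / C 1 1) by field_simp; ring,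
        map_mul, Valuation.map_neg, map_div₀, h11v, div_one, map_mul]
      refine le_trans ?_ (P.bound w).le
      rw [mul_assoc (Valued.v _), mul_comm (P.eps w)]
      refine mul_le_mul' le_rfl (mul_le_mul' (hx.2 w hw).2.1.1 ?_)
      have := (hx.2 w hw).1.2.1 1 1
      rwa [Matrix.sub_apply, Matrix.one_apply_eq] at this
    · rw [hx.1 w hw]; simp
  have key : P.value (B.formsRep x φ) = P.phase x * B.coeffs.kirillov φ (P.base * u) := by
    rw [P.value_translate, eq_unipotent_mul_diag2_mul_lowerRing (x : GfK K') r hr',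
      B.coeffs.torusCoeff_mul_unipotent, B.coeffs_psi]
    congr 1
    rw [hd, ← mul_assoc, B.coeffs.coeff_invariant φ _ (scalarHom (𝓞 K') K' r)
        (fun τ g => φ.2.center τ g _ ⟨r, rfl⟩),
      ← mul_assoc, B.coeffs.coeff_invariant φ _ (lowerRing s) (fun τ g => hinv τ g _ hs),
      diag2_mul_diag2, one_mul]
    show _ = B.coeffs.coeff φ (diag2 ((P.base * u).1 * B.coeffs.delta) 1) 1
    rw [Subgroup.coe_mul, mul_right_comm P.base.1 u.1 B.coeffs.delta]
  rcases hseed u with h | h
  · exact Or.inl (by rw [key, h, mul_zero])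
  · exact Or.inr (by rw [key, h])

open Classical in
/-- **A nonzero isotypic form**, fixed by every level deeper than the seed's. -/
theorem exists_isIso
    (hinv : ∀ τ g, ∀ u ∈ principalLevel K' n₂, φ.1 τ (g * u) = φ.1 τ g) (hne : P.value φ ≠ 0)
    (hseed : ∀ u : ideleSupported B.bad',
      B.coeffs.kirillov φ (P.base * u) = 0 ∨ B.coeffs.kirillov φ (P.base * u) = P.value φ)
    {k : ℕ} (hk : ∀ w ∈ B.bad', P.eps w ^ k ≤ w.intValuation n₂)
    (hkb : ∀ w ∈ B.deep', P.eps w ^ k ≤ P.beta w * P.eps w) :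
    ∃ φ' : B.forms, φ' ≠ 0 ∧ P.IsIso k φ' ∧
      ∀ h : gfSupported B.bad', (h : GfK K') ∈ principalLevel K' n₂ → B.formsRep h φ' = φ' := by
  let f : P.deepSupp k →* GfK K' := (gfSupported B.bad').subtype.comp (P.deepSupp k).subtype
  have hf : ∀ x, f x ∈ principalLevel K' (1 : 𝓞 K') := fun x => by
    rw [mem_principalLevel_one_iff]
    intro w
    by_cases hw : w ∈ B.deep'
    · exact ((x.2.2 w hw).1).1
    · show IsIntLocal (localGL K' w ((x : gfSupported B.bad') : GfK K'))
      rw [x.2.1 w hw]; exact isIntLocal_one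
  set n₁ : 𝓞 K' := ((P.N₀ ^ k : ℕ) : 𝓞 K') with hn₁
  set H := (principalLevel K' n₁).comap f with hH
  haveI : H.FiniteIndex :=
    finiteIndex_comap_principalLevel f hf (Nat.cast_ne_zero.2 (pow_ne_zero _ P.N₀_ne))
  letI : Fintype (P.deepSupp k ⧸ H) := Subgroup.fintypeQuotientOfFiniteIndex
  let g : P.deepSupp k → B.forms := fun x => (P.phase x.1)⁻¹ • B.formsRep x.1 φ
  have hgp : ∀ x p : P.deepSupp k, p ∈ H → g (x * p) = g x := fun x p hp => by
    have hloc := mem_principalLevel_iff_congrLoc.1 (Subgroup.mem_comap.1 hp)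
    have h1 : P.phase p.1 = 1 := psiF_eq_one_of_le fun w => by
      rw [coe_apply_mul, ← localGL_apply, map_mul]
      by_cases hw : w ∈ B.deep'
      · refine le_trans ?_ (P.bound w).le
        rw [mul_assoc, mul_comm (P.eps w)]
        refine mul_le_mul' le_rfl (le_trans ?_ (hkb w hw))
        rw [← P.intValuation_modulus]
        have := (hloc w).2.1 0 1
        rwa [Matrix.sub_apply, Matrix.one_apply_ne (by decide), sub_zero] at this
      · rw [p.2.1 w hw]; simp
    have h2 : B.formsRep p.1 φ = φ := formsRep_eq_self hinv <| by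
      rw [mem_principalLevel_iff_congrLoc]
      intro w
      by_cases hw : w ∈ B.bad'
      · refine congrLoc_mono w ?_ (hloc w)
        rw [P.intValuation_modulus]
        exact hk w hw
      · rw [p.1.2 w hw]; exact one_mem _
    show (P.phase (x.1 * p.1))⁻¹ • B.formsRep (x.1 * p.1) φ = _
    rw [P.phase_mul x.2 p.2, h1, mul_one, map_mul, Module.End.mul_apply, h2]
  have hgout : ∀ x : P.deepSupp k, g (x : P.deepSupp k ⧸ H).out = g x := fun x => by
    obtain ⟨p, hp⟩ := QuotientGroup.mk_out_eq_mul H x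
    rw [hp, hgp _ _ p.2]
  set φ' := ∑ q : P.deepSupp k ⧸ H, g q.out with hφ'
  refine ⟨φ', fun h0 => ?_, fun w hw x hx hu => ?_, fun h hh => ?_⟩
  · -- the values are zero or the value of the seed, and the class of `1` gives the latter
    have hv : ∀ q : P.deepSupp k ⧸ H, P.value (g q.out) = 0 ∨ P.value (g q.out) = P.value φ := by
      intro q
      rw [show P.value (g q.out) = (P.phase q.out.1)⁻¹ * P.value (B.formsRep q.out.1 φ) by
        rw [map_smul, smul_eq_mul]]
      rcases P.value_deepSupp hinv hseed hk q.out.2 with h | h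
      · exact Or.inl (by rw [h, mul_zero])
      · exact Or.inr (by rw [h, inv_mul_cancel_left₀ (P.phase_ne_zero _)])
    have hsum : P.value φ' = ∑ q : P.deepSupp k ⧸ H,
        if P.value (g q.out) = P.value φ then P.value φ else 0 := by
      rw [hφ', map_sum]
      refine Finset.sum_congr rfl fun q _ => ?_
      rcases hv q with h | h
      · rw [h, if_neg fun e => hne e.symm]
      · rw [if_pos h, h]
    rw [h0, map_zero, ← Finset.sum_filter, Finset.sum_const, nsmul_eq_mul] at hsum
    rcases mul_eq_zero.1 hsum.symm with h | h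
    · have hone : P.value (g (1 : P.deepSupp k)) = P.value φ := by
        show P.value ((P.phase (1 : gfSupported B.bad'))⁻¹ • B.formsRep 1 φ) = _
        rw [map_one, phase]
        simp
      refine Finset.card_ne_zero.2 ⟨((1 : P.deepSupp k) : P.deepSupp k ⧸ H), ?_⟩
        (Nat.cast_eq_zero.1 h)
      rw [Finset.mem_filter]
      exact ⟨Finset.mem_univ _, by rw [hgout, hone]⟩
    · exact hne h
  · have hxG : x ∈ P.deepSupp k :=
      ⟨fun v hv => hu v fun e => hv (e ▸ hw), fun v hv => by
        by_cases e : v = w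
        · subst e; exact hx
        · rw [hu v e]; exact one_mem _⟩
    have hy : ∀ y : P.deepSupp k, B.formsRep x (g y) = P.phase x • g (⟨x, hxG⟩ * y) := fun y => by
      show B.formsRep x ((P.phase y.1)⁻¹ • B.formsRep y.1 φ) =
        P.phase x • ((P.phase (x * y.1))⁻¹ • B.formsRep (x * y.1) φ)
      rw [map_smul, map_mul, Module.End.mul_apply, P.phase_mul hxG y.2, _root_.mul_inv_rev,
        smul_smul, mul_comm (P.phase y.1)⁻¹, mul_inv_cancel_left₀ (P.phase_ne_zero _)]
    rw [← P.phase_single hx hu, hφ', map_sum, Finset.smul_sum]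
    refine Fintype.sum_equiv (MulAction.toPerm (⟨x, hxG⟩ : P.deepSupp k)) _ _ fun q => ?_
    rw [hy, MulAction.toPerm_apply]
    congr 1
    conv_rhs => rw [← QuotientGroup.out_eq' q, MulAction.Quotient.smul_coe, smul_eq_mul, hgout]
  · rw [hφ', map_sum]
    refine Finset.sum_congr rfl fun q _ => ?_
    rw [map_smul, ← Module.End.mul_apply, ← map_mul,
      show h * q.out.1 = q.out.1 * (q.out.1⁻¹ * h * q.out.1) by group, map_mul,
      Module.End.mul_apply, formsRep_eq_self hinv (p := q.out.1⁻¹ * h * q.out.1)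
        (conj_mem_principalLevel_of_int (hf q.out) hh)]

end DeepParam

end Fermat.Agent.Extra.LTGen
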