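/-
The pieces of the general descent.
-/
import Fermat.Agent.Extra.LTGen.Defs
import Fermat.Agent.Extra.LTGen.Descent.Setup

set_option autoImplicit false

noncomputable section

namespace Fermat.Agent.Extra.LTGen

open Fermat.Agent.LT Fermat.Agent.LT.Adelic Fermat.Agent.LT.Descent
open NumberField

/-- Characters of every depth exist at the deep places. -/
def StmtDeepCharAll : Prop :=
  ∀ (K : Type) [Field K] [NumberField K] (K' : Type) [Field K'] [NumberField K'] [Algebra K K']
    (Φ : Frame K Unit) (Φ' : Frame K' (Fin 3)) (tw : CubicTwist Φ Φ') (B : GenBase tw),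
    StmtDeepChar B

/-- **The trace comparison**: a deep enough modulus gives a descended form. The bound depends on
the base only. -/
def StmtDescendedGen : Prop :=
  ∀ (K : Type) [Field K] [NumberField K] (K' : Type) [Field K'] [NumberField K'] [Algebra K K']
    (Φ : Frame K Unit) (Φ' : Frame K' (Fin 3)) (tw : CubicTwist Φ Φ') (B : GenBase tw),
    ∃ n : ℕ, n ≠ 0 ∧ ∀ D : GenData tw, D.base = B → n ∣ D.deep.N₀ → n * D.deep.N₁ ∣ D.N →
      D.HasDescended

/-- The Galois side: a dihedral form gives a base, and a descended form from it gives the output. -/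
def StmtDescentGalois : Prop :=
  StmtDeepCharAll → StmtDescendedGen → StmtDescentGen

theorem stmtDescentGen_of (hg : StmtDescentGalois) (hc : StmtDeepCharAll)
    (hd : StmtDescendedGen) : StmtDescentGen :=
  hg hc hd

end Fermat.Agent.Extra.LTGen
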