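/-
Deep characters of every modulus.
-/
import Fermat.Agent.Extra.LTGen.Descent.Pieces
import Fermat.Agent.Extra.LTGen.Descent.DeepScalar
import Fermat.Agent.Extra.LTGen.Descent.DeepVector

/-!
# The nonvanishing piece

For every modulus there are deep characters whose isotypic forms are nonzero and a line tensor the
split places.
-/

set_option autoImplicit false

noncomputable section

namespace Fermat.Agent.Extra.LTGen

open Fermat.Agent.LT Fermat.Agent.LT.Adelic Fermat.Agent.LT.Aleph
open Fermat.Agent.LT.Descent Fermat.Agent.LT.Descent.Places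
open IsDedekindDomain IsDedekindDomain.HeightOneSpectrum NumberField Matrix
open scoped MatrixGroups

variable {K : Type*} [Field K] [NumberField K] {K' : Type*} [Field K'] [NumberField K']
  [Algebra K K'] {Φ : Frame K Unit} {Φ' : Frame K' (Fin 3)} {tw : CubicTwist Φ Φ'}

/-- Characters of depth divisible by a given number exist. -/
theorem stmtDeepChar_of_base (B : GenBase tw) : StmtDeepChar B := by
  intro n hn
  obtain ⟨P, hP⟩ := B.exists_deepParam hn
  obtain ⟨φ, hne, hseed⟩ := P.exists_seed
  obtain ⟨n₂, hn₂, hinv⟩ := φ.2.smooth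
  obtain ⟨k₁, hk₁⟩ := exists_pow_le B.finite_bad' P.small
    (fun w => min (w.intValuation n₂) (P.beta w * P.eps w)) fun w _ h => by
      rcases min_choice (w.intValuation n₂) (P.beta w * P.eps w) with e | e <;> rw [e] at h
      · exact w.intValuation_ne_zero n₂ hn₂.1 h
      · exact mul_ne_zero (P.beta_ne w) (P.eps_ne w) h
  set k := k₁ + 1 with hkdef
  have hk0 : k ≠ 0 := by omega
  have hk : ∀ w ∈ B.bad', P.eps w ^ k ≤ min (w.intValuation n₂) (P.beta w * P.eps w) := fun w hw =>
    le_trans (le_of_eq (by rw [map_pow]; rfl)) (hk₁ k (by omega) w hw)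
  have hk2 : ∀ w ∈ B.bad', P.eps w ^ k ≤ w.intValuation n₂ := fun w hw =>
    (hk w hw).trans (min_le_left _ _)
  have hkb : ∀ w ∈ B.deep', P.eps w ^ k ≤ P.beta w * P.eps w := fun w hw =>
    (hk w (B.deep'_subset_bad' hw)).trans (min_le_right _ _)
  obtain ⟨φ', hφ', hiso, hfix⟩ := P.exists_isIso hinv hne hseed hk2 hkb
  refine ⟨{ toDeepLoc := P.loc k hk0 hkb
            exists_vector := fun N hN hdvd => ⟨φ', hφ', hiso, fun h hh => hfix h ?_⟩
            scalar := fun c hc hst => DeepParam.exists_scalar k c hc hst }, hP⟩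
  rw [mem_principalLevel_iff_congrLoc]
  intro w
  by_cases hw : w ∈ B.bad'
  · set L : GenLevel K' := { B.levOf' N hN with aux := ∅, aux_finite := Set.finite_empty }
    have hloc : localGL K' w (h : GfK K') ∈ L.loc w := (Tame.mem_productLevel L.loc).1 hh w
    rw [L.loc_of_bad hw] at hloc
    refine congrLoc_mono w ?_ hloc
    refine le_trans ?_ (hk2 w hw)
    rw [← P.intValuation_modulus]
    obtain ⟨d, hd⟩ := hdvd
    show w.intValuation (N : 𝓞 K') ≤ _
    rw [hd, Nat.cast_mul, map_mul]
    exact (mul_le_mul' le_rfl (w.intValuation_le_one _)).trans (mul_one _).le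
  · rw [h.2 w hw]; exact one_mem _

/-- **Deep characters of every depth exist.** -/
theorem stmtDeepCharAll : StmtDeepCharAll :=
  fun _ _ _ _ _ _ _ _ _ _ B => stmtDeepChar_of_base B

end Fermat.Agent.Extra.LTGen
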