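/-
The target space of the general descent: the forms upstairs of the level of the data.  It is
finite dimensional and irreducible under all translations at the bad places, the projection onto
the isotypic forms acts on it, and some translation at the split bad places has a nonzero trace
against that projection and the twist.
-/
import Fermat.Agent.LT.Descent.LevelIrreducible
import Fermat.Agent.LT.Descent.Multiplicity
import Fermat.Agent.Extra.LTGen.Descent.TargetDeep
import Fermat.Agent.Extra.LTGen.Descent.TestPair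

set_option autoImplicit false

noncomputable section

namespace Fermat.Agent.Extra.LTGen

open Fermat.Agent.LT Fermat.Agent.LT.Descent

open IsDedekindDomain IsDedekindDomain.HeightOneSpectrum NumberField Matrix Filter
open Fermat.Agent.LT.Adelic Fermat.Agent.LT.Aleph Fermat.Agent.LT.Tame
open Fermat.Agent.LT.Descent.Places
open scoped MatrixGroups

namespace GenData

variable {K : Type*} [Field K] [NumberField K] {K' : Type*} [Field K'] [NumberField K']
  [Algebra K K'] {Φ : Frame K Unit} {Φ' : Frame K' (Fin 3)} {tw : CubicTwist Φ Φ'}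
  (D : GenData tw)

/-- The forms upstairs with the system of the data. -/
abbrev forms : Submodule ℂ ((Fin 3 → HSpace) → GfK K' → ℂ) := D.base.forms

/-- Translations on those forms. -/
abbrev formsRep : gfSupported D.bad' →* (D.forms →ₗ[ℂ] D.forms) := D.base.formsRep

/-- The group of the target level. -/
abbrev targetGroup : Subgroup (gfSupported D.bad') :=
  supLevel D.bad' D.lev₀'.level

/-- **The target space.** -/
def target : Submodule ℂ D.forms := fixedVectors D.formsRep D.targetGroup

theorem N₁_dvd : D.deep.N₁ ∣ D.N := (dvd_mul_left _ _).trans D.dvd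

theorem loc₀'_of_bad {w : HeightOneSpectrum (𝓞 K')} (hw : w ∈ D.bad') :
    D.lev₀'.loc w = congrLoc w (w.intValuation (D.N : 𝓞 K')) := D.lev₀'.loc_of_bad hw

theorem full_outside (w : HeightOneSpectrum (𝓞 K')) (hw : w ∉ D.bad') :
    localFull K' w ≤ D.lev₀'.loc w :=
  le_of_eq (D.lev₀'.loc_of_good hw (Set.notMem_empty w)).symm

theorem exists_modulus : ∃ n, SupportedIn D.bad' n ∧
    principalLevel K' n ≤ D.lev₀'.level :=
  exists_supportedIn_le_productLevel D.finite_bad' D.full_outside D.lev₀'.isLevel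

theorem exists_targetProj : ∃ e, IsLevelProj D.formsRep e D.target ∧
    ∀ φ H, IsStab D.formsRep D.targetGroup H φ → e φ = avgOver D.formsRep D.targetGroup H φ := by
  obtain ⟨n, hn, hnU⟩ := D.exists_modulus
  exact exists_isLevelProj_translateRep D.finite_bad' hn hnU D.lev₀'.level_le

instance finiteDimensional_target : FiniteDimensional ℂ D.target := by
  obtain ⟨n, hn, hnU⟩ := D.exists_modulus
  exact finiteDimensional_fixedVectors D.finite_bad' hn hnU D.lev₀'.level_le

theorem exists_target_isotypic :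
    ∃ φ : D.forms, φ ≠ 0 ∧ φ ∈ D.target ∧ D.deep.toDeepLoc.IsIsotypic φ := by
  obtain ⟨φ, h0, hφ, hfix⟩ := D.deep.exists_vector D.N D.N_ne D.N₁_dvd
  exact ⟨φ, h0, hfix, hφ⟩

/-! ### The twist -/

theorem placePerm_mem_bad'_iff (w : HeightOneSpectrum (𝓞 K')) :
    placePerm tw.σ.toRingEquiv w ∈ D.bad' ↔ w ∈ D.bad' :=
  D.placePerm_mem_placesAbove_iff D.bad w

theorem isStableLevel₀ : IsStableLevel tw.σ.toRingEquiv D.lev₀'.level :=
  isStableLevel_productLevel _ fun w γ hγ =>
    GenLevel.map_completionEquiv_mem_loc tw.σ.toRingEquiv D.lev₀' D.placePerm_mem_bad'_iff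
      (fun _ => Iff.rfl) w γ hγ

/-- The twist on the forms. -/
def formsTwist : D.forms →ₗ[ℂ] D.forms := D.base.twistMap

theorem coe_formsTwist (φ : D.forms) : (D.formsTwist φ).1 = twistFn tw φ.1 := rfl

theorem invariant_of_mem_target {φ : D.forms} (hφ : φ ∈ D.target) :
    ∀ τ g, ∀ u ∈ D.lev₀'.level, φ.1 τ (g * u) = φ.1 τ g := by
  obtain ⟨n, hn, hnU⟩ := D.exists_modulus
  exact invariant_of_mem_fixedVectors D.finite_bad' hn hnU D.lev₀'.level_le hφ

theorem formsTwist_mem_target {φ : D.forms} (hφ : φ ∈ D.target) : D.formsTwist φ ∈ D.target :=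
  fun u hu => Subtype.ext (funext fun τ => funext fun g => by
    show twistFn tw φ.1 τ (g * (u : GfK K')) = twistFn tw φ.1 τ g
    simp only [twistFn, map_mul]
    exact D.invariant_of_mem_target hφ _ _ _ (D.isStableLevel₀ _ hu))

/-- The twist on the target. -/
def targetTwist : Module.End ℂ D.target :=
  LinearMap.codRestrict D.target (D.formsTwist ∘ₗ D.target.subtype)
    fun φ => D.formsTwist_mem_target φ.2

theorem coe_targetTwist (φ : D.target) :
    ((D.targetTwist φ : D.target) : D.forms).1 = twistFn tw φ.1.1 := rfl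

theorem targetTwist_cube : D.targetTwist * D.targetTwist * D.targetTwist = 1 :=
  LinearMap.ext fun φ => Subtype.ext (Subtype.ext (twistFn_cube φ.1.1))

/-! ### The projection onto the isotypic forms on the target -/

theorem conj_mem_targetGroup {h : gfSupported D.bad'} (hh : h ∈ D.deep.toDeepLoc.group)
    {u : gfSupported D.bad'} (hu : u ∈ D.targetGroup) : h * u * h⁻¹ ∈ D.targetGroup :=
  mem_supLevel.2 ((mem_productLevel _).2 fun w => by
    have hu' := (mem_productLevel _).1 (mem_supLevel.1 hu) w
    simp only [Subgroup.coe_mul, Subgroup.coe_inv, map_mul, map_inv]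
    by_cases hw : w ∈ D.bad'
    · rw [D.loc₀'_of_bad hw] at hu' ⊢
      exact conj_mem_congrLoc (D.deep.toDeepLoc.isIntLocal_of_mem hh w) hu'
    · rw [h.2 w hw, one_mul, inv_one, mul_one]
      exact hu')

theorem formsRep_mem_target {h : gfSupported D.bad'} (hh : h ∈ D.deep.toDeepLoc.group)
    {φ : D.forms} (hφ : φ ∈ D.target) : D.formsRep h φ ∈ D.target := fun u hu => by
  have h1 := hφ _ (D.conj_mem_targetGroup (inv_mem hh) hu)
  rw [inv_inv] at h1
  conv_rhs => rw [← h1]
  rw [← Module.End.mul_apply, ← map_mul, ← Module.End.mul_apply, ← map_mul, mul_assoc h⁻¹ u h,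
    mul_inv_cancel_left]

/-- The modulus for averaging on the target. -/
theorem exists_isStab_target :
    ∃ H : Subgroup (⊤ : Subgroup D.deep.toDeepLoc.group), H.FiniteIndex ∧
      ∀ φ ∈ D.target, IsStab D.deep.toDeepLoc.rep ⊤ H φ := by
  obtain ⟨n, hn, hnU⟩ := D.exists_modulus
  exact ⟨_, D.deep.toDeepLoc.finiteIndex_modulusSubgroup (mul_ne_zero hn.1
      (Nat.cast_ne_zero.2 D.deep.N₁_ne)),
    fun φ hφ => D.deep.toDeepLoc.isStab_of_modulus hn.1 fun u _ hu =>
      hφ u (mem_supLevel.2 (hnU hu))⟩

theorem proj_mem_target {φ : D.forms} (hφ : φ ∈ D.target) :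
    D.deep.toDeepLoc.proj φ ∈ D.target := by
  obtain ⟨H, hH, hst⟩ := D.exists_isStab_target
  have := Fintype.ofFinite ((⊤ : Subgroup D.deep.toDeepLoc.group) ⧸ H)
  rw [D.deep.toDeepLoc.proj_eq _ _ (hst φ hφ), avgOver_eq hH]
  exact D.target.smul_mem _ (D.target.sum_mem fun q _ => by
    rw [DeepLoc.rep_apply]
    exact D.target.smul_mem _ (D.formsRep_mem_target (q.out : D.deep.toDeepLoc.group).2 hφ))

/-- **The projection onto the isotypic forms, on the target.** -/
def deepEnd : Module.End ℂ D.target :=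
  LinearMap.codRestrict D.target (D.deep.toDeepLoc.proj ∘ₗ D.target.subtype)
    fun φ => D.proj_mem_target φ.2

theorem coe_deepEnd (φ : D.target) :
    ((D.deepEnd φ : D.target) : D.forms) = D.deep.toDeepLoc.proj φ := rfl

theorem isIsotypic_deepEnd (φ : D.target) :
    D.deep.toDeepLoc.IsIsotypic (D.deepEnd φ : D.forms) :=
  D.deep.toDeepLoc.isIsotypic_proj _

theorem deepEnd_sq : D.deepEnd * D.deepEnd = D.deepEnd :=
  LinearMap.ext fun φ => Subtype.ext (D.deep.toDeepLoc.proj_of_isIsotypic (D.isIsotypic_deepEnd φ))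

/-- The twist keeps the image of the projection. -/
theorem deepEnd_mul_twist_sq_mul_deepEnd :
    D.deepEnd * (D.targetTwist * D.targetTwist * D.deepEnd) =
      D.targetTwist * D.targetTwist * D.deepEnd :=
  LinearMap.ext fun φ => Subtype.ext (D.deep.toDeepLoc.proj_of_isIsotypic
    (D.deep.toDeepLoc.isIsotypic_twistMap (D.deep.toDeepLoc.isIsotypic_twistMap
      (D.isIsotypic_deepEnd φ))))

/-- The elements living at the split bad places. -/
def splitPart : Subgroup (gfSupported D.bad') where
  carrier := {x | ∀ w ∈ D.base.deep', localGL K' w (x : GfK K') = 1}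
  one_mem' := fun w _ => map_one _
  mul_mem' := fun hx hy w hw => by rw [Subgroup.coe_mul, map_mul, hx w hw, hy w hw, one_mul]
  inv_mem' := fun hx w hw => by rw [Subgroup.coe_inv, map_inv, hx w hw, inv_one]

variable {D}

theorem commute_splitPart_deepPart {g h : gfSupported D.bad'} (hg : g ∈ D.splitPart)
    (hh : h ∈ D.base.deepPart) : g * h = h * g :=
  Subtype.ext (commute_of_disjoint fun w => by
    by_cases hw : w ∈ D.base.deep'
    · exact Or.inl (hg w hw)
    · exact Or.inr (hh w hw))

variable {e : D.forms →ₗ[ℂ] D.forms}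
  (he : ∀ φ H, IsStab D.formsRep D.targetGroup H φ → e φ = avgOver D.formsRep D.targetGroup H φ)

include he in
theorem levelOp_mul_disjoint (hJ : IsLevelProj D.formsRep e D.target) {g h : gfSupported D.bad'}
    (hg : g ∈ D.splitPart) (hh : h ∈ D.base.deepPart) :
    levelOp hJ g * levelOp hJ h = levelOp hJ (g * h) ∧
      levelOp hJ h * levelOp hJ g = levelOp hJ (g * h) := by
  refine ⟨LinearMap.ext fun φ => Subtype.ext ?_, LinearMap.ext fun φ => Subtype.ext ?_⟩
  · exact levelProj_mul_of_disjoint D.finite_bad' D.lev₀'.loc_le he (D.base.deep')ᶜ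
      (fun w hw => hg w (not_not.1 hw)) (fun w hw => hh w hw) φ.2
  · rw [commute_splitPart_deepPart hg hh]
    exact levelProj_mul_of_disjoint D.finite_bad' D.lev₀'.loc_le he D.base.deep'
      (fun w hw => hh w hw) (fun w hw => hg w hw) φ.2

include he in
/-- Compressed translations at split places commute with the projection. -/
theorem deepEnd_mul_levelOp (hJ : IsLevelProj D.formsRep e D.target) {g : gfSupported D.bad'}
    (hg : g ∈ D.splitPart) : D.deepEnd * levelOp hJ g = levelOp hJ g * D.deepEnd := by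
  obtain ⟨H, hH, hst⟩ := D.exists_isStab_target
  have := Fintype.ofFinite ((⊤ : Subgroup D.deep.toDeepLoc.group) ⧸ H)
  have hcomm : ∀ (h : D.deep.toDeepLoc.group) (φ : D.target),
      e (D.formsRep g (D.formsRep h φ)) = D.formsRep h (e (D.formsRep g φ)) := fun h φ => by
    obtain ⟨h1, h2⟩ := levelOp_mul_disjoint he hJ hg (D.deep.toDeepLoc.group_le_deepPart h.2)
    have := congrArg (fun f : Module.End ℂ D.target => ((f φ : D.target) : D.forms))
      (h1.trans h2.symm)
    simp only [Module.End.mul_apply, coe_levelOp] at this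
    rwa [hJ.fix _ (D.formsRep_mem_target h.2 φ.2),
      hJ.fix _ (D.formsRep_mem_target h.2 (hJ.mem _))] at this
  refine LinearMap.ext fun φ => Subtype.ext ?_
  rw [Module.End.mul_apply, Module.End.mul_apply, coe_deepEnd, coe_levelOp, coe_levelOp,
    coe_deepEnd, D.deep.toDeepLoc.proj_eq _ _ (hst _ (hJ.mem _)),
    D.deep.toDeepLoc.proj_eq _ _ (hst _ φ.2), avgOver_eq hH, avgOver_eq hH]
  simp only [map_smul, map_sum, DeepLoc.rep_apply, hcomm]

include he in
/-- The projection absorbs the level projection on translations at the deep places. -/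
theorem proj_levelProj {x : gfSupported D.bad'} (hx : x ∈ D.base.deepPart) {φ : D.forms}
    (hφ : φ ∈ D.target) :
    D.deep.toDeepLoc.proj (e (D.formsRep x φ)) = D.deep.toDeepLoc.proj (D.formsRep x φ) := by
  classical
  set C := D.deep.toDeepLoc
  have key : ∀ j ∈ D.targetGroup,
      C.proj (D.formsRep j (D.formsRep x φ)) = C.proj (D.formsRep x φ) := by
    intro j hj
    have hl := (mem_productLevel _).1 (mem_supLevel.1 hj)
    obtain ⟨jD, hjD, hjD'⟩ := exists_part D.base.deep' j
    obtain ⟨jS, hjS, hjS'⟩ := exists_part (D.base.deep')ᶜ j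
    have e1 : j = jD * jS := Subtype.ext (Aleph.gf_ext fun w => by
      rw [Subgroup.coe_mul, map_mul]
      by_cases hw : w ∈ D.base.deep'
      · rw [hjD w hw, hjS' w (not_not.2 hw), mul_one]
      · rw [hjD' w hw, hjS w hw, one_mul])
    have hjD1 : ∀ w ∈ D.base.deep', localGL K' w (jD : GfK K') ∈
        congrLoc w (w.intValuation (D.deep.N₁ : 𝓞 K')) := fun w hw => by
      have h1 := hl w
      rw [D.loc₀'_of_bad (D.base.deep'_subset_bad' hw)] at h1
      rw [hjD w hw]
      exact congrLoc_mono w (intValuation_le_of_dvd D.N₁_dvd) h1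
    have hjDg : jD ∈ C.group := fun w =>
      ⟨fun hw => D.deep.le_H w hw (hjD1 w hw), hjD' w⟩
    have hchar : C.char ⟨jD, hjDg⟩ = 1 := by
      rw [DeepLoc.char_apply]
      exact Finset.prod_eq_one fun w _ =>
        D.deep.trivial w.1 (D.base.finite_deep'.mem_toFinset.1 w.2) _
          (hjD1 w.1 (D.base.finite_deep'.mem_toFinset.1 w.2))
    have hjSJ : jS ∈ D.targetGroup := mem_supLevel.2 ((mem_productLevel _).2 fun w => by
      by_cases hw : w ∈ D.base.deep'
      · rw [hjS' w (not_not.2 hw)]; exact one_mem _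
      · rw [hjS w hw]; exact hl w)
    have hS : D.formsRep jS (D.formsRep x φ) = D.formsRep x φ := by
      rw [← Module.End.mul_apply, ← map_mul,
        commute_splitPart_deepPart (fun w hw => hjS' w (not_not.2 hw)) hx, map_mul,
        Module.End.mul_apply, hφ _ hjSJ]
    rw [e1, map_mul, Module.End.mul_apply, hS]
    refine (C.proj_formsRep ⟨jD, hjDg⟩ _).trans ?_
    rw [hchar, Units.val_one, one_smul]
  obtain ⟨H, hH⟩ := exists_isStab_translateRep (Φ := Φ') (a := D.eig) D.finite_bad'
    D.lev₀'.level_le (D.formsRep x φ)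
  have := hH.1
  have := Fintype.ofFinite (D.targetGroup ⧸ H)
  rw [he _ H hH, avgOver_eq hH.1, map_smul, map_sum,
    Finset.sum_congr rfl fun q _ => key _ q.out.2, Finset.sum_const, Finset.card_univ,
    ← Nat.cast_smul_eq_nsmul ℂ, smul_smul, inv_mul_cancel₀ (Nat.cast_ne_zero.2 Fintype.card_ne_zero),
    one_smul]

variable (D)

/-- **A translation at the split bad places has a nonzero trace against the projection and the
twist.** -/
theorem exists_trace_target_ne_zero : ∃ (e : D.forms →ₗ[ℂ] D.forms)
    (hJ : IsLevelProj D.formsRep e D.target),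
    (∀ φ H, IsStab D.formsRep D.targetGroup H φ → e φ = avgOver D.formsRep D.targetGroup H φ) ∧
      ∃ g ∈ D.splitPart, LinearMap.trace ℂ D.target
        (levelOp hJ g * D.deepEnd * (D.targetTwist * D.targetTwist)) ≠ 0 := by
  obtain ⟨e, hJ, he⟩ := D.exists_targetProj
  refine ⟨e, hJ, he, ?_⟩
  set θ := D.targetTwist * D.targetTwist
  set P := D.deepEnd
  have hPθP : P * (θ * P) = θ * P := D.deepEnd_mul_twist_sq_mul_deepEnd
  have hPP : P * P = P := D.deepEnd_sq
  have h0 : θ * P ≠ 0 := fun h => by
    obtain ⟨φ, hφ0, hφ, hiso⟩ := D.exists_target_isotypic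
    have hPφ : P ⟨φ, hφ⟩ = ⟨φ, hφ⟩ :=
      Subtype.ext (D.deep.toDeepLoc.proj_of_isIsotypic hiso)
    have h1 := LinearMap.congr_fun h ⟨φ, hφ⟩
    rw [Module.End.mul_apply, hPφ, LinearMap.zero_apply] at h1
    have h2 := LinearMap.congr_fun D.targetTwist_cube ⟨φ, hφ⟩
    rw [mul_assoc, Module.End.mul_apply, show (D.targetTwist * D.targetTwist) ⟨φ, hφ⟩ = 0 from h1,
      map_zero, Module.End.one_apply] at h2
    exact hφ0 (congrArg Subtype.val h2).symm
  obtain ⟨n, hn, hnU⟩ := D.exists_modulus
  obtain ⟨x, -, hx⟩ := exists_trace_levelOp_ne_zero hJ ⊤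
    (fun g _ => by
      obtain ⟨c, hc⟩ := hJ.comb g
      exact ⟨c, fun _ _ => trivial, hc⟩)
    (fun N hle hN0 hN => eq_of_isStableOn_level D.finite_bad' hn hnU hJ hle hN0
      fun g _ => hN g (Subgroup.mem_top g)) h0
  obtain ⟨xD, hxD, hxD'⟩ := exists_part D.base.deep' x
  obtain ⟨xS, hxS, hxS'⟩ := exists_part (D.base.deep')ᶜ x
  have hS : xS ∈ D.splitPart := fun w hw => hxS' w (not_not.2 hw)
  have hxe : x = xS * xD := Subtype.ext (Aleph.gf_ext fun w => by
    rw [Subgroup.coe_mul, map_mul]
    by_cases hw : w ∈ D.base.deep'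
    · rw [hxD w hw, hS w hw, one_mul]
    · rw [hxD' w hw, hxS w hw, mul_one])
  obtain ⟨s, hs⟩ := D.deep.exists_proj_formsRep_eq (x := xD) hxD'
  set A := levelOp hJ xS
  set B := levelOp hJ xD
  have hAB : levelOp hJ x = A * B := by
    rw [hxe]; exact (levelOp_mul_disjoint he hJ hS hxD').1.symm
  have hPBP : P * B * P = s • P := LinearMap.ext fun φ => Subtype.ext (by
    rw [Module.End.mul_apply, Module.End.mul_apply, coe_deepEnd, coe_levelOp,
      proj_levelProj he hxD' (P φ).2]
    exact hs _ (D.isIsotypic_deepEnd φ))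
  have hPA : P * A = A * P := deepEnd_mul_levelOp he hJ hS
  refine ⟨xS, hS, fun h => hx ?_⟩
  calc LinearMap.trace ℂ D.target (levelOp hJ x * (θ * P))
      = LinearMap.trace ℂ D.target ((A * B * (θ * P)) * P) := by
        rw [hAB, mul_assoc (A * B) (θ * P) P, mul_assoc θ P P, hPP]
    _ = LinearMap.trace ℂ D.target (P * (A * B * (θ * P))) := LinearMap.trace_mul_comm ℂ _ _
    _ = LinearMap.trace ℂ D.target (A * (P * B * P) * (θ * P)) := by
        rw [← mul_assoc P, ← mul_assoc P, hPA]
        conv_lhs => rw [← hPθP]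
        simp only [mul_assoc]
    _ = s • LinearMap.trace ℂ D.target (A * (θ * P)) := by
        rw [hPBP, mul_smul_comm, smul_mul_assoc, map_smul, mul_assoc A P, hPθP]
    _ = s • LinearMap.trace ℂ D.target (A * P * θ) := by
        rw [← mul_assoc A θ P, LinearMap.trace_mul_comm ℂ (A * θ) P, ← mul_assoc, hPA]
    _ = 0 := by rw [show LinearMap.trace ℂ D.target (A * P * θ) = 0 from h, smul_zero]

end GenData

end Fermat.Agent.Extra.LTGen

end
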