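/-
The kernels at the deep places: normalised sums of cosets weighted by the characters.  They are
supported and invariant as the deep transfer needs, and act on the target as the projection onto
the isotypic forms.
-/
import Fermat.Agent.Extra.LTGen.Descent.Multiplicity
import Fermat.Agent.Extra.LTGen.Deep.Place
import Fermat.Agent.LT.Descent.PlaceLine
import Fermat.Agent.LT.Descent.LocalSlice

set_option autoImplicit false

noncomputable section

namespace Fermat.Agent.Extra.LTGen

open Fermat.Agent.LT Fermat.Agent.LT.Descent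

open IsDedekindDomain IsDedekindDomain.HeightOneSpectrum NumberField Matrix Filter Function
open Fermat.Agent.LT.Adelic Fermat.Agent.LT.Aleph Fermat.Agent.LT.Tame
open Fermat.Agent.LT.Descent.Places
open scoped MatrixGroups

section Generic

/-- A normalising element has one neighbour at each coset. -/
theorem cosetNbrs_of_normalizes {G : Type*} [Group G] {H : Subgroup G} {d : G}
    (hd : ∀ u ∈ H, d⁻¹ * u * d ∈ H) (x : G) :
    cosetNbrs d (x : G ⧸ H) = {((x * d : G) : G ⧸ H)} := by
  rw [cosetNbrs_mk]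
  refine Set.eq_singleton_iff_unique_mem.2 ⟨⟨1, one_mem H, by simp only [mul_one]⟩, ?_⟩
  rintro _ ⟨u, hu, rfl⟩
  refine QuotientGroup.eq.2 ?_
  rw [show (x * u * d)⁻¹ * (x * d) = (d⁻¹ * u * d)⁻¹ by group]
  exact inv_mem (hd u hu)

theorem lkerApply_zero_ker {G X : Type*} [Group G] [MulAction G X] (f : X → ℂ) (a : X) :
    lkerApply (0 : LKer G X) f a = 0 := by
  simp [lkerApply]

theorem lkerApply_sum_ker {G X : Type*} [Group G] [MulAction G X] {ι : Type*} (s : Finset ι)
    (k : ι → LKer G X) (f : X → ℂ) (a : X) :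
    lkerApply (∑ i ∈ s, k i) f a = ∑ i ∈ s, lkerApply (k i) f a := by
  classical
  induction s using Finset.induction_on with
  | empty => rw [Finset.sum_empty, Finset.sum_empty, lkerApply_zero_ker]
  | insert i s hi ih =>
    rw [Finset.sum_insert hi, Finset.sum_insert hi, lkerApply_add_left, ih]

end Generic

variable {K : Type*} [Field K] [NumberField K] {K' : Type*} [Field K'] [NumberField K']
  [Algebra K K'] {Φ : Frame K Unit} {Φ' : Frame K' (Fin 3)} {tw : CubicTwist Φ Φ'}

namespace DeepLoc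

variable {B : GenBase tw} (C : DeepLoc B) {w : HeightOneSpectrum (𝓞 K')} (hw : w ∈ B.deep')

open Classical in
theorem isIntLocal_update (γ : C.H w) (u : HeightOneSpectrum (𝓞 K')) :
    IsIntLocal (update (fun u : HeightOneSpectrum (𝓞 K') => (1 : GL (Fin 2) (u.adicCompletion K')))
      w (γ : GL (Fin 2) (w.adicCompletion K')) u) ↔
      (u = w → IsIntLocal (γ : GL (Fin 2) (w.adicCompletion K'))) := by
  rcases eq_or_ne u w with rfl | hu
  · rw [update_self]
    exact ⟨fun h _ => h, fun h => h rfl⟩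
  · rw [update_of_ne hu]
    exact ⟨fun _ e => absurd e hu, fun _ => isIntLocal_one⟩

open Classical in
/-- An element of the group at `w` as an adelic element living at `w`. -/
def singleEl (γ : C.H w) : GfK K' :=
  Aleph.gfOfLocal K' (update (fun _ => 1) w (γ : GL (Fin 2) (w.adicCompletion K')))
    fun u => (C.isIntLocal_update γ u).2 fun _ => (C.H_le w hw γ.2).1

theorem localGL_singleEl_self (γ : C.H w) :
    localGL K' w (C.singleEl hw γ) = (γ : GL (Fin 2) (w.adicCompletion K')) := by
  classical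
  rw [singleEl, localGL_gfOfLocal, update_self]

theorem localGL_singleEl_ne (γ : C.H w) {u : HeightOneSpectrum (𝓞 K')} (hu : u ≠ w) :
    localGL K' u (C.singleEl hw γ) = 1 := by
  classical
  rw [singleEl, localGL_gfOfLocal, update_of_ne hu]

/-- The inclusion of the group at `w`. -/
def single : C.H w →* gfSupported B.bad' where
  toFun γ := ⟨C.singleEl hw γ, fun u hu => C.localGL_singleEl_ne hw γ fun e =>
    hu (e ▸ B.deep'_subset_bad' hw)⟩
  map_one' := Subtype.ext (Aleph.gf_ext fun u => by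
    rcases eq_or_ne u w with rfl | hu
    · rw [C.localGL_singleEl_self hw, OneMemClass.coe_one, OneMemClass.coe_one, map_one]
    · rw [C.localGL_singleEl_ne hw _ hu, OneMemClass.coe_one, map_one])
  map_mul' γ δ := Subtype.ext (Aleph.gf_ext fun u => by
    show localGL K' u _ = localGL K' u (C.singleEl hw γ * C.singleEl hw δ)
    rw [map_mul]
    rcases eq_or_ne u w with rfl | hu
    · simp only [C.localGL_singleEl_self hw, Subgroup.coe_mul]
    · simp only [C.localGL_singleEl_ne hw _ hu, mul_one])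

theorem localGL_single_self (γ : C.H w) :
    localGL K' w (C.single hw γ : GfK K') = (γ : GL (Fin 2) (w.adicCompletion K')) :=
  C.localGL_singleEl_self hw γ

theorem localGL_single_ne (γ : C.H w) {u : HeightOneSpectrum (𝓞 K')} (hu : u ≠ w) :
    localGL K' u (C.single hw γ : GfK K') = 1 :=
  C.localGL_singleEl_ne hw γ hu

theorem single_mem_group (γ : C.H w) : C.single hw γ ∈ C.group := fun u => by
  rcases eq_or_ne u w with rfl | hu
  · exact ⟨fun _ => (C.localGL_single_self hw γ).symm ▸ γ.2, fun h => absurd hw h⟩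
  · rw [C.localGL_single_ne hw γ hu]
    exact ⟨fun _ => one_mem _, fun _ => rfl⟩

theorem char_single (γ : C.H w) :
    C.char ⟨C.single hw γ, C.single_mem_group hw γ⟩ = C.χ w γ := by
  rw [C.char_eq_of_single hw _ fun u hu => C.localGL_single_ne hw γ hu]
  exact congrArg (C.χ w) (Subtype.ext (C.localGL_single_self hw γ))

/-- Transformation by the character at one place. -/
def IsIsotypicAt (w : HeightOneSpectrum (𝓞 K')) (φ : B.forms) : Prop :=
  ∀ (x : gfSupported B.bad') (hx : localGL K' w (x : GfK K') ∈ C.H w),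
    (∀ u ≠ w, localGL K' u (x : GfK K') = 1) → B.formsRep x φ = (C.χ w ⟨_, hx⟩ : ℂ) • φ

end DeepLoc

namespace GenData

variable (D : GenData tw) {w : HeightOneSpectrum (𝓞 K')} (hw : w ∈ D.base.deep')

include hw in
theorem loc'_of_deep :
    D.lev'.loc w = congrLoc w (w.intValuation (D.N : 𝓞 K')) :=
  D.lev'.loc_of_bad (D.base.deep'_subset_bad' hw)

/-- The part of the group of the character at `w` inside the level. -/
def deepSub (w : HeightOneSpectrum (𝓞 K')) : Subgroup (D.deep.H w) :=
  (congrLoc w (w.intValuation (D.N : 𝓞 K'))).subgroupOf (D.deep.H w)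

include hw in
theorem finiteIndex_deepSub : (D.deepSub w).FiniteIndex := by
  set f := (gfSupported D.base.bad').subtype.comp (D.deep.toDeepLoc.single hw)
  have : ((principalLevel K' (D.N : 𝓞 K')).comap f).FiniteIndex :=
    finiteIndex_comap_principalLevel f (fun h =>
      D.deep.toDeepLoc.group_le_one ⟨_, D.deep.toDeepLoc.single_mem_group hw h⟩) (Nat.cast_ne_zero.2 D.N_ne)
  refine Subgroup.finiteIndex_of_le (H := (principalLevel K' (D.N : 𝓞 K')).comap f) fun h hh => ?_
  have := (mem_productLevel _).1 (principalLevel_le_congr _ hh) w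
  rw [show localGL K' w (f h) = (h : GL (Fin 2) (w.adicCompletion K')) from
    D.deep.toDeepLoc.localGL_single_self hw h] at this
  exact this

include hw in
theorem finite_deepQuot : Finite (D.deep.H w ⧸ D.deepSub w) := by
  have := D.finiteIndex_deepSub hw
  infer_instance

include hw in
theorem char_mul_of_mem (h : D.deep.H w) {p : D.deep.H w} (hp : p ∈ D.deepSub w) :
    D.deep.χ w (h * p) = D.deep.χ w h := by
  rw [map_mul, D.deep.trivial w hw p
    (congrLoc_mono w (intValuation_le_of_dvd D.N₁_dvd) (Subgroup.mem_subgroupOf.1 hp)), mul_one]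

include hw in
theorem conj_mem_lev (h : D.deep.H w) :
    ∀ u ∈ (D.lev'.loc w).map ProjGenLinGroup.mk,
      (ProjGenLinGroup.mk (h : GL (Fin 2) (w.adicCompletion K')))⁻¹ * u *
        ProjGenLinGroup.mk (h : GL (Fin 2) (w.adicCompletion K')) ∈
          (D.lev'.loc w).map ProjGenLinGroup.mk := by
  rintro _ ⟨γ, hγ, rfl⟩
  rw [← map_inv, ← map_mul, ← map_mul]
  refine Subgroup.mem_map_of_mem _ ?_
  rw [D.loc'_of_deep hw] at hγ ⊢
  have := conj_mem_congrLoc (h := (h : GL (Fin 2) (w.adicCompletion K'))⁻¹)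
    ((D.deep.H_le w hw h.2).1.inv) hγ
  rwa [inv_inv] at this

include hw in
theorem finite_cosetNbrs_deep (h : D.deep.H w) (a : LocY D.lev'.loc w) :
    (cosetNbrs (ProjGenLinGroup.mk (h : GL (Fin 2) (w.adicCompletion K'))) a).Finite := by
  induction a using QuotientGroup.induction_on with | _ x => ?_
  rw [cosetNbrs_of_normalizes (D.conj_mem_lev hw h)]
  exact Set.finite_singleton _

/-- The matrix of the coset of an element of the group at `w`. -/
def deepCoset (h : D.deep.H w) : LKer PGL(2, w.adicCompletion K') (LocY D.lev'.loc w) :=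
  LKer.ofNbrs (ProjGenLinGroup.mk (h : GL (Fin 2) (w.adicCompletion K')))
    (D.finite_cosetNbrs_deep hw h) fun a => by
      rw [← map_inv]
      exact D.finite_cosetNbrs_deep hw h⁻¹ a

open Classical in
theorem deepCoset_apply (h : D.deep.H w) (x : PGL(2, w.adicCompletion K'))
    (c : LocY D.lev'.loc w) :
    D.deepCoset hw h (x : LocY D.lev'.loc w) c = if ((x *
      ProjGenLinGroup.mk (h : GL (Fin 2) (w.adicCompletion K')) : _) : LocY D.lev'.loc w) = c
        then 1 else 0 := by
  rw [deepCoset, LKer.ofNbrs_apply, cosetNbrs_of_normalizes (D.conj_mem_lev hw h),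
    Set.indicator_apply]
  simp only [Set.mem_singleton_iff, eq_comm (a := c), Pi.one_apply]

theorem lkerApply_deepCoset (h : D.deep.H w) (F : LocY D.lev'.loc w → ℂ)
    (x : PGL(2, w.adicCompletion K')) :
    lkerApply (D.deepCoset hw h) F (x : LocY D.lev'.loc w) =
      F ((x * ProjGenLinGroup.mk (h : GL (Fin 2) (w.adicCompletion K')) : _)) := by
  classical
  rw [lkerApply, finsum_eq_single _ _ fun c hc => by
    rw [D.deepCoset_apply hw, if_neg (Ne.symm hc), zero_mul]]
  rw [D.deepCoset_apply hw, if_pos rfl, one_mul]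

/-- The weight of a class. -/
def deepWt (q : D.deep.H w ⧸ D.deepSub w) : ℂ := ((D.deep.χ w q.out : ℂˣ) : ℂ)⁻¹

/-- **The kernel at a deep place.** -/
def deepKerAt : LKer PGL(2, w.adicCompletion K') (LocY D.lev'.loc w) :=
  (Nat.card (D.deep.H w ⧸ D.deepSub w) : ℂ)⁻¹ •
    ∑ᶠ q : D.deep.H w ⧸ D.deepSub w, D.deepWt q • D.deepCoset hw q.out

include hw in
/-- Representatives may be changed. -/
theorem out_spec (h : D.deep.H w) :
    D.deep.χ w (h : D.deep.H w ⧸ D.deepSub w).out = D.deep.χ w h ∧
      ∃ p ∈ D.deepSub w, (h : D.deep.H w ⧸ D.deepSub w).out = h * p := by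
  obtain ⟨p, hp⟩ := QuotientGroup.mk_out_eq_mul (D.deepSub w) h
  exact ⟨hp ▸ D.char_mul_of_mem hw h p.2, p, p.2, hp⟩

include hw in
theorem mk_out_coset (h : D.deep.H w) :
    ((ProjGenLinGroup.mk (((h : D.deep.H w ⧸ D.deepSub w).out : D.deep.H w) :
        GL (Fin 2) (w.adicCompletion K')) : _) : LocY D.lev'.loc w) =
      ((ProjGenLinGroup.mk (h : GL (Fin 2) (w.adicCompletion K')) : _) : LocY D.lev'.loc w) := by
  obtain ⟨-, p, hp, he⟩ := D.out_spec hw h
  rw [he, Subgroup.coe_mul, map_mul, QuotientGroup.eq, _root_.mul_inv_rev, inv_mul_cancel_right,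
    ← map_inv]
  refine Subgroup.mem_map_of_mem _ ?_
  rw [D.loc'_of_deep hw]
  exact inv_mem (Subgroup.mem_subgroupOf.1 hp)

open Classical in
theorem lkerFun_deepKerAt [Fintype (D.deep.H w ⧸ D.deepSub w)]
    (g : PGL(2, w.adicCompletion K')) :
    lkerFun (D.deepKerAt hw) g = (Nat.card (D.deep.H w ⧸ D.deepSub w) : ℂ)⁻¹ *
      ∑ q : D.deep.H w ⧸ D.deepSub w, D.deepWt q *
        if ((ProjGenLinGroup.mk ((q.out : D.deep.H w) : GL (Fin 2) (w.adicCompletion K')) : _) :
          LocY D.lev'.loc w) = (g : LocY D.lev'.loc w) then 1 else 0 := by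
  rw [lkerFun, deepKerAt, finsum_eq_sum_of_fintype, LKer.smul_apply, LKer.sum_apply]
  simp only [LKer.smul_apply, D.deepCoset_apply hw, one_mul]

theorem isDeepKer_deepKerAt : Deep.DeepPlace.IsDeepKer w D.deep.N₀ D.deep.N₁ (D.deepKerAt hw) := by
  classical
  have := D.finite_deepQuot hw
  have := Fintype.ofFinite (D.deep.H w ⧸ D.deepSub w)
  have hsupp : ∀ g, lkerFun (D.deepKerAt hw) g ≠ 0 →
      g ∈ Deep.congrPGL w (w.intValuation (D.deep.N₀ : 𝓞 K')) := by
    intro g hg
    rw [D.lkerFun_deepKerAt hw] at hg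
    obtain ⟨q, -, hq⟩ := Finset.exists_ne_zero_of_sum_ne_zero (right_ne_zero_of_mul hg)
    have he : ((ProjGenLinGroup.mk ((q.out : D.deep.H w) : GL (Fin 2) (w.adicCompletion K')) : _) :
        LocY D.lev'.loc w) = (g : LocY D.lev'.loc w) := by
      by_contra h
      rw [if_neg h, mul_zero] at hq
      exact hq rfl
    obtain ⟨γ, hγ, hγe⟩ := Subgroup.mem_map.1 (QuotientGroup.eq.1 he)
    rw [D.loc'_of_deep hw] at hγ
    rw [eq_inv_mul_iff_mul_eq] at hγe
    rw [← hγe, ← map_mul]
    refine Subgroup.mem_map_of_mem _ (mul_mem (D.deep.H_le w hw q.out.2) ?_)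
    exact congrLoc_mono w (intValuation_le_of_dvd (D.deep.dvd.trans D.N₁_dvd)) hγ
  have hleft : ∀ k ∈ Deep.congrPGL w (w.intValuation (D.deep.N₁ : 𝓞 K')), ∀ g,
      lkerFun (D.deepKerAt hw) (k * g) = lkerFun (D.deepKerAt hw) g := by
    intro k hk g
    obtain ⟨κ, hκ, rfl⟩ := Subgroup.mem_map.1 hk
    set κ' : D.deep.H w := ⟨κ, D.deep.le_H w hw hκ⟩
    rw [D.lkerFun_deepKerAt hw, D.lkerFun_deepKerAt hw]
    congr 1
    refine (Fintype.sum_equiv (MulAction.toPerm κ') _ _ fun q => ?_).symm
    induction q using QuotientGroup.induction_on with | _ h => ?_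
    rw [MulAction.toPerm_apply, MulAction.Quotient.smul_coe, smul_eq_mul, deepWt, deepWt,
      (D.out_spec hw h).1, (D.out_spec hw (κ' * h)).1, map_mul, D.deep.trivial w hw κ' hκ, one_mul,
      D.mk_out_coset hw, D.mk_out_coset hw, Subgroup.coe_mul, map_mul]
    congr 1
    refine if_congr ?_ rfl rfl
    rw [← smul_eq_mul, ← MulAction.Quotient.smul_coe, ← smul_eq_mul,
      ← MulAction.Quotient.smul_coe]
    exact (MulAction.injective _).eq_iff.symm
  have hN : Deep.congrPGL w (w.intValuation (D.deep.N₁ : 𝓞 K')) ≤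
      Deep.congrPGL w (w.intValuation (D.deep.N₀ : 𝓞 K')) :=
    Subgroup.map_mono (congrLoc_mono w (intValuation_le_of_dvd D.deep.dvd))
  refine ⟨hsupp, fun k hk m hm g => ?_⟩
  rw [mul_assoc, hleft k hk]
  by_cases hg : g ∈ Deep.congrPGL w (w.intValuation (D.deep.N₀ : 𝓞 K'))
  · have h1 := Deep.conj_mem_congrPGL (inv_mem hg) hm
    rw [inv_inv] at h1
    rw [← hleft _ h1 g, inv_mul_cancel_right]
  · have h0 : lkerFun (D.deepKerAt hw) g = 0 := not_not.1 fun h => hg (hsupp g h)
    have h1 : lkerFun (D.deepKerAt hw) (g * m) = 0 := not_not.1 fun h => hg (by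
      have := mul_mem (hsupp _ h) (inv_mem (hN hm))
      rwa [mul_inv_cancel_right] at this)
    rw [h0, h1]

/-! ### The action on the target -/

theorem loc'_le_lev₀' (u : HeightOneSpectrum (𝓞 K')) : D.lev'.loc u ≤ D.lev₀'.loc u := by
  by_cases hu : u ∈ D.bad'
  · exact ((D.lev'.loc_of_bad hu).trans (D.loc₀'_of_bad hu).symm).le
  · exact (D.lev'.loc_le u).trans (D.full_outside u hu)

theorem target_fixed' {φ : D.forms} (hφ : φ ∈ D.target) :
    ∀ τ g, ∀ x ∈ productLevel D.lev'.loc, φ.1 τ (g * x) = φ.1 τ g := fun τ g x hx =>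
  D.invariant_of_mem_target hφ τ g x
    ((mem_productLevel _).2 fun u => D.loc'_le_lev₀' u ((mem_productLevel _).1 hx u))

/-- The operator of the kernel at a deep place. -/
def deepOpAt : D.forms →ₗ[ℂ] D.forms :=
  (Nat.card (D.deep.H w ⧸ D.deepSub w) : ℂ)⁻¹ • ∑ᶠ q : D.deep.H w ⧸ D.deepSub w,
    D.deepWt q • D.formsRep (D.deep.toDeepLoc.single hw q.out)

theorem deepOpAt_apply [Fintype (D.deep.H w ⧸ D.deepSub w)] (φ : D.forms) :
    D.deepOpAt hw φ = (Nat.card (D.deep.H w ⧸ D.deepSub w) : ℂ)⁻¹ •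
      ∑ q : D.deep.H w ⧸ D.deepSub w,
        D.deepWt q • D.formsRep (D.deep.toDeepLoc.single hw q.out) φ := by
  rw [deepOpAt, finsum_eq_sum_of_fintype, LinearMap.smul_apply, LinearMap.sum_apply]
  rfl

theorem deepOpAt_mem_target {φ : D.forms} (hφ : φ ∈ D.target) :
    D.deepOpAt hw φ ∈ D.target := by
  have := D.finite_deepQuot hw
  have := Fintype.ofFinite (D.deep.H w ⧸ D.deepSub w)
  rw [D.deepOpAt_apply hw]
  exact D.target.smul_mem _ (D.target.sum_mem fun q _ =>
    D.target.smul_mem _ (D.formsRep_mem_target (D.deep.toDeepLoc.single_mem_group hw _) hφ))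

theorem isIsotypicAt_deepOpAt {φ : D.forms} (hφ : φ ∈ D.target) :
    D.deep.toDeepLoc.IsIsotypicAt w (D.deepOpAt hw φ) := by
  have := D.finite_deepQuot hw
  have := Fintype.ofFinite (D.deep.H w ⧸ D.deepSub w)
  set C := D.deep.toDeepLoc
  intro x hx hx'
  have hxe : x = C.single hw ⟨_, hx⟩ := Subtype.ext (Aleph.gf_ext fun u => by
    rcases eq_or_ne u w with rfl | hu
    · rw [C.localGL_single_self hw]
    · rw [C.localGL_single_ne hw _ hu, hx' u hu])
  set γ : C.H w := ⟨_, hx⟩
  rw [D.deepOpAt_apply hw, map_smul, map_sum, smul_comm (C.χ w γ : ℂ)]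
  congr 1
  rw [Finset.smul_sum]
  refine Fintype.sum_equiv (MulAction.toPerm γ) _ _ fun q => ?_
  induction q using QuotientGroup.induction_on with | _ h => ?_
  have key : ∀ h : D.deep.H w, D.formsRep (C.single hw (h : _ ⧸ D.deepSub w).out) φ =
      D.formsRep (C.single hw h) φ := fun h => by
    obtain ⟨-, p, hp, he⟩ := D.out_spec hw h
    rw [he, map_mul, map_mul, Module.End.mul_apply, hφ (C.single hw p)]
    refine mem_supLevel.2 ((mem_productLevel _).2 fun u => ?_)
    rcases eq_or_ne u w with rfl | hu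
    · rw [C.localGL_single_self hw, D.loc₀'_of_bad (D.base.deep'_subset_bad' hw)]
      exact Subgroup.mem_subgroupOf.1 hp
    · rw [C.localGL_single_ne hw _ hu]
      exact one_mem _
  rw [MulAction.toPerm_apply, MulAction.Quotient.smul_coe, smul_eq_mul, map_smul, deepWt, deepWt,
    (D.out_spec hw h).1, (D.out_spec hw (γ * h)).1, key, key, smul_smul, map_mul, map_mul, map_mul,
    Units.val_mul, mul_inv, mul_inv_cancel_left₀ (Units.ne_zero _), ← hxe, Module.End.mul_apply]

theorem isIsotypicAt_deepOpAt_of_ne {u : HeightOneSpectrum (𝓞 K')} (hu : u ≠ w) {φ : D.forms}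
    (hφ : D.deep.toDeepLoc.IsIsotypicAt u φ) :
    D.deep.toDeepLoc.IsIsotypicAt u (D.deepOpAt hw φ) := by
  have := D.finite_deepQuot hw
  have := Fintype.ofFinite (D.deep.H w ⧸ D.deepSub w)
  intro x hx hx'
  rw [D.deepOpAt_apply hw, map_smul, map_sum, smul_comm (D.deep.χ u ⟨_, hx⟩ : ℂ)]
  congr 1
  rw [Finset.smul_sum]
  refine Finset.sum_congr rfl fun q _ => ?_
  have hc : x * D.deep.toDeepLoc.single hw q.out = D.deep.toDeepLoc.single hw q.out * x :=
    Subtype.ext (commute_of_disjoint fun v => by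
      rcases eq_or_ne v u with rfl | hv
      · exact Or.inr (D.deep.toDeepLoc.localGL_single_ne hw _ hu)
      · exact Or.inl (hx' v hv))
  rw [map_smul, ← Module.End.mul_apply, ← map_mul, hc, map_mul, Module.End.mul_apply, hφ x hx hx',
    map_smul, smul_comm]

theorem proj_deepOpAt (φ : D.forms) :
    D.deep.toDeepLoc.proj (D.deepOpAt hw φ) = D.deep.toDeepLoc.proj φ := by
  have := D.finite_deepQuot hw
  have := Fintype.ofFinite (D.deep.H w ⧸ D.deepSub w)
  have hq : ∀ q : D.deep.H w ⧸ D.deepSub w, D.deepWt q • D.deep.toDeepLoc.proj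
      (D.formsRep (D.deep.toDeepLoc.single hw q.out) φ) = D.deep.toDeepLoc.proj φ := fun q => by
    rw [show D.deep.toDeepLoc.proj (D.formsRep (D.deep.toDeepLoc.single hw q.out) φ) = _ from
        D.deep.toDeepLoc.proj_formsRep ⟨_, D.deep.toDeepLoc.single_mem_group hw q.out⟩ φ,
      DeepLoc.char_single, deepWt, smul_smul, inv_mul_cancel₀ (Units.ne_zero _), one_smul]
  rw [D.deepOpAt_apply hw, map_smul, map_sum]
  simp only [map_smul, hq]
  rw [Finset.sum_const, Finset.card_univ, ← Nat.cast_smul_eq_nsmul ℂ, smul_smul,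
    Nat.card_eq_fintype_card, inv_mul_cancel₀ (Nat.cast_ne_zero.2 Fintype.card_ne_zero), one_smul]

theorem kerMap_deepKerAt {φ : D.forms} (hφ : φ ∈ D.target) :
    kerMap ((KerFamily.single w (D.deepKerAt hw)).toHKer D.isLocal')
        (toSpace (Φ := Φ') (U := productLevel D.lev'.loc) φ.1) =
      toSpace (D.deepOpAt hw φ).1 := by
  classical
  have := D.finite_deepQuot hw
  have := Fintype.ofFinite (D.deep.H w ⧸ D.deepSub w)
  funext x
  obtain ⟨g, hg⟩ := QuotientGroup.mk_surjective x.fin
  rw [← Space.mk_pt_fin x, ← hg,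
    toSpace_mk (D.deepOpAt hw φ).2 (D.target_fixed' (D.deepOpAt_mem_target hw hφ)), kerMap_single,
    locY_mk, deepKerAt, finsum_eq_sum_of_fintype, lkerApply_smul_left, lkerApply_sum_ker,
    D.deepOpAt_apply hw]
  simp only [SetLike.val_smul, AddSubmonoidClass.coe_finsetSum, Finset.sum_apply, Pi.smul_apply,
    smul_eq_mul]
  congr 1
  refine Finset.sum_congr rfl fun q _ => ?_
  rw [lkerApply_smul_left, lkerApply_deepCoset,
    ← eq_putAt (z := ((g * (D.deep.toDeepLoc.single hw q.out : GfK K') : GfK K') :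
        Yf (productLevel D.lev'.loc))) ?_ fun v hv => ?_,
    toSpace_mk φ.2 (D.target_fixed' hφ)]
  · rfl
  · rw [locY_mk, map_mul]
    congr 2
    exact congrArg ProjGenLinGroup.mk (D.deep.toDeepLoc.localGL_single_self hw _)
  · rw [locY_mk, locY_mk, map_mul, show localPGL v (D.deep.toDeepLoc.single hw q.out : GfK K') = 1
      from (congrArg ProjGenLinGroup.mk (D.deep.toDeepLoc.localGL_single_ne hw _ hv)).trans
        (map_one _), mul_one]

/-! ### The family -/

open Classical in
/-- The kernels at the deep places among `T`. -/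
def deepFamOn (T : Set (HeightOneSpectrum (𝓞 K'))) : KerFamily D.lev'.loc where
  ker u := if h : u ∈ D.base.deep' ∧ u ∈ T then D.deepKerAt h.1 else LKer.one _ _
  eventually_one := D.base.finite_deep'.eventually_cofinite_notMem.mono fun _ hu =>
    dif_neg fun h => hu h.1

/-- **The kernels at the deep places.** -/
def deepFam : KerFamily D.lev'.loc := D.deepFamOn Set.univ

theorem deepFam_off : ∀ u ∉ D.base.deep', D.deepFam.ker u = 1 := fun _ hu =>
  dif_neg fun h => hu h.1

theorem deepFam_self : D.deepFam.ker w = D.deepKerAt hw := dif_pos ⟨hw, Set.mem_univ w⟩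

theorem isDeepKer_deepFam :
    ∀ u ∈ D.base.deep', Deep.DeepPlace.IsDeepKer u D.deep.N₀ D.deep.N₁ (D.deepFam.ker u) := fun _ hu => by
  rw [D.deepFam_self hu]
  exact D.isDeepKer_deepKerAt hu

/-- **The kernels at the deep places act on the target as the projection onto the isotypic
forms.** -/
theorem kerMap_deepFam_target (φ : D.target) :
    kerMap (D.deepFam.toHKer D.isLocal')
        (toSpace (Φ := Φ') (U := productLevel D.lev'.loc) φ.1.1) =
      toSpace (D.deepEnd φ).1.1 := by
  classical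
  suffices key : ∀ T : Finset (HeightOneSpectrum (𝓞 K')), (↑T : Set _) ⊆ D.base.deep' →
      ∃ ψ : D.forms, ψ ∈ D.target ∧
        kerMap ((D.deepFamOn ↑T).toHKer D.isLocal')
          (toSpace (Φ := Φ') (U := productLevel D.lev'.loc) φ.1.1) = toSpace ψ.1 ∧
        (∀ u ∈ T, D.deep.toDeepLoc.IsIsotypicAt u ψ) ∧
          D.deep.toDeepLoc.proj ψ = D.deep.toDeepLoc.proj φ.1 by
    obtain ⟨ψ, -, hker, hiso, hproj⟩ := key D.base.finite_deep'.toFinset
      (by rw [Set.Finite.coe_toFinset])
    have hfam : D.deepFam = D.deepFamOn ↑D.base.finite_deep'.toFinset :=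
      KerFamily.ext' fun u => by
        simp only [deepFam, deepFamOn, Set.mem_univ, Set.Finite.coe_toFinset, and_self, and_true]
    have hψ : D.deep.toDeepLoc.IsIsotypic ψ := fun u hu =>
      hiso u (D.base.finite_deep'.mem_toFinset.2 hu)
    rw [hfam, hker, coe_deepEnd, ← hproj, D.deep.toDeepLoc.proj_of_isIsotypic hψ]
  intro T
  induction T using Finset.induction_on with
  | empty =>
    refine fun _ => ⟨φ.1, φ.2, ?_, fun u hu => absurd hu (Finset.notMem_empty u), rfl⟩
    rw [show D.deepFamOn ↑(∅ : Finset (HeightOneSpectrum (𝓞 K'))) = KerFamily.one _ from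
      KerFamily.ext' fun u => dif_neg fun h => Finset.notMem_empty u (Finset.mem_coe.1 h.2),
      KerFamily.toHKer_one, kerMap_id]
  | insert a T ha ih =>
    intro hT
    rw [Finset.coe_insert, Set.insert_subset_iff] at hT
    obtain ⟨ψ, hψT, hker, hiso, hproj⟩ := ih hT.2
    have hfam : D.deepFamOn ↑(insert a T) =
        (KerFamily.single a (D.deepKerAt hT.1)).comp (D.deepFamOn ↑T) :=
      KerFamily.ext' fun u => by
        show _ = LKer.comp _ _
        rcases eq_or_ne u a with rfl | hu
        · rw [KerFamily.single_ker_self]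
          simp only [deepFamOn]
          rw [dif_pos ⟨hT.1, Finset.mem_coe.2 (Finset.mem_insert_self u T)⟩,
            dif_neg fun h => ha (Finset.mem_coe.1 h.2), LKer.comp_one]
        · rw [KerFamily.single_ker_ne hu, LKer.one_comp]
          simp only [deepFamOn, Finset.coe_insert, Set.mem_insert_iff, hu, false_or]
          split_ifs <;> rfl
    refine ⟨D.deepOpAt hT.1 ψ, D.deepOpAt_mem_target hT.1 hψT, ?_, fun u hu => ?_, ?_⟩
    · rw [hfam, KerFamily.toHKer_comp, kerMap_comp, hker, D.kerMap_deepKerAt hT.1 hψT]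
    · rcases eq_or_ne u a with rfl | hua
      · exact D.isIsotypicAt_deepOpAt hT.1 hψT
      · exact D.isIsotypicAt_deepOpAt_of_ne hT.1 hua
          (hiso u ((Finset.mem_insert.1 hu).resolve_left hua))
    · rw [D.proj_deepOpAt, hproj]

end GenData

end Fermat.Agent.Extra.LTGen

end
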