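import Fermat.Agent.Extra.LTGen.Descent.DownstairsForm

/-!
# The descended form

A class downstairs with the data of the target gives a cusp eigenform of the level maximal at `u`
with real eigenvalues lying below those upstairs.
-/

set_option autoImplicit false
set_option linter.unusedSectionVars false

noncomputable section

namespace Fermat.Agent.Extra.LTGen

open Fermat.Agent.LT Fermat.Agent.LT.Descent

open Fermat.Agent.LT.Adelic Fermat.Agent.LT.Tame Fermat.Agent.LT.Spectral
open Fermat.Agent.LT.Descent.Places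
open MeasureTheory NumberField IsDedekindDomain Matrix
open scoped MatrixGroups

variable {K : Type*} [Field K] [NumberField K] {K' : Type*} [Field K'] [NumberField K']
  [Algebra K K'] {Φ : Frame K Unit} {Φ' : Frame K' (Fin 3)} {tw : CubicTwist Φ Φ'}

namespace GenData

variable (D : GenData tw)

theorem eq_u_of_not_good {v : HeightOneSpectrum (𝓞 K)} (hv : v ∉ D.bad)
    (h : v ∉ D.good) : v = D.u :=
  not_not.1 fun hne => h ⟨hv, hne⟩

/-- The eigenvalues upstairs are real at the places over the good ones. -/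
theorem coe_re_eig {v : HeightOneSpectrum (𝓞 K)} (hv : v ∉ D.bad)
    {w : HeightOneSpectrum (𝓞 K')} (hw : IsAbove v w) : ((D.eig w).re : ℂ) = D.eig w :=
  Complex.ext rfl (D.eig_real w fun h => hv ((D.mem_bad'_iff hw).1 h)).symm

/-- At a split place the eigenvalues over it are equal. -/
theorem eig_eq_aboveOf {v : HeightOneSpectrum (𝓞 K)} (hv : v ∉ D.bad)
    (hs : IsSplit tw.σ v) {w : HeightOneSpectrum (𝓞 K')} (hw : IsAbove v w) :
    D.eig w = D.eig (D.aboveOf v) := by
  have h0 := D.isAbove_aboveOf v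
  rcases eq_or_eq_of_isAbove D.gen h0 hw with e | e | e
  · rw [e]
  · rw [e]
    exact D.eig_twist v _ hv hs h0
  · rw [e]
    exact (D.eig_twist v _ hv hs (isAbove_placePerm h0)).trans (D.eig_twist v _ hv hs h0)

variable {D} {e : cuspClasses D.quot} {c : D.good → ℝ}

theorem IsDownClass.target_good (h : D.IsDownClass e c) (v : D.good) :
    D.famAct (D.goodAtom v) e = ((D.eig (D.aboveOf v)).re : ℂ) • e := by
  have h1 : D.famOp (D.goodAtom v) e = ((targetMu * (D.eig (D.aboveOf v)).re : ℝ) : ℂ) • e :=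
    (mem_targetDown.1 h.mem).2 (.good v)
  rw [famAct_apply, h1, smul_smul, Complex.ofReal_mul, ← mul_assoc,
    inv_mul_cancel₀ ofReal_targetMu_ne_zero, one_mul]

/-- At a split good place the eigenvalue is the one upstairs. -/
theorem IsDownClass.split_eq (h : D.IsDownClass e c) (v : D.good)
    (hs : IsSplit tw.σ (v : HeightOneSpectrum (𝓞 K))) : c v = (D.eig (D.aboveOf v)).re := by
  have h1 := h.target_good v
  rw [D.goodAtom_eq_of_split hs, h.good v] at h1
  exact Complex.ofReal_inj.1 (smul_left_injective ℂ h.ne_zero h1)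

/-- At an inert good place `a³ - 3a` is the eigenvalue upstairs. -/
theorem IsDownClass.inert_eq (h : D.IsDownClass e c) (v : D.good)
    (hi : IsInert tw.σ (v : HeightOneSpectrum (𝓞 K))) :
    (c v : ℂ) ^ 3 - 3 * c v = ((D.eig (D.aboveOf v)).re : ℂ) := by
  have hb := (mem_targetDown.1 h.mem).1
  have h3 : D.famAct ((D.goodT v).comp ((D.goodT v).comp (D.goodT v))) e =
      ((c v : ℂ) ^ 3) • e := by
    rw [← famAct_famAct hb, ← famAct_famAct hb, h.good v, map_smul, h.good v, map_smul, map_smul,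
      h.good v, smul_smul, smul_smul, pow_three, mul_assoc]
  have h1 : D.famOp (D.goodAtom v) =
      (1 : ℂ) • D.famOp ((D.goodT v).comp ((D.goodT v).comp (D.goodT v))) +
        (-3 : ℂ) • D.famOp (D.goodT v) :=
    cuspOp_linear _ fun y z => by
      show ((D.goodAtom v).toHKer D.isLocal) y z =
        1 * ((((D.goodT v).comp ((D.goodT v).comp (D.goodT v))).toHKer D.isLocal) y z) +
          (-3) * (((D.goodT v).toHKer D.isLocal) y z)
      rw [D.goodAtom_toHKer_apply v.2 hi]
      ring
  have h2 : D.famAct (D.goodAtom v) e = ((c v : ℂ) ^ 3 - 3 * c v) • e := by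
    rw [famAct_apply, h1, _root_.add_apply, _root_.smul_apply, _root_.smul_apply, one_smul,
      smul_add, smul_comm _ (-3 : ℂ), ← famAct_apply, ← famAct_apply, h3, h.good v, smul_smul,
      ← add_smul]
    congr 1
    ring
  rw [h.target_good v] at h2
  exact (smul_left_injective ℂ h.ne_zero h2).symm

variable (D)

/-- **A class with the data of the target gives a descended form.** -/
theorem hasDescended_of_isTargetVector {e : cuspClasses D.quot} (he : D.IsTargetVector e) :
    D.HasDescended := by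
  classical
  obtain ⟨e₀, c, h⟩ := exists_isDownClass he
  obtain ⟨φ, hφ, hcusp⟩ := h.exists_cuspEigen
  set a : HeightOneSpectrum (𝓞 K) → ℂ := fun v =>
    if hv : v ∈ D.good then (c ⟨v, hv⟩ : ℂ) else ((D.eig (D.aboveOf v)).re : ℂ) with ha
  have ha_good : ∀ v (hv : v ∈ D.good), a v = (c ⟨v, hv⟩ : ℂ) := fun v hv => dif_pos hv
  have ha_u : a D.u = ((D.eig (D.aboveOf D.u)).re : ℂ) := dif_neg fun hu => hu.2 rfl
  -- the level with Iwahori structure
  set S : Set (HeightOneSpectrum (𝓞 K)) := D.bad ∪ {D.u} with hS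
  obtain ⟨n, hn, hnU⟩ := exists_supportedIn_le_productLevel (V := D.lev.loc)
    (S := S) (D.finite_bad.union (Set.finite_singleton _)) (fun v hv =>
      (D.lev.loc_of_good (fun hb => hv (Or.inl hb))
        fun hu => hv (Or.inr hu)).ge) D.lev.isLevel
  have hecke : ∀ v ∉ S, IsHeckeEigenAt φ v (a v) := fun v hv => by
    have hg : v ∈ D.good := ⟨fun h => hv (Or.inl h), fun h => hv (Or.inr h)⟩
    rw [ha_good v hg]
    exact h.isHeckeEigenAt hφ ⟨v, hg⟩
  have hform := isSForm_of_space (Φ := Φ) D.lev.level_le hn hnU hcusp.invariant hcusp.continuous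
    hcusp.bounded hcusp.cuspidal hcusp.spherical hecke
  -- the level maximal at `u`
  set ψ : (Unit → HSpace) → GfK K → ℂ :=
    fun τ g => φ (Space.mk τ (g : Yf (productLevel D.lev.loc))) with hψdef
  have hfix : ∀ τ g, ∀ k ∈ D.lev₀.level, ψ τ (g * k) = ψ τ g :=
    fun τ g k hk => h.fixed_lev₀ hφ τ g hk
  obtain ⟨n₀, hn₀, hn₀U⟩ := exists_supportedIn_le_productLevel (V := D.lev₀.loc)
    (S := D.bad) D.finite_bad (fun v hv =>
      (D.lev₀.loc_of_good hv (Set.notMem_empty v)).ge) D.lev₀.isLevel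
  have hform₀ : IsSForm Φ D.bad a ψ :=
    { hform with
      smooth := ⟨n₀, hn₀, fun τ g k hk => hfix τ g k (hn₀U hk)⟩
      hecke := fun v hv ϖ hϖ τ g => by
        rcases eq_or_ne v D.u with rfl | hne
        · rw [h.sum_nbrs_u hφ hϖ τ g, ha_u, xVal, Complex.ofReal_mul]
          rfl
        · exact hform.hecke v (fun hvS => hvS.elim hv hne) ϖ hϖ τ g }
  have hψ : ψ ≠ 0 := fun h0 => by
    obtain ⟨x, hx⟩ := hcusp.nonzero
    obtain ⟨g, hg⟩ := QuotientGroup.mk_surjective x.fin
    refine hx ?_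
    rw [← Space.mk_pt_fin x, ← hg]
    exact congrFun (congrFun h0 x.pt) g
  refine ⟨toSpace (Φ := Φ) (U := D.lev₀.level) ψ, a, isCuspEigen_toSpace hform₀ hψ hfix,
    fun v hv => isHeckeEigenAt_toSpace hform₀ D.lev₀.level_le hn₀ hn₀U hfix hv,
    fun v hv => ?_, fun v hv hs w hw => ?_, fun v hv hi w hw => ?_⟩
  · simp only [ha]
    split_ifs <;> exact Complex.ofReal_im _
  · show a v = D.eig w
    rw [D.eig_eq_aboveOf hv hs hw, ← D.coe_re_eig hv (D.isAbove_aboveOf v)]
    by_cases hg : v ∈ D.good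
    · rw [ha_good v hg, h.split_eq ⟨v, hg⟩ hs]
    · rw [D.eq_u_of_not_good hv hg, ha_u]
  · show a v ^ 3 - 3 * a v = D.eig w
    by_cases hg : v ∈ D.good
    · rw [ha_good v hg, h.inert_eq ⟨v, hg⟩ hi, hi.unique D.gen (D.isAbove_aboveOf v) hw,
        D.coe_re_eig hv (D.isAbove_aboveOf v)]
    · exact absurd D.u_split (D.eq_u_of_not_good hv hg ▸ hi).not_isSplit

end GenData

end Fermat.Agent.Extra.LTGen

end
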