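import Fermat.Agent.Extra.LTGen.Descent.Atoms
import Fermat.Agent.LT.Descent.IwahoriSphere
import Fermat.Agent.LT.Descent.PlaceLine
import Fermat.Agent.LT.Descent.SpectralClasses

/-!
# The class downstairs

Among the classes with the data of the target there is one which is spherical at `u` and an
eigenclass of the base root and of the Hecke operators at all good places.
-/

set_option autoImplicit false
set_option linter.unusedSectionVars false

noncomputable section

namespace Fermat.Agent.Extra.LTGen

open Fermat.Agent.LT Fermat.Agent.LT.Descent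

open Fermat.Agent.LT.Adelic Fermat.Agent.LT.Tame Fermat.Agent.LT.Spectral
open Fermat.Agent.LT.Descent.Places
open MeasureTheory NumberField IsDedekindDomain Matrix Module End
open scoped MatrixGroups InnerProductSpace

variable {K : Type*} [Field K] [NumberField K] {K' : Type*} [Field K'] [NumberField K']
  [Algebra K K'] {Φ : Frame K Unit} {Φ' : Frame K' (Fin 3)} {tw : CubicTwist Φ Φ'}

namespace GenData

variable (D : GenData tw)

/-- The operator of a family over the cube of the base kernel. -/
def famOp (k : KerFamily D.lev.loc) : cuspClasses D.quot →L[ℂ] cuspClasses D.quot :=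
  (D.withFam k (KerFamily.one _)).op

/-- The same, normalised on the target. -/
def famAct (k : KerFamily D.lev.loc) : cuspClasses D.quot →L[ℂ] cuspClasses D.quot :=
  ((targetMu : ℂ))⁻¹ • D.famOp k

theorem famOp_one : D.famOp (KerFamily.one _) = D.basePair.op := rfl

theorem famAct_apply (k : KerFamily D.lev.loc) (e : cuspClasses D.quot) :
    D.famAct k e = (targetMu : ℂ)⁻¹ • D.famOp k e := rfl

theorem one_fam_comp (k : KerFamily D.lev.loc) : (KerFamily.one _).comp k = k :=
  KerFamily.ext' fun _ => LKer.one_comp _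

theorem famOp_mul (k l : KerFamily D.lev.loc) :
    D.famOp k * D.famOp l = D.basePair.op * D.famOp (k.comp l) := by
  rw [famOp, famOp, famOp, ← TestPair.op_comp, ← TestPair.op_comp]
  refine cuspOp_congr (fun _ _ _ => rfl) fun y z => ?_
  show (k.comp l).toHKer D.isLocal y z = ((KerFamily.one _).comp (k.comp l)).toHKer D.isLocal y z
  rw [one_fam_comp]

theorem famOp_commute {k l : KerFamily D.lev.loc} (h : k.comp l = l.comp k) :
    Commute (D.famOp k) (D.famOp l) :=
  TestPair.commute_op _ _ h

theorem commute_baseRoot_op (t : D.TestPair) : Commute D.baseRoot t.op :=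
  cuspOp_commute _ _ fun y z => (HKer.comp_id_comm _ y z).symm

theorem commute_famOp_base (k : KerFamily D.lev.loc) : Commute (D.famOp k) D.basePair.op := by
  rw [← famOp_one]
  exact D.famOp_commute (KerFamily.comp_comm_of fun _ => Commute.one_right _)

variable {D}

theorem ofReal_targetMu_ne_zero : (targetMu : ℂ) ≠ 0 :=
  Complex.ofReal_ne_zero.2 targetMu_ne_zero

theorem famAct_one_apply {e : cuspClasses D.quot} (he : D.basePair.op e = (targetMu : ℂ) • e) :
    D.famAct (KerFamily.one _) e = e := by
  rw [famAct_apply, famOp_one, he, smul_smul, inv_mul_cancel₀ ofReal_targetMu_ne_zero, one_smul]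

/-- **Normalised operators compose on the target.** -/
theorem famAct_famAct {e : cuspClasses D.quot} (he : D.basePair.op e = (targetMu : ℂ) • e)
    (k l : KerFamily D.lev.loc) : D.famAct k (D.famAct l e) = D.famAct (k.comp l) e := by
  have h1 : D.famOp k (D.famOp l e) = (targetMu : ℂ) • D.famOp (k.comp l) e := by
    rw [← map_smul, ← he]
    exact (congrArg (fun A : cuspClasses D.quot →L[ℂ] cuspClasses D.quot => A e)
      ((D.famOp_mul k l).trans (D.commute_famOp_base _).eq.symm))
  rw [famAct_apply, famAct_apply, map_smul, h1, famAct_apply, smul_smul, smul_smul, mul_assoc,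
    inv_mul_cancel₀ ofReal_targetMu_ne_zero, mul_one]

variable (D)

/-- **Normalised operators are linear in the matrix at a place.** -/
theorem famAct_single_linear {v : HeightOneSpectrum (𝓞 K)}
    {f f₁ f₂ : LKer PGL(2, v.adicCompletion K) (LocY D.lev.loc v)} {c₁ c₂ : ℂ}
    (h : f = c₁ • f₁ + c₂ • f₂) :
    D.famAct (KerFamily.single v f) =
      c₁ • D.famAct (KerFamily.single v f₁) + c₂ • D.famAct (KerFamily.single v f₂) := by
  have h1 : D.famOp (KerFamily.single v f) =
      c₁ • D.famOp (KerFamily.single v f₁) + c₂ • D.famOp (KerFamily.single v f₂) :=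
    cuspOp_linear _ (toHKer_single_linear h)
  rw [famAct, h1, smul_add, smul_comm _ c₁, smul_comm _ c₂]
  rfl

/-- The family commutes with all the shared atoms. -/
def CommutesWithAtoms (k : KerFamily D.lev.loc) : Prop :=
  ∀ j, k.comp (D.atom j).fam = (D.atom j).fam.comp k

theorem commutesWithAtoms_goodT {v : HeightOneSpectrum (𝓞 K)} (hv : v ∈ D.good) :
    D.CommutesWithAtoms (D.goodT v) := by
  intro j
  cases j with
  | base => exact KerFamily.comp_comm_of fun _ => Commute.one_right _
  | arch k => exact KerFamily.comp_comm_of fun _ => Commute.one_right _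
  | good v' => exact (D.goodAtom_comm_goodT v' v).symm
  | aux =>
    refine KerFamily.comp_comm_of fun w => ?_
    rcases eq_or_ne w D.u with rfl | hw
    · rw [goodT, goodPoly_ker_ne _ (Ne.symm hv.2)]
      exact Commute.one_left _
    · show Commute _ (D.auxX.ker w)
      rw [D.auxX_ker_ne hw]
      exact Commute.one_right _

theorem commutesWithAtoms_single {f : LKer PGL(2, D.u.adicCompletion K) (LocY D.lev.loc D.u)}
    (hf : Commute f D.xKer) : D.CommutesWithAtoms (KerFamily.single D.u f) := by
  intro j
  cases j with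
  | base => exact KerFamily.comp_comm_of fun _ => Commute.one_right _
  | arch k => exact KerFamily.comp_comm_of fun _ => Commute.one_right _
  | good v =>
    refine KerFamily.comp_comm_of fun w => ?_
    rcases eq_or_ne w D.u with rfl | hw
    · show Commute _ ((D.goodAtom v).ker D.u)
      rw [D.goodAtom_ker_ne v (Ne.symm v.2.2)]
      exact Commute.one_right _
    · rw [KerFamily.single_ker_ne hw]
      exact Commute.one_left _
  | aux =>
    refine KerFamily.comp_comm_of fun w => ?_
    rcases eq_or_ne w D.u with rfl | hw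
    · show Commute _ (D.auxX.ker D.u)
      rw [KerFamily.single_ker_self, auxX_ker_u]
      exact hf
    · rw [KerFamily.single_ker_ne hw]
      exact Commute.one_left _

/-- The classes with the data of the target. -/
def targetDown : Submodule ℂ (cuspClasses D.quot) :=
  jointSpace D.basePair.op (fun j => (D.atom j).op) (targetMu, fun j => D.targetVal (D.idxUp j))

instance finiteDimensional_targetDown : FiniteDimensional ℂ D.targetDown :=
  have := ContinuousLinearMap.finite_dimensional_eigenspace D.isCompactOperator_op_base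
    (targetMu : ℂ) ofReal_targetMu_ne_zero
  Submodule.finiteDimensional_of_le (inf_le_left :
    D.targetDown ≤ eigenspace (D.basePair.op : Module.End ℂ (cuspClasses D.quot)) (targetMu : ℂ))

variable {D}

theorem mem_targetDown {e : cuspClasses D.quot} :
    e ∈ D.targetDown ↔ D.basePair.op e = (targetMu : ℂ) • e ∧
      ∀ j, (D.atom j).op e = (D.targetVal (D.idxUp j) : ℂ) • e := mem_jointSpace

theorem mem_targetDown_of_commute {A : cuspClasses D.quot →L[ℂ] cuspClasses D.quot}
    (h0 : Commute A D.basePair.op) (h : ∀ j, Commute A (D.atom j).op) {e : cuspClasses D.quot}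
    (he : e ∈ D.targetDown) : A e ∈ D.targetDown := by
  obtain ⟨h1, h2⟩ := mem_targetDown.1 he
  have key : ∀ {B : cuspClasses D.quot →L[ℂ] cuspClasses D.quot} {c : ℂ}, Commute A B →
      B e = c • e → B (A e) = c • A e := fun {B c} hc hB => by
    rw [show B (A e) = A (B e) from (congrArg
      (fun F : cuspClasses D.quot →L[ℂ] cuspClasses D.quot => F e) hc.eq).symm, hB, map_smul]
  exact mem_targetDown.2 ⟨key h0 h1, fun j => key (h j) (h2 j)⟩

theorem famAct_mem_targetDown {k : KerFamily D.lev.loc} (hk : D.CommutesWithAtoms k)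
    {e : cuspClasses D.quot} (he : e ∈ D.targetDown) : D.famAct k e ∈ D.targetDown :=
  D.targetDown.smul_mem _ (mem_targetDown_of_commute (D.commute_famOp_base k)
    (fun j => TestPair.commute_op _ _ (hk j)) he)

variable (D)

/-- `√q · a'` at the auxiliary place. -/
def xVal : ℝ := Real.sqrt (Ideal.absNorm D.u.asIdeal) * (D.eig D.uAbove).re

theorem uAbove_not_bad' : (D.uAbove : HeightOneSpectrum (𝓞 K')) ∉ D.bad' :=
  fun h => D.u_not_bad ((D.mem_bad'_iff D.uAbove.2).1 h)

theorem xVal_sq_ne : (D.xVal : ℂ) ^ 2 ≠ ((Ideal.absNorm D.u.asIdeal : ℂ) + 1) ^ 2 := by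
  set N := Ideal.absNorm D.u.asIdeal with hN
  have h1 : N ≠ 0 := fun h => D.u.ne_bot (Ideal.absNorm_eq_zero_iff.1 h)
  have h2 : N ≠ 1 := fun h => D.u.isPrime.ne_top (Ideal.absNorm_eq_one_iff.1 h)
  have h3 : (2 : ℝ) ≤ N := by exact_mod_cast (by omega : 2 ≤ N)
  have h4 : |(D.eig D.uAbove).re| ≤ 2 :=
    (Complex.abs_re_le_norm _).trans (D.eig_le _ D.uAbove_not_bad')
  have h5 : D.xVal ^ 2 < ((N : ℝ) + 1) ^ 2 := by
    rw [xVal, ← hN, mul_pow, Real.sq_sqrt (Nat.cast_nonneg N)]
    have h6 : (D.eig D.uAbove).re ^ 2 ≤ 4 := by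
      have := sq_le_sq' (abs_le.1 h4).1 (abs_le.1 h4).2
      linarith
    nlinarith [mul_le_mul_of_nonneg_left h6 (by linarith : (0 : ℝ) ≤ N), sq_nonneg ((N : ℝ) - 1)]
  exact_mod_cast h5.ne

/-- `t` at `u`. -/
def tKer : LKer PGL(2, D.u.adicCompletion K) (LocY D.lev.loc D.u) := iwTKer D.map_loc_u

/-- `w` at `u`. -/
def wKer : LKer PGL(2, D.u.adicCompletion K) (LocY D.lev.loc D.u) := iwWAt D.map_loc_u

theorem commute_tKer_xKer : Commute D.tKer D.xKer :=
  (isIwahoriPair_at D.map_loc_u).commute_iwahoriX_t.symm

theorem commute_wKer_xKer : Commute D.wKer D.xKer :=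
  (isIwahoriPair_at D.map_loc_u).commute_iwahoriX_w.symm

/-- What the class downstairs satisfies. -/
structure IsDownClass (e : cuspClasses D.quot) (c : D.good → ℝ) : Prop where
  ne_zero : e ≠ 0
  mem : e ∈ D.targetDown
  root : D.baseRoot e = (baseHat : ℂ) • e
  good : ∀ v : D.good, D.famAct (D.goodT v) e = (c v : ℂ) • e
  sph_t : D.famAct (KerFamily.single D.u D.tKer) e = (Ideal.absNorm D.u.asIdeal : ℂ) • e
  sph_x : D.famAct (KerFamily.single D.u (D.tKer * D.wKer + D.wKer)) e = (D.xVal : ℂ) • e

/-- The action at `u` on the target. -/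
def downEnd {f : LKer PGL(2, D.u.adicCompletion K) (LocY D.lev.loc D.u)} (hf : Commute f D.xKer) :
    Module.End ℂ D.targetDown :=
  (D.famAct (KerFamily.single D.u f) :
    cuspClasses D.quot →ₗ[ℂ] cuspClasses D.quot).restrict
      fun _ he => famAct_mem_targetDown (D.commutesWithAtoms_single hf) he

variable {D}

theorem coe_downEnd {f : LKer PGL(2, D.u.adicCompletion K) (LocY D.lev.loc D.u)}
    (hf : Commute f D.xKer) (e : D.targetDown) :
    ((D.downEnd hf e : D.targetDown) : cuspClasses D.quot) =
      D.famAct (KerFamily.single D.u f) e := rfl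

theorem famAct_single_mul {f g : LKer PGL(2, D.u.adicCompletion K) (LocY D.lev.loc D.u)}
    {e : cuspClasses D.quot} (he : e ∈ D.targetDown) :
    D.famAct (KerFamily.single D.u f) (D.famAct (KerFamily.single D.u g) e) =
      D.famAct (KerFamily.single D.u (f * g)) e := by
  rw [famAct_famAct (mem_targetDown.1 he).1, KerFamily.single_comp_single_same, LKer.mul_def]

theorem famAct_xKer {e : cuspClasses D.quot} (he : e ∈ D.targetDown) :
    D.famAct (KerFamily.single D.u D.xKer) e = (D.xVal : ℂ) • e := by
  have h : D.famOp (KerFamily.single D.u D.xKer) e = ((targetMu * D.xVal : ℝ) : ℂ) • e :=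
    (mem_targetDown.1 he).2 .aux
  rw [famAct_apply, h, smul_smul, Complex.ofReal_mul, ← mul_assoc,
    inv_mul_cancel₀ ofReal_targetMu_ne_zero, one_mul]

/-- The relations at `u` on the target. -/
theorem isIwahoriPair_downEnd :
    IsIwahoriPair (Ideal.absNorm D.u.asIdeal : ℂ) (D.downEnd D.commute_tKer_xKer)
      (D.downEnd D.commute_wKer_xKer) where
  sq_t := LinearMap.ext fun e => Subtype.ext (by
    have h1 : D.tKer * D.tKer = ((Ideal.absNorm D.u.asIdeal : ℂ) - 1) • D.tKer +
        (Ideal.absNorm D.u.asIdeal : ℂ) • 1 := (isIwahoriPair_at D.map_loc_u).sq_t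
    show D.famAct (KerFamily.single D.u D.tKer) (D.famAct (KerFamily.single D.u D.tKer) e) =
      ((Ideal.absNorm D.u.asIdeal : ℂ) - 1) • D.famAct (KerFamily.single D.u D.tKer) e +
        (Ideal.absNorm D.u.asIdeal : ℂ) • (e : cuspClasses D.quot)
    rw [famAct_single_mul e.2, D.famAct_single_linear h1, _root_.add_apply, _root_.smul_apply,
      _root_.smul_apply, KerFamily.single_one, famAct_one_apply (mem_targetDown.1 e.2).1])
  sq_w := LinearMap.ext fun e => Subtype.ext (by
    have h1 : D.wKer * D.wKer = 1 := (isIwahoriPair_at D.map_loc_u).sq_w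
    show D.famAct (KerFamily.single D.u D.wKer) (D.famAct (KerFamily.single D.u D.wKer) e) =
      (e : cuspClasses D.quot)
    rw [famAct_single_mul e.2, h1, KerFamily.single_one,
      famAct_one_apply (mem_targetDown.1 e.2).1])

theorem iwahoriX_downEnd :
    iwahoriX (Ideal.absNorm D.u.asIdeal : ℂ) (D.downEnd D.commute_tKer_xKer)
      (D.downEnd D.commute_wKer_xKer) = (D.xVal : ℂ) • 1 :=
  LinearMap.ext fun e => Subtype.ext (by
    have h1 : D.xKer = (1 : ℂ) • (D.tKer * D.wKer + D.wKer * D.tKer) +
        (-((Ideal.absNorm D.u.asIdeal : ℂ) - 1)) • D.wKer := by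
      rw [one_smul, neg_smul, ← sub_eq_add_neg]
      rfl
    have h2 : D.tKer * D.wKer + D.wKer * D.tKer =
        (1 : ℂ) • (D.tKer * D.wKer) + (1 : ℂ) • (D.wKer * D.tKer) := by
      rw [one_smul, one_smul]
    show D.famAct (KerFamily.single D.u D.tKer) (D.famAct (KerFamily.single D.u D.wKer) e) +
        D.famAct (KerFamily.single D.u D.wKer) (D.famAct (KerFamily.single D.u D.tKer) e) -
        ((Ideal.absNorm D.u.asIdeal : ℂ) - 1) • D.famAct (KerFamily.single D.u D.wKer) e =
      (D.xVal : ℂ) • (e : cuspClasses D.quot)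
    rw [← famAct_xKer e.2, D.famAct_single_linear h1, _root_.add_apply, _root_.smul_apply,
      D.famAct_single_linear h2, _root_.add_apply, _root_.smul_apply, _root_.smul_apply,
      one_smul, one_smul, one_smul, famAct_single_mul e.2, famAct_single_mul e.2, _root_.smul_apply,
      neg_smul, ← sub_eq_add_neg])

theorem isSelfAdjoint_famOp_goodT (v : HeightOneSpectrum (𝓞 K)) :
    IsSelfAdjoint (D.famOp (D.goodT v)) := by
  refine TestPair.isSelfAdjoint_op _ ?_ (D.goodT_transpose v) (D.goodT_real v)
  show (comp3 fun _ => baseKer).conjKer = comp3 fun _ => baseKer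
  rw [conjKer_comp3]
  simp only [conjKer_baseKer]

/-- **The class downstairs.** -/
theorem exists_isDownClass {e : cuspClasses D.quot} (he : D.IsTargetVector e) :
    ∃ e₀ c, D.IsDownClass e₀ c := by
  have : Nontrivial D.targetDown :=
    ⟨⟨⟨e, mem_targetDown.2 he.2⟩, 0, fun h => he.1 (congrArg Subtype.val h)⟩⟩
  obtain ⟨⟨v₀, hv₀⟩, hne, hsph⟩ :=
    (D.isIwahoriPair_downEnd).exists_spherical iwahoriX_downEnd D.xVal_sq_ne
  set T := D.famAct (KerFamily.single D.u D.tKer) with hT
  set q : ℂ := (Ideal.absNorm D.u.asIdeal : ℂ)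
  set W : Submodule ℂ (cuspClasses D.quot) :=
    D.targetDown ⊓ eigenspace (T : Module.End ℂ (cuspClasses D.quot)) q with hW
  have : FiniteDimensional ℂ W := Submodule.finiteDimensional_of_le (inf_le_left : W ≤ D.targetDown)
  have hWne : W ≠ ⊥ := fun h => hne (Subtype.ext (by
    have hmem : v₀ ∈ W := ⟨hv₀, mem_eigenspace_iff.2 (congrArg Subtype.val hsph)⟩
    rwa [h, Submodule.mem_bot] at hmem))
  let A : Option D.good → cuspClasses D.quot →L[ℂ] cuspClasses D.quot := fun j =>
    j.elim D.baseRoot fun v => D.famOp (D.goodT v)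
  have hA : ∀ j, IsSelfAdjoint (A j) := fun j => by
    rcases j with _ | v
    · exact D.isSelfAdjoint_baseRoot
    · exact isSelfAdjoint_famOp_goodT _
  have hAA : ∀ j j', Commute (A j) (A j') := fun j j' => by
    rcases j with _ | v <;> rcases j' with _ | v'
    · exact Commute.refl _
    · exact D.commute_baseRoot_op _
    · exact (D.commute_baseRoot_op _).symm
    · exact D.famOp_commute (D.goodT_comm _ _)
  have hAT : ∀ j, Commute (A j) (D.famOp (KerFamily.single D.u D.tKer)) := fun j => by
    rcases j with _ | v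
    · exact D.commute_baseRoot_op _
    · refine D.famOp_commute (KerFamily.comp_comm_of fun w => ?_)
      rcases eq_or_ne w D.u with rfl | hw
      · rw [goodT, goodPoly_ker_ne _ (Ne.symm v.2.2)]
        exact Commute.one_left _
      · rw [KerFamily.single_ker_ne hw]
        exact Commute.one_right _
  have hmaps : ∀ j, ∀ x ∈ W, A j x ∈ W := fun j x hx => by
    refine ⟨?_, mem_eigenspace_iff.2 ?_⟩
    · rcases j with _ | v
      · exact mem_targetDown_of_commute (D.commute_baseRoot_op _)
          (fun _ => D.commute_baseRoot_op _) hx.1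
      · exact mem_targetDown_of_commute (D.commute_famOp_base _)
          (fun j => TestPair.commute_op _ _ (D.commutesWithAtoms_goodT v.2 j)) hx.1
    · show T (A j x) = q • A j x
      rw [← map_smul, ← (show T x = q • x from mem_eigenspace_iff.1 hx.2), hT, famAct_apply,
        famAct_apply, map_smul]
      exact congrArg (_ • ·) (congrArg
        (fun F : cuspClasses D.quot →L[ℂ] cuspClasses D.quot => F x) (hAT j).eq).symm
  obtain ⟨e₀, hmem, hne₀, c, hc⟩ := exists_common_eigenvector W hWne A hA hAA hmaps
  have hr : c none = baseHat := by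
    have hR : D.baseRoot e₀ = (c none : ℂ) • e₀ := hc none
    have h1 := (mem_targetDown.1 hmem.1).1
    rw [op_base] at h1
    replace h1 : D.baseRoot (D.baseRoot (D.baseRoot e₀)) = (targetMu : ℂ) • e₀ := h1
    rw [hR, map_smul, hR, map_smul, map_smul, hR, smul_smul, smul_smul] at h1
    have h2 : (c none * c none * c none : ℝ) = targetMu := by
      exact_mod_cast smul_left_injective ℂ hne₀ h1
    exact (Odd.strictMono_pow (by decide : Odd 3)).injective
      (show c none ^ 3 = baseHat ^ 3 by rw [targetMu] at h2; linear_combination h2)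
  refine ⟨e₀, fun v => c (some v) / targetMu, hne₀, hmem.1, hr ▸ hc none, fun v => ?_,
    mem_eigenspace_iff.1 hmem.2, ?_⟩
  · have h1 : D.famOp (D.goodT v) e₀ = (c (some v) : ℂ) • e₀ := hc (some v)
    rw [famAct_apply, h1, smul_smul, Complex.ofReal_div, inv_mul_eq_div]
  · have h1 := congrArg Subtype.val (isIwahoriPair_downEnd.add_one_w_apply iwahoriX_downEnd
      (v := (⟨e₀, hmem.1⟩ : D.targetDown))
      (Subtype.ext (mem_eigenspace_iff.1 hmem.2)))
    have h2 : D.tKer * D.wKer + D.wKer = (1 : ℂ) • (D.tKer * D.wKer) + (1 : ℂ) • D.wKer := by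
      rw [one_smul, one_smul]
    rw [D.famAct_single_linear h2, _root_.add_apply, _root_.smul_apply, _root_.smul_apply,
      one_smul, one_smul, ← famAct_single_mul hmem.1]
    exact h1

end GenData

end Fermat.Agent.Extra.LTGen

end
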