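import Fermat.Agent.Extra.LTGen.Descent.DownstairsClass
import Fermat.Agent.Extra.LTGen.Descent.Multiplicity
import Fermat.Agent.Extra.LTGen.Descent.Setup

/-!
# The function of the class downstairs

The regular representative of the class is a Hecke eigenfunction at the good places and is
invariant under the maximal group at `u`; on it the neighbour sum at `u` is the eigenvalue of `X`.
-/

set_option autoImplicit false
set_option linter.unusedSectionVars false

noncomputable section

namespace Fermat.Agent.Extra.LTGen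

open Fermat.Agent.LT Fermat.Agent.LT.Descent

open Fermat.Agent.LT.Adelic Fermat.Agent.LT.Tame Fermat.Agent.LT.Aleph Fermat.Agent.LT.Spectral
open Fermat.Agent.LT.Descent.Places
open Fermat.Agent.LT.RankinSelberg (nbrMatrix compAt compAt_nbrMatrix_of_ne localShift)
open MeasureTheory NumberField IsDedekindDomain IsDedekindDomain.HeightOneSpectrum Matrix
open scoped MatrixGroups

variable {K : Type*} [Field K] [NumberField K] {K' : Type*} [Field K'] [NumberField K']
  [Algebra K K'] {Φ : Frame K Unit} {Φ' : Frame K' (Fin 3)} {tw : CubicTwist Φ Φ'}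

namespace GenData

variable {D : GenData tw} {e : cuspClasses D.quot} {c : D.good → ℝ}
  {φ : Space Φ (productLevel D.lev.loc) → ℂ}

/-- The class has a representative which is a cusp eigenform. -/
theorem IsDownClass.exists_cuspEigen (h : D.IsDownClass e c) :
    ∃ φ, IsRegularRep e φ ∧ IsCuspEigen φ := by
  have hb : (baseHat : ℂ) ≠ 0 := Complex.ofReal_ne_zero.2 baseHat_ne_zero
  refine exists_isCuspEigen (ks := fun _ : Unit => baseKer) isLipKernel_baseKer hb h.ne_zero h.root
    fun k₀ hk₀ hc i hreal => ?_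
  let k : RealProfile := ⟨fun t => (k₀ t).re, Complex.continuous_re.comp hk₀,
    hc.comp_left Complex.zero_re⟩
  have hk : PPKer.ofProfile k₀ hk₀ hc = k.toKer := ppker_ext fun p q => by
    show k₀ _ = (((k₀ _).re : ℝ) : ℂ)
    exact Complex.ext rfl (hreal _)
  have hhat : sphTransform k₀ 0 = ((PPKer.hat k.toKer 0).re : ℂ) := by
    obtain ⟨r, hr⟩ := exists_hat_realKer k.1 k.2.1 k.2.2
    rw [← PPKer.hat_ofProfile k₀ hk₀ hc, hk, RealProfile.toKer, hr, Complex.ofReal_re]
  rw [show Function.update (fun _ : Unit => baseKer) i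
      (PPKer.comp (PPKer.ofProfile k₀ hk₀ hc) baseKer) = fun _ => PPKer.comp k.toKer baseKer from
    funext fun j => by rw [Subsingleton.elim j i, Function.update_self, hk], hhat]
  set X := cuspOp D.quot (fun _ => PPKer.comp k.toKer baseKer) (HKer.id _) with hX
  have hfac : (D.atom (.arch k)).op = X * (D.baseRoot * D.baseRoot) := by
    show _ = X.comp (D.baseRoot.comp D.baseRoot)
    rw [TestPair.op, hX, baseRoot, cuspOp_comp, cuspOp_comp,
      show (D.atom (.arch k)).ker = HKer.id _ from KerFamily.toHKer_one D.isLocal]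
    refine cuspOp_congr (fun _ _ _ => rfl) fun y z => ?_
    rw [HKer.id_comp_apply, HKer.id_comp_apply]
  have h1 : (D.atom (.arch k)).op e = ((targetMu * (PPKer.hat k.toKer 0).re : ℝ) : ℂ) • e :=
    (mem_targetDown.1 h.mem).2 (.arch k)
  rw [hfac] at h1
  replace h1 : X (D.baseRoot (D.baseRoot e)) =
      ((targetMu * (PPKer.hat k.toKer 0).re : ℝ) : ℂ) • e := h1
  rw [h.root, map_smul, h.root, smul_smul, map_smul] at h1
  refine smul_right_injective _ (mul_ne_zero hb hb) (h1.trans ?_)
  simp only [smul_smul, targetMu, Complex.ofReal_mul, Complex.ofReal_pow]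
  congr 1
  ring

/-- Eigen equations of the class hold for the function. -/
theorem kerMap_of_famAct (hb : D.basePair.op e = (targetMu : ℂ) • e) (hφ : IsRegularRep e φ)
    {k : KerFamily D.lev.loc} {z : ℂ} (h : D.famAct k e = z • e) :
    kerMap (k.toHKer D.isLocal) φ = z • φ := by
  refine kerMap_eq_of_testOp (ks := fun _ : Unit => comp3 fun _ => baseKer) hφ.sliceInt
    ofReal_targetMu_ne_zero (hφ.eigen _ _ _ ?_) (hφ.eigen _ _ _ ?_)
  · rw [← D.ker_base]
    exact hb
  · rw [famAct_apply, inv_smul_eq_iff₀ ofReal_targetMu_ne_zero, smul_smul, mul_comm] at h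
    exact h

/-- **Hecke eigenfunction at the good places.** -/
theorem IsDownClass.isHeckeEigenAt (h : D.IsDownClass e c) (hφ : IsRegularRep e φ)
    (v : D.good) : IsHeckeEigenAt φ (v : HeightOneSpectrum (𝓞 K)) (c v : ℂ) := by
  intro ϖ hϖ
  have h1 := kerMap_of_famAct (mem_targetDown.1 h.mem).1 hφ (h.good v)
  have hT := D.goodT_toHKer v.2 hϖ
  set s : ℝ := Real.sqrt (Ideal.absNorm (v : HeightOneSpectrum (𝓞 K)).asIdeal) with hs
  have hs0 : (s : ℂ) ≠ 0 := Complex.ofReal_ne_zero.2 (Real.sqrt_ne_zero'.2 (Nat.cast_pos.2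
    (Nat.pos_of_ne_zero fun h0 => v.1.ne_bot (Ideal.absNorm_eq_zero_iff.1 h0))))
  refine (heckeOp_eq_kerMap (U := productLevel D.lev.loc) D.lev.isLevel _ φ).trans ?_
  rw [kerMap_linear (f₁ := (D.goodT v).toHKer D.isLocal) (f₂ := (D.goodT v).toHKer D.isLocal)
      (c₁ := (s : ℂ)) (c₂ := 0) fun y z => ?_]
  · rw [h1, zero_smul, add_zero, smul_smul]
  · rw [zero_mul, add_zero, hT]
    show _ = (s : ℂ) * ((((s⁻¹ : ℝ)) : ℂ) * _)
    rw [← mul_assoc, Complex.ofReal_inv, mul_inv_cancel₀ hs0, one_mul]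
    rfl

/-- On every line at `u` the eigen equations hold. -/
theorem lkerApply_line (hb : D.basePair.op e = (targetMu : ℂ) • e) (hφ : IsRegularRep e φ)
    {f : LKer PGL(2, D.u.adicCompletion K) (LocY D.lev.loc D.u)} {z : ℂ}
    (h : D.famAct (KerFamily.single D.u f) e = z • e) (τ : Unit → HSpace)
    (y : Yf (productLevel D.lev.loc)) (a : LocY D.lev.loc D.u) :
    lkerApply f (fun d => φ (Space.mk τ (putAt D.isLocal D.u y d))) a =
      z * φ (Space.mk τ (putAt D.isLocal D.u y a)) := by
  have h1 := congrFun (kerMap_of_famAct hb hφ h) (Space.mk τ (putAt D.isLocal D.u y a))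
  rw [kerMap_single, locY_putAt_self] at h1
  simpa only [putAt_putAt, Pi.smul_apply, smul_eq_mul] using h1

/-- **The function is invariant under the maximal group at `u`.** -/
theorem IsDownClass.line_invariant (h : D.IsDownClass e c) (hφ : IsRegularRep e φ)
    (τ : Unit → HSpace) (y : Yf (productLevel D.lev.loc))
    (x : PGL(2, D.u.adicCompletion K)) {p : PGL(2, D.u.adicCompletion K)} (hp : p ∈ pglFull D.u) :
    φ (Space.mk τ (putAt D.isLocal D.u y ((x * p : PGL(2, D.u.adicCompletion K)) :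
        LocY D.lev.loc D.u))) =
      φ (Space.mk τ (putAt D.isLocal D.u y (x : LocY D.lev.loc D.u))) :=
  (forall_lkerApply_iwTKer_eq_iff D.map_loc_u
    fun d => φ (Space.mk τ (putAt D.isLocal D.u y d))).1
      (fun a => lkerApply_line (mem_targetDown.1 h.mem).1 hφ h.sph_t τ y a) x p hp

variable (D)

theorem loc_lev₀_of_ne {v : HeightOneSpectrum (𝓞 K)} (hv : v ≠ D.u) :
    D.lev₀.loc v = D.lev.loc v := by
  by_cases hb : v ∈ D.bad
  · rw [D.lev₀.loc_of_bad hb, D.lev.loc_of_bad hb]; rfl
  rw [D.lev₀.loc_of_good hb (Set.notMem_empty v),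
    D.lev.loc_of_good hb (fun h : v ∈ ({D.u} : Set (HeightOneSpectrum (𝓞 K))) => hv h)]

theorem loc_lev₀_u : D.lev₀.loc D.u = localFull K D.u :=
  D.lev₀.loc_of_good D.u_not_bad (Set.notMem_empty _)

variable {D}

/-- A product with a right factor supported by the level away from `u` stays on the line. -/
theorem mk_mul_eq_putAt (g k : GfK K)
    (hk : ∀ v, v ≠ D.u → localPGL v k ∈ (D.lev.loc v).map ProjGenLinGroup.mk) :
    ((g * k : GfK K) : Yf (productLevel D.lev.loc)) =
      putAt D.isLocal D.u (g : Yf (productLevel D.lev.loc))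
        ((localPGL D.u g * localPGL D.u k : PGL(2, D.u.adicCompletion K)) : LocY D.lev.loc D.u) := by
  refine eq_putAt (by rw [locY_mk, map_mul]) fun v hv => ?_
  rw [locY_mk, locY_mk, map_mul]
  refine (QuotientGroup.eq.2 ?_).symm
  rw [inv_mul_cancel_left]
  exact hk v hv

/-- **The function descends to the level maximal at `u`.** -/
theorem IsDownClass.fixed_lev₀ (h : D.IsDownClass e c) (hφ : IsRegularRep e φ)
    (τ : Unit → HSpace) (g : GfK K) {k : GfK K} (hk : k ∈ D.lev₀.level) :
    φ (Space.mk τ ((g * k : GfK K) : Yf (productLevel D.lev.loc))) =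
      φ (Space.mk τ (g : Yf (productLevel D.lev.loc))) := by
  have hl := (mem_productLevel _).1 hk
  have hu : localPGL D.u k ∈ pglFull D.u :=
    Subgroup.mem_map_of_mem _ (D.loc_lev₀_u ▸ hl D.u)
  rw [mk_mul_eq_putAt g k fun v hv => Subgroup.mem_map_of_mem _ (D.loc_lev₀_of_ne hv ▸ hl v),
    h.line_invariant hφ τ _ _ hu]
  conv_lhs => rw [← locY_mk D.lev.loc D.u g, putAt_self]

theorem localGL_eq_compAt (v : HeightOneSpectrum (𝓞 K)) (g : GfK K) :
    localGL K v g = compAt v g := Units.ext (Matrix.ext fun _ _ => rfl)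

/-- **The neighbour sum at `u`.** -/
theorem IsDownClass.sum_nbrs_u (h : D.IsDownClass e c) (hφ : IsRegularRep e φ)
    {ϖ : (FiniteAdeleRing (𝓞 K) K)ˣ} (hϖ : IsUniformiserAt D.u ϖ) (τ : Unit → HSpace)
    (g : GfK K) :
    ∑ᶠ o, φ (Space.mk τ ((g * nbrMatrix D.u ϖ o : GfK K) : Yf (productLevel D.lev.loc))) =
      (D.xVal : ℂ) * φ (Space.mk τ (g : Yf (productLevel D.lev.loc))) := by
  have := finite_nbrIndex D.u
  have := Fintype.ofFinite (𝓞 K ⧸ D.u.asIdeal)
  set ϖ' : (D.u.adicCompletion K)ˣ :=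
    Units.map (evalAt K D.u : _ →* D.u.adicCompletion K) ϖ with hϖ'
  have hval : Valued.v (ϖ' : D.u.adicCompletion K) = WithZero.exp (-1 : ℤ) := hϖ.1
  set x := localPGL D.u g
  set F : LocY D.lev.loc D.u → ℂ :=
    fun d => φ (Space.mk τ (putAt D.isLocal D.u (g : Yf (productLevel D.lev.loc)) d)) with hF
  have hline : ∀ o, φ (Space.mk τ ((g * nbrMatrix D.u ϖ o : GfK K) :
      Yf (productLevel D.lev.loc))) =
      F ((x * localPGL D.u (nbrMatrix D.u ϖ o) : PGL(2, D.u.adicCompletion K)) :
        LocY D.lev.loc D.u) := fun o => by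
    rw [mk_mul_eq_putAt g _ fun v hv => ?_]
    rw [localPGL, MonoidHom.comp_apply, localGL_eq_compAt, compAt_nbrMatrix_of_ne hϖ hv o, map_one]
    exact one_mem _
  have hnone : localPGL D.u (nbrMatrix D.u ϖ none) = ProjGenLinGroup.mk (diag2 1 ϖ') := by
    rw [localPGL, MonoidHom.comp_apply, nbrMatrix, localGL_diag2, map_one]
  have hsome : ∀ r : 𝓞 K ⧸ D.u.asIdeal,
      F ((x * localPGL D.u (nbrMatrix D.u ϖ (some r)) : PGL(2, D.u.adicCompletion K)) :
          LocY D.lev.loc D.u) =
        F ((x * bigRep ϖ' 1 (repParam (-r)) : PGL(2, D.u.adicCompletion K)) :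
          LocY D.lev.loc D.u) := fun r => by
    have e1 : localPGL D.u (nbrMatrix D.u ϖ (some r)) =
        bigRep ϖ' 1 ((localShift ϖ r.out : FiniteAdeleRing (𝓞 K) K) D.u) := by
      rw [localPGL, MonoidHom.comp_apply, nbrMatrix, heckeMatrix, map_mul, localGL_unipotent,
        localGL_diag2, map_one, bigRep, bigMat, pow_one]
    rw [e1]
    refine congrArg F (QuotientGroup.eq.2 ?_)
    rw [_root_.mul_inv_rev, mul_assoc, inv_mul_cancel_left, D.map_loc_u]
    refine bigRep_congr ?_
    have hmem : (Quotient.out (-r) : 𝓞 K) + Quotient.out r ∈ D.u.asIdeal := by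
      rw [← Ideal.Quotient.eq_zero_iff_mem, map_add]
      show ((Quotient.out (-r) : 𝓞 K) : 𝓞 K ⧸ D.u.asIdeal) + ((r.out : 𝓞 K) :) = 0
      rw [Ideal.Quotient.mk_out, Ideal.Quotient.mk_out, neg_add_cancel]
    have e2 : repParam (K := K) (-r) - (localShift ϖ r.out : FiniteAdeleRing (𝓞 K) K) D.u =
        algebraMap K (D.u.adicCompletion K) (algebraMap (𝓞 K) K
          ((Quotient.out (-r) : 𝓞 K) + Quotient.out r)) -
        (ϖ' : D.u.adicCompletion K) *
          algebraMap K (D.u.adicCompletion K) (algebraMap (𝓞 K) K r.out) := by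
      rw [repParam, localShift, coe_apply_mul, coe_apply_sub, coe_apply_one, map_add, map_add]
      show _ - ((ϖ' : D.u.adicCompletion K) - 1) * _ = _
      ring_nf
      rfl
    rw [e2, pow_one, hval]
    refine (Valuation.map_sub _ _ _).trans (max_le ?_ ?_)
    · rw [valued_intMap]
      exact le_exp_neg_one_of_lt_one ((intValuation_lt_one_iff_mem _ _).2 hmem)
    · rw [map_mul, hval, valued_intMap]
      exact mul_le_of_le_one_right' (intValuation_le_one _ _)
  have hq := lkerApply_line (mem_targetDown.1 h.mem).1 hφ h.sph_x τ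
    (g : Yf (productLevel D.lev.loc)) (x : LocY D.lev.loc D.u)
  rw [lkerApply_add, lkerApply_mul, tKer, wKer, iwWKer_eq D.map_loc_u hval |>.symm,
    lkerApply_add_one_w D.map_loc_u hval F (fun y p hp => h.line_invariant hφ τ _ y hp) x] at hq
  rw [finsum_eq_sum_of_fintype, Fintype.sum_option]
  simp only [hline, hsome, hnone]
  rw [show (∑ r : 𝓞 K ⧸ D.u.asIdeal, F ((x * bigRep ϖ' 1 (repParam (-r)) :
        PGL(2, D.u.adicCompletion K)) : LocY D.lev.loc D.u)) =
      ∑ r : 𝓞 K ⧸ D.u.asIdeal, F ((x * bigRep ϖ' 1 (repParam r) :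
        PGL(2, D.u.adicCompletion K)) : LocY D.lev.loc D.u) from
    Fintype.sum_equiv (Equiv.neg _) _ _ fun _ => rfl, add_comm, hq]
  congr 3
  exact putAt_self _

end GenData

end Fermat.Agent.Extra.LTGen

end
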