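import Fermat.Agent.Extra.LTGen.Descent.Levels
import Fermat.Agent.LT.Descent.GoodKer

/-!
# Polynomials in the Hecke matrix at a place of maximal level, for the general levels

The copy over `GenLevel` of the corresponding file of the descent.
-/

set_option autoImplicit false
set_option linter.unusedSectionVars false

noncomputable section

namespace Fermat.Agent.Extra.LTGen

open IsDedekindDomain IsDedekindDomain.HeightOneSpectrum IsLocalRing NumberField Matrix Polynomial
open Filter Function
open Fermat.Agent.LT Fermat.Agent.LT.Descent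
open Fermat.Agent.LT.Adelic Fermat.Agent.LT.Tame Fermat.Agent.LT.Aleph Fermat.Agent.LT.Inert
open scoped MatrixGroups

variable {K : Type*} [Field K] [NumberField K]

variable (L : GenLevel K)

/-- A maximal level is unimodular. -/
theorem GenLevel.IsFullAt.isUnimodular {L : GenLevel K} {v : HeightOneSpectrum (𝓞 K)}
    (h : L.IsFullAt v) :
    IsUnimodularLevel (v.adicCompletionIntegers K) ((L.loc v).map ProjGenLinGroup.mk) := by
  rw [show L.loc v = localFull K v from h]
  exact isUnimodularLevel_localFull v

variable {v : HeightOneSpectrum (𝓞 K)}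

/-- The radial matrix at a place of maximal level. -/
def goodRad (h : L.IsFullAt v) (φ : ℕ →₀ ℂ) : LKer PGL(2, v.adicCompletion K) (LocY L.loc v) :=
  radKer (placeData v) h.isUnimodular φ

variable (v) in
open Classical in
/-- `P(T_v)` as a family of local matrices. -/
def goodPoly (P : ℂ[X]) : KerFamily L.loc :=
  if h : L.IsFullAt v then
    KerFamily.single v (goodRad L h (heckePoly (resCard (v.adicCompletionIntegers K)) P))
  else KerFamily.one L.loc

theorem goodPoly_eq (h : L.IsFullAt v) (P : ℂ[X]) : goodPoly L v P =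
    KerFamily.single v (goodRad L h (heckePoly (resCard (v.adicCompletionIntegers K)) P)) :=
  dif_pos h

theorem goodPoly_ker_self (h : L.IsFullAt v) (P : ℂ[X]) : (goodPoly L v P).ker v =
    goodRad L h (heckePoly (resCard (v.adicCompletionIntegers K)) P) := by
  rw [goodPoly_eq L h, KerFamily.single_ker_self]

/-- Any tree data gives the same matrix. -/
theorem goodPoly_ker_self' (h : L.IsFullAt v) (D : TreeData (v.adicCompletionIntegers K))
    (hH : IsUnimodularLevel (v.adicCompletionIntegers K) ((L.loc v).map ProjGenLinGroup.mk))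
    (P : ℂ[X]) : (goodPoly L v P).ker v =
      radKer D hH (heckePoly (resCard (v.adicCompletionIntegers K)) P) := by
  rw [goodPoly_ker_self L h, goodRad, radKer_congr_data (placeData v) h.isUnimodular D]

theorem goodPoly_ker_ne {w : HeightOneSpectrum (𝓞 K)} (hw : w ≠ v) (P : ℂ[X]) :
    (goodPoly L v P).ker w = LKer.one _ _ := by
  unfold goodPoly
  split_ifs
  · exact KerFamily.single_ker_ne hw _
  · rfl

theorem goodPoly_one : goodPoly L v 1 = KerFamily.one L.loc := KerFamily.ext' fun w => by
  rcases eq_or_ne w v with rfl | hw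
  · by_cases h : L.IsFullAt w
    · rw [goodPoly_ker_self L h, goodRad, radKer_heckePoly_one]; rfl
    · rw [goodPoly, dif_neg h]
  · rw [goodPoly_ker_ne L hw]; rfl

/-- **Composition is multiplication.** -/
theorem goodPoly_mul (P R : ℂ[X]) :
    (goodPoly L v P).comp (goodPoly L v R) = goodPoly L v (P * R) := by
  by_cases h : L.IsFullAt v
  · rw [goodPoly_eq L h, goodPoly_eq L h, goodPoly_eq L h, KerFamily.single_comp_single_same,
      goodRad, goodRad, goodRad, radKer_heckePoly_mul]
    rfl
  · simp only [goodPoly, dif_neg h]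
    exact KerFamily.ext' fun _ => LKer.one_comp _

/-- **All these matrices commute.** -/
theorem goodPoly_comm (w : HeightOneSpectrum (𝓞 K)) (P R : ℂ[X]) :
    (goodPoly L v P).comp (goodPoly L w R) = (goodPoly L w R).comp (goodPoly L v P) := by
  rcases eq_or_ne v w with rfl | hvw
  · rw [goodPoly_mul, goodPoly_mul, mul_comm]
  · refine KerFamily.ext' fun u => ?_
    show ((goodPoly L v P).ker u).comp _ = ((goodPoly L w R).ker u).comp _
    rcases eq_or_ne u v with rfl | hu
    · rw [goodPoly_ker_ne L hvw, LKer.comp_one, LKer.one_comp]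
    · rw [goodPoly_ker_ne L hu, LKer.comp_one, LKer.one_comp]

/-- The matrices are symmetric. -/
theorem goodPoly_transpose (P : ℂ[X]) : (goodPoly L v P).transpose = goodPoly L v P :=
  KerFamily.ext' fun u => by
    show ((goodPoly L v P).ker u).transpose = _
    rcases eq_or_ne u v with rfl | hu
    · by_cases h : L.IsFullAt u
      · rw [goodPoly_ker_self L h, goodRad, radKer_transpose]
      · rw [goodPoly, dif_neg h]; exact LKer.transpose_one
    · rw [goodPoly_ker_ne L hu, LKer.transpose_one]

/-- Real polynomials give real matrices. -/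
theorem goodPoly_im (P : ℝ[X]) (u : HeightOneSpectrum (𝓞 K)) (a c : LocY L.loc u) :
    ((goodPoly L v (P.map Complex.ofRealHom)).ker u a c).im = 0 := by
  have hone : ((LKer.one PGL(2, u.adicCompletion K) (LocY L.loc u)) a c).im = 0 := by
    by_cases h : a = c
    · subst h; rw [LKer.one_apply_self, Complex.one_im]
    · rw [LKer.one_apply_ne h, Complex.zero_im]
  rcases eq_or_ne u v with rfl | hu
  · by_cases h : L.IsFullAt u
    · rw [goodPoly_ker_self L h, goodRad, radKer_apply, im_heckePoly_map]
    · rw [goodPoly, dif_neg h]; exact hone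
  · rw [goodPoly_ker_ne L hu]; exact hone

section Uniformiser

variable {ϖ : (FiniteAdeleRing (𝓞 K) K)ˣ} (hϖ : IsUniformiserAt v ϖ)
include hϖ

/-- **`T_v` is the double coset of every uniformiser.** -/
theorem ofDoubleCoset_ker_self (hV : IsLocalLevel L.loc) (hU : IsLevel (productLevel L.loc))
    (h : L.IsFullAt v) :
    (KerFamily.ofDoubleCoset hV hU (heckeMatrix K ϖ)).ker v = goodRad L h (Finsupp.single 1 1) := by
  obtain ⟨D, hD⟩ := exists_treeData_heckeMatrix hϖ
  rw [goodRad, radKer_congr_data (placeData v) h.isUnimodular D]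
  refine radKer_single_one_eq_ofNbrs D _ _ (hD _) (finite_cosetNbrs_localPGL hV hU _ v)
    fun a => ?_
  rw [← map_inv]
  exact finite_cosetNbrs_localPGL hV hU _ v a

theorem ofDoubleCoset_ker_ne (hV : IsLocalLevel L.loc) (hU : IsLevel (productLevel L.loc))
    {u : HeightOneSpectrum (𝓞 K)} (hu : u ≠ v) :
    (KerFamily.ofDoubleCoset hV hU (heckeMatrix K ϖ)).ker u = LKer.one _ _ :=
  LKer.ext' fun a c => by
    show (cosetNbrs (localPGL u (heckeMatrix K ϖ)) a).indicator 1 c = _
    rw [localPGL_heckeMatrix_of_ne hϖ hu, cosetNbrs_of_mem (one_mem _)]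
    by_cases h : a = c
    · subst h
      rw [Set.indicator_of_mem (Set.mem_singleton a), LKer.one_apply_self]; rfl
    · rw [Set.indicator_of_notMem (by simpa using Ne.symm h), LKer.one_apply_ne h]

/-- **`c · T_v` on `Yf`.** -/
theorem goodPoly_C_mul_X_toHKer (hV : IsLocalLevel L.loc) (hU : IsLevel (productLevel L.loc))
    (h : L.IsFullAt v) (c : ℂ) :
    (goodPoly L v (C c * X)).toHKer hV =
      hkerSmul c (HKer.ofDoubleCoset hU (heckeMatrix K ϖ)) := HKer.ext' fun y z => by
  show _ = c * (HKer.ofDoubleCoset hU (heckeMatrix K ϖ)) y z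
  rw [ofDoubleCoset_eq_toHKer hV hU, KerFamily.toHKer_eq_mul hV _ v, KerFamily.toHKer_eq_mul hV _ v,
    ofDoubleCoset_ker_self L hϖ hV hU h, goodPoly_ker_self L h]
  have e : heckePoly (resCard (v.adicCompletionIntegers K)) (C c * X) =
      c • Finsupp.single 1 (1 : ℂ) := by
    ext n
    have e0 : ∀ q : ℕ, mulT q (Finsupp.single 0 (1 : ℂ)) = Finsupp.single 1 1 := fun q => by
      ext m; rcases m with _ | _ | m <;> simp [mulT_zero_apply, mulT_succ_apply]
    simp [heckePoly, Algebra.algebraMap_eq_smul_one, e0]
  rw [e, ← mul_assoc]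
  refine congrArg₂ (· * ·) ?_ (finprod_congr fun u => finprod_congr fun hu => ?_)
  · rw [goodRad, radKer_apply, goodRad, radKer_apply, Finsupp.smul_apply, smul_eq_mul]
  · rw [goodPoly_ker_ne L hu, ofDoubleCoset_ker_ne L hϖ hV hU hu]

end Uniformiser

end Fermat.Agent.Extra.LTGen

end
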