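import Fermat.Agent.Extra.LTGen.Descent.PairMoments
import Fermat.Agent.LT.Descent.Moments

/-!
# The moments of the descent

Upstairs the cuspidal combination need not commute with the twist: it is enough that the base
pair does, the quotient integral of an invariant function being unchanged by the twist. For
matched products with a high power at the places over `u` this gives equal traces of a cuspidal
combination followed by a pair and two base operators.
-/

set_option autoImplicit false

noncomputable section

namespace Fermat.Agent.Extra.LTGen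

open Fermat.Agent.LT Fermat.Agent.LT.Descent

open Fermat.Agent.LT.Adelic Fermat.Agent.LT.Geom Fermat.Agent.LT.Spectral
open Fermat.Agent.LT.Descent.Places
open MeasureTheory Filter NumberField IsDedekindDomain Matrix
open scoped MatrixGroups InnerProductSpace ENNReal ComplexConjugate

variable {K : Type*} [Field K] [NumberField K] {K' : Type*} [Field K'] [NumberField K']
  [Algebra K K'] {Φ : Frame K Unit} {Φ' : Frame K' (Fin 3)} {tw : CubicTwist Φ Φ'}

namespace GenData

variable (D : GenData tw)

/-- The pairs of a combination, followed by `s` and the base pair. -/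
def endPair (l : List (ℂ × D.TestPair)) (s : D.TestPair) (i : Fin l.length) : D.TestPair :=
  l[i].2.comp (s.comp D.basePair)

theorem sumOp_mul_end (l : List (ℂ × D.TestPair)) (s : D.TestPair) :
    D.sumOp l * s.op * D.basePair.op = ∑ i : Fin l.length, l[i].1 • (D.endPair l s i).op := by
  rw [sumOp, sum_map_eq_sum_fin l, Finset.sum_mul, Finset.sum_mul]
  refine Finset.sum_congr rfl fun i _ => ?_
  rw [endPair, TestPair.op_comp, TestPair.op_comp]
  exact ContinuousLinearMap.ext fun _ => rfl

theorem sumOp'_mul_end (l : List (ℂ × D.TestPair)) (s : D.TestPair) :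
    D.sumOp' l * s.op' * D.basePair.op' = ∑ i : Fin l.length, l[i].1 • (D.endPair l s i).op' := by
  rw [sumOp', sum_map_eq_sum_fin l, Finset.sum_mul, Finset.sum_mul]
  refine Finset.sum_congr rfl fun i _ => ?_
  rw [endPair, TestPair.op'_comp, TestPair.op'_comp]
  exact ContinuousLinearMap.ext fun _ => rfl

set_option maxHeartbeats 1000000 in
/-- The trace downstairs of a cuspidal combination. -/
theorem hasSum_sumOp (l : List (ℂ × D.TestPair)) (s : D.TestPair) (hl : D.IsCuspidalSum l)
    (hint : ∀ i, Integrable (fun x => perKer PGL(2, K)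
      (testKernel (fun _ => (D.basePair.comp (D.endPair l s i)).arch)
        (D.basePair.comp (D.endPair l s i)).ker) x x) D.quot.ν)
    (t : Set (cuspClasses D.quot)) (e : HilbertBasis t ℂ (cuspClasses D.quot)) (ht : Countable t) :
    HasSum (fun k => ⟪e k, (D.sumOp l * s.op) (D.basePair.op (D.basePair.op (e k)))⟫_ℂ)
      (∑ i : Fin l.length, l[i].1 * (D.basePair.comp (D.endPair l s i)).diag D) := by
  let c : Fin l.length → ℂ := fun i => l[i].1
  have hbase : HasCuspBound D.quot (fun _ : Unit => D.basePair.arch) D.basePair.ker := by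
    rw [D.ker_base]
    exact TestPair.hasCuspBound_arch_base
  have hadj : ∀ i, HasCuspBound D.quot (fun _ : Unit => (D.endPair l s i).arch.conjKer)
      (D.endPair l s i).ker.adj := fun i =>
    Descent.DescentData.hasCuspBound_adj_end (kb := fun _ : Unit => D.basePair.arch) TestPair.hasCuspBound_arch_base
      (fun _ => by simp only [basePair, conjKer_comp3, conjKer_baseKer])
      (fun _ => l[i].2.arch) (fun _ => s.arch) _
  have hker : ∀ i, (D.endPair l s i).ker = l[i].2.ker.comp (s.comp D.basePair).ker := fun i =>
    KerFamily.toHKer_comp _ _ _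
  have hcol : HasCuspidalColumnsSum D.quot c (fun i (_ : Unit) => (D.endPair l s i).arch)
      fun i => (D.endPair l s i).ker := by
    simp only [hker]
    exact hasCuspidalColumnsSum_comp c (ka := fun i _ => l[i].2.arch)
      (fun φ hi hc hB => by simpa only [sum_map_eq_sum_fin] using hl.down φ hi hc hB)
      (fun _ => (s.comp D.basePair).arch) _
  have h := hasSum_trace_twisted_sum e c hbase hadj hcol (MeasurePreserving.id _) measurable_id
    (fun _ => rfl) (fun _ => rfl) (fun _ _ => rfl) (ContinuousLinearMap.id ℂ _)
    fun _ _ _ hi he => ⟨hi, he⟩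
  have hI : (∑ i : Fin l.length, l[i].1 * (D.basePair.comp (D.endPair l s i)).diag D)
      = ∫ x, ∑ i, c i * perKer PGL(2, K) (testKernel (fun _ => PPKer.comp D.basePair.arch
        (D.endPair l s i).arch) (D.basePair.ker.comp (D.endPair l s i).ker)) x x ∂D.quot.ν := by
    simp only [TestPair.diag, ← integral_const_mul]
    rw [← integral_finsetSum _ fun i _ => (hint i).const_mul _]
    simp only [TestPair.ker, TestPair.comp, KerFamily.toHKer_comp, c]
  rw [hI]
  refine h.congr_fun fun k => ?_
  have e1 : (D.sumOp l * s.op) (D.basePair.op (D.basePair.op (e k)))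
      = (∑ i : Fin l.length, l[i].1 • (D.endPair l s i).op) (D.basePair.op (e k)) := by
    rw [← D.sumOp_mul_end l s]
    simp only [mul_apply_eq_comp]
  rw [e1]
  simp only [TestPair.op, ContinuousLinearMap.id_apply, c]

set_option maxHeartbeats 1000000 in
/-- The twisted trace upstairs of a cuspidal combination. -/
theorem hasSum_sumOp' (l : List (ℂ × D.TestPair)) (s : D.TestPair) (hl : D.IsCuspidalSum l)
    (hint : ∀ i, Integrable (fun x => perKer PGL(2, K')
      (testKernel (D.basePair.comp (D.endPair l s i)).arch' (D.basePair.comp (D.endPair l s i)).ker') x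
        (twistPt D.sigmaY x)) D.quot'.ν)
    (t : Set (cuspClasses D.quot')) (e : HilbertBasis t ℂ (cuspClasses D.quot'))
    (ht : Countable t) :
    HasSum (fun k => ⟪e k, (D.sumOp' l * s.op' * D.twist) (D.basePair.op' (D.basePair.op' (e k)))⟫_ℂ)
      (∑ i : Fin l.length, l[i].1 * (D.basePair.comp (D.endPair l s i)).diag' D) := by
  let c : Fin l.length → ℂ := fun i => l[i].1
  have hbase : HasCuspBound D.quot' D.basePair.arch' D.basePair.ker' := by
    rw [D.ker'_base]
    exact D.hasCuspBound_op'_base
  have hadj : ∀ i, HasCuspBound D.quot' (fun j => ((D.endPair l s i).arch' j).conjKer)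
      (D.endPair l s i).ker'.adj := fun i =>
    Descent.DescentData.hasCuspBound_adj_end (kb := fun _ => baseKer) D.hasCuspBound_op'_base
      (fun _ => conjKer_baseKer) l[i].2.arch' s.arch' _
  have hker : ∀ i, (D.endPair l s i).ker' = l[i].2.ker'.comp (s.comp D.basePair).ker' := fun i =>
    KerFamily.toHKer_comp _ _ _
  have hcol : HasCuspidalColumnsSum D.quot' c (fun i => (D.endPair l s i).arch')
      fun i => (D.endPair l s i).ker' := by
    simp only [hker]
    exact hasCuspidalColumnsSum_comp c (ka := fun i => l[i].2.arch')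
      (fun φ hi hc hB => by simpa only [sum_map_eq_sum_fin] using hl.up φ hi hc hB)
      (s.comp D.basePair).arch' _
  have h := hasSum_trace_twistPt_comb e c D.isTwistMap_sigmaY D.bijective_sigmaY D.sigmaY_cube
    hbase hadj hcol (fun _ _ _ => rfl) (fun y z => by
      classical
      rw [D.ker'_base]
      exact if_congr D.bijective_sigmaY.1.eq_iff rfl rfl)
  have hI : (∑ i : Fin l.length, l[i].1 * (D.basePair.comp (D.endPair l s i)).diag' D)
      = ∫ x, ∑ i, c i * perKer PGL(2, K') (testKernel (fun j => PPKer.comp (D.basePair.arch' j)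
        ((D.endPair l s i).arch' j)) (D.basePair.ker'.comp (D.endPair l s i).ker')) x
          (twistPt D.sigmaY x) ∂D.quot'.ν := by
    simp only [TestPair.diag', ← integral_const_mul]
    rw [← integral_finsetSum _ fun i _ => (hint i).const_mul _]
    simp only [TestPair.ker', TestPair.comp, KerFamily.toHKer_comp, c]
  rw [hI]
  refine h.congr_fun fun k => ?_
  have hc : D.twist (D.basePair.op' (D.basePair.op' (e k))) = D.basePair.op' (D.basePair.op' (D.twist (e k))) :=
    congrArg (fun f : cuspClasses D.quot' →L[ℂ] cuspClasses D.quot' => f (e k))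
      (D.commute_twist_base.mul_right D.commute_twist_base).eq
  have e1 : (D.sumOp' l * s.op' * D.twist) (D.basePair.op' (D.basePair.op' (e k)))
      = (∑ i : Fin l.length, l[i].1 • (D.endPair l s i).op') (D.basePair.op' (D.twist (e k))) := by
    rw [← D.sumOp'_mul_end l s]
    simp only [mul_apply_eq_comp, hc]
  rw [e1]
  simp only [TestPair.op', c, twist, twistOne, mul_apply_eq_comp]

/-- **The moments**: a cuspidal combination followed by a pair and two base operators has the same
trace on both sides. -/
theorem exists_hasSum_pair {a b : 𝓞 K} (ha : a ≠ 0) (hb : b ≠ 0) {a' b' : 𝓞 K'} (ha' : a' ≠ 0)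
    (hb' : b' ≠ 0) (T : ℝ) :
    ∃ n0 : ℕ, ∀ (l : List (ℂ × D.TestPair)) (s : D.TestPair), D.IsCuspidalSum l →
      (∀ p ∈ l, (D.basePair.comp (p.2.comp (s.comp D.basePair))).IsMatched ∧
        (D.basePair.comp (p.2.comp (s.comp D.basePair))).IsBounded D a b a' b' T n0) →
      ∃ I : ℂ,
        (∀ (t : Set (cuspClasses D.quot)) (e : HilbertBasis t ℂ (cuspClasses D.quot)), Countable t →
          HasSum (fun k => ⟪e k, (D.sumOp l * s.op) (D.basePair.op (D.basePair.op (e k)))⟫_ℂ) I) ∧
        ∀ (t : Set (cuspClasses D.quot')) (e : HilbertBasis t ℂ (cuspClasses D.quot')),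
          Countable t → HasSum (fun k =>
            ⟪e k, (D.sumOp' l * s.op' * D.twist) (D.basePair.op' (D.basePair.op' (e k)))⟫_ℂ) I := by
  obtain ⟨n1, h1⟩ := D.exists_integrable_diag ha hb ha' hb' T
  obtain ⟨n2, h2⟩ := D.exists_diag_eq ha hb ha' hb' T
  refine ⟨max n1 n2, fun l s hl hp =>
    ⟨∑ i : Fin l.length, l[i].1 * (D.basePair.comp (D.endPair l s i)).diag D,
      D.hasSum_sumOp l s hl fun i =>
        (h1 _ ((hp _ (List.getElem_mem i.2)).2.mono D (le_max_left n1 n2))).1, ?_⟩⟩
  rw [Finset.sum_congr rfl fun (i : Fin l.length) _ =>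
    congrArg (l[i].1 * ·) (h2 (D.basePair.comp (D.endPair l s i)) (hp _ (List.getElem_mem i.2)).1
      ((hp _ (List.getElem_mem i.2)).2.mono D (le_max_right n1 n2)))]
  exact D.hasSum_sumOp' l s hl fun i =>
    (h1 _ ((hp _ (List.getElem_mem i.2)).2.mono D (le_max_left n1 n2))).2

end GenData

end Fermat.Agent.Extra.LTGen

end
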