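import Fermat.Agent.Extra.LTGen.Descent.Atoms
import Fermat.Agent.Extra.LTGen.Descent.PairTrace
import Fermat.Agent.LT.Descent.PairBounds

/-!
# Uniform bounds for monomials with a high power at the auxiliary place

A monomial in the atoms times `U^n` is a pair living away from `u`, independent of `n`, composed
with `X^j U^(3n)` and `X^j U^n` at `u` and over it.  Composed with plain pairs and a part at
the bad places it is matched and its supports are big at `u` with bounds elsewhere independent of `n`.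
-/

set_option autoImplicit false
set_option linter.unusedSectionVars false

noncomputable section

namespace Fermat.Agent.Extra.LTGen

open Fermat.Agent.LT Fermat.Agent.LT.Descent

open IsDedekindDomain IsDedekindDomain.HeightOneSpectrum Matrix NumberField Filter Function
open Fermat.Agent.LT.Adelic Fermat.Agent.LT.Tame Fermat.Agent.LT.Aleph
open Fermat.Agent.LT.Descent.Places
open scoped MatrixGroups

variable {K : Type*} [Field K] [NumberField K] {K' : Type*} [Field K'] [NumberField K']
  [Algebra K K'] {Φ : Frame K Unit} {Φ' : Frame K' (Fin 3)} {tw : CubicTwist Φ Φ'}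

namespace GenData

variable (D : GenData tw)

theorem u_not_good : D.u ∉ D.good := fun h => h.2 rfl

theorem above_u_not_bad {w : HeightOneSpectrum (𝓞 K')} (h : IsAbove D.u w) :
    w ∉ D.bad' := fun h' => D.u_not_bad ((D.mem_bad'_iff h).1 h')

/-- `X^j U^(3n)` at `u`. -/
def auxMono (j n : ℕ) : KerFamily D.lev.loc :=
  KerFamily.single D.u (D.xKer ^ j * D.uKer (3 * n))

open Classical in
/-- `X^j U^n` at the chosen place over `u`, `U^n` at the two others. -/
def auxMono' (j n : ℕ) : KerFamily D.lev'.loc where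
  ker w := if h : IsAbove D.u w then D.xKer' h ^ (if w = D.aboveOf D.u then j else 0) * D.uKer' h n
    else 1
  eventually_one := by
    refine ((finite_placesAbove (T := {D.u}) D.gen
      (Set.finite_singleton _)).compl_mem_cofinite) |> Filter.mem_of_superset <| fun w hw => ?_
    exact dif_neg fun h => hw ⟨D.u, rfl, h⟩

theorem auxMono_ker_u (j n : ℕ) : (D.auxMono j n).ker D.u = D.xKer ^ j * D.uKer (3 * n) :=
  KerFamily.single_ker_self _ _

theorem auxMono_ker_ne (j n : ℕ) {v : HeightOneSpectrum (𝓞 K)} (h : v ≠ D.u) :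
    (D.auxMono j n).ker v = 1 := KerFamily.single_ker_ne h _

theorem auxMono'_ker_aboveOf (j n : ℕ) : (D.auxMono' j n).ker (D.aboveOf D.u) =
    D.xKer' (D.isAbove_aboveOf D.u) ^ j * D.uKer' (D.isAbove_aboveOf D.u) n := by
  classical
  show dite _ _ _ = _
  rw [dif_pos (D.isAbove_aboveOf D.u), if_pos rfl]

theorem auxMono'_ker_above_ne (j n : ℕ) {w : HeightOneSpectrum (𝓞 K')} (h : IsAbove D.u w)
    (hw : w ≠ D.aboveOf D.u) : (D.auxMono' j n).ker w = D.uKer' h n := by
  classical
  show dite _ _ _ = _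
  rw [dif_pos h, if_neg hw, pow_zero, one_mul]

theorem auxMono'_ker_of_not_above (j n : ℕ) {w : HeightOneSpectrum (𝓞 K')}
    (h : ¬IsAbove D.u w) : (D.auxMono' j n).ker w = 1 := dif_neg h

/-- `X^j U^(3n)` matches `X^j U^n`. -/
theorem isLocallyMatched_auxMono (j n : ℕ) :
    D.IsLocallyMatched (D.auxMono j n) (D.auxMono' j n) := fun v => by
  rcases eq_or_ne v D.u with rfl | hv
  · have h := D.isAbove_aboveOf D.u
    have P := D.splitPlace_of_above h
    refine D.isMatchedAt_u ⟨_, P, ?_⟩
    have hpow : ∀ i, P.pullKer (D.isSplitLevel D.u_split) (D.xKer' h ^ i) = D.xKer ^ i := by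
      intro i
      induction i with
      | zero => rw [pow_zero, pow_zero, SplitPlace.pullKer_one]
      | succ i ih => rw [pow_succ, pow_succ, SplitPlace.pullKer_mul, ih, pullKer_xKer']
    have h1 : IsAbove D.u _ := P.next.above
    have h2 : IsAbove D.u _ := P.next.next.above
    rw [auxMono_ker_u, auxMono'_ker_aboveOf, D.auxMono'_ker_above_ne j n h1 P.moved,
      D.auxMono'_ker_above_ne j n h2 P.moved_twice, SplitPlace.pullKer_mul, hpow,
      D.pullKer_uKer' P h n, D.pullKer_uKer' P.next h1 n, D.pullKer_uKer' P.next.next h2 n,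
      mul_assoc, uKer_mul, uKer_mul]
    congr 2
    omega
  · exact IsTrivialAt.isMatchedAt ⟨D.auxMono_ker_ne j n hv, fun x hx =>
      D.auxMono'_ker_of_not_above j n fun hu => hv (isAbove_unique hx hu)⟩

theorem auxMono_zero (n : ℕ) : D.auxMono 0 n = D.auxU n := by
  rw [auxMono, auxU, pow_zero, one_mul]

theorem auxMono'_zero (n : ℕ) : D.auxMono' 0 n = D.auxU' n := KerFamily.ext' fun w => by
  by_cases h : IsAbove D.u w
  · rw [D.auxU'_ker_above n h]
    rcases eq_or_ne w (D.aboveOf D.u) with rfl | hw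
    · rw [auxMono'_ker_aboveOf, pow_zero, one_mul]
    · rw [D.auxMono'_ker_above_ne 0 n h hw]
  · rw [D.auxMono'_ker_of_not_above 0 n h, D.auxU'_ker_of_not_above n h]

/-- The part of `t` away from `u` is `g`, the part at `u` is `X^j U^n`. -/
def HasShape (t : D.TestPair) (g : KerFamily D.lev.loc) (g' : KerFamily D.lev'.loc) (j n : ℕ) :
    Prop :=
  t.fam = g.comp (D.auxMono j n) ∧ t.fam' = g'.comp (D.auxMono' j n)

/-- A monomial in the atoms times a power of `U`. -/
def monomial (L : List D.AtomIdx) (n : ℕ) : D.TestPair :=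
  TestPair.listComp (D.upow n) (L.map D.atom)

theorem monomial_cons (i : D.AtomIdx) (L : List D.AtomIdx) (n : ℕ) :
    D.monomial (i :: L) n = (D.atom i).comp (D.monomial L n) := rfl

theorem withFam_arch_congr (f f₁ : KerFamily D.lev.loc) (f' f₁' : KerFamily D.lev'.loc) :
    (D.withFam f f').arch = (D.withFam f₁ f₁').arch ∧
      (D.withFam f f').arch' = (D.withFam f₁ f₁').arch' := ⟨rfl, rfl⟩

theorem monomial_arch (L : List D.AtomIdx) (n : ℕ) :
    (D.monomial L n).arch = (D.monomial L 0).arch ∧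
      (D.monomial L n).arch' = (D.monomial L 0).arch' := by
  induction L with
  | nil => exact D.withFam_arch_congr _ _ _ _
  | cons i L ih =>
    obtain ⟨e, e'⟩ := ih
    rw [monomial_cons, monomial_cons]
    refine ⟨?_, funext fun x => ?_⟩
    · show PPKer.comp _ (D.monomial L n).arch = PPKer.comp _ (D.monomial L 0).arch
      rw [e]
    · show PPKer.comp _ ((D.monomial L n).arch' x) = PPKer.comp _ ((D.monomial L 0).arch' x)
      rw [e']

theorem isComposite3_monomial : ∀ (L : List D.AtomIdx) (n : ℕ),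
    IsComposite3 (D.monomial L n).arch (D.monomial L n).arch'
  | [], _ => fun _ _ => rfl
  | i :: L, n => by
    have h : IsComposite3 (D.atom i).arch (D.atom i).arch' := by
      cases i with
      | arch k => exact isComposite3_baseAt 0 _
      | _ => exact fun _ _ => rfl
    exact h.comp (isComposite3_monomial L n)

theorem exists_hasShape : ∀ L : List D.AtomIdx, ∃ (j : ℕ) (g : KerFamily D.lev.loc)
    (g' : KerFamily D.lev'.loc), j ≤ L.length ∧ D.IsGoodMatched g g' ∧
      ∀ n, D.HasShape (D.monomial L n) g g' j n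
  | [] => ⟨0, KerFamily.one _, KerFamily.one _, le_rfl, isGoodMatched_one, fun n =>
    ⟨KerFamily.ext' fun v => by
      show (D.auxU n).ker v = 1 * (D.auxMono 0 n).ker v
      rw [one_mul, auxMono_zero], KerFamily.ext' fun w => by
      show (D.auxU' n).ker w = 1 * (D.auxMono' 0 n).ker w
      rw [one_mul, auxMono'_zero]⟩⟩
  | i :: L => by
    obtain ⟨j, g, g', hj, hg, hs⟩ := exists_hasShape L
    have plain : (D.atom i).IsPlain → ∃ (j : ℕ) (g : KerFamily D.lev.loc)
        (g' : KerFamily D.lev'.loc), j ≤ (i :: L).length ∧ D.IsGoodMatched g g' ∧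
          ∀ n, D.HasShape (D.monomial (i :: L) n) g g' j n := fun hp =>
      ⟨j, _, _, hj.trans (Nat.le_succ _), hp.good.comp hg, fun n =>
        ⟨KerFamily.ext' fun v => by
          show (D.atom i).fam.ker v * (D.monomial L n).fam.ker v = _
          rw [(hs n).1, KerFamily.comp_ker, KerFamily.comp_ker, KerFamily.comp_ker, mul_assoc],
        KerFamily.ext' fun w => by
          show (D.atom i).fam'.ker w * (D.monomial L n).fam'.ker w = _
          rw [(hs n).2, KerFamily.comp_ker, KerFamily.comp_ker, KerFamily.comp_ker, mul_assoc]⟩⟩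
    cases i with
    | base => exact plain isPlain_base
    | good v => exact plain (isPlain_withFam v.2)
    | arch k => exact plain (isPlain_archAtom 0 k)
    | aux =>
      refine ⟨j + 1, g, g', Nat.succ_le_succ hj, hg, fun n =>
        ⟨KerFamily.ext' fun v => ?_, KerFamily.ext' fun w => ?_⟩⟩
      · show D.auxX.ker v * (D.monomial L n).fam.ker v = _
        rw [(hs n).1, KerFamily.comp_ker, KerFamily.comp_ker]
        rcases eq_or_ne v D.u with rfl | hv
        · rw [(hg.off _ D.u_not_good).1, one_mul, one_mul, auxMono_ker_u, auxMono_ker_u,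
            auxX_ker_u, pow_succ', mul_assoc]
        · rw [D.auxX_ker_ne hv, one_mul, D.auxMono_ker_ne j n hv, D.auxMono_ker_ne (j + 1) n hv]
      · show (D.auxX' D.uAbove).ker w * (D.monomial L n).fam'.ker w = _
        rw [(hs n).2, KerFamily.comp_ker, KerFamily.comp_ker]
        rcases eq_or_ne w (D.aboveOf D.u) with rfl | hw
        · have h := D.isAbove_aboveOf D.u
          rw [(hg.off _ D.u_not_good).2 _ h, one_mul, one_mul, auxMono'_ker_aboveOf,
            auxMono'_ker_aboveOf, pow_succ', mul_assoc]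
          exact congrArg (· * _) (D.auxX'_ker_self h)
        · rw [D.auxX'_ker_ne (show w ≠ (D.uAbove : HeightOneSpectrum (𝓞 K')) from hw), one_mul]
          by_cases h : IsAbove D.u w
          · rw [D.auxMono'_ker_above_ne j n h hw, D.auxMono'_ker_above_ne (j + 1) n h hw]
          · rw [D.auxMono'_ker_of_not_above j n h, D.auxMono'_ker_of_not_above (j + 1) n h]

variable {D}

/-- A good part composed with a part at the bad places. -/
theorem isLocallyMatched_comp_bad {g : KerFamily D.lev.loc} {g' : KerFamily D.lev'.loc}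
    {k : KerFamily D.lev.loc} {k' : KerFamily D.lev'.loc} (hg : D.IsGoodMatched g g')
    (h3 : D.IsBadPart k k') :
    D.IsLocallyMatched (g.comp k) (g'.comp k') ∧ D.IsTrivialAt (g.comp k) (g'.comp k') D.u := by
  refine ⟨hg.isLocallyMatched.comp h3.matched (fun v _ => ?_) (fun v hv => ?_), ?_, fun w hw => ?_⟩
  · by_cases hv : v ∈ D.bad
    · exact Or.inl (hg.off v fun h => h.1 hv)
    · exact Or.inr (Or.inl ⟨h3.off v hv,
        fun w hw => h3.off' w fun h => hv ((D.mem_bad'_iff hw).1 h)⟩)
  · exact Or.inl (hg.off v fun h => h.1 hv.1)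
  · rw [KerFamily.comp_ker, (hg.off _ D.u_not_good).1, h3.off _ D.u_not_bad, one_mul]
  · rw [KerFamily.comp_ker, (hg.off _ D.u_not_good).2 w hw, h3.off' w (D.above_u_not_bad hw),
      one_mul]

variable (D)

/-- **The support of a part away from `u` times `X^j U^n`.** -/
theorem exists_bigOn {F : KerFamily D.lev.loc} {F' : KerFamily D.lev'.loc}
    (hu : D.IsTrivialAt F F' D.u) :
    ∃ (a b : 𝓞 K) (a' b' : 𝓞 K'), a ≠ 0 ∧ b ≠ 0 ∧ a' ≠ 0 ∧ b' ≠ 0 ∧ ∀ j n : ℕ, j < n →
      IsBigOn ((F.comp (D.auxMono j n)).toHKer D.isLocal) {D.u} a b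
          (Set.Icc ((3 * n : ℕ) - (j : ℤ)) ((3 * n : ℕ) + j)) ∧
        IsBigOn ((F'.comp (D.auxMono' j n)).toHKer D.isLocal') (placesAbove {D.u}) a' b'
          (Set.Icc ((n : ℤ) - j) (n + j)) := by
  obtain ⟨a, b, ha, hb, hF⟩ := exists_boxed_toHKer D.isLocal F
  obtain ⟨a', b', ha', hb', hF'⟩ := exists_boxed_toHKer D.isLocal' F'
  refine ⟨a, b, a', b', ha, hb, ha', hb', fun j n hjn => ⟨?_, ?_⟩⟩
  · rw [KerFamily.toHKer_comp]
    have hA := D.isBigOn_aux (D.auxMono j n) (j := j) (n := 3 * n) (a := 1) (b := 1) (by omega)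
      (D.auxMono_ker_u j n) fun v hv => by
        rw [D.auxMono_ker_ne j n hv]
        exact LKer.suppIn_one_boxed D.isLocal v 1 1
    have h := (hA.comp_iwahori (g := F.toHKer D.isLocal) (a' := a) (b' := b)
      (fun M hM v _ => hF M hM v) fun M hM v hv => ?_).2
    · exact h.mono_dvd (by rw [one_mul]) (by rw [one_mul])
    rw [Set.mem_singleton_iff] at hv
    subst hv
    have e := F.ker_apply_ne_zero D.isLocal hM D.u
    rw [hu.1] at e
    exact LKer.suppIn_one_iwahori
      (D.lev.loc_of_aux D.u_not_bad (Set.mem_singleton _)).le _ e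
  · rw [KerFamily.toHKer_comp]
    have hA := D.isBigOn_aux' (D.auxMono' j n) (J := j) (n := n) (a := 1) (b := 1) hjn
      (fun w h => by
        rcases eq_or_ne w (D.aboveOf D.u) with rfl | hw
        · exact ⟨j, le_rfl, D.auxMono'_ker_aboveOf j n⟩
        · exact ⟨0, Nat.zero_le _, by rw [D.auxMono'_ker_above_ne j n h hw, pow_zero, one_mul]⟩)
      fun w hw => by
        rw [D.auxMono'_ker_of_not_above j n hw]
        exact LKer.suppIn_one_boxed D.isLocal' w 1 1
    have h := (hA.comp_iwahori (g := F'.toHKer D.isLocal') (a' := a') (b' := b')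
      (fun M hM v _ => hF' M hM v) fun M hM w hw => ?_).2
    · exact h.mono_dvd (by rw [one_mul]) (by rw [one_mul])
    obtain ⟨v, hv, hvw⟩ := hw
    rw [Set.mem_singleton_iff] at hv
    subst hv
    have e := F'.ker_apply_ne_zero D.isLocal' hM w
    rw [hu.2 w hvw] at e
    refine LKer.suppIn_one_iwahori (D.lev'.loc_of_aux (D.above_u_not_bad hvw)
      ⟨D.u, Set.mem_singleton _, hvw⟩).le _ e

/-- The test pair of a combination term and a monomial. -/
def boundPair (L : List D.AtomIdx) (p : D.TestPair) (k : KerFamily D.lev.loc)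
    (k' : KerFamily D.lev'.loc) (n : ℕ) : D.TestPair :=
  D.basePair.comp (p.comp (((TestPair.listComp (D.upow n) (L.map D.atom)).comp
    (D.withFam k k')).comp D.basePair))

/-- **One term: matched, with bounds independent of the power.** -/
theorem exists_boundPair (L : List D.AtomIdx) {p : D.TestPair} (hp : p.IsPlain)
    {k : KerFamily D.lev.loc} {k' : KerFamily D.lev'.loc} (h3 : D.IsBadPart k k') :
    ∃ (a b : 𝓞 K) (a' b' : 𝓞 K') (T : ℝ), a ≠ 0 ∧ b ≠ 0 ∧ a' ≠ 0 ∧ b' ≠ 0 ∧
      ∀ n0 n : ℕ, n0 + L.length < n → (D.boundPair L p k k' n).IsMatched ∧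
        (D.boundPair L p k k' n).IsBounded D a b a' b' T n0 := by
  obtain ⟨j, g, g', hj, hg, hs⟩ := D.exists_hasShape L
  obtain ⟨hF, hFu⟩ := isLocallyMatched_comp_bad (hp.good.comp hg) h3
  set F := (p.fam.comp g).comp k with hFdef
  set F' := (p.fam'.comp g').comp k' with hFdef'
  obtain ⟨a, b, a', b', ha, hb, ha', hb', hbig⟩ := D.exists_bigOn hFu
  obtain ⟨T, hT⟩ := (D.boundPair L p k k' 0).arch.exists_range
  choose T' hT' using fun i => ((D.boundPair L p k k' 0).arch' i).exists_range
  have hfam : ∀ n, (D.boundPair L p k k' n).fam = F.comp (D.auxMono j n) ∧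
      (D.boundPair L p k k' n).fam' = F'.comp (D.auxMono' j n) := fun n =>
    ⟨KerFamily.ext' fun v => by
      show 1 * (p.fam.ker v * (((D.monomial L n).fam.ker v * k.ker v) * 1)) =
        (p.fam.ker v * g.ker v * k.ker v) * (D.auxMono j n).ker v
      rw [(hs n).1, KerFamily.comp_ker, one_mul, mul_one]
      rcases eq_or_ne v D.u with rfl | hv
      · rw [h3.off _ D.u_not_bad, mul_one, mul_one, mul_assoc]
      · rw [D.auxMono_ker_ne j n hv, mul_one, mul_one, mul_assoc],
    KerFamily.ext' fun w => by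
      show 1 * (p.fam'.ker w * (((D.monomial L n).fam'.ker w * k'.ker w) * 1)) =
        (p.fam'.ker w * g'.ker w * k'.ker w) * (D.auxMono' j n).ker w
      rw [(hs n).2, KerFamily.comp_ker, one_mul, mul_one]
      by_cases hw : IsAbove D.u w
      · rw [h3.off' _ (D.above_u_not_bad hw), mul_one, mul_one, mul_assoc]
      · rw [D.auxMono'_ker_of_not_above j n hw, mul_one, mul_one, mul_assoc]⟩
  have harch : ∀ n, (D.boundPair L p k k' n).arch = (D.boundPair L p k k' 0).arch ∧
      (D.boundPair L p k k' n).arch' = (D.boundPair L p k k' 0).arch' := fun n => by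
    obtain ⟨e, e'⟩ := D.monomial_arch L n
    refine ⟨?_, funext fun i => ?_⟩
    · show PPKer.comp _ (PPKer.comp _ (PPKer.comp (PPKer.comp (D.monomial L n).arch _) _)) =
        PPKer.comp _ (PPKer.comp _ (PPKer.comp (PPKer.comp (D.monomial L 0).arch _) _))
      rw [e]
    · show PPKer.comp _ (PPKer.comp _ (PPKer.comp (PPKer.comp ((D.monomial L n).arch' i) _) _)) =
        PPKer.comp _ (PPKer.comp _ (PPKer.comp (PPKer.comp ((D.monomial L 0).arch' i) _) _))
      rw [e']
  refine ⟨a, b, a', b', max T (Finset.univ.sup' Finset.univ_nonempty T'), ha, hb, ha', hb',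
    fun n0 n hn => ⟨⟨?_, ?_⟩, ⟨?_, ?_, ?_, ?_⟩⟩⟩
  · exact IsComposite3.comp (fun _ _ => rfl) (hp.composite.comp
      (((D.isComposite3_monomial L n).comp (fun _ _ => rfl)).comp (fun _ _ => rfl)))
  · have haux : ∀ v ≠ D.u, D.IsTrivialAt (D.auxMono j n) (D.auxMono' j n) v := fun v hv =>
      ⟨D.auxMono_ker_ne j n hv, fun x hx =>
        D.auxMono'_ker_of_not_above j n fun hu => hv (isAbove_unique hx hu)⟩
    refine IsLocallyMatched.transfers ?_ fun v hv => ?_
    · rw [(hfam n).1, (hfam n).2]
      refine hF.comp (D.isLocallyMatched_auxMono j n) (fun v _ => ?_) fun v hv =>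
        Or.inr (haux v fun e => D.u_not_bad (e ▸ hv.1))
      rcases eq_or_ne v D.u with rfl | hv
      · exact Or.inl hFu
      · exact Or.inr (Or.inl (haux v hv))
    · have hu : v ≠ D.u := fun e => D.u_not_bad (e ▸ hv.1)
      have hpg := (hp.good.comp hg).off v fun h => h.1 hv.1
      refine (h3.deep v hv).congr ?_ fun w hw => ?_
      · rw [(hfam n).1, KerFamily.comp_ker, D.auxMono_ker_ne j n hu, mul_one, hFdef,
          KerFamily.comp_ker, hpg.1, one_mul]
      · rw [(hfam n).2, KerFamily.comp_ker, (haux v hu).2 w hw, mul_one, hFdef',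
          KerFamily.comp_ker, hpg.2 w hw, one_mul]
  · intro x y h
    rw [(harch n).1] at h
    exact (hT x y h).trans (le_max_left _ _)
  · intro i x y h
    rw [(harch n).2] at h
    exact (hT' i x y h).trans ((Finset.le_sup' T' (Finset.mem_univ i)).trans (le_max_right _ _))
  · refine ⟨Set.Icc ((3 * n : ℕ) - (j : ℤ)) ((3 * n : ℕ) + j), Set.finite_Icc _ _,
      fun m hm => ?_, ?_⟩
    rotate_left
    · show IsBigOn ((D.boundPair L p k k' n).fam.toHKer D.isLocal) _ _ _ _
      rw [(hfam n).1]
      exact (hbig j n (by omega)).1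
    · simp only [Set.mem_Icc] at hm
      omega
  · refine ⟨Set.Icc ((n : ℤ) - j) (n + j), Set.finite_Icc _ _, fun m hm => ?_, ?_⟩
    rotate_left
    · show IsBigOn ((D.boundPair L p k k' n).fam'.toHKer D.isLocal') _ _ _ _
      rw [(hfam n).2]
      exact (hbig j n (by omega)).2
    · simp only [Set.mem_Icc] at hm
      omega

/-- Bounds only weaken. -/
theorem TestPair.IsBounded.weaken {t : D.TestPair} {a b : 𝓞 K} {a' b' : 𝓞 K'} {T : ℝ} {n : ℕ}
    (h : t.IsBounded D a b a' b' T n) {c d : 𝓞 K} {c' d' : 𝓞 K'} {S : ℝ} (hc : a ∣ c)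
    (hd : b ∣ d) (hc' : a' ∣ c') (hd' : b' ∣ d') (hS : T ≤ S) :
    t.IsBounded D c d c' d' S n where
  range p q hpq := (h.range p q hpq).trans hS
  range' i p q hpq := (h.range' i p q hpq).trans hS
  big := h.big.imp fun _ hP => ⟨hP.1, hP.2.1, hP.2.2.mono_dvd hc hd⟩
  big' := h.big'.imp fun _ hP => ⟨hP.1, hP.2.1, hP.2.2.mono_dvd hc' hd'⟩

/-- **Uniform bounds for monomials with a high power at `u`.** -/
theorem exists_monomial_bound (L : List D.AtomIdx) (l : List (ℂ × D.TestPair))
    (hl : ∀ p ∈ l, p.2.IsPlain) (k : KerFamily D.lev.loc) (k' : KerFamily D.lev'.loc)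
    (h3 : D.IsBadPart k k') :
    ∃ (a b : 𝓞 K) (a' b' : 𝓞 K') (T : ℝ), a ≠ 0 ∧ b ≠ 0 ∧ a' ≠ 0 ∧ b' ≠ 0 ∧
      ∀ n0 n : ℕ, n0 + L.length < n → ∀ p ∈ l,
        let t := D.basePair.comp (p.2.comp (((TestPair.listComp (D.upow n) (L.map D.atom)).comp
          (D.withFam k k')).comp D.basePair))
        t.IsMatched ∧ t.IsBounded D a b a' b' T n0 := by
  induction l with
  | nil => exact ⟨1, 1, 1, 1, 0, one_ne_zero, one_ne_zero, one_ne_zero, one_ne_zero, fun _ _ _ p hp =>
      absurd hp (by simp)⟩
  | cons q l ih =>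
    obtain ⟨a, b, a', b', T, ha, hb, ha', hb', h⟩ := ih fun p hp => hl p (List.mem_cons_of_mem _ hp)
    obtain ⟨c, d, c', d', S, hc, hd, hc', hd', h1⟩ :=
      D.exists_boundPair L (hl q List.mem_cons_self) h3
    refine ⟨a * c, b * d, a' * c', b' * d', max T S, mul_ne_zero ha hc, mul_ne_zero hb hd,
      mul_ne_zero ha' hc', mul_ne_zero hb' hd', fun n0 n hn p hp => ?_⟩
    rcases List.mem_cons.1 hp with rfl | hp
    · exact ⟨(h1 n0 n hn).1, (h1 n0 n hn).2.weaken D (dvd_mul_left _ _) (dvd_mul_left _ _)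
        (dvd_mul_left _ _) (dvd_mul_left _ _) (le_max_right _ _)⟩
    · exact ⟨(h n0 n hn p hp).1, (h n0 n hn p hp).2.weaken D (dvd_mul_right _ _) (dvd_mul_right _ _)
        (dvd_mul_right _ _) (dvd_mul_right _ _) (le_max_left _ _)⟩

end GenData

end Fermat.Agent.Extra.LTGen

end
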