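/-
The three Iwahori pairs on the target classes upstairs: at each place over `u` the commutant of
`X` acts on the target classes, `X` is the scalar of the data there, and the twist permutes the
three places cyclically.
-/
import Fermat.Agent.Extra.LTGen.Descent.Atoms
import Fermat.Agent.LT.Descent.SingleOp
import Fermat.Agent.LT.Descent.IwahoriSphere
import Fermat.Agent.LT.Descent.TargetIwahori

set_option autoImplicit false

noncomputable section

namespace Fermat.Agent.Extra.LTGen

open Fermat.Agent.LT Fermat.Agent.LT.Descent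

open IsDedekindDomain IsDedekindDomain.HeightOneSpectrum Matrix NumberField Module
open Fermat.Agent.LT.Adelic Fermat.Agent.LT.Tame Fermat.Agent.LT.Spectral
open Fermat.Agent.LT.Descent.Places
open scoped MatrixGroups

namespace GenData

variable {K : Type*} [Field K] [NumberField K] {K' : Type*} [Field K'] [NumberField K']
  [Algebra K K'] {Φ : Frame K Unit} {Φ' : Frame K' (Fin 3)} {tw : CubicTwist Φ Φ'}
  (D : GenData tw)

/-- The operator of a matrix at one place upstairs, with the base kernels. -/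
abbrev placeOp (w : HeightOneSpectrum (𝓞 K')) :
    LKer PGL(2, w.adicCompletion K') (LocY D.lev'.loc w) →ₗ[ℂ]
      (cuspClasses D.quot' →L[ℂ] cuspClasses D.quot') :=
  singleOp D.isLocal' D.quot' (fun _ => baseKer) w

theorem placeOp_one (w : HeightOneSpectrum (𝓞 K')) : D.placeOp w 1 = D.basePair.op' := by
  rw [placeOp, singleOp_one, op'_base]

/-- The finite part of an atom is trivial at a place over `u`, or is `X` there. -/
theorem commute_atomFam'_ker (j : D.AtomIdx') {w : HeightOneSpectrum (𝓞 K')} (h : IsAbove D.u w)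
    {l : LKer PGL(2, w.adicCompletion K') (LocY D.lev'.loc w)} (hl : Commute (D.xKer' h) l) :
    Commute ((D.atomFam' j).ker w) l := by
  cases j with
  | base => exact Commute.one_left l
  | arch i k => exact Commute.one_left l
  | good w' =>
    have hne : w ≠ w'.1 := fun e => by
      obtain ⟨v, hv, hw'⟩ := w'.2
      exact hv.2 (isAbove_unique hw' (e ▸ h))
    rw [atomFam', goodT', goodPoly_ker_ne D.lev' hne]
    exact Commute.one_left l
  | aux w' =>
    show Commute ((D.auxX' w'.1).ker w) l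
    rcases eq_or_ne w w'.1 with e | hne
    · rw [← e, D.auxX'_ker_self h]
      exact hl
    · rw [D.auxX'_ker_ne hne]
      exact Commute.one_left l

theorem commute_placeOp_atomOp' (j : D.AtomIdx') {w : HeightOneSpectrum (𝓞 K')}
    (h : IsAbove D.u w) {l : LKer PGL(2, w.adicCompletion K') (LocY D.lev'.loc w)}
    (hl : Commute (D.xKer' h) l) : Commute (D.placeOp w l) (D.atomOp' j) :=
  commute_singleOp_cuspOp D.isLocal' _ _ w l (D.commute_atomFam'_ker j h hl)

theorem commute_placeOp_base (w : HeightOneSpectrum (𝓞 K'))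
    (l : LKer PGL(2, w.adicCompletion K') (LocY D.lev'.loc w)) :
    Commute (D.placeOp w l) D.basePair.op' :=
  commute_singleOp_cuspOp D.isLocal' _ _ w l (g := D.basePair.fam') (Commute.one_left l)

theorem mapsTo_placeOp {w : HeightOneSpectrum (𝓞 K')} (h : IsAbove D.u w)
    {l : LKer PGL(2, w.adicCompletion K') (LocY D.lev'.loc w)} (hl : Commute (D.xKer' h) l) :
    Set.MapsTo (D.placeOp w l) D.targetSpace D.targetSpace := by
  intro e he
  obtain ⟨h1, h2⟩ := mem_jointSpace.1 he
  refine mem_jointSpace.2 ⟨?_, fun j => ?_⟩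
  · exact ((congrArg (fun f : cuspClasses D.quot' →L[ℂ] cuspClasses D.quot' => f e)
      (D.commute_placeOp_base w l).eq).symm.trans (congrArg (D.placeOp w l) h1)).trans
      (map_smul _ _ _)
  · exact ((congrArg (fun f : cuspClasses D.quot' →L[ℂ] cuspClasses D.quot' => f e)
      (D.commute_placeOp_atomOp' j h hl).eq).symm.trans (congrArg (D.placeOp w l) (h2 j))).trans
      (map_smul _ _ _)

theorem base_op'_apply_target {e : cuspClasses D.quot'} (he : e ∈ D.targetSpace) :
    D.basePair.op' e = (targetMu : ℂ) • e := (mem_jointSpace.1 he).1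

theorem mem_centralizer_xKer' {w : HeightOneSpectrum (𝓞 K')} (h : IsAbove D.u w)
    {l : LKer PGL(2, w.adicCompletion K') (LocY D.lev'.loc w)}
    (hl : l ∈ Subalgebra.centralizer ℂ {D.xKer' h}) : Commute (D.xKer' h) l :=
  (Subalgebra.mem_centralizer_iff ℂ).1 hl _ rfl

/-- The operator of a matrix at `w` on the target classes, divided by the base value. -/
def placeEnd {w : HeightOneSpectrum (𝓞 K')} (h : IsAbove D.u w) :
    Subalgebra.centralizer ℂ {D.xKer' h} →ₗ[ℂ] Module.End ℂ D.targetSpace where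
  toFun l := (targetMu : ℂ)⁻¹ • LinearMap.restrict
    ((D.placeOp w l.1 : cuspClasses D.quot' →L[ℂ] cuspClasses D.quot') :
      cuspClasses D.quot' →ₗ[ℂ] cuspClasses D.quot')
    (p := D.targetSpace) (q := D.targetSpace)
    fun _ he => D.mapsTo_placeOp h (D.mem_centralizer_xKer' h l.2) he
  map_add' l m := by
    refine LinearMap.ext fun e => Subtype.ext ?_
    show (targetMu : ℂ)⁻¹ • D.placeOp w (l.1 + m.1) e.1 =
      (targetMu : ℂ)⁻¹ • D.placeOp w l.1 e.1 + (targetMu : ℂ)⁻¹ • D.placeOp w m.1 e.1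
    rw [map_add, ← smul_add]
    rfl
  map_smul' c l := by
    refine LinearMap.ext fun e => Subtype.ext ?_
    show (targetMu : ℂ)⁻¹ • D.placeOp w (c • l.1) e.1 =
      c • (targetMu : ℂ)⁻¹ • D.placeOp w l.1 e.1
    rw [map_smul, smul_comm c]
    rfl

theorem coe_placeEnd {w : HeightOneSpectrum (𝓞 K')} (h : IsAbove D.u w)
    (l : Subalgebra.centralizer ℂ {D.xKer' h}) (e : D.targetSpace) :
    (D.placeEnd h l e : cuspClasses D.quot') = (targetMu : ℂ)⁻¹ • D.placeOp w l.1 e.1 := rfl

/-- **The commutant of `X` at `w` acts on the target classes.** -/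
def placeAlg {w : HeightOneSpectrum (𝓞 K')} (h : IsAbove D.u w) :
    Subalgebra.centralizer ℂ {D.xKer' h} →ₐ[ℂ] Module.End ℂ D.targetSpace :=
  AlgHom.ofLinearMap (D.placeEnd h)
    (LinearMap.ext fun e => Subtype.ext (by
      show (targetMu : ℂ)⁻¹ • D.placeOp w 1 e.1 = e.1
      rw [placeOp_one, D.base_op'_apply_target e.2, inv_smul_smul₀
        (Complex.ofReal_ne_zero.2 targetMu_ne_zero)]))
    fun l m => LinearMap.ext fun e => Subtype.ext (by
      show (targetMu : ℂ)⁻¹ • D.placeOp w (l.1 * m.1) e.1 =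
        (targetMu : ℂ)⁻¹ • D.placeOp w l.1 ((targetMu : ℂ)⁻¹ • D.placeOp w m.1 e.1)
      have hmem := D.mapsTo_placeOp h
        ((D.mem_centralizer_xKer' h l.2).mul_right (D.mem_centralizer_xKer' h m.2)) e.2
      have h1 : D.placeOp w l.1 (D.placeOp w m.1 e.1) =
          (targetMu : ℂ) • D.placeOp w (l.1 * m.1) e.1 := by
        refine Eq.trans (congrArg (fun f : cuspClasses D.quot' →L[ℂ] cuspClasses D.quot' => f e.1)
          (singleOp_mul D.isLocal' (D := D.quot') (fun _ => baseKer) w l.1 m.1)) ?_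
        rw [← D.op'_base]
        exact D.base_op'_apply_target hmem
      rw [map_smul, h1, inv_smul_smul₀ (Complex.ofReal_ne_zero.2 targetMu_ne_zero)])

theorem coe_placeAlg {w : HeightOneSpectrum (𝓞 K')} (h : IsAbove D.u w)
    (l : Subalgebra.centralizer ℂ {D.xKer' h}) (e : D.targetSpace) :
    (D.placeAlg h l e : cuspClasses D.quot') = (targetMu : ℂ)⁻¹ • D.placeOp w l.1 e.1 := rfl

/-- `t` in the commutant. -/
def tMem {w : HeightOneSpectrum (𝓞 K')} (h : IsAbove D.u w) :
    Subalgebra.centralizer ℂ {D.xKer' h} :=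
  ⟨iwTKer (D.map_loc'_of_above h), (Subalgebra.mem_centralizer_iff ℂ).2 fun g hg => by
    rw [Set.mem_singleton_iff.1 hg]
    exact (isIwahoriPair_at (D.map_loc'_of_above h)).commute_iwahoriX_t.eq⟩

/-- `w` in the commutant. -/
def wMem {w : HeightOneSpectrum (𝓞 K')} (h : IsAbove D.u w) :
    Subalgebra.centralizer ℂ {D.xKer' h} :=
  ⟨iwWAt (D.map_loc'_of_above h), (Subalgebra.mem_centralizer_iff ℂ).2 fun g hg => by
    rw [Set.mem_singleton_iff.1 hg]
    exact (isIwahoriPair_at (D.map_loc'_of_above h)).commute_iwahoriX_w.eq⟩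

/-- `t` on the target classes. -/
def tEnd {w : HeightOneSpectrum (𝓞 K')} (h : IsAbove D.u w) : Module.End ℂ D.targetSpace :=
  D.placeAlg h (D.tMem h)

/-- `w` on the target classes. -/
def wEnd {w : HeightOneSpectrum (𝓞 K')} (h : IsAbove D.u w) : Module.End ℂ D.targetSpace :=
  D.placeAlg h (D.wMem h)

/-- The value of `X` on the target classes. -/
def targetXVal : ℝ := Real.sqrt (Ideal.absNorm D.u.asIdeal) * (D.eig (D.aboveOf D.u)).re

theorem eig_above {w : HeightOneSpectrum (𝓞 K')} (h : IsAbove D.u w) :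
    D.eig w = D.eig (D.aboveOf D.u) := by
  have h1 := D.eig_twist D.u _ D.u_not_bad D.u_split (D.isAbove_aboveOf D.u)
  rcases eq_or_eq_of_isAbove D.gen (D.isAbove_aboveOf D.u) h with rfl | rfl | rfl
  · rfl
  · exact h1
  · exact (D.eig_twist D.u _ D.u_not_bad D.u_split
      (isAbove_placePerm (D.isAbove_aboveOf D.u))).trans h1

theorem isIwahoriPair_end {w : HeightOneSpectrum (𝓞 K')} (h : IsAbove D.u w) :
    IsIwahoriPair (Ideal.absNorm D.u.asIdeal : ℂ) (D.tEnd h) (D.wEnd h) := by
  refine IsIwahoriPair.map (A := Subalgebra.centralizer ℂ {D.xKer' h})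
    (B := Module.End ℂ D.targetSpace)
    (t := D.tMem h) (w := D.wMem h) (D.placeAlg h) ⟨Subtype.ext ?_, Subtype.ext ?_⟩
  · rw [← D.absNorm_above h]
    exact (isIwahoriPair_at (D.map_loc'_of_above h)).sq_t
  · exact (isIwahoriPair_at (D.map_loc'_of_above h)).sq_w

theorem iwahoriX_end {w : HeightOneSpectrum (𝓞 K')} (h : IsAbove D.u w) :
    iwahoriX (Ideal.absNorm D.u.asIdeal : ℂ) (D.tEnd h) (D.wEnd h) = (D.targetXVal : ℂ) • 1 := by
  rw [tEnd, wEnd, ← map_iwahoriX]
  refine LinearMap.ext fun e => Subtype.ext ?_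
  rw [D.coe_placeAlg h]
  show (targetMu : ℂ)⁻¹ • D.placeOp w
    (iwahoriX (Ideal.absNorm D.u.asIdeal : ℂ) (iwTKer (D.map_loc'_of_above h))
      (iwWAt (D.map_loc'_of_above h))) e.1 = (D.targetXVal : ℂ) • e.1
  have h1 := (mem_jointSpace.1 e.2).2 (.aux ⟨w, h⟩)
  have hfam : D.auxX' w = KerFamily.single w (D.xKer' h) := dif_pos h
  rw [← D.absNorm_above h]
  show (targetMu : ℂ)⁻¹ • cuspOp D.quot' (fun _ => baseKer)
    ((KerFamily.single w (D.xKer' h)).toHKer D.isLocal') e.1 = _
  rw [← hfam]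
  refine (congrArg _ h1).trans ?_
  show (targetMu : ℂ)⁻¹ • ((targetMu *
    (Real.sqrt (Ideal.absNorm D.u.asIdeal) * (D.eig w).re) : ℝ) : ℂ) • e.1 = _
  rw [smul_smul, Complex.ofReal_mul, inv_mul_cancel_left₀
    (Complex.ofReal_ne_zero.2 targetMu_ne_zero), targetXVal, D.eig_above h]

theorem sq_targetXVal_ne : (D.targetXVal : ℂ) ^ 2 ≠ ((Ideal.absNorm D.u.asIdeal : ℂ) + 1) ^ 2 := by
  set q : ℕ := Ideal.absNorm D.u.asIdeal with hq
  have hq2 : 2 ≤ q := by
    have h0 : q ≠ 0 := fun h => D.u.ne_bot (Ideal.absNorm_eq_zero_iff.1 h)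
    have h1 : q ≠ 1 := fun h => D.u.isPrime.ne_top (Ideal.absNorm_eq_one_iff.1 h)
    omega
  have hw := D.isAbove_aboveOf D.u
  have hgood : D.aboveOf D.u ∉ D.bad' := fun hb =>
    D.u_not_bad ((D.mem_bad'_iff hw).1 hb)
  have he : |(D.eig (D.aboveOf D.u)).re| ≤ 2 :=
    (Complex.abs_re_le_norm _).trans (D.eig_le _ hgood)
  intro h
  have h' : D.targetXVal ^ 2 = ((q : ℝ) + 1) ^ 2 := by exact_mod_cast h
  rw [targetXVal, mul_pow, Real.sq_sqrt (Nat.cast_nonneg _), ← hq] at h'
  have h4 : (D.eig (D.aboveOf D.u)).re ^ 2 ≤ 4 := by nlinarith [abs_le.1 he]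
  have hq' : (2 : ℝ) ≤ q := by exact_mod_cast hq2
  nlinarith [mul_le_mul_of_nonneg_left h4 (by linarith : (0 : ℝ) ≤ q)]

/-- The ends at two different places commute. -/
theorem commute_placeAlg {w w' : HeightOneSpectrum (𝓞 K')} (h : IsAbove D.u w)
    (h' : IsAbove D.u w') (hne : w ≠ w') (l : Subalgebra.centralizer ℂ {D.xKer' h})
    (m : Subalgebra.centralizer ℂ {D.xKer' h'}) :
    Commute (D.placeAlg h l) (D.placeAlg h' m) := by
  refine LinearMap.ext fun e => Subtype.ext ?_
  have hc : Commute (D.placeOp w l.1) (D.placeOp w' m.1) :=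
    commute_singleOp_cuspOp D.isLocal' _ _ w l.1 (g := KerFamily.single w' m.1)
      (by rw [KerFamily.single_ker_ne hne]; exact Commute.one_left _)
  have h1 : D.placeOp w l.1 (D.placeOp w' m.1 e.1) = D.placeOp w' m.1 (D.placeOp w l.1 e.1) :=
    congrArg (fun f : cuspClasses D.quot' →L[ℂ] cuspClasses D.quot' => f e.1) hc.eq
  show (targetMu : ℂ)⁻¹ • D.placeOp w l.1 ((targetMu : ℂ)⁻¹ • D.placeOp w' m.1 e.1) =
    (targetMu : ℂ)⁻¹ • D.placeOp w' m.1 ((targetMu : ℂ)⁻¹ • D.placeOp w l.1 e.1)
  rw [map_smul, map_smul, h1]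

/-! ### The twist on the three places -/

/-- Two steps of the twist move a matrix read at `u` to the conjugate place. -/
theorem twist_mul_placeOp {w : HeightOneSpectrum (𝓞 K')} (h : IsAbove D.u w)
    {l : LKer PGL(2, w.adicCompletion K') (LocY D.lev'.loc w)}
    {l' : LKer PGL(2, (placePerm tw.σ.toRingEquiv
        (placePerm tw.σ.toRingEquiv w)).adicCompletion K')
      (LocY D.lev'.loc (placePerm tw.σ.toRingEquiv (placePerm tw.σ.toRingEquiv w)))}
    {f : LKer PGL(2, D.u.adicCompletion K) (LocY D.lev.loc D.u)}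
    (hl : LKer.Carries ((D.splitPlace_of_above h).locEquiv (D.isSplitLevel D.u_split)) f l)
    (hl' : LKer.Carries
      ((D.splitPlace_of_above h).next.next.locEquiv (D.isSplitLevel D.u_split)) f l') :
    D.twist * D.placeOp w l = D.placeOp (permTwice (tw := tw) w) l' * D.twist := by
  refine D.twist_mul_cuspOp _ fun y z => toHKer_single_yfAut_twice D.isLocal' tw.σ.toRingEquiv
    D.stable D.gen.order_three w l l' (fun a c => ?_) y z
  set P := D.splitPlace_of_above h
  have hL := D.isSplitLevel D.u_split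
  have hT : ∀ x : LocY D.lev.loc D.u, cosetTwistTwice tw.σ.toRingEquiv D.stable w
      (P.next.next.locEquiv hL x) = P.locEquiv hL x := fun x => by
    show cosetTwist _ D.stable w (cosetTwist _ D.stable _ (P.next.next.locEquiv hL x)) = _
    rw [SplitPlace.cosetTwist_locEquiv (P := P.next) (hL := hL),
      SplitPlace.cosetTwist_locEquiv (P := P) (hL := hL)]
  obtain ⟨a, rfl⟩ := (P.next.next.locEquiv hL).surjective a
  obtain ⟨c, rfl⟩ := (P.next.next.locEquiv hL).surjective c
  rw [hT, hT, hl, hl']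

theorem twist_mul_placeOp_t {w : HeightOneSpectrum (𝓞 K')} (h : IsAbove D.u w)
    (h' : IsAbove D.u (permTwice (tw := tw) w)) :
    D.twist * D.placeOp w (iwTKer (D.map_loc'_of_above h)) =
      D.placeOp (permTwice (tw := tw) w) (iwTKer (D.map_loc'_of_above h')) * D.twist :=
  D.twist_mul_placeOp h (carries_iwTKer _ _ D.map_loc_u _) (carries_iwTKer _ _ D.map_loc_u _)

theorem twist_mul_placeOp_w {w : HeightOneSpectrum (𝓞 K')} (h : IsAbove D.u w)
    (h' : IsAbove D.u (permTwice (tw := tw) w)) :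
    D.twist * D.placeOp w (iwWAt (D.map_loc'_of_above h)) =
      D.placeOp (permTwice (tw := tw) w) (iwWAt (D.map_loc'_of_above h')) * D.twist :=
  D.twist_mul_placeOp h (carries_iwWAt _ _ D.map_loc_u _) (carries_iwWAt _ _ D.map_loc_u _)

/-- The three places over `u`. -/
def uPlace (i : ZMod 3) : HeightOneSpectrum (𝓞 K') := (permTwice (tw := tw))^[i.val] (D.aboveOf D.u)

theorem isAbove_uPlace (i : ZMod 3) : IsAbove D.u (D.uPlace i) := by
  unfold uPlace
  induction i.val with
  | zero => exact D.isAbove_aboveOf D.u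
  | succ n ih => rw [Function.iterate_succ_apply']; exact isAbove_placePerm (isAbove_placePerm ih)

theorem uPlace_succ (i : ZMod 3) : D.uPlace (i + 1) = permTwice (tw := tw) (D.uPlace i) := by
  rcases (by decide : ∀ j : ZMod 3, j = 0 ∨ j = 1 ∨ j = 2) i with rfl | rfl | rfl
  · rfl
  · rfl
  · show D.aboveOf D.u = permTwice (tw := tw) (permTwice (tw := tw) (permTwice (tw := tw) _))
    simp only [permTwice, Places.placePerm_cube D.gen]

theorem exists_uPlace_eq {w : HeightOneSpectrum (𝓞 K')} (h : IsAbove D.u w) :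
    ∃ i, D.uPlace i = w := by
  rcases eq_or_eq_of_isAbove D.gen (D.isAbove_aboveOf D.u) h with rfl | rfl | rfl
  · exact ⟨0, rfl⟩
  · refine ⟨2, ?_⟩
    show permTwice (tw := tw) (permTwice (tw := tw) (D.aboveOf D.u)) = _
    simp only [permTwice, Places.placePerm_cube D.gen]
  · exact ⟨1, rfl⟩

theorem uPlace_injective : Function.Injective D.uPlace := by
  have hne := (D.splitPlace_of_above (D.isAbove_aboveOf D.u)).moved
  have hne2 := (D.splitPlace_of_above (D.isAbove_aboveOf D.u)).moved_twice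
  intro i j hij
  rcases (by decide : ∀ j : ZMod 3, j = 0 ∨ j = 1 ∨ j = 2) i with rfl | rfl | rfl <;>
    rcases (by decide : ∀ j : ZMod 3, j = 0 ∨ j = 1 ∨ j = 2) j with rfl | rfl | rfl
  all_goals first
    | rfl
    | (exfalso
       simp only [uPlace, ZMod.val_zero, ZMod.val_one, show (2 : ZMod 3).val = 2 from rfl,
         Function.iterate_zero_apply, Function.iterate_one,
         Function.iterate_succ_apply', permTwice, Places.placePerm_cube D.gen] at hij
       first
         | exact hne hij | exact hne hij.symm | exact hne2 hij | exact hne2 hij.symm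
         | exact hne (((placePerm tw.σ.toRingEquiv).injective hij))
         | exact hne (((placePerm tw.σ.toRingEquiv).injective hij).symm))

end GenData

end Fermat.Agent.Extra.LTGen

end
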