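/-
The two sides of the comparison: the atoms, the powers at `u` and a combination composed with a
pair at the bad places (and, upstairs, the twist) form the two class sides.
-/
import Fermat.Agent.LT.Descent.Comparison
import Fermat.Agent.LT.Descent.Sides
import Fermat.Agent.Extra.LTGen.Descent.TargetIwahori
import Fermat.Agent.LT.Descent.LocalSlice
import Fermat.Agent.LT.Descent.TwistForm
import Fermat.Agent.LT.Descent.KirillovModel

set_option autoImplicit false

noncomputable section

namespace Fermat.Agent.Extra.LTGen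

open Fermat.Agent.LT Fermat.Agent.LT.Descent

open IsDedekindDomain IsDedekindDomain.HeightOneSpectrum Matrix NumberField Filter Function
open Fermat.Agent.LT.Adelic Fermat.Agent.LT.Aleph Fermat.Agent.LT.Tame Fermat.Agent.LT.Spectral
open Fermat.Agent.LT.Descent.Places
open scoped MatrixGroups Polynomial

namespace GenData

variable {K : Type*} [Field K] [NumberField K] {K' : Type*} [Field K'] [NumberField K']
  [Algebra K K'] {Φ : Frame K Unit} {Φ' : Frame K' (Fin 3)} {tw : CubicTwist Φ Φ'}
  (D : GenData tw)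

/-! ### Families away from the bad places -/

/-- Downstairs: Hecke polynomials at good places, `1`, `X` or a power of `U` at `u`, else trivial. -/
structure IsAwayFam (k : KerFamily D.lev.loc) : Prop where
  good : ∀ v ∈ D.good, ∃ Q : ℂ[X], k.ker v = (goodPoly D.lev v Q).ker v
  aux : k.ker D.u = 1 ∨ k.ker D.u = D.xKer ∨ ∃ n, k.ker D.u = D.uKer n
  off : ∀ v ∉ D.good, v ≠ D.u → k.ker v = 1

/-- Upstairs, the same. -/
structure IsAwayFam' (k : KerFamily D.lev'.loc) : Prop where
  good : ∀ v ∈ D.good, ∀ w, IsAbove v w → ∃ Q : ℂ[X], k.ker w = (goodPoly D.lev' w Q).ker w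
  aux : ∀ w (h : IsAbove D.u w), k.ker w = 1 ∨ k.ker w = D.xKer' h ∨ ∃ n, k.ker w = D.uKer' h n
  off : ∀ v ∉ D.good, v ≠ D.u → ∀ w, IsAbove v w → k.ker w = 1

variable {D}

theorem IsAwayFam.comm {k l : KerFamily D.lev.loc} (hk : D.IsAwayFam k) (hl : D.IsAwayFam l) :
    k.comp l = l.comp k := KerFamily.ext' fun v => by
  show k.ker v * l.ker v = l.ker v * k.ker v
  by_cases hv : v ∈ D.good
  · obtain ⟨P, hP⟩ := hk.good v hv
    obtain ⟨R, hR⟩ := hl.good v hv
    rw [hP, hR]
    exact congrArg (fun f : KerFamily D.lev.loc => f.ker v) (goodPoly_comm D.lev v P R)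
  rcases eq_or_ne v D.u with rfl | hu
  · rcases hk.aux with e | e | ⟨n, e⟩ <;> rcases hl.aux with e' | e' | ⟨m, e'⟩ <;>
      rw [e, e'] <;>
      first
        | exact (Commute.one_left _).eq
        | exact (Commute.one_right _).eq
        | rfl
        | exact (D.commute_xKer_uKer _).eq
        | exact (D.commute_xKer_uKer _).eq.symm
        | exact (commute_iwUAt _ n m).eq
  · rw [hk.off v hv hu, one_mul, mul_one]

theorem IsAwayFam'.comm {k l : KerFamily D.lev'.loc} (hk : D.IsAwayFam' k) (hl : D.IsAwayFam' l) :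
    k.comp l = l.comp k := KerFamily.ext' fun w => by
  show k.ker w * l.ker w = l.ker w * k.ker w
  obtain ⟨v, hw⟩ := exists_below (K := K) w
  by_cases hv : v ∈ D.good
  · obtain ⟨P, hP⟩ := hk.good v hv w hw
    obtain ⟨R, hR⟩ := hl.good v hv w hw
    rw [hP, hR]
    exact congrArg (fun f : KerFamily D.lev'.loc => f.ker w) (goodPoly_comm D.lev' w P R)
  rcases eq_or_ne v D.u with rfl | hu
  · rcases hk.aux w hw with e | e | ⟨n, e⟩ <;> rcases hl.aux w hw with e' | e' | ⟨m, e'⟩ <;>
      rw [e, e'] <;>
      first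
        | exact (Commute.one_left _).eq
        | exact (Commute.one_right _).eq
        | rfl
        | exact (D.commute_xKer'_uKer' hw _).eq
        | exact (D.commute_xKer'_uKer' hw _).eq.symm
        | exact (commute_iwUAt _ n m).eq
  · rw [hk.off v hv hu w hw, one_mul, mul_one]

theorem IsAwayFam.comm_bad {k : KerFamily D.lev.loc} (hk : D.IsAwayFam k)
    {k₃ : KerFamily D.lev.loc} {k₃' : KerFamily D.lev'.loc} (h3 : D.IsBadPart k₃ k₃') :
    k₃.comp k = k.comp k₃ := KerFamily.ext' fun v => by
  show k₃.ker v * k.ker v = k.ker v * k₃.ker v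
  by_cases hv : v ∈ D.bad
  · rw [hk.off v (fun h => h.1 hv) (fun e => D.u_not_bad (e ▸ hv)), one_mul, mul_one]
  · rw [h3.off v hv, one_mul, mul_one]

theorem IsAwayFam'.comm_bad {k : KerFamily D.lev'.loc} (hk : D.IsAwayFam' k)
    {k₃ : KerFamily D.lev.loc} {k₃' : KerFamily D.lev'.loc} (h3 : D.IsBadPart k₃ k₃') :
    k₃'.comp k = k.comp k₃' := KerFamily.ext' fun w => by
  show k₃'.ker w * k.ker w = k.ker w * k₃'.ker w
  obtain ⟨v, hw⟩ := exists_below (K := K) w
  by_cases hv : v ∈ D.bad
  · rw [hk.off v (fun h => h.1 hv) (fun e => D.u_not_bad (e ▸ hv)) w hw, one_mul, mul_one]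
  · rw [h3.off' w fun h => hv ((D.mem_bad'_iff hw).1 h), one_mul, mul_one]

theorem u_notMem_good : D.u ∉ D.good := fun h => h.2 rfl

theorem TestPair.IsPlain.awayFam {t : D.TestPair} (ht : t.IsPlain) : D.IsAwayFam t.fam where
  good v hv := by
    obtain ⟨Q, R, h, -⟩ := ht.good.on v hv
    exact ⟨Q, h⟩
  aux := Or.inl (ht.good.off D.u u_notMem_good).1
  off v hv _ := (ht.good.off v hv).1

theorem TestPair.IsPlain.awayFam' {t : D.TestPair} (ht : t.IsPlain) : D.IsAwayFam' t.fam' where
  good v hv w hw := by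
    obtain ⟨Q, R, -, h, -⟩ := ht.good.on v hv
    exact ⟨R w, h w hw⟩
  aux w hw := Or.inl ((ht.good.off D.u u_notMem_good).2 w hw)
  off v hv _ := (ht.good.off v hv).2

variable (D)

theorem awayFam_upow (n : ℕ) : D.IsAwayFam (D.upow n).fam where
  good v hv := ⟨1, by rw [goodPoly_one]; exact D.auxU_ker_ne n hv.2⟩
  aux := Or.inr (Or.inr ⟨3 * n, D.auxU_ker_u n⟩)
  off _ _ hu := D.auxU_ker_ne n hu

theorem awayFam'_upow (n : ℕ) : D.IsAwayFam' (D.upow n).fam' where
  good v hv w hw := ⟨1, by
    rw [goodPoly_one]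
    exact D.auxU'_ker_of_not_above n fun h => hv.2 (isAbove_unique hw h)⟩
  aux w hw := Or.inr (Or.inr ⟨n, D.auxU'_ker_above n hw⟩)
  off _ _ hu w hw := D.auxU'_ker_of_not_above n fun h => hu (isAbove_unique hw h)

theorem awayFam_atom : ∀ j : D.AtomIdx, D.IsAwayFam (D.atom j).fam
  | .base => isPlain_base.awayFam
  | .good v => (isPlain_withFam (D := D) v.2).awayFam
  | .arch k => (isPlain_archAtom (D := D) 0 k).awayFam
  | .aux =>
    { good := fun v hv => ⟨1, by rw [goodPoly_one]; exact D.auxX_ker_ne hv.2⟩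
      aux := Or.inr (Or.inl D.auxX_ker_u)
      off := fun _ _ hu => D.auxX_ker_ne hu }

theorem awayFam'_atom : ∀ j : D.AtomIdx', D.IsAwayFam' (D.atomFam' j)
  | .base => isPlain_base.awayFam'
  | .arch _ _ => isPlain_base.awayFam'
  | .good ⟨w₀, hw₀⟩ =>
    { good := fun v _ w hw => by
        rcases eq_or_ne w w₀ with rfl | hne
        · exact ⟨_, rfl⟩
        · exact ⟨1, by rw [goodPoly_one]; exact goodPoly_ker_ne D.lev' hne _⟩
      aux := fun w hw => Or.inl (goodPoly_ker_ne D.lev' (fun e => by
        obtain ⟨v, hv, hvw⟩ := hw₀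
        exact hv.2 (isAbove_unique (e ▸ hvw) hw)) _)
      off := fun v hv _ w hw => goodPoly_ker_ne D.lev' (fun e => by
        obtain ⟨v', hv', hvw⟩ := hw₀
        have e' : w = w₀ := e
        subst e'
        exact hv (isAbove_unique hw hvw ▸ hv')) _ }
  | .aux ⟨w₀, hw₀⟩ =>
    { good := fun v hv w hw => ⟨1, by
        rw [goodPoly_one]
        exact D.auxX'_ker_of_not_above fun h => hv.2 (isAbove_unique hw h)⟩
      aux := fun w hw => by
        rcases eq_or_ne w w₀ with rfl | hne
        · exact Or.inr (Or.inl (D.auxX'_ker_self hw))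
        · exact Or.inl (D.auxX'_ker_ne hne)
      off := fun v _ hu w hw =>
        D.auxX'_ker_of_not_above fun h => hu (isAbove_unique hw h) }

/-! ### Commutations -/

theorem commute_atom_op (i j : D.AtomIdx) : Commute (D.atom i).op (D.atom j).op :=
  TestPair.commute_op _ _ ((D.awayFam_atom i).comm (D.awayFam_atom j))

theorem commute_upow_atom (n : ℕ) (j : D.AtomIdx) : Commute (D.upow n).op (D.atom j).op :=
  TestPair.commute_op _ _ ((D.awayFam_upow n).comm (D.awayFam_atom j))

theorem commute_upow_base (n : ℕ) : Commute (D.upow n).op D.basePair.op :=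
  TestPair.commute_op _ _ ((D.awayFam_upow n).comm isPlain_base.awayFam)

theorem commute_upow_base' (n : ℕ) : Commute (D.upow n).op' D.basePair.op' :=
  TestPair.commute_op' _ _ ((D.awayFam'_upow n).comm isPlain_base.awayFam')

theorem commute_atomOp' (i j : D.AtomIdx') : Commute (D.atomOp' i) (D.atomOp' j) :=
  cuspOp_commute _ _ fun y z => by
    rw [← KerFamily.toHKer_comp, ← KerFamily.toHKer_comp,
      (D.awayFam'_atom i).comm (D.awayFam'_atom j)]

theorem commute_op'_atomOp' {t : D.TestPair} (j : D.AtomIdx')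
    (h : t.fam'.comp (D.atomFam' j) = (D.atomFam' j).comp t.fam') :
    Commute t.op' (D.atomOp' j) :=
  cuspOp_commute _ _ fun y z => by
    rw [TestPair.ker', ← KerFamily.toHKer_comp, ← KerFamily.toHKer_comp, h]

theorem commute_upow_atom' (n : ℕ) (j : D.AtomIdx') : Commute (D.upow n).op' (D.atomOp' j) :=
  D.commute_op'_atomOp' j ((D.awayFam'_upow n).comm (D.awayFam'_atom j))

theorem commute_withFam_base (k : KerFamily D.lev.loc) (k' : KerFamily D.lev'.loc) :
    Commute (D.withFam k k').op D.basePair.op ∧ Commute (D.withFam k k').op' D.basePair.op' := by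
  constructor
  · exact TestPair.commute_op _ _ (KerFamily.ext' fun v => mul_one (k.ker v) |>.trans (one_mul _).symm)
  · exact TestPair.commute_op' _ _ (KerFamily.ext' fun v => mul_one (k'.ker v) |>.trans (one_mul _).symm)

/-- A combination of plain pairs commutes with away families downstairs. -/
theorem commute_sumOp {l : List (ℂ × D.TestPair)} (hl : ∀ p ∈ l, p.2.IsPlain) (s : D.TestPair)
    (hs : D.IsAwayFam s.fam) : Commute (D.sumOp l) s.op :=
  commute_listSum l TestPair.op _ fun p hp => TestPair.commute_op _ _ ((hl p hp).awayFam.comm hs)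

/-- The same upstairs. -/
theorem commute_sumOp' {l : List (ℂ × D.TestPair)} (hl : ∀ p ∈ l, p.2.IsPlain) (s : D.TestPair)
    (hs : D.IsAwayFam' s.fam') : Commute (D.sumOp' l) s.op' :=
  commute_listSum l TestPair.op' _ fun p hp =>
    TestPair.commute_op' _ _ ((hl p hp).awayFam'.comm hs)

theorem commute_sumOp'_atomOp' {l : List (ℂ × D.TestPair)} (hl : ∀ p ∈ l, p.2.IsPlain)
    (j : D.AtomIdx') : Commute (D.sumOp' l) (D.atomOp' j) :=
  commute_listSum l TestPair.op' _ fun p hp =>
    D.commute_op'_atomOp' j ((hl p hp).awayFam'.comm (D.awayFam'_atom j))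

/-- **A combination of plain pairs commutes with the shared atoms and the powers at `u`.** -/
theorem sumOp_commute {l : List (ℂ × D.TestPair)} (hl : ∀ p ∈ l, p.2.IsPlain) :
    (∀ j, Commute (D.sumOp l) (D.atom j).op) ∧ (∀ n, Commute (D.sumOp l) (D.upow n).op) ∧
      (∀ j, Commute (D.sumOp' l) (D.atom j).op') ∧
        ∀ n, Commute (D.sumOp' l) (D.upow n).op' :=
  ⟨fun j => D.commute_sumOp hl _ (D.awayFam_atom j),
    fun n => D.commute_sumOp hl _ (D.awayFam_upow n),
    fun j => D.atomOp'_idxUp j ▸ D.commute_sumOp'_atomOp' hl (D.idxUp j),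
    fun n => D.commute_sumOp' hl _ (D.awayFam'_upow n)⟩

/-! ### Self-adjointness -/

theorem isSelfAdjoint_atom : ∀ j : D.AtomIdx, IsSelfAdjoint (D.atom j).op
  | .base => D.isSelfAdjoint_op_base
  | .good v => TestPair.isSelfAdjoint_op (D.withFam _ _)
      (by simp only [withFam, conjKer_comp3, conjKer_baseKer]) (D.goodAtom_transpose v)
      fun _ => D.goodAtom_real v _
  | .aux => TestPair.isSelfAdjoint_op (D.withFam _ _)
      (by simp only [withFam, conjKer_comp3, conjKer_baseKer]) D.transpose_auxX fun x a c => by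
        rw [← Complex.conj_eq_iff_im]
        show _ = (D.auxX.ker x) a c
        rcases eq_or_ne x D.u with rfl | hx
        · simp only [withFam, D.auxX_ker_u]; exact D.isReal_xKer a c
        · simp only [withFam, D.auxX_ker_ne hx]; exact LKer.isReal_one a c
  | .arch k => TestPair.isSelfAdjoint_op (D.archAtom 0 k)
      (by simp only [archAtom, conjKer_comp_eq, conjKer_baseKer, RealProfile.conjKer_toKer])
      (KerFamily.ext' fun _ => LKer.transpose_one)
      fun _ a c => Complex.conj_eq_iff_im.1 (LKer.isReal_one a c)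

theorem isSelfAdjoint_atomOp' (j : D.AtomIdx') : IsSelfAdjoint (D.atomOp' j) := by
  refine isSelfAdjoint_cuspOp (fun i p q => congrArg (fun k : PPKer => k p q)
    (show (D.atomArch' j i).conjKer = D.atomArch' j i from ?_)) fun y z => ?_
  · cases j with
    | arch i' k => exact conjKer_baseAt_comp i' k i
    | base => exact conjKer_baseKer
    | good w => exact conjKer_baseKer
    | aux w => exact conjKer_baseKer
  · have hr : ∀ v a c, ((D.atomFam' j).ker v a c).im = 0 := fun v a c => by
      cases j with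
      | arch i' k => exact Complex.conj_eq_iff_im.1 (LKer.isReal_one a c)
      | base => exact Complex.conj_eq_iff_im.1 (LKer.isReal_one a c)
      | good w => exact D.goodT'_real w v a c
      | aux w =>
        refine Complex.conj_eq_iff_im.1 ?_
        show starRingEnd ℂ ((D.auxX' w.1).ker v a c) = (D.auxX' w.1).ker v a c
        rcases eq_or_ne v w.1 with rfl | hv
        · rw [D.auxX'_ker_self w.2]; exact D.isReal_xKer' w.2 a c
        · rw [D.auxX'_ker_ne hv]; exact LKer.isReal_one a c
    have ht : (D.atomFam' j).transpose = D.atomFam' j := by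
      cases j with
      | arch i' k => exact KerFamily.ext' fun _ => LKer.transpose_one
      | base => exact KerFamily.ext' fun _ => LKer.transpose_one
      | good w => exact D.goodT'_transpose w
      | aux w => exact D.transpose_auxX' w
    rw [KerFamily.adj_toHKer D.isLocal' hr, ht]

/-! ### The twist -/

theorem apply_cosetTwistTwice_of_carries {w : HeightOneSpectrum (𝓞 K')} (h : IsAbove D.u w)
    {l : LKer PGL(2, w.adicCompletion K') (LocY D.lev'.loc w)}
    {l' : LKer PGL(2, (placePerm tw.σ.toRingEquiv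
        (placePerm tw.σ.toRingEquiv w)).adicCompletion K')
      (LocY D.lev'.loc (placePerm tw.σ.toRingEquiv (placePerm tw.σ.toRingEquiv w)))}
    {f : LKer PGL(2, D.u.adicCompletion K) (LocY D.lev.loc D.u)}
    (hl : LKer.Carries ((D.splitPlace_of_above h).locEquiv (D.isSplitLevel D.u_split)) f l)
    (hl' : LKer.Carries
      ((D.splitPlace_of_above h).next.next.locEquiv (D.isSplitLevel D.u_split)) f l')
    (a c : LocY D.lev'.loc (placePerm tw.σ.toRingEquiv (placePerm tw.σ.toRingEquiv w))) :
    l (cosetTwistTwice tw.σ.toRingEquiv D.stable w a)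
      (cosetTwistTwice tw.σ.toRingEquiv D.stable w c) = l' a c := by
  set P := D.splitPlace_of_above h
  have hL := D.isSplitLevel D.u_split
  have hT : ∀ x : LocY D.lev.loc D.u, cosetTwistTwice tw.σ.toRingEquiv D.stable w
      (P.next.next.locEquiv hL x) = P.locEquiv hL x := fun x => by
    show cosetTwist _ D.stable w (cosetTwist _ D.stable _ (P.next.next.locEquiv hL x)) = _
    rw [SplitPlace.cosetTwist_locEquiv (P := P.next) (hL := hL),
      SplitPlace.cosetTwist_locEquiv (P := P) (hL := hL)]
  obtain ⟨a, rfl⟩ := (P.next.next.locEquiv hL).surjective a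
  obtain ⟨c, rfl⟩ := (P.next.next.locEquiv hL).surjective c
  rw [hT, hT, hl, hl']

theorem auxU'_twice (n : ℕ) (w : HeightOneSpectrum (𝓞 K'))
    (a c : LocY D.lev'.loc (placePerm tw.σ.toRingEquiv (placePerm tw.σ.toRingEquiv w))) :
    (D.auxU' n).ker w (cosetTwistTwice tw.σ.toRingEquiv D.stable w a)
        (cosetTwistTwice tw.σ.toRingEquiv D.stable w c) =
      (D.auxU' n).ker (placePerm tw.σ.toRingEquiv (placePerm tw.σ.toRingEquiv w)) a c := by
  by_cases h : IsAbove D.u w
  · have h' : IsAbove D.u (placePerm tw.σ.toRingEquiv (placePerm tw.σ.toRingEquiv w)) :=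
      isAbove_placePerm (isAbove_placePerm h)
    rw [D.auxU'_ker_above n h, D.auxU'_ker_above n h']
    exact D.apply_cosetTwistTwice_of_carries h (carries_iwUAt _ _ D.map_loc_u _ n)
      (carries_iwUAt _ _ D.map_loc_u _ n) a c
  · have h' : ¬IsAbove D.u (placePerm tw.σ.toRingEquiv (placePerm tw.σ.toRingEquiv w)) := fun h' =>
      h (by simpa only [Places.placePerm_cube D.gen] using isAbove_placePerm (σ := tw.σ) h')
    rw [D.auxU'_ker_of_not_above n h, D.auxU'_ker_of_not_above n h']
    by_cases e : a = c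
    · subst e; rw [LKer.one_def, LKer.one_def, LKer.one_apply_self, LKer.one_apply_self]
    · rw [LKer.one_def, LKer.one_def, LKer.one_apply_ne e, LKer.one_apply_ne
        ((cosetTwistTwice_injective D.isLocal' _ D.stable D.gen.order_three w).ne e)]

/-- **The twist commutes with the powers at `u`.** -/
theorem commute_twist_upow (n : ℕ) : Commute D.twist (D.upow n).op' :=
  D.twist_mul_cuspOp (fun _ => baseKer) fun y z =>
    toHKer_family_yfAut_twice D.isLocal' tw.σ.toRingEquiv D.stable (D.auxU' n) (D.auxU' n)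
      (D.auxU'_twice n) y z

theorem goodT'_twice {v : HeightOneSpectrum (𝓞 K)} (hv : v ∈ D.good)
    {w : HeightOneSpectrum (𝓞 K')} (hw : IsAbove v w) (y z : Yf (productLevel D.lev'.loc)) :
    (D.goodT' (permTwice (tw := tw) w)).toHKer D.isLocal' y z =
      (D.goodT' w).toHKer D.isLocal' (D.sigmaY (D.sigmaY y)) (D.sigmaY (D.sigmaY z)) := by
  classical
  set τ := tw.σ.toRingEquiv
  obtain ⟨ϖ, hϖ⟩ := exists_uniformiser (permTwice (tw := tw) w)
  set ϖ₁ := Units.map (adeleAut τ).toMonoidHom ϖ
  set ϖ₂ := Units.map (adeleAut τ).toMonoidHom ϖ₁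
  have h1 : IsUniformiserAt (placePerm τ w) ϖ₁ := isUniformiserAt_map (tw := tw) rfl hϖ
  have h2 : IsUniformiserAt w ϖ₂ := isUniformiserAt_map (tw := tw) rfl h1
  have hmap : ∀ x : (FiniteAdeleRing (𝓞 K') K')ˣ, gfAut τ (heckeMatrix K' x) =
      heckeMatrix K' (Units.map (adeleAut τ).toMonoidHom x) := fun x =>
    Units.ext (Matrix.ext fun i j => by
      fin_cases i <;> fin_cases j <;> (simp [heckeMatrix, gfAut, gfHom, adeleAut]; try rfl))
  have hN : Ideal.absNorm (permTwice (tw := tw) w).asIdeal = Ideal.absNorm w.asIdeal := by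
    rcases D.isInert_or_isSplit hv.1 with hi | hs
    · rw [hi.unique D.gen hw (show IsAbove v (permTwice (tw := tw) w) from
        isAbove_placePerm (isAbove_placePerm hw))]
    · rw [hs.absNorm D.gen hw, hs.absNorm D.gen (w := permTwice (tw := tw) w)
        (isAbove_placePerm (isAbove_placePerm hw))]
  rw [D.goodT'_toHKer (w := permTwice (tw := tw) w) hv
      (isAbove_placePerm (isAbove_placePerm hw)) hϖ, D.goodT'_toHKer hv hw h2, hN]
  show _ * (if z ∈ nbrs _ y then (1 : ℂ) else 0) = _ * if _ ∈ nbrs _ _ then (1 : ℂ) else 0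
  refine congrArg _ (if_congr ?_ rfl rfl)
  rw [← hmap ϖ₁, ← hmap ϖ]
  exact ((mem_nbrs_yfAut (U := productLevel D.lev'.loc) τ D.gen.order_three
      (isStableLevel_productLevel _ D.stable)).trans
    (mem_nbrs_yfAut (U := productLevel D.lev'.loc) τ D.gen.order_three
      (isStableLevel_productLevel _ D.stable))).symm

/-- **The twist permutes the atoms.** -/
theorem twist_mul_atomOp' (j : D.AtomIdx') :
    D.twist * D.atomOp' j = D.atomOp' (D.atomPerm j) * D.twist := by
  have hid : ∀ y z : Yf (productLevel D.lev'.loc),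
      (KerFamily.one D.lev'.loc).toHKer D.isLocal' y z = (KerFamily.one D.lev'.loc).toHKer D.isLocal'
        (D.sigmaY (D.sigmaY y)) (D.sigmaY (D.sigmaY z)) := fun y z => by
    classical
    rw [KerFamily.toHKer_one]
    exact if_congr (D.bijective_sigmaY.1.comp D.bijective_sigmaY.1).eq_iff.symm rfl rfl
  cases j with
  | base => exact D.twist_mul_cuspOp _ hid
  | arch i k =>
    refine (D.twist_mul_cuspOp (baseAt i (PPKer.comp k.toKer baseKer)) hid).trans ?_
    have e : (fun m => baseAt i (PPKer.comp k.toKer baseKer) (m + 1)) =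
        baseAt (i - 1) (PPKer.comp k.toKer baseKer) := funext fun m => by
      rcases eq_or_ne m (i - 1) with rfl | hm
      · rw [sub_add_cancel, baseAt, baseAt, Function.update_self, Function.update_self]
      · rw [baseAt, baseAt, Function.update_of_ne hm,
          Function.update_of_ne fun h => hm (eq_sub_of_add_eq h)]
    rw [e]
    rfl
  | good w =>
    obtain ⟨v, hv, hw⟩ := w.2
    exact D.twist_mul_cuspOp _ (D.goodT'_twice hv hw)
  | aux w =>
    have h' : IsAbove D.u (permTwice (tw := tw) w.1) := isAbove_placePerm (isAbove_placePerm w.2)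
    have e : D.auxX' w.1 = KerFamily.single w.1 (D.xKer' w.2) := dif_pos w.2
    have e' : D.auxX' (permTwice (tw := tw) w.1) =
        KerFamily.single (permTwice (tw := tw) w.1) (D.xKer' h') := dif_pos h'
    show D.twist * cuspOp D.quot' (fun _ => baseKer) ((D.auxX' w.1).toHKer D.isLocal') =
      cuspOp D.quot' (fun _ => baseKer) ((D.auxX' (permTwice (tw := tw) w.1)).toHKer D.isLocal') *
        D.twist
    rw [e, e']
    exact D.twist_mul_placeOp w.2 (carries_iwXAt _ _ D.map_loc_u _ (D.absNorm_above w.2))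
      (carries_iwXAt _ _ D.map_loc_u _ (D.absNorm_above h'))

/-! ### The powers at `u` -/

theorem upow_zero : D.upow 0 = D.basePair := by
  have h1 : D.auxU 0 = KerFamily.one D.lev.loc := KerFamily.ext' fun v => by
    rcases eq_or_ne v D.u with rfl | hv
    · rw [D.auxU_ker_u, mul_zero, D.uKer_zero]; rfl
    · rw [D.auxU_ker_ne 0 hv]; rfl
  have h2 : D.auxU' 0 = KerFamily.one D.lev'.loc := KerFamily.ext' fun w => by
    by_cases hw : IsAbove D.u w
    · rw [D.auxU'_ker_above 0 hw, D.uKer'_zero]; rfl
    · rw [D.auxU'_ker_of_not_above 0 hw]; rfl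
  rw [upow, h1, h2, base_eq_withFam]

theorem upow_comp_one (n : ℕ) :
    (D.upow n).comp (D.upow 1) = (D.upow (n + 1)).comp D.basePair := by
  have h1 : (D.auxU n).comp (D.auxU 1) = (D.auxU (n + 1)).comp (KerFamily.one _) := by
    rw [D.auxU_comp_auxU]
    exact KerFamily.ext' fun v => (mul_one _).symm
  have h2 : (D.auxU' n).comp (D.auxU' 1) = (D.auxU' (n + 1)).comp (KerFamily.one _) := by
    rw [D.auxU'_comp_auxU']
    exact KerFamily.ext' fun v => (mul_one _).symm
  simp only [upow, base_eq_withFam, withFam, TestPair.comp, h1, h2]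

/-! ### The two sides -/

/-- **The side downstairs.** -/
def sideDown (l : List (ℂ × D.TestPair)) (hl : ∀ p ∈ l, p.2.IsPlain) (k : KerFamily D.lev.loc)
    (k' : KerFamily D.lev'.loc) (h3 : D.IsBadPart k k') :
    ClassSide D.AtomIdx (cuspClasses D.quot) where
  P := D.basePair.op
  T j := (D.atom j).op
  R n := (D.upow n).op
  B := D.sumOp l * (D.withFam k k').op
  π := Equiv.refl _
  compact := D.isCompactOperator_op_base
  adjP := D.isSelfAdjoint_op_base
  adjT := D.isSelfAdjoint_atom
  commT := D.commute_atom_op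
  commTP j := D.commute_atom_op j .base
  hilbertSchmidt := D.exists_summable_op_base
  R_zero := by rw [upow_zero]
  R_succ n := by rw [← TestPair.op_comp, ← TestPair.op_comp, upow_comp_one]
  R_P := D.commute_upow_base
  R_T n j := D.commute_upow_atom n j
  R_B := ((D.sumOp_commute hl).2.1 1).symm.mul_right
    (TestPair.commute_op (D.withFam k k') _ ((D.awayFam_upow 1).comm_bad h3)).symm
  B_P := ((D.sumOp_commute hl).1 .base).mul_left (D.commute_withFam_base k k').1
  B_T j := (((D.sumOp_commute hl).1 j).mul_left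
    (TestPair.commute_op (D.withFam k k') _ ((D.awayFam_atom j).comm_bad h3))).eq

/-- **The side upstairs.** -/
def sideUp (l : List (ℂ × D.TestPair)) (hl : ∀ p ∈ l, p.2.IsPlain) (k : KerFamily D.lev.loc)
    (k' : KerFamily D.lev'.loc) (h3 : D.IsBadPart k k') :
    ClassSide D.AtomIdx' (cuspClasses D.quot') where
  P := D.basePair.op'
  T := D.atomOp'
  R n := (D.upow n).op'
  B := D.sumOp' l * (D.withFam k k').op' * D.twist
  π := D.atomPerm
  compact := D.isCompactOperator_op'_base
  adjP := D.isSelfAdjoint_op'_base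
  adjT := D.isSelfAdjoint_atomOp'
  commT := D.commute_atomOp'
  commTP j := (D.commute_op'_atomOp' (t := D.basePair) j
    (isPlain_base.awayFam'.comm (D.awayFam'_atom j))).symm
  hilbertSchmidt := D.exists_summable_op'_base
  R_zero := by rw [upow_zero]
  R_succ n := by rw [← TestPair.op'_comp, ← TestPair.op'_comp, upow_comp_one]
  R_P := D.commute_upow_base'
  R_T := D.commute_upow_atom'
  R_B := (((D.sumOp_commute hl).2.2.2 1).symm.mul_right
    (TestPair.commute_op' (D.withFam k k') _ ((D.awayFam'_upow 1).comm_bad h3)).symm).mul_right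
      (D.commute_twist_upow 1).symm
  B_P := (((D.sumOp_commute hl).2.2.1 .base).mul_left
    (D.commute_withFam_base k k').2).mul_left D.commute_twist_base
  B_T j := by
    have h1 : Commute (D.sumOp' l * (D.withFam k k').op') (D.atomOp' (D.atomPerm j)) :=
      (D.commute_sumOp'_atomOp' hl _).mul_left
        (D.commute_op'_atomOp' (t := D.withFam k k') _ ((D.awayFam'_atom _).comm_bad h3))
    rw [mul_assoc _ D.twist, D.twist_mul_atomOp' j, ← mul_assoc, h1.eq, mul_assoc]

end GenData

end Fermat.Agent.Extra.LTGen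

end
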