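import Fermat.Agent.Extra.LTGen.Descent.Atoms
import Fermat.Agent.LT.Descent.Spectrum

/-!
# The spectral constraint at the auxiliary place

On a joint eigenspace of the base operator and of `X` the operators of `U` at the places over the
auxiliary place, divided by the eigenvalue, satisfy `U² - xU + q = 0` with a bounded real `x`.
Hence the eigenvalues of `U³`, and of the product of the three operators, are spectral points.
-/

set_option autoImplicit false

noncomputable section

namespace Fermat.Agent.Extra.LTGen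

open Fermat.Agent.LT Fermat.Agent.LT.Descent

open Fermat.Agent.LT.Adelic Fermat.Agent.LT.Tame Fermat.Agent.LT.Spectral
open Fermat.Agent.LT.Descent.Places
open MeasureTheory NumberField IsDedekindDomain Matrix
open scoped MatrixGroups InnerProductSpace

variable {K : Type*} [Field K] [NumberField K] {K' : Type*} [Field K'] [NumberField K']
  [Algebra K K'] {Φ : Frame K Unit} {Φ' : Frame K' (Fin 3)} {tw : CubicTwist Φ Φ'}

namespace GenData

variable (D : GenData tw)

/-- Base kernels with a given finite part downstairs. -/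
def specFamOp (k : KerFamily D.lev.loc) : cuspClasses D.quot →L[ℂ] cuspClasses D.quot :=
  (D.withFam k (KerFamily.one _)).op

/-- Base kernels with a given finite part upstairs. -/
def specFamOp' (k : KerFamily D.lev'.loc) : cuspClasses D.quot' →L[ℂ] cuspClasses D.quot' :=
  (D.withFam (KerFamily.one _) k).op'

theorem specFamOp_mul (k l : KerFamily D.lev.loc) :
    D.specFamOp k * D.specFamOp l = cuspOp D.quot
      (fun _ => PPKer.comp (comp3 fun _ => baseKer) (comp3 fun _ => baseKer))
      ((k.comp l).toHKer D.isLocal) := by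
  rw [specFamOp, specFamOp, ← TestPair.op_comp]; rfl

theorem specFamOp'_mul (k l : KerFamily D.lev'.loc) :
    D.specFamOp' k * D.specFamOp' l = cuspOp D.quot' (fun _ => PPKer.comp baseKer baseKer)
      ((k.comp l).toHKer D.isLocal') := by
  rw [specFamOp', specFamOp', ← TestPair.op'_comp]; rfl

theorem commute_famOp {k l : KerFamily D.lev.loc} (h : k.comp l = l.comp k) :
    Commute (D.specFamOp k) (D.specFamOp l) := TestPair.commute_op _ _ h

theorem commute_famOp' {k l : KerFamily D.lev'.loc} (h : k.comp l = l.comp k) :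
    Commute (D.specFamOp' k) (D.specFamOp' l) := TestPair.commute_op' _ _ h

theorem specFamOp_mul3 (a b c : KerFamily D.lev.loc) (a' b' c' : KerFamily D.lev.loc)
    (h : (a.comp b).comp c = (a'.comp b').comp c') :
    D.specFamOp a * D.specFamOp b * D.specFamOp c = D.specFamOp a' * D.specFamOp b' * D.specFamOp c' := by
  simp only [specFamOp, ← TestPair.op_comp]
  exact cuspOp_congr (fun _ _ _ => rfl) fun y z => by
    show ((a.comp b).comp c).toHKer D.isLocal y z = ((a'.comp b').comp c').toHKer D.isLocal y z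
    rw [h]

theorem specFamOp'_mul3 (a b c : KerFamily D.lev'.loc) (a' b' c' : KerFamily D.lev'.loc)
    (h : (a.comp b).comp c = (a'.comp b').comp c') :
    D.specFamOp' a * D.specFamOp' b * D.specFamOp' c = D.specFamOp' a' * D.specFamOp' b' * D.specFamOp' c' := by
  simp only [specFamOp', ← TestPair.op'_comp]
  exact cuspOp_congr (fun _ _ _ => rfl) fun y z => by
    show ((a.comp b).comp c).toHKer D.isLocal' y z = ((a'.comp b').comp c').toHKer D.isLocal' y z
    rw [h]

/-- `X U = U² + q P²` downstairs. -/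
theorem specFamOp_relation :
    D.specFamOp D.auxX * D.specFamOp (KerFamily.single D.u (D.uKer 1))
      = D.specFamOp (KerFamily.single D.u (D.uKer 1)) * D.specFamOp (KerFamily.single D.u (D.uKer 1))
        + (((Ideal.absNorm D.u.asIdeal : ℝ) : ℂ)) • (D.specFamOp (KerFamily.one _) *
          D.specFamOp (KerFamily.one _)) := by
  rw [specFamOp_mul, specFamOp_mul, specFamOp_mul, Complex.ofReal_natCast]
  refine cuspOp_relation D.isLocal _ (iwXAt_mul_iwUAt_one D.map_loc_u) ?_ ?_
    (KerFamily.comp_one' _)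
  · rw [auxX, KerFamily.single_comp_single_same]; rfl
  · rw [KerFamily.single_comp_single_same]
    exact congrArg (KerFamily.single D.u) (D.uKer_mul 1 1)

/-- `X U = U² + q P²` at a place over `u`. -/
theorem specFamOp'_relation {w : HeightOneSpectrum (𝓞 K')} (hw : IsAbove D.u w) :
    D.specFamOp' (D.auxX' w) * D.specFamOp' (KerFamily.single w (D.uKer' hw 1))
      = D.specFamOp' (KerFamily.single w (D.uKer' hw 1)) * D.specFamOp' (KerFamily.single w (D.uKer' hw 1))
        + (((Ideal.absNorm D.u.asIdeal : ℝ) : ℂ)) • (D.specFamOp' (KerFamily.one _) *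
          D.specFamOp' (KerFamily.one _)) := by
  rw [specFamOp'_mul, specFamOp'_mul, specFamOp'_mul, Complex.ofReal_natCast, ← D.absNorm_above hw]
  refine cuspOp_relation D.isLocal' _ (iwXAt_mul_iwUAt_one (D.map_loc'_of_above hw)) ?_ ?_
    (KerFamily.comp_one' _)
  · rw [auxX', dif_pos hw, KerFamily.single_comp_single_same]; rfl
  · rw [KerFamily.single_comp_single_same]
    exact congrArg (KerFamily.single w) (D.uKer'_mul hw 1 1)

theorem auxX_comp_single :
    D.auxX.comp (KerFamily.single D.u (D.uKer 1))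
      = (KerFamily.single D.u (D.uKer 1)).comp D.auxX := by
  rw [auxX, KerFamily.single_comp_single_same, KerFamily.single_comp_single_same]
  exact congrArg (KerFamily.single D.u) (D.commute_xKer_uKer 1).eq

theorem aux_comp_single' {w x : HeightOneSpectrum (𝓞 K')} (hw : IsAbove D.u w)
    (hx : IsAbove D.u x) :
    (KerFamily.single w (D.uKer' hw 1)).comp (D.auxX' x)
      = (D.auxX' x).comp (KerFamily.single w (D.uKer' hw 1)) := by
  rw [auxX', dif_pos hx]
  rcases eq_or_ne w x with rfl | h
  · rw [KerFamily.single_comp_single_same, KerFamily.single_comp_single_same]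
    exact congrArg (KerFamily.single w) (D.commute_xKer'_uKer' hw 1).eq.symm
  · exact KerFamily.single_comp_comm h _ _

theorem absNorm_u_pos : (0 : ℝ) < (Ideal.absNorm D.u.asIdeal : ℝ) := by
  exact_mod_cast Nat.pos_of_ne_zero fun h => D.u.ne_bot (Ideal.absNorm_eq_zero_iff.1 h)

/-- The constraint downstairs, for a bound on the row sums of `X`. -/
theorem isSpectralPoint_down {B : ℝ}
    (hB : ∀ (y : Yf (productLevel D.lev.loc)) (s : Finset (Yf (productLevel D.lev.loc))),
      ∑ z ∈ s, ‖D.auxX.toHKer D.isLocal y z‖ ≤ B)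
    {m l : ℝ} {v : cuspClasses D.quot} {ω : ℂ} (hm : m ≠ 0) (hv0 : v ≠ 0)
    (hP : D.basePair.op v = (m : ℂ) • v) (hX : (D.atom .aux).op v = (l : ℂ) • v)
    (hR : (D.upow 1).op v = ((m : ℂ) * ω) • v) :
    IsSpectralPoint (Real.sqrt (Ideal.absNorm D.u.asIdeal) ^ 3)
      ((B + Real.sqrt (Ideal.absNorm D.u.asIdeal)) ^ 3) ω := by
  change D.specFamOp (KerFamily.one _) v = (m : ℂ) • v at hP
  change D.specFamOp D.auxX v = (l : ℂ) • v at hX
  change D.specFamOp (D.auxU 1) v = ((m : ℂ) * ω) • v at hR
  set P := D.specFamOp (KerFamily.one D.lev.loc) with hPdef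
  set T : Unit → cuspClasses D.quot →L[ℂ] cuspClasses D.quot := fun _ => D.specFamOp D.auxX with hT
  set A := D.specFamOp (KerFamily.single D.u (D.uKer 1))
  have hc : IsCompactOperator P := D.isCompactOperator_op_base
  have hv : v ∈ jointSpace P T (m, fun _ => l) := mem_jointSpace.2 ⟨hP, fun _ => hX⟩
  -- the bound
  have cP : Commute D.baseRoot P := by
    show Commute D.baseRoot D.basePair.op
    rw [op_base]
    exact (Commute.refl _).mul_right ((Commute.refl _).mul_right (Commute.refl _))
  have cT : ∀ j : Unit, Commute D.baseRoot (T j) := fun _ =>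
    cuspOp_commute _ _ fun y z => (HKer.comp_id_comm _ y z).symm
  obtain ⟨e, μ, he0, he, heμ⟩ := exists_eigen_of_commute hc hm hv0 hv cP cT
  obtain ⟨he1, he2⟩ := mem_jointSpace.1 he
  have hμ : μ ≠ 0 := by
    rintro rfl
    have h0 : D.basePair.op e = 0 := by
      rw [op_base]; show D.baseRoot (D.baseRoot (D.baseRoot e)) = 0; simp [heμ]
    exact hm (Complex.ofReal_eq_zero.1 ((smul_eq_zero.1 (he1.symm.trans h0)).resolve_right he0))
  have hid : cuspOp D.quot (fun _ => comp3 fun _ => baseKer) (HKer.id _) e = (m : ℂ) • e := by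
    rw [← D.ker_base]; exact he1
  have hbd := norm_eigen_le isLipKernel_baseKer hμ he0 heμ _ hB hid (he2 ())
  rw [Complex.norm_real, Complex.norm_real, Real.norm_eq_abs, Real.norm_eq_abs] at hbd
  have hx : |l / m| ≤ B := by
    rw [abs_div, div_le_iff₀ (abs_pos.2 hm)]; exact hbd
  -- the relation and the eigenvector
  have aP : Commute A P := D.commute_famOp (DescentData.one_comp_comm _)
  have aT : ∀ j : Unit, Commute A (T j) := fun _ => D.commute_famOp D.auxX_comp_single.symm
  refine isSpectralPoint_of_joint hc hm aP aT aP aT aP aT (Commute.refl A) (Commute.refl A)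
    (Commute.refl A) (j₁ := ()) (j₂ := ()) (j₃ := ()) rfl rfl rfl D.absNorm_u_pos hx
    D.specFamOp_relation D.specFamOp_relation D.specFamOp_relation hv0 hv ?_
  have h3 : A (A (A v)) = D.specFamOp (D.auxU 1) (P (P v)) := by
    refine congrArg (fun f : cuspClasses D.quot →L[ℂ] cuspClasses D.quot => f v)
      (D.specFamOp_mul3 _ _ _ (D.auxU 1) (KerFamily.one _) (KerFamily.one _) ?_)
    rw [KerFamily.comp_one', KerFamily.comp_one', KerFamily.single_comp_single_same,
      KerFamily.single_comp_single_same, auxU, ← LKer.mul_def, ← LKer.mul_def, uKer_mul, uKer_mul]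
  rw [hP, map_smul, hP, map_smul, map_smul, hR, smul_smul, smul_smul] at h3
  rw [h3]
  exact congrArg (· • v) (by ring)

/-- The constraint upstairs, for a bound on the row sums of `X`. -/
theorem isSpectralPoint_up {B : ℝ}
    (hB : ∀ (y : Yf (productLevel D.lev'.loc)) (s : Finset (Yf (productLevel D.lev'.loc))),
      ∑ z ∈ s, ‖(D.auxX' D.uAbove).toHKer D.isLocal' y z‖ ≤ B)
    {m : ℝ} {L : D.AtomIdx' → ℝ} {v : cuspClasses D.quot'} {ω : ℂ} (hm : m ≠ 0) (hv0 : v ≠ 0)
    (hP : D.basePair.op' v = (m : ℂ) • v) (hL : ∀ j, L (D.atomPerm j) = L j)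
    (hX : ∀ j, D.atomOp' j v = (L j : ℂ) • v)
    (hR : (D.upow 1).op' v = ((m : ℂ) * ω) • v) :
    IsSpectralPoint (Real.sqrt (Ideal.absNorm D.u.asIdeal) ^ 3)
      ((B + Real.sqrt (Ideal.absNorm D.u.asIdeal)) ^ 3) ω := by
  change D.specFamOp' (KerFamily.one _) v = (m : ℂ) • v at hP
  change D.specFamOp' (D.auxU' 1) v = ((m : ℂ) * ω) • v at hR
  set S := {w : HeightOneSpectrum (𝓞 K') // IsAbove D.u w}
  set P := D.specFamOp' (KerFamily.one D.lev'.loc)
  set T : S → cuspClasses D.quot' →L[ℂ] cuspClasses D.quot' :=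
    fun w => D.specFamOp' (D.auxX' w.1) with hT
  set A : S → cuspClasses D.quot' →L[ℂ] cuspClasses D.quot' :=
    fun w => D.specFamOp' (KerFamily.single w.1 (D.uKer' w.2 1)) with hA
  have hc : IsCompactOperator P := D.isCompactOperator_op'_base
  -- the three places and their common eigenvalue
  obtain ⟨w₁, hw₁⟩ : ∃ w : S, w = D.uAbove := ⟨_, rfl⟩
  have Pl := D.splitPlace_of_above w₁.2
  set w₂ : S := ⟨_, Pl.next.above⟩ with hw₂
  set w₃ : S := ⟨_, Pl.next.next.above⟩ with hw₃
  have l3 : L (.aux w₃) = L (.aux w₁) := hL (.aux w₁)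
  have l2 : L (.aux w₂) = L (.aux w₁) := by
    refine Eq.trans ?_ ((hL (.aux w₃)).trans l3)
    refine congrArg (fun w => L (.aux w)) (Subtype.ext ?_)
    exact (congrArg (placePerm tw.σ.toRingEquiv) (Places.placePerm_cube D.gen w₁.1)).symm
  set Lx : S → ℝ := fun w => L (.aux w) with hLx
  have hv : v ∈ jointSpace P T (m, Lx) := mem_jointSpace.2 ⟨hP, fun w => hX (.aux w)⟩
  have hid : cuspOp D.quot' (fun _ : Fin 3 => baseKer) (HKer.id _) v = (m : ℂ) • v := by
    rw [← D.op'_base]; exact hP
  have hX1 : cuspOp D.quot' (fun _ : Fin 3 => baseKer)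
      ((D.auxX' D.uAbove).toHKer D.isLocal') v = ((L (.aux w₁) : ℝ) : ℂ) • v := by
    rw [hw₁]; exact hX (.aux D.uAbove)
  have hbd := norm_eigen_le isLipKernel_baseKer (Complex.ofReal_ne_zero.mpr hm) hv0 hid _ hB hid hX1
  rw [Complex.norm_real, Complex.norm_real, Real.norm_eq_abs, Real.norm_eq_abs] at hbd
  have hx : |L (.aux w₁) / m| ≤ B := by
    rw [abs_div, div_le_iff₀ (abs_pos.2 hm)]; exact hbd
  -- commutation and relations
  have aP : ∀ w : S, Commute (A w) P := fun w => D.commute_famOp' (DescentData.one_comp_comm _)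
  have aT : ∀ (w j : S), Commute (A w) (T j) := fun w j =>
    D.commute_famOp' (D.aux_comp_single' w.2 j.2)
  have aA : ∀ w x : S, w.1 ≠ x.1 → Commute (A w) (A x) := fun w x h =>
    D.commute_famOp' (KerFamily.single_comp_comm h _ _)
  have n21 : w₂.1 ≠ w₁.1 := Pl.moved
  have n31 : w₃.1 ≠ w₁.1 := Pl.moved_twice
  have n32 : w₃.1 ≠ w₂.1 := Pl.next.moved
  refine isSpectralPoint_of_joint hc hm (aP w₁) (aT w₁) (aP w₂) (aT w₂) (aP w₃) (aT w₃)
    (aA _ _ n21.symm) (aA _ _ n31.symm) (aA _ _ n32.symm) (j₁ := w₁) (j₂ := w₂) (j₃ := w₃)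
    (L := Lx) rfl l2 l3 D.absNorm_u_pos hx (D.specFamOp'_relation w₁.2) (D.specFamOp'_relation w₂.2)
    (D.specFamOp'_relation w₃.2) hv0 hv ?_
  have h3 : A w₁ (A w₂ (A w₃ v)) = D.specFamOp' (D.auxU' 1) (P (P v)) := by
    refine congrArg (fun f : cuspClasses D.quot' →L[ℂ] cuspClasses D.quot' => f v)
      (D.specFamOp'_mul3 _ _ _ (D.auxU' 1) (KerFamily.one _) (KerFamily.one _) ?_)
    rw [KerFamily.comp_one', KerFamily.comp_one']
    refine KerFamily.ext' fun x => ?_
    show (((KerFamily.single w₁.1 _).ker x).comp ((KerFamily.single w₂.1 _).ker x)).comp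
      ((KerFamily.single w₃.1 _).ker x) = _
    by_cases hx' : IsAbove D.u x
    · rw [D.auxU'_ker_above 1 hx']
      rcases eq_or_eq_of_isAbove D.gen w₁.2 hx' with rfl | rfl | rfl
      · rw [KerFamily.single_ker_self, KerFamily.single_ker_ne n21.symm,
          KerFamily.single_ker_ne n31.symm, LKer.comp_one, LKer.comp_one]
      · rw [KerFamily.single_ker_ne n21, KerFamily.single_ker_self,
          KerFamily.single_ker_ne n32.symm, LKer.comp_one, LKer.one_comp]
      · rw [KerFamily.single_ker_ne n31, KerFamily.single_ker_ne n32, KerFamily.single_ker_self,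
          LKer.one_comp, LKer.one_comp]
    · have hne : ∀ w : S, x ≠ w.1 := fun w h => hx' (h ▸ w.2)
      rw [KerFamily.single_ker_ne (hne _), KerFamily.single_ker_ne (hne _),
        KerFamily.single_ker_ne (hne _), D.auxU'_ker_of_not_above 1 hx', LKer.one_comp,
        LKer.one_comp]
      rfl
  rw [hP, map_smul, hP, map_smul, map_smul, hR, smul_smul, smul_smul] at h3
  rw [h3]
  exact congrArg (· • v) (by ring)

/-- **The spectra of the two sides lie on the same real line and circle.** -/
theorem exists_spectrum : ∃ ρ r : ℝ, 0 < ρ ∧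
    (∀ (m : ℝ) (L : D.AtomIdx → ℝ) (v : cuspClasses D.quot) (ω : ℂ), m ≠ 0 → v ≠ 0 →
      D.basePair.op v = (m : ℂ) • v → (∀ j, (D.atom j).op v = (L j : ℂ) • v) →
      (D.upow 1).op v = ((m : ℂ) * ω) • v → IsSpectralPoint ρ r ω) ∧
    (∀ (m : ℝ) (L : D.AtomIdx' → ℝ) (v : cuspClasses D.quot') (ω : ℂ), m ≠ 0 → v ≠ 0 →
      D.basePair.op' v = (m : ℂ) • v → (∀ j, L (D.atomPerm j) = L j) →
      (∀ j, D.atomOp' j v = (L j : ℂ) • v) →
      (D.upow 1).op' v = ((m : ℂ) * ω) • v → IsSpectralPoint ρ r ω) := by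
  obtain ⟨M, hM⟩ := (D.auxX.toHKer D.isLocal).exists_rowSum_real
  obtain ⟨M', hM'⟩ := ((D.auxX' D.uAbove).toHKer D.isLocal').exists_rowSum_real
  exact ⟨_, _, pow_pos (Real.sqrt_pos.2 D.absNorm_u_pos) 3,
    fun m L v ω hm hv hP hX hR => D.isSpectralPoint_down (B := max M M')
      (fun y s => (hM y s).trans (le_max_left _ _)) hm hv hP (hX .aux) hR,
    fun m L v ω hm hv hP hL hX hR => D.isSpectralPoint_up (B := max M M')
      (fun y s => (hM' y s).trans (le_max_right _ _)) hm hv hP hL hX hR⟩

end GenData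

end Fermat.Agent.Extra.LTGen

end
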