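/-
The target space inside the cusp classes of the level with Iwahori structure over `u`: the twist,
kernels over `3`, Hecke operators and archimedean profiles act there as on the forms.
-/
import Fermat.Agent.Extra.LTGen.Descent.Multiplicity
import Fermat.Agent.Extra.LTGen.Descent.Base
import Fermat.Agent.LT.Descent.Reframe

set_option autoImplicit false

noncomputable section

namespace Fermat.Agent.Extra.LTGen

open Fermat.Agent.LT Fermat.Agent.LT.Descent

open IsDedekindDomain IsDedekindDomain.HeightOneSpectrum NumberField Matrix Filter MeasureTheory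
open Fermat.Agent.LT.Adelic Fermat.Agent.LT.Aleph Fermat.Agent.LT.Tame Fermat.Agent.LT.Spectral
open Fermat.Agent.LT.Descent.Places
open scoped MatrixGroups

namespace GenData

variable {K : Type*} [Field K] [NumberField K] {K' : Type*} [Field K'] [NumberField K']
  [Algebra K K'] {Φ : Frame K Unit} {Φ' : Frame K' (Fin 3)} {tw : CubicTwist Φ Φ'}
  (D : GenData tw)

/-- The excluded places upstairs together with those over `u`. -/
def wideBad' : Set (HeightOneSpectrum (𝓞 K')) := D.bad' ∪ placesAbove {D.u}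

theorem bad'_subset_wideBad' : D.bad' ⊆ D.wideBad' := Set.subset_union_left

theorem finite_wideBad' : D.wideBad'.Finite :=
  D.finite_bad'.union (finite_placesAbove D.gen (Set.finite_singleton _))

theorem notMem_bad'_of_above {w : HeightOneSpectrum (𝓞 K')} (h : IsAbove D.u w) :
    w ∉ D.bad' := fun hb => D.u_not_bad ((D.mem_bad'_iff h).1 hb)

theorem loc'_eq_loc₀'_of_mem_bad' {w : HeightOneSpectrum (𝓞 K')} (hw : w ∈ D.bad') :
    D.lev'.loc w = D.lev₀'.loc w :=
  (D.lev'.loc_of_bad hw).trans (D.lev₀'.loc_of_bad hw).symm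

theorem loc'_le_loc₀' (w : HeightOneSpectrum (𝓞 K')) : D.lev'.loc w ≤ D.lev₀'.loc w := by
  by_cases hb : w ∈ D.bad'
  · exact (D.loc'_eq_loc₀'_of_mem_bad' hb).le
  · exact (D.lev'.loc_le w).trans (D.full_outside w hb)

theorem exists_wideModulus : ∃ n, SupportedIn D.wideBad' n ∧
    principalLevel K' n ≤ productLevel D.lev'.loc :=
  exists_supportedIn_le_productLevel D.finite_wideBad' (fun w hw => by
    simp only [wideBad', Set.mem_union, not_or] at hw
    exact (D.lev'.loc_of_good hw.1 hw.2).ge) D.lev'.isLevel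

theorem fixed_lev' {φ : D.forms} (hφ : φ ∈ D.target) :
    ∀ τ g, ∀ u ∈ productLevel D.lev'.loc, φ.1 τ (g * u) = φ.1 τ g := fun τ g u hu =>
  D.invariant_of_mem_target hφ τ g u
    ((mem_productLevel _).2 fun w => D.loc'_le_loc₀' w ((mem_productLevel _).1 hu w))

/-- The forms among those of the larger set. -/
def formsIncl : D.forms →ₗ[ℂ] sForms Φ' D.wideBad' D.eig where
  toFun φ := ⟨φ.1, φ.2.mono D.bad'_subset_wideBad'⟩
  map_add' _ _ := rfl
  map_smul' _ _ := rfl

theorem formsIncl_mem {φ : D.forms} (hφ : φ ∈ D.target) : D.formsIncl φ ∈ fixedVectors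
    (translateRep Φ' D.wideBad' D.eig D.finite_wideBad')
    (supLevel D.wideBad' (productLevel D.lev'.loc)) :=
  fun u hu => Subtype.ext (funext fun τ => funext fun g => D.fixed_lev' hφ τ g _ hu)

/-- The target as forms of the level with Iwahori structure. -/
def targetIncl : D.target →ₗ[ℂ] fixedVectors (translateRep Φ' D.wideBad' D.eig D.finite_wideBad')
    (supLevel D.wideBad' (productLevel D.lev'.loc)) :=
  LinearMap.codRestrict _ (D.formsIncl ∘ₗ D.target.subtype) fun φ => D.formsIncl_mem φ.2

/-- **The target inside the cusp classes upstairs.** -/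
def targetClass : D.target →ₗ[ℂ] cuspClasses D.quot' :=
  levelMap D.quot' D.finite_wideBad' D.exists_wideModulus.choose_spec.1
    D.exists_wideModulus.choose_spec.2 D.lev'.level_le ∘ₗ D.targetIncl

theorem coeFn_targetClass (φ : D.target) : (D.targetClass φ : Lp ℂ 2 D.quot'.ν) =ᵐ[D.quot'.ν]
    toSpace (Φ := Φ') (U := productLevel D.lev'.loc) φ.1.1 :=
  coeFn_levelMap D.finite_wideBad' D.exists_wideModulus.choose_spec.1
    D.exists_wideModulus.choose_spec.2 D.lev'.level_le (D.targetIncl φ)

theorem targetClass_injective : Function.Injective D.targetClass := by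
  intro φ ψ h
  have h1 := levelMap_injective D.finite_wideBad' D.exists_wideModulus.choose_spec.1
    D.exists_wideModulus.choose_spec.2 D.lev'.level_le h
  exact Subtype.ext (Subtype.ext (congrArg (fun x => x.1.1) h1))

theorem targetSpace_props (φ : D.target) :
    Measurable (toSpace (Φ := Φ') (U := productLevel D.lev'.loc) φ.1.1) ∧
      (∀ (g : PGL(2, K')) x, toSpace (Φ := Φ') (U := productLevel D.lev'.loc) φ.1.1 (g • x) =
        toSpace φ.1.1 x) ∧
      MemLp (toSpace (Φ := Φ') (U := productLevel D.lev'.loc) φ.1.1) 2 D.quot'.ν :=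
  have h := toSpace_props (D := D.quot') D.finite_wideBad' D.exists_wideModulus.choose_spec.1
    D.exists_wideModulus.choose_spec.2 D.lev'.level_le (D.formsIncl_mem φ.2)
  ⟨h.1, h.2.1, h.2.2.1⟩

/-- **The twist on the target.** -/
theorem twist_targetClass (φ : D.target) :
    D.twist (D.targetClass φ) = D.targetClass ((D.targetTwist * D.targetTwist) φ) := by
  obtain ⟨hm, hi, -⟩ := D.targetSpace_props φ
  refine Subtype.ext (Lp.ext ?_)
  refine (D.coeFn_twist _ _ hi (D.coeFn_targetClass φ)).trans
    (EventuallyEq.trans (EventuallyEq.of_eq ?_) (D.coeFn_targetClass _).symm)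
  have hU : IsStableLevel tw.σ.toRingEquiv (productLevel D.lev'.loc) :=
    isStableLevel_productLevel _ D.stable
  have h1 : ∀ (ψ : D.target) (x : Space Φ' (productLevel D.lev'.loc)),
      toSpace (Φ := Φ') (U := productLevel D.lev'.loc) ψ.1.1 (D.twistMap x) =
        toSpace (D.targetTwist ψ).1.1 x := fun ψ x =>
    (toSpace_twistFn hU ψ.1.2 (D.fixed_lev' ψ.2) x).symm
  funext x
  show toSpace _ (D.twistMap (D.twistMap x)) = _
  rw [h1, h1]
  rfl

/-- **Test operators on the target.** -/
theorem cuspOp_targetClass (k₀ : Fin 3 → ℝ → ℝ) (hk : ∀ i, Continuous (k₀ i))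
    (hc : ∀ i, HasCompactSupport (k₀ i)) (f : HKer (productLevel D.lev'.loc)) {φ φ' : D.target}
    {c : ℂ} (h : kerMap f (toSpace (Φ := Φ') (U := productLevel D.lev'.loc) φ.1.1) =
      c • toSpace φ'.1.1) :
    cuspOp D.quot' (fun i => realKer (k₀ i) (hk i) (hc i)) f (D.targetClass φ) =
      ((∏ i, PPKer.hat (realKer (k₀ i) (hk i) (hc i)) 0) * c) • D.targetClass φ' := by
  obtain ⟨hm, hi, h2⟩ := D.targetSpace_props φ
  refine Subtype.ext (Lp.ext ?_)
  refine (coeFn_cuspOp _ _ hm hi (D.coeFn_targetClass φ)).trans ?_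
  refine EventuallyEq.trans (EventuallyEq.of_eq ?_) ((Lp.coeFn_smul _ _).trans
    ((D.coeFn_targetClass φ').const_smul _)).symm
  rw [testOp_eq_kerMap _ _ (sliceInt_of_memLp hm hi h2)]
  have harch : archOp (fun i => realKer (k₀ i) (hk i) (hc i))
      (toSpace (Φ := Φ') (U := productLevel D.lev'.loc) φ.1.1) =
      (∏ i, PPKer.hat (realKer (k₀ i) (hk i) (hc i)) 0) • toSpace φ.1.1 :=
    archOp_eq_of_isSphericalEigen
      (φ := toSpace (Φ := Φ') (U := productLevel D.lev'.loc) φ.1.1)
      (fun k hk' hc' i x => φ.1.2.spherical k hk' hc' i x.pt (Quotient.out x.fin))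
      (φ.1.2.bounded.imp fun _ hC x => hC _ _) (fun y => φ.1.2.continuous (Quotient.out y))
      (fun i u => (k₀ i u : ℂ)) (fun i => Complex.continuous_ofReal.comp (hk i))
      (fun i => (hc i).comp_left Complex.ofReal_zero)
  rw [harch, kerMap_smul, h, smul_smul]

/-- Hecke operators outside the excluded places on the target. -/
theorem kerMap_hecke_target (φ : D.target) {w : HeightOneSpectrum (𝓞 K')} (hw : w ∉ D.wideBad')
    {ϖ : (FiniteAdeleRing (𝓞 K') K')ˣ} (hϖ : IsUniformiserAt w ϖ) :
    kerMap (HKer.ofDoubleCoset D.quot'.level (heckeMatrix K' ϖ))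
        (toSpace (Φ := Φ') (U := productLevel D.lev'.loc) φ.1.1) =
      ((Real.sqrt (Ideal.absNorm w.asIdeal) : ℂ) * D.eig w) • toSpace φ.1.1 := by
  rw [← heckeOp_eq_kerMap D.quot'.level]
  exact isHeckeEigenAt_toSpace (D.formsIncl φ.1).2 D.lev'.level_le
    D.exists_wideModulus.choose_spec.1 D.exists_wideModulus.choose_spec.2 (D.fixed_lev' φ.2) hw ϖ hϖ

/-- **Double cosets at the bad places on the target.** -/
theorem kerMap_supported_target {e : D.forms →ₗ[ℂ] D.forms}
    (hJ : IsLevelProj D.formsRep e D.target)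
    (he : ∀ φ H, IsStab D.formsRep D.targetGroup H φ → e φ = avgOver D.formsRep D.targetGroup H φ)
    (g : gfSupported D.bad') (φ : D.target) :
    kerMap (HKer.ofDoubleCoset D.quot'.level (g : GfK K'))
        (toSpace (Φ := Φ') (U := productLevel D.lev'.loc) φ.1.1) =
      ((nbrs (g : GfK K') ((1 : GfK K') : Yf (productLevel D.lev'.loc))).ncard : ℂ) •
        toSpace (levelOp hJ g φ).1.1 := by
  classical
  obtain ⟨n, hn, hnU⟩ := D.exists_wideModulus
  obtain ⟨e', he'⟩ := exists_levelProj (exists_isStab_translateRep (Φ := Φ') (a := D.eig)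
    (U := productLevel D.lev'.loc) D.finite_wideBad' D.lev'.level_le)
  set g' : gfSupported D.wideBad' := ⟨g, fun w hw => g.2 w fun hb => hw (Or.inl hb)⟩
  rw [← heckeOp_eq_kerMap D.quot'.level]
  refine (heckeOp_toSpace D.finite_wideBad' hn hnU D.lev'.level_le he' g' (ψ := D.formsIncl φ.1)
    (D.fixed_lev' φ.2)).trans ?_
  congr 2
  -- both projections are means over the same set of functions
  obtain ⟨H, hH⟩ := exists_isStab_translateRep (Φ := Φ') (a := D.eig) D.finite_bad'
    D.lev₀'.level_le (D.formsRep g φ.1)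
  obtain ⟨H', hH'⟩ := exists_isStab_translateRep (Φ := Φ') (a := D.eig) D.finite_wideBad'
    (U := productLevel D.lev'.loc) D.lev'.level_le (translateRep Φ' D.wideBad' D.eig D.finite_wideBad' g' (D.formsIncl φ.1))
  have hset : (finite_range_of_isStab hH').toFinset =
      (finite_range_of_isStab hH).toFinset.image D.formsIncl := by
    ext x
    simp only [Set.Finite.mem_toFinset, Set.mem_range, Finset.mem_image]
    constructor
    · rintro ⟨j, rfl⟩
      have hj := (mem_productLevel _).1 (mem_supLevel.1 j.2)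
      obtain ⟨jA, hjA, hjA'⟩ := exists_part D.bad' (j : gfSupported D.wideBad')
      obtain ⟨jB, hjB, hjB'⟩ := exists_part D.bad'ᶜ (j : gfSupported D.wideBad')
      set j₀ : gfSupported D.bad' := ⟨jA, hjA'⟩
      have hj₀ : j₀ ∈ D.targetGroup := mem_supLevel.2 ((mem_productLevel _).2 fun w => by
        by_cases hw : w ∈ D.bad'
        · rw [hjA w hw, ← D.loc'_eq_loc₀'_of_mem_bad' hw]; exact hj w
        · rw [hjA' w hw]; exact one_mem _)
      have hjB₀ : (jB : GfK K') ∈ D.lev₀'.level := (mem_productLevel _).2 fun w => by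
        by_cases hw : w ∈ D.bad'
        · rw [hjB' w (not_not.2 hw)]; exact one_mem _
        · rw [hjB w hw]; exact D.loc'_le_loc₀' w (hj w)
      refine ⟨_, ⟨⟨j₀, hj₀⟩, rfl⟩, Subtype.ext (funext fun τ => funext fun y => ?_)⟩
      show φ.1.1 τ (y * (jA : GfK K') * (g : GfK K')) =
        φ.1.1 τ (y * ((j : gfSupported D.wideBad') : GfK K') * (g : GfK K'))
      rw [← D.invariant_of_mem_target φ.2 τ (y * (jA : GfK K') * (g : GfK K')) _ hjB₀]
      rw [mul_assoc, mul_assoc y (jA : GfK K'), mul_assoc y ((j : gfSupported D.wideBad') : GfK K')]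
      refine congrArg (fun z : GfK K' => φ.1.1 τ (y * z))
        (Aleph.gf_ext (R := 𝓞 K') (K := K') fun w => ?_)
      simp only [map_mul]
      by_cases hw : w ∈ D.bad'
      · rw [hjA w hw, hjB' w (not_not.2 hw), mul_one]
      · rw [hjA' w hw, hjB w hw, g.2 w hw, one_mul, one_mul, mul_one]
    · rintro ⟨_, ⟨j, rfl⟩, rfl⟩
      have hj := (mem_productLevel _).1 (mem_supLevel.1 j.2)
      refine ⟨⟨⟨((j : gfSupported D.bad') : GfK K'),
        fun w hw => (j : gfSupported D.bad').2 w fun hb => hw (Or.inl hb)⟩,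
        mem_supLevel.2 ((mem_productLevel _).2 fun w => ?_)⟩, rfl⟩
      by_cases hw : w ∈ D.bad'
      · rw [D.loc'_eq_loc₀'_of_mem_bad' hw]; exact hj w
      · rw [(j : gfSupported D.bad').2 w hw]; exact one_mem _
  have hinj : Function.Injective D.formsIncl := fun a b h => Subtype.ext (congrArg Subtype.val h :)
  have key : e' (translateRep Φ' D.wideBad' D.eig D.finite_wideBad' g' (D.formsIncl φ.1)) =
      D.formsIncl (e (D.formsRep g φ.1)) := by
    rw [levelProj_eq_orbit he' hH', levelProj_eq_orbit he hH, hset, map_smul, map_sum,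
      Finset.card_image_of_injective _ hinj, Finset.sum_image fun a _ b _ h => hinj h]
  exact congrArg Subtype.val key

/-- **Double cosets at the bad places as test operators on the target.** -/
theorem cuspOp_supported_target {e : D.forms →ₗ[ℂ] D.forms}
    (hJ : IsLevelProj D.formsRep e D.target)
    (he : ∀ φ H, IsStab D.formsRep D.targetGroup H φ → e φ = avgOver D.formsRep D.targetGroup H φ)
    (k₀ : Fin 3 → ℝ → ℝ) (hk : ∀ i, Continuous (k₀ i)) (hc : ∀ i, HasCompactSupport (k₀ i))
    (g : gfSupported D.bad') (φ : D.target) :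
    cuspOp D.quot' (fun i => realKer (k₀ i) (hk i) (hc i))
        (HKer.ofDoubleCoset D.quot'.level (g : GfK K')) (D.targetClass φ) =
      ((∏ i, PPKer.hat (realKer (k₀ i) (hk i) (hc i)) 0) *
          ((nbrs (g : GfK K') ((1 : GfK K') : Yf (productLevel D.lev'.loc))).ncard : ℂ)) •
        D.targetClass (levelOp hJ g φ) :=
  D.cuspOp_targetClass k₀ hk hc _ (D.kerMap_supported_target hJ he g φ)

end GenData

end Fermat.Agent.Extra.LTGen
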