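import Fermat.Agent.Extra.LTGen.Descent.Atoms
import Fermat.Agent.LT.Descent.LocalSlice
import Fermat.Agent.Extra.LTGen.Descent.TargetMap

/-!
# Classes with the data of the target come from the target

The classes upstairs of the forms in the target have the eigenvalues of the target and are fixed by
`t` up to `q` at the places over `u`; conversely such a class comes from a form in the target.
-/

set_option autoImplicit false

noncomputable section

namespace Fermat.Agent.Extra.LTGen

open Fermat.Agent.LT Fermat.Agent.LT.Descent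

open Fermat.Agent.LT.Adelic Fermat.Agent.LT.Tame Fermat.Agent.LT.Spectral Fermat.Agent.LT.Aleph
open Fermat.Agent.LT.Descent.Places
open MeasureTheory NumberField IsDedekindDomain Matrix Filter
open scoped MatrixGroups

section Generic

variable {K : Type*} [Field K] [NumberField K] {ι : Type*} {Φ : Frame K ι}

theorem kerMap_hkerSmul {U : Subgroup (GfK K)} (c : ℂ) (f : HKer U) (φ : Space Φ U → ℂ) :
    kerMap (hkerSmul c f) φ = c • kerMap f φ := by
  funext x
  rw [Pi.smul_apply, smul_eq_mul, kerMap, kerMap, mul_finsum]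
  exact finsum_congr fun z => mul_assoc c _ _

theorem hasFullLocal_productLevel
    {V : ∀ v : HeightOneSpectrum (𝓞 K), Subgroup (GL (Fin 2) (v.adicCompletion K))}
    {v : HeightOneSpectrum (𝓞 K)} (h : localFull K v ≤ V v) :
    RankinSelberg.HasFullLocal (productLevel V) v := fun g hg hg' =>
  (mem_productLevel V).2 fun u => by
    rcases eq_or_ne u v with rfl | hu
    · exact h (mem_principalLevel_one_iff.1 hg u)
    · rw [show localGL K u g = 1 from hg' u hu]
      exact one_mem _

theorem mk_mul_of_mem_centerGf {U : Subgroup (GfK K)} (g : GfK K) {z : GfK K}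
    (hz : z ∈ centerGf (𝓞 K) K) : ((g * z : GfK K) : Yf U) = (g : Yf U) :=
  QuotientGroup.eq.2 (by
    rw [_root_.mul_inv_rev, inv_mul_cancel_right]
    exact (le_sup_right : centerGf _ _ ≤ levelZ U) (inv_mem hz))

theorem mk_mul_of_mem {U : Subgroup (GfK K)} (g : GfK K) {u : GfK K} (hu : u ∈ U) :
    ((g * u : GfK K) : Yf U) = (g : Yf U) :=
  QuotientGroup.eq.2 (by
    rw [_root_.mul_inv_rev, inv_mul_cancel_right]
    exact le_levelZ U (inv_mem hu))

end Generic

namespace GenData

variable {K : Type*} [Field K] [NumberField K] {K' : Type*} [Field K'] [NumberField K']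
  [Algebra K K'] {Φ : Frame K Unit} {Φ' : Frame K' (Fin 3)} {tw : CubicTwist Φ Φ'}
  (D : GenData tw)

theorem loc'_eq_loc₀'_of_not_above {w : HeightOneSpectrum (𝓞 K')} (h : ¬IsAbove D.u w) :
    D.lev'.loc w = D.lev₀'.loc w := by
  by_cases hb : w ∈ D.bad'
  · exact D.loc'_eq_loc₀'_of_mem_bad' hb
  · have hw : w ∉ D.lev'.aux := by
      rintro ⟨v, hv, hw⟩
      obtain rfl := Set.mem_singleton_iff.1 hv
      exact h hw
    exact (D.lev'.loc_of_good hb hw).trans (D.lev₀'.loc_of_good hb (Set.notMem_empty w)).symm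

theorem exists_good_below {w : HeightOneSpectrum (𝓞 K')} (hw : w ∉ D.bad')
    (h : ¬IsAbove D.u w) : ∃ v ∈ D.good, IsAbove v w := by
  obtain ⟨v, hv⟩ := exists_below (K := K) w
  exact ⟨v, ⟨fun hb => hw ((D.mem_bad'_iff hv).2 hb), fun e => h (e ▸ hv)⟩, hv⟩

/-- A function fixed by `t` at the places over `u` has level maximal there. -/
theorem apply_mk_mul_level₀ {φ : Space Φ' (productLevel D.lev'.loc) → ℂ}
    (ht : ∀ (w : HeightOneSpectrum (𝓞 K')) (h : IsAbove D.u w),
      kerMap ((KerFamily.single w (iwTKer (D.map_loc'_of_above h))).toHKer D.isLocal') φ =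
        (Ideal.absNorm w.asIdeal : ℂ) • φ)
    (τ : Fin 3 → HSpace) (g : GfK K') {u : GfK K'} (hu : u ∈ D.lev₀'.level) :
    φ (Space.mk τ ((g * u : GfK K') : Yf (productLevel D.lev'.loc))) =
      φ (Space.mk τ (g : Yf (productLevel D.lev'.loc))) := by
  classical
  have key : ∀ T : Finset (HeightOneSpectrum (𝓞 K')), (∀ w ∈ T, IsAbove D.u w) →
      ∀ h : GfK K', (∀ w, IsIntLocal (localGL K' w h)) →
        (∀ w ∉ T, localGL K' w h ∈ D.lev'.loc w) → ∀ g : GfK K',
          φ (Space.mk τ ((g * h : GfK K') : Yf (productLevel D.lev'.loc))) =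
            φ (Space.mk τ (g : Yf (productLevel D.lev'.loc))) := by
    intro T
    induction T using Finset.induction_on with
    | empty =>
      intro _ h _ hin g
      rw [mk_mul_of_mem g ((mem_productLevel _).2 fun w => hin w (Finset.notMem_empty w))]
    | insert w T _ ih =>
      intro hT h hint hin g
      have hwu := hT w (Finset.mem_insert_self w T)
      set p := gfOfLocal K' (fun x => if x = w then localGL K' x h else 1) fun x => by
        by_cases hx : x = w
        · rw [if_pos hx]; exact hint x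
        · rw [if_neg hx]; exact isIntLocal_one
      have hp : ∀ x, x ≠ w → localGL K' x p = 1 := fun x hx => by
        rw [localGL_gfOfLocal, if_neg hx]
      have hpw : localGL K' w p = localGL K' w h := by rw [localGL_gfOfLocal, if_pos rfl]
      rw [show g * h = g * p * (p⁻¹ * h) by group,
        ih (fun x hx => hT x (Finset.mem_insert_of_mem hx)) _ (fun x => ?_) (fun x hx => ?_),
        apply_mk_mul_of_iwT D.isLocal' _ (ht w hwu) τ g p hp]
      · rw [localPGL, MonoidHom.comp_apply, hpw]
        exact Subgroup.mem_map_of_mem _ (hint w)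
      · rw [map_mul, map_inv]
        rcases eq_or_ne x w with rfl | hxw
        · rw [hpw, inv_mul_cancel]; exact isIntLocal_one
        · rw [hp x hxw, inv_one, one_mul]; exact hint x
      · rw [map_mul, map_inv]
        rcases eq_or_ne x w with rfl | hxw
        · rw [hpw, inv_mul_cancel]; exact one_mem _
        · rw [hp x hxw, inv_one, one_mul]
          exact hin x (by rw [Finset.mem_insert]; exact not_or.2 ⟨hxw, hx⟩)
  have hl := (mem_productLevel _).1 hu
  have hfin : (placesAbove (K' := K') {D.u}).Finite := D.lev'.aux_finite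
  refine key hfin.toFinset (fun w hw => ?_) u (fun w => D.lev₀'.loc_le w (hl w))
    (fun w hw => ?_) g
  · obtain ⟨v, hv, hvw⟩ := hfin.mem_toFinset.1 hw
    exact Set.mem_singleton_iff.1 hv ▸ hvw
  · rw [D.loc'_eq_loc₀'_of_not_above fun h => hw (hfin.mem_toFinset.2 ⟨D.u, rfl, h⟩)]
    exact hl w

/-- **A class with the eigenvalues of the target, spherical over `u`, is a target class.** -/
theorem exists_target_of_eigen {e : cuspClasses D.quot'} {μ : ℂ} (hμ : μ ≠ 0)
    (hbase : cuspOp D.quot' (fun _ => baseKer) (HKer.id _) e = μ • e)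
    (harch : ∀ (i : Fin 3) (k : RealProfile),
      cuspOp D.quot' (baseAt i (PPKer.comp k.toKer baseKer)) (HKer.id _) e =
        (PPKer.hat k.toKer 0 * μ) • e)
    (hgood : ∀ w : HeightOneSpectrum (𝓞 K'), w ∉ D.bad' → ¬IsAbove D.u w →
      cuspOp D.quot' (fun _ => baseKer) ((D.goodT' w).toHKer D.isLocal') e = (D.eig w * μ) • e)
    (ht : ∀ (w : HeightOneSpectrum (𝓞 K')) (h : IsAbove D.u w),
      cuspOp D.quot' (fun _ => baseKer)
          ((KerFamily.single w (iwTKer (D.map_loc'_of_above h))).toHKer D.isLocal') e =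
        ((Ideal.absNorm w.asIdeal : ℂ) * μ) • e)
    (haux : ∀ w : HeightOneSpectrum (𝓞 K'), IsAbove D.u w →
      cuspOp D.quot' (fun _ => baseKer) ((D.auxX' w).toHKer D.isLocal') e =
        ((Real.sqrt (Ideal.absNorm w.asIdeal) : ℂ) * D.eig w * μ) • e) :
    ∃ ψ : D.target, (e : Lp ℂ 2 D.quot'.ν) =ᵐ[D.quot'.ν]
      toSpace (Φ := Φ') (U := productLevel D.lev'.loc) ψ.1.1 := by
  classical
  rcases eq_or_ne e 0 with rfl | he
  · exact ⟨0, Lp.coeFn_zero ℂ 2 D.quot'.ν⟩
  obtain ⟨φ, hφ, hc⟩ := exists_isCuspEigen (ks := fun _ : Fin 3 => baseKer) isLipKernel_baseKer hμ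
    he hbase fun k₀ hk₀ hk₀c i hre => by
      have hr : Continuous fun t => (k₀ t).re := Complex.continuous_re.comp hk₀
      have hrc : HasCompactSupport fun t => (k₀ t).re := hk₀c.comp_left Complex.zero_re
      have hk : RealProfile.toKer ⟨fun t => (k₀ t).re, hr, hrc⟩ = PPKer.ofProfile k₀ hk₀ hk₀c :=
        ppker_ext fun p q => Complex.ext rfl (hre _).symm
      have := harch i ⟨fun t => (k₀ t).re, hr, hrc⟩
      rw [hk, PPKer.hat_ofProfile] at this
      exact this
  have h0 := hφ.eigen _ _ _ hbase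
  have hker : ∀ (f : HKer (productLevel D.lev'.loc)) (c : ℂ),
      cuspOp D.quot' (fun _ => baseKer) f e = (c * μ) • e → kerMap f φ = c • φ := fun f c h =>
    kerMap_eq_of_testOp hφ.sliceInt hμ h0 (hφ.eigen _ _ _ h)
  have htk : ∀ (w : HeightOneSpectrum (𝓞 K')) (h : IsAbove D.u w),
      kerMap ((KerFamily.single w (iwTKer (D.map_loc'_of_above h))).toHKer D.isLocal') φ =
        (Ideal.absNorm w.asIdeal : ℂ) • φ := fun w h => hker _ _ (ht w h)
  set ψ : (Fin 3 → HSpace) → GfK K' → ℂ :=
    fun τ g => φ (Space.mk τ (g : Yf (productLevel D.lev'.loc))) with hψ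
  have hU1 : productLevel D.lev'.loc ≤ principalLevel K' (1 : 𝓞 K') := D.lev'.level_le
  have hform : IsSForm Φ' D.bad' D.eig ψ :=
    { invariant := fun γ τ g => hc.invariant γ (Space.mk τ (g : Yf (productLevel D.lev'.loc)))
      center := fun τ g z hz => by simp only [hψ, mk_mul_of_mem_centerGf g hz]
      smooth := by
        obtain ⟨n, hn, hnU⟩ := D.exists_modulus
        exact ⟨n, hn, fun τ g u hu => D.apply_mk_mul_level₀ htk τ g (hnU hu)⟩
      continuous := fun g => hc.continuous _
      bounded := hc.bounded.imp fun _ hC τ g => hC _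
      cuspidal := fun g r hr => hc.cuspidal _ r hr
      spherical := fun k hk hkc i τ g =>
        hc.spherical k hk hkc i (Space.mk τ (g : Yf (productLevel D.lev'.loc)))
      hecke := fun w hw ϖ hϖ τ g => by
        by_cases hu : IsAbove D.u w
        · refine sum_nbrMatrix_of_iwX D.isLocal' (D.map_loc'_of_above hu) (htk w hu) ?_ hϖ τ g
          have h1 := hker _ _ (haux w hu)
          rwa [auxX', dif_pos hu, xKer'] at h1
        · obtain ⟨v, hv, hvw⟩ := D.exists_good_below hw hu
          have := finite_nbrIndex w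
          have := Fintype.ofFinite (𝓞 K' ⧸ w.asIdeal)
          have hQ : (Real.sqrt (Ideal.absNorm w.asIdeal) : ℂ) ≠ 0 := by
            rw [Ne, Complex.ofReal_eq_zero, Real.sqrt_eq_zero (Nat.cast_nonneg _), Nat.cast_eq_zero,
              Ideal.absNorm_eq_zero_iff]
            exact w.ne_bot
          have h1 := hker _ _ (hgood w hw hu)
          rw [D.goodT'_toHKer hv hvw hϖ] at h1
          replace h1 : (Real.sqrt (Ideal.absNorm w.asIdeal) : ℂ)⁻¹ •
              heckeOp (heckeMatrix K' ϖ) φ = D.eig w • φ := by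
            rw [← Complex.ofReal_inv,
              heckeOp_eq_kerMap (U := productLevel D.lev'.loc) D.lev'.isLevel]
            exact (kerMap_hkerSmul _ _ φ).symm.trans h1
          have h2 := congrFun h1 (Space.mk τ (g : Yf (productLevel D.lev'.loc)))
          rw [Pi.smul_apply, Pi.smul_apply, smul_eq_mul, smul_eq_mul, inv_mul_eq_iff_eq_mul₀ hQ,
            RankinSelberg.heckeOp_eq_sum hU1 (hasFullLocal_productLevel
              (le_of_eq (D.isFullAt_lev' hv hvw).symm)) hϖ, ← mul_assoc] at h2
          rw [finsum_eq_sum_of_fintype, Fintype.sum_option]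
          exact h2 }
  refine ⟨⟨⟨ψ, hform⟩, fun h hh => Subtype.ext (funext fun τ => funext fun g =>
    D.apply_mk_mul_level₀ htk τ g hh)⟩, ?_⟩
  filter_upwards [hφ.ae_eq] with x hx
  rw [hx]
  show φ x = φ (Space.mk x.pt ((Quotient.out x.fin : GfK K') : Yf (productLevel D.lev'.loc)))
  rw [show ((Quotient.out x.fin : GfK K') : Yf (productLevel D.lev'.loc)) = x.fin from
    Quotient.out_eq x.fin, Space.mk_pt_fin]

theorem ofReal_eig_re {w : HeightOneSpectrum (𝓞 K')} (hw : w ∉ D.bad') :
    ((D.eig w).re : ℂ) = D.eig w :=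
  Complex.ext (Complex.ofReal_re _) (by rw [Complex.ofReal_im, D.eig_real w hw])

theorem toHKer_one' : (KerFamily.one D.lev'.loc).toHKer D.isLocal' = HKer.id _ :=
  KerFamily.toHKer_one D.isLocal'

/-- The same from the values of the atoms: **the classes of the target are all such classes.** -/
theorem exists_targetClass_eq {e : cuspClasses D.quot'} (he : e ∈ D.targetSpace)
    (ht : ∀ (w : HeightOneSpectrum (𝓞 K')) (h : IsAbove D.u w),
      cuspOp D.quot' (fun _ => baseKer)
          ((KerFamily.single w (iwTKer (D.map_loc'_of_above h))).toHKer D.isLocal') e =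
        ((targetMu : ℂ) * (Ideal.absNorm w.asIdeal : ℂ)) • e) :
    ∃ φ : D.target, D.targetClass φ = e := by
  obtain ⟨hb, hj⟩ := mem_jointSpace.1 he
  obtain ⟨ψ, hψ⟩ : ∃ ψ : D.target, (e : Lp ℂ 2 D.quot'.ν) =ᵐ[D.quot'.ν]
      toSpace (Φ := Φ') (U := productLevel D.lev'.loc) ψ.1.1 := by
    refine D.exists_target_of_eigen (Complex.ofReal_ne_zero.2 targetMu_ne_zero) ?_ (fun i k => ?_)
      (fun w hw hu => ?_) (fun w h => by rw [mul_comm]; exact ht w h) fun w hu => ?_
    · rwa [op'_base] at hb
    · have h1 : cuspOp D.quot' (baseAt i (PPKer.comp k.toKer baseKer))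
          ((KerFamily.one D.lev'.loc).toHKer D.isLocal') e =
          ((targetMu * (PPKer.hat k.toKer 0).re : ℝ) : ℂ) • e := hj (.arch i k)
      obtain ⟨c, hc⟩ := exists_hat_realKer k.1 k.2.1 k.2.2
      have hk : PPKer.hat k.toKer 0 = (c : ℂ) := hc
      rw [toHKer_one', hk, Complex.ofReal_mul, Complex.ofReal_re, mul_comm] at h1
      rw [hk]
      exact h1
    · have h1 : cuspOp D.quot' (fun _ => baseKer) ((D.goodT' w).toHKer D.isLocal') e =
          ((targetMu * (D.eig w).re : ℝ) : ℂ) • e := hj (.good ⟨w, D.exists_good_below hw hu⟩)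
      rw [Complex.ofReal_mul, D.ofReal_eig_re hw, mul_comm] at h1
      exact h1
    · have h1 : cuspOp D.quot' (fun _ => baseKer) ((D.auxX' w).toHKer D.isLocal') e =
          ((targetMu * (Real.sqrt (Ideal.absNorm D.u.asIdeal) * (D.eig w).re) : ℝ) : ℂ) • e :=
        hj (.aux ⟨w, hu⟩)
      rw [Complex.ofReal_mul, Complex.ofReal_mul,
        D.ofReal_eig_re (D.notMem_bad'_of_above hu), ← D.absNorm_above hu, mul_comm] at h1
      exact h1
  exact ⟨ψ, Subtype.ext (Lp.ext ((D.coeFn_targetClass ψ).trans hψ.symm))⟩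

/-! ### The classes of the target -/

/-- A test operator on a class of the target. -/
theorem cuspOp_targetClass_eq {k : Fin 3 → PPKer} {f : HKer (productLevel D.lev'.loc)}
    {φ : D.target} {a c : ℂ}
    (ha : archOp k (toSpace (Φ := Φ') (U := productLevel D.lev'.loc) φ.1.1) = a • toSpace φ.1.1)
    (hf : kerMap f (toSpace (Φ := Φ') (U := productLevel D.lev'.loc) φ.1.1) = c • toSpace φ.1.1) :
    cuspOp D.quot' k f (D.targetClass φ) = (a * c) • D.targetClass φ := by
  obtain ⟨hm, hi, h2⟩ := D.targetSpace_props φ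
  refine Subtype.ext (Lp.ext ?_)
  refine (coeFn_cuspOp _ _ hm hi (D.coeFn_targetClass φ)).trans ?_
  refine EventuallyEq.trans (EventuallyEq.of_eq ?_) ((Lp.coeFn_smul _ _).trans
    ((D.coeFn_targetClass φ).const_smul _)).symm
  rw [testOp_eq_kerMap _ _ (sliceInt_of_memLp hm hi h2), ha, kerMap_smul, hf, smul_smul]

theorem archOp_base_toSpace (φ : D.target) :
    archOp (fun _ : Fin 3 => baseKer) (toSpace (Φ := Φ') (U := productLevel D.lev'.loc) φ.1.1) =
      (targetMu : ℂ) • toSpace φ.1.1 := by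
  refine (archOp_eq_of_isSphericalEigen
    (φ := toSpace (Φ := Φ') (U := productLevel D.lev'.loc) φ.1.1)
    (fun k hk hc i x => φ.1.2.spherical k hk hc i x.pt (Quotient.out x.fin))
    (φ.1.2.bounded.imp fun _ hC x => hC _ _) (fun y => φ.1.2.continuous (Quotient.out y))
    (fun _ u => (baseProfile u : ℂ))
    (fun _ => Complex.continuous_ofReal.comp lipschitzWith_baseProfile.continuous)
    (fun _ => hasCompactSupport_baseProfile.comp_left Complex.ofReal_zero)).trans ?_
  congr 1
  rw [Finset.prod_const, Finset.card_univ, Fintype.card_fin, targetMu, Complex.ofReal_pow,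
    coe_baseHat, baseKer, realKer, PPKer.hat_ofProfile]

theorem archOp_baseAt_toSpace (φ : D.target) (i : Fin 3) (k : RealProfile) :
    archOp (baseAt i (PPKer.comp k.toKer baseKer))
        (toSpace (Φ := Φ') (U := productLevel D.lev'.loc) φ.1.1) =
      (PPKer.hat k.toKer 0 * (targetMu : ℂ)) • toSpace φ.1.1 := by
  obtain ⟨hm, hi, h2⟩ := D.targetSpace_props φ
  have h1 := pointPairOp_archOp (Complex.continuous_ofReal.comp k.2.1)
    (k.2.2.comp_left Complex.ofReal_zero) (fun _ : Fin 3 => baseKer) i (sliceInt_of_memLp hm hi h2)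
  refine Eq.trans h1.symm ?_
  funext x
  rw [D.archOp_base_toSpace φ]
  simp only [pointPairOp, Pi.smul_apply, smul_eq_mul, mul_left_comm _ (targetMu : ℂ),
    integral_const_mul]
  rw [RealProfile.toKer, realKer, PPKer.hat_ofProfile, mul_assoc]
  refine (congrArg ((targetMu : ℂ) * ·) ?_).trans (mul_left_comm _ _ _)
  exact φ.1.2.spherical _ (Complex.continuous_ofReal.comp k.2.1)
    (k.2.2.comp_left Complex.ofReal_zero) i x.pt (Quotient.out x.fin)

theorem toSpace_target_mul (φ : D.target) (τ : Fin 3 → HSpace) (g : GfK K') {h : GfK K'}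
    (hh : h ∈ D.lev₀'.level) :
    toSpace (Φ := Φ') (U := productLevel D.lev'.loc) φ.1.1
        (Space.mk τ ((g * h : GfK K') : Yf (productLevel D.lev'.loc))) =
      toSpace (Φ := Φ') φ.1.1 (Space.mk τ (g : Yf (productLevel D.lev'.loc))) := by
  rw [toSpace_mk φ.1.2 (D.fixed_lev' φ.2), toSpace_mk φ.1.2 (D.fixed_lev' φ.2),
    D.invariant_of_mem_target φ.2 τ g h hh]

theorem kerMap_iwT_target (φ : D.target) {w : HeightOneSpectrum (𝓞 K')} (h : IsAbove D.u w) :
    kerMap ((KerFamily.single w (iwTKer (D.map_loc'_of_above h))).toHKer D.isLocal')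
        (toSpace (Φ := Φ') (U := productLevel D.lev'.loc) φ.1.1) =
      (Ideal.absNorm w.asIdeal : ℂ) • toSpace φ.1.1 := by
  refine kerMap_iwT_of_invariant D.isLocal' _ fun τ g p hp hint =>
    D.toSpace_target_mul φ τ g ((mem_productLevel _).2 fun x => ?_)
  rcases eq_or_ne x w with rfl | hx
  · rw [D.lev₀'.loc_of_good (D.notMem_bad'_of_above h) (Set.notMem_empty x)]
    exact hint
  · rw [hp x hx]; exact one_mem _

theorem kerMap_auxX'_target (φ : D.target) {w : HeightOneSpectrum (𝓞 K')} (h : IsAbove D.u w) :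
    kerMap ((D.auxX' w).toHKer D.isLocal')
        (toSpace (Φ := Φ') (U := productLevel D.lev'.loc) φ.1.1) =
      ((Real.sqrt (Ideal.absNorm D.u.asIdeal) : ℂ) * ((D.eig w).re : ℂ)) • toSpace φ.1.1 := by
  obtain ⟨ϖ, hϖ⟩ := exists_uniformiser w
  rw [auxX', dif_pos h, xKer', D.ofReal_eig_re (D.notMem_bad'_of_above h), ← D.absNorm_above h]
  funext x
  obtain ⟨g, hg⟩ := QuotientGroup.mk_surjective x.fin
  rw [← Space.mk_pt_fin x, ← hg,
    kerMap_iwX_eq_sum D.isLocal' (D.map_loc'_of_above h) (D.kerMap_iwT_target φ h) hϖ,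
    Pi.smul_apply, smul_eq_mul]
  simp only [toSpace_mk φ.1.2 (D.fixed_lev' φ.2)]
  exact φ.1.2.hecke w (D.notMem_bad'_of_above h) ϖ hϖ x.pt g

theorem kerMap_goodT'_target (φ : D.target) {w : HeightOneSpectrum (𝓞 K')}
    (h : ∃ v ∈ D.good, IsAbove v w) :
    kerMap ((D.goodT' w).toHKer D.isLocal')
        (toSpace (Φ := Φ') (U := productLevel D.lev'.loc) φ.1.1) =
      ((D.eig w).re : ℂ) • toSpace φ.1.1 := by
  obtain ⟨v, hv, hvw⟩ := h
  obtain ⟨ϖ, hϖ⟩ := exists_uniformiser w
  have hb : w ∉ D.bad' := fun hb => hv.1 ((D.mem_bad'_iff hvw).1 hb)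
  have hw : w ∉ D.wideBad' := by
    rintro (hb' | ⟨v', hv', hw'⟩)
    · exact hb hb'
    · exact hv.2 ((isAbove_unique hvw hw').trans (Set.mem_singleton_iff.1 hv'))
  have hQ : (Real.sqrt (Ideal.absNorm w.asIdeal) : ℂ) ≠ 0 := by
    rw [Ne, Complex.ofReal_eq_zero, Real.sqrt_eq_zero (Nat.cast_nonneg _), Nat.cast_eq_zero,
      Ideal.absNorm_eq_zero_iff]
    exact w.ne_bot
  rw [D.goodT'_toHKer hv hvw hϖ, D.ofReal_eig_re hb]
  refine (kerMap_hkerSmul _ _ _).trans ?_
  refine (congrArg _ (D.kerMap_hecke_target φ hw hϖ)).trans ?_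
  rw [smul_smul, Complex.ofReal_inv, inv_mul_cancel_left₀ hQ]

/-- **The classes of the target have its eigenvalues.** -/
theorem targetClass_mem_targetSpace (φ : D.target) : D.targetClass φ ∈ D.targetSpace := by
  have hid := kerMap_id (toSpace (Φ := Φ') (U := productLevel D.lev'.loc) φ.1.1)
  refine mem_jointSpace.2 ⟨?_, fun j => ?_⟩
  · rw [op'_base, D.cuspOp_targetClass_eq (D.archOp_base_toSpace φ) (c := 1)
      (hid.trans (one_smul ℂ _).symm), mul_one]
  · cases j with
    | base =>
      show cuspOp D.quot' (fun _ => baseKer) ((KerFamily.one D.lev'.loc).toHKer D.isLocal')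
        (D.targetClass φ) = (targetMu : ℂ) • D.targetClass φ
      rw [toHKer_one', D.cuspOp_targetClass_eq (D.archOp_base_toSpace φ) (c := 1)
        (hid.trans (one_smul ℂ _).symm), mul_one]
    | good w =>
      show cuspOp D.quot' (fun _ => baseKer) ((D.goodT' w).toHKer D.isLocal')
        (D.targetClass φ) = ((targetMu * (D.eig w).re : ℝ) : ℂ) • D.targetClass φ
      rw [D.cuspOp_targetClass_eq (D.archOp_base_toSpace φ) (D.kerMap_goodT'_target φ w.2),
        Complex.ofReal_mul]
    | aux w =>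
      show cuspOp D.quot' (fun _ => baseKer) ((D.auxX' w).toHKer D.isLocal')
        (D.targetClass φ) = ((targetMu * (Real.sqrt (Ideal.absNorm D.u.asIdeal) * (D.eig w).re) :
          ℝ) : ℂ) • D.targetClass φ
      rw [D.cuspOp_targetClass_eq (D.archOp_base_toSpace φ) (D.kerMap_auxX'_target φ w.2),
        Complex.ofReal_mul, Complex.ofReal_mul]
    | arch i k =>
      show cuspOp D.quot' (baseAt i (PPKer.comp k.toKer baseKer))
        ((KerFamily.one D.lev'.loc).toHKer D.isLocal') (D.targetClass φ) =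
          ((targetMu * (PPKer.hat k.toKer 0).re : ℝ) : ℂ) • D.targetClass φ
      rw [toHKer_one', D.cuspOp_targetClass_eq (D.archOp_baseAt_toSpace φ i k) (c := 1)
        (hid.trans (one_smul ℂ _).symm), mul_one]
      obtain ⟨c, hc⟩ := exists_hat_realKer k.1 k.2.1 k.2.2
      have hk : PPKer.hat k.toKer 0 = (c : ℂ) := hc
      rw [Complex.ofReal_mul, hk, Complex.ofReal_re, mul_comm]

/-- **`t` acts by `q` on the classes of the target.** -/
theorem cuspOp_iwT_targetClass (φ : D.target) {w : HeightOneSpectrum (𝓞 K')}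
    (h : IsAbove D.u w) :
    cuspOp D.quot' (fun _ => baseKer)
        ((KerFamily.single w (iwTKer (D.map_loc'_of_above h))).toHKer D.isLocal')
        (D.targetClass φ) =
      ((targetMu : ℂ) * (Ideal.absNorm w.asIdeal : ℂ)) • D.targetClass φ :=
  D.cuspOp_targetClass_eq (D.archOp_base_toSpace φ) (D.kerMap_iwT_target φ h)

end GenData

end Fermat.Agent.Extra.LTGen

end
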