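/-
The class of the target upstairs has a nonzero twisted trace against some matched pair living at
the bad places.
-/
import Fermat.Agent.Extra.LTGen.Descent.TargetIwahori
import Fermat.Agent.Extra.LTGen.Descent.TargetMap
import Fermat.Agent.Extra.LTGen.Descent.TargetSurj
import Fermat.Agent.Extra.LTGen.Descent.DeepKer

set_option autoImplicit false

noncomputable section

namespace Fermat.Agent.Extra.LTGen

open Fermat.Agent.LT Fermat.Agent.LT.Descent

open IsDedekindDomain IsDedekindDomain.HeightOneSpectrum Matrix NumberField Module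
open Fermat.Agent.LT.Adelic Fermat.Agent.LT.Aleph Fermat.Agent.LT.Tame Fermat.Agent.LT.Spectral
open Fermat.Agent.LT.Descent.Places
open scoped MatrixGroups

namespace GenData

variable {K : Type*} [Field K] [NumberField K] {K' : Type*} [Field K'] [NumberField K']
  [Algebra K K'] {Φ : Frame K Unit} {Φ' : Frame K' (Fin 3)} {tw : CubicTwist Φ Φ'}
  (D : GenData tw)

/-! ### The pair at the bad places -/

/-- A split place over a bad place that is not deep. -/
theorem splitPlace_bad {v : HeightOneSpectrum (𝓞 K)} (hv : v ∈ D.bad)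
    (hd : v ∉ D.base.deepPlaces) : IsSplit tw.σ v ∧ SplitPlace tw.σ v (D.aboveOf v) :=
  have hs : IsSplit tw.σ v := by
    by_contra h
    exact hd ⟨hv, h⟩
  ⟨hs, ⟨D.gen.order_three, D.gen.fixed, D.isAbove_aboveOf v, hs _ (D.isAbove_aboveOf v)⟩⟩

section Below

variable (k' : KerFamily D.lev'.loc) (hN : ∀ w ∈ D.base.deep', Deep.DeepAt w D.deep.N₀)
  (hk : ∀ w ∈ D.base.deep', Deep.DeepPlace.IsDeepKer w D.deep.N₀ D.deep.N₁ (k'.ker w))

open Classical in
/-- The family below of a family upstairs at the bad places: transfers at the deep places,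
products of three at the split ones and one elsewhere. -/
def badBelow : KerFamily D.lev.loc where
  ker v := if h : v ∈ D.base.deepPlaces then
      (D.deepPlace h (D.isAbove_aboveOf v)).transfer (D.depth (hN _ ⟨v, h, D.isAbove_aboveOf v⟩))
        (D.map_loc_deep h) (D.map_loc'_deep h (D.isAbove_aboveOf v))
        (hk _ ⟨v, h, D.isAbove_aboveOf v⟩)
    else if hv : v ∈ D.bad then
      (D.splitPlace_bad hv h).2.pullKer (D.isSplitLevel (D.splitPlace_bad hv h).1) (k'.ker _) *
        ((D.splitPlace_bad hv h).2.next.pullKer (D.isSplitLevel (D.splitPlace_bad hv h).1)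
            (k'.ker _) *
          (D.splitPlace_bad hv h).2.next.next.pullKer (D.isSplitLevel (D.splitPlace_bad hv h).1)
            (k'.ker _))
    else 1
  eventually_one := D.finite_bad.compl_mem_cofinite |>
    Filter.mem_of_superset <| fun v hv => by
      show dite _ _ _ = _
      rw [dif_neg fun h => hv h.1, dif_neg hv]
      rfl

theorem badBelow_ker_deep {v : HeightOneSpectrum (𝓞 K)} (h : v ∈ D.base.deepPlaces) :
    (D.badBelow k' hN hk).ker v =
      (D.deepPlace h (D.isAbove_aboveOf v)).transfer (D.depth (hN _ ⟨v, h, D.isAbove_aboveOf v⟩))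
        (D.map_loc_deep h) (D.map_loc'_deep h (D.isAbove_aboveOf v))
        (hk _ ⟨v, h, D.isAbove_aboveOf v⟩) :=
  dif_pos h

theorem isBadPart_badBelow (hoff : ∀ w ∉ D.bad', k'.ker w = 1) :
    D.IsBadPart (D.badBelow k' hN hk) k' where
  off v hv := by
    classical
    show dite _ _ _ = _
    rw [dif_neg fun h => hv h.1, dif_neg hv]
  off' := hoff
  deep v hv := D.isDeepPair_of hv (D.isAbove_aboveOf v) (hN _ ⟨v, hv, D.isAbove_aboveOf v⟩)
    (hk _ ⟨v, hv, D.isAbove_aboveOf v⟩) (D.badBelow_ker_deep k' hN hk hv)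
  matched v := by
    classical
    by_cases hd : v ∈ D.base.deepPlaces
    · exact ⟨fun _ => Or.inr
          (D.isDeepPair_of hd (D.isAbove_aboveOf v) (hN _ ⟨v, hd, D.isAbove_aboveOf v⟩)
            (hk _ ⟨v, hd, D.isAbove_aboveOf v⟩) (D.badBelow_ker_deep k' hN hk hd)),
        fun hb => absurd hd.1 hb, fun hs => absurd hs hd.2⟩
    by_cases hb : v ∈ D.bad
    · refine ⟨fun h => absurd h hd, fun h => absurd hb h,
        fun _ => ⟨_, (D.splitPlace_bad hb hd).2, ?_⟩⟩
      show dite _ _ _ = _
      rw [dif_neg hd, dif_pos hb]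
    · refine IsTrivialAt.isMatchedAt ⟨?_, fun w hw => hoff w (mt (D.mem_bad'_iff hw).1 hb)⟩
      show dite _ _ _ = _
      rw [dif_neg hd, dif_neg hb]

end Below

/-- The local matrices of an element at the bad places. -/
def splitFam (g : gfSupported D.bad') : KerFamily D.lev'.loc :=
  KerFamily.ofDoubleCoset D.isLocal' D.lev'.isLevel (g : GfK K')

theorem splitFam_off {g : gfSupported D.bad'} {w : HeightOneSpectrum (𝓞 K')}
    (h1 : localGL K' w (g : GfK K') = 1) : (D.splitFam g).ker w = 1 := by
  have hmem : localPGL w (g : GfK K') ∈ (D.lev'.loc w).map ProjGenLinGroup.mk := by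
    rw [localPGL, MonoidHom.comp_apply, h1, map_one]
    exact one_mem _
  refine LKer.ext' fun a c => ?_
  simp only [splitFam, KerFamily.ofDoubleCoset]
  rw [LKer.ofNbrs_apply, cosetNbrs_of_mem hmem, LKer.one_def]
  by_cases h : a = c
  · subst h
    rw [Set.indicator_of_mem (Set.mem_singleton a), LKer.one_apply_self]
    rfl
  · rw [Set.indicator_of_notMem (by rwa [Set.mem_singleton_iff, eq_comm]), LKer.one_apply_ne h]

theorem nbrs_ncard_ne_zero (g : GfK K') :
    ((nbrs g ((1 : GfK K') : Yf (productLevel D.lev'.loc))).ncard : ℂ) ≠ 0 := by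
  refine Nat.cast_ne_zero.2 (Set.ncard_ne_zero_of_mem
    (a := ((1 * 1 * g : GfK K') : Yf (productLevel D.lev'.loc))) ?_ (finite_nbrs D.lev'.isLevel _ _))
  rw [nbrs_mk]
  exact ⟨1, one_mem _, rfl⟩

/-- The double coset at the split bad places with the characters at the deep places. -/
def pairFam (g : gfSupported D.bad') : KerFamily D.lev'.loc := (D.splitFam g).comp D.deepFam

theorem pairFam_off (g : gfSupported D.bad') {w : HeightOneSpectrum (𝓞 K')} (hw : w ∉ D.bad') :
    (D.pairFam g).ker w = 1 := by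
  show (D.splitFam g).ker w * D.deepFam.ker w = 1
  rw [D.splitFam_off (g.2 w hw),
    D.deepFam_off w fun h => hw (D.base.deep'_subset_bad' h), one_mul]

theorem isDeepKer_pairFam {g : gfSupported D.bad'} (hg : g ∈ D.splitPart)
    (w : HeightOneSpectrum (𝓞 K')) (hw : w ∈ D.base.deep') :
    Deep.DeepPlace.IsDeepKer w D.deep.N₀ D.deep.N₁ ((D.pairFam g).ker w) := by
  have e : (D.pairFam g).ker w = D.deepFam.ker w := by
    show (D.splitFam g).ker w * D.deepFam.ker w = D.deepFam.ker w
    rw [D.splitFam_off (hg w hw), one_mul]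
  rw [e]
  exact D.isDeepKer_deepFam w hw

/-- The pair at the bad places on the target classes. -/
theorem op'_pairFam_targetClass {e : D.forms →ₗ[ℂ] D.forms}
    (hJ : IsLevelProj D.formsRep e D.target)
    (he : ∀ φ H, IsStab D.formsRep D.targetGroup H φ → e φ = avgOver D.formsRep D.targetGroup H φ)
    (k : KerFamily D.lev.loc) (g : gfSupported D.bad') (φ : D.target) :
    (D.withFam k (D.pairFam g)).op' (D.targetClass φ) =
      ((targetMu : ℂ) * ((nbrs (g : GfK K') ((1 : GfK K') :
          Yf (productLevel D.lev'.loc))).ncard : ℂ)) •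
        D.targetClass ((levelOp hJ g * D.deepEnd) φ) := by
  show cuspOp D.quot' (fun _ => baseKer) ((D.pairFam g).toHKer D.isLocal') (D.targetClass φ) = _
  refine (D.cuspOp_targetClass (fun _ => baseProfile)
    (fun _ => lipschitzWith_baseProfile.continuous) (fun _ => hasCompactSupport_baseProfile) _
    (φ' := (levelOp hJ g * D.deepEnd) φ)
    (c := ((nbrs (g : GfK K') ((1 : GfK K') : Yf (productLevel D.lev'.loc))).ncard : ℂ)) ?_).trans ?_
  · rw [pairFam, KerFamily.toHKer_comp, kerMap_comp, D.kerMap_deepFam_target φ,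
      show (D.splitFam g).toHKer D.isLocal' = HKer.ofDoubleCoset D.quot'.level (g : GfK K') from
        (ofDoubleCoset_eq_toHKer D.isLocal' D.lev'.isLevel _).symm,
      D.kerMap_supported_target hJ he g (D.deepEnd φ)]
    rfl
  · rw [Finset.prod_const, Finset.card_univ, Fintype.card_fin, targetMu, Complex.ofReal_pow,
      coe_baseHat, baseKer]

/-! ### The twist and the three places -/

theorem finiteDimensional_targetSpace : FiniteDimensional ℂ D.targetSpace :=
  (hasCuspBound_of_lip (D := D.quot') isLipKernel_baseKer (HKer.id _)).finiteDimensional_eigen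
    (Complex.ofReal_ne_zero.2 targetMu_ne_zero) D.targetSpace fun e he => by
      rw [← op'_base, D.base_op'_apply_target he]

theorem commute_op'_placeOp {k : KerFamily D.lev.loc} {k' : KerFamily D.lev'.loc}
    (hk : ∀ w ∉ D.bad', k'.ker w = 1) {w : HeightOneSpectrum (𝓞 K')}
    (h : IsAbove D.u w) (l : LKer PGL(2, w.adicCompletion K') (LocY D.lev'.loc w)) :
    Commute (D.withFam k k').op' (D.placeOp w l) :=
  (commute_singleOp_cuspOp D.isLocal' _ _ w l (g := k') (by
    rw [hk w (D.notMem_bad'_of_above h)]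
    exact Commute.one_left l)).symm

/-- An operator intertwining two matrices intertwines their ends. -/
theorem restrict_mul_placeAlg {A : cuspClasses D.quot' →L[ℂ] cuspClasses D.quot'}
    (hA : Set.MapsTo A D.targetSpace D.targetSpace) {w w' : HeightOneSpectrum (𝓞 K')}
    (h : IsAbove D.u w) (h' : IsAbove D.u w') (l : Subalgebra.centralizer ℂ {D.xKer' h})
    (l' : Subalgebra.centralizer ℂ {D.xKer' h'})
    (hl : A * D.placeOp w l.1 = D.placeOp w' l'.1 * A) :
    LinearMap.restrict (A : cuspClasses D.quot' →ₗ[ℂ] cuspClasses D.quot') hA * D.placeAlg h l =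
      D.placeAlg h' l' *
        LinearMap.restrict (A : cuspClasses D.quot' →ₗ[ℂ] cuspClasses D.quot') hA := by
  refine LinearMap.ext fun e => Subtype.ext ?_
  show A ((targetMu : ℂ)⁻¹ • D.placeOp w l.1 e.1) = (targetMu : ℂ)⁻¹ • D.placeOp w' l'.1 (A e.1)
  rw [map_smul]
  exact congrArg (fun x => (targetMu : ℂ)⁻¹ • x)
    (congrArg (fun f : cuspClasses D.quot' →L[ℂ] cuspClasses D.quot' => f e.1) hl)

/-- The pair over `3` with the twist moves `t` and `w` to the next place. -/
theorem mul_twist_mul_placeOp {k : KerFamily D.lev.loc} {k' : KerFamily D.lev'.loc}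
    (hk : ∀ w ∉ D.bad', k'.ker w = 1) {w w' : HeightOneSpectrum (𝓞 K')}
    (h : IsAbove D.u w) (h' : IsAbove D.u w') (e : w' = permTwice (tw := tw) w) :
    ((D.withFam k k').op' * D.twist) * D.placeOp w (D.tMem h).1 =
        D.placeOp w' (D.tMem h').1 * ((D.withFam k k').op' * D.twist) ∧
      ((D.withFam k k').op' * D.twist) * D.placeOp w (D.wMem h).1 =
        D.placeOp w' (D.wMem h').1 * ((D.withFam k k').op' * D.twist) := by
  subst e
  have key : ∀ A T P P' : cuspClasses D.quot' →L[ℂ] cuspClasses D.quot',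
      T * P = P' * T → A * P' = P' * A → A * T * P = P' * (A * T) := fun A T P P' h1 h2 => by
    rw [mul_assoc, h1, ← mul_assoc, h2, mul_assoc]
  exact ⟨key _ _ _ _ (D.twist_mul_placeOp_t h h')
      (D.commute_op'_placeOp (k := k) hk h' (D.tMem h').1).eq,
    key _ _ _ _ (D.twist_mul_placeOp_w h h')
      (D.commute_op'_placeOp (k := k) hk h' (D.wMem h').1).eq⟩

/-- The spherical part of the target classes. -/
abbrev spherPart : Submodule ℂ D.targetSpace :=
  ⨅ i : ZMod 3, End.eigenspace (D.tEnd (D.isAbove_uPlace i)) (Ideal.absNorm D.u.asIdeal : ℂ)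

/-- The target inside the spherical part. -/
def targetToSpher : D.target →ₗ[ℂ] D.spherPart :=
  LinearMap.codRestrict _ (LinearMap.codRestrict D.targetSpace D.targetClass
    D.targetClass_mem_targetSpace) fun φ => (Submodule.mem_iInf _).2 fun i => by
      refine End.mem_eigenspace_iff.2 (Subtype.ext ?_)
      show (targetMu : ℂ)⁻¹ • D.placeOp (D.uPlace i) (D.tMem (D.isAbove_uPlace i)).1
        (D.targetClass φ) = (Ideal.absNorm D.u.asIdeal : ℂ) • D.targetClass φ
      refine (congrArg (fun x => (targetMu : ℂ)⁻¹ • x)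
        (D.cuspOp_iwT_targetClass φ (D.isAbove_uPlace i))).trans ?_
      rw [smul_smul, inv_mul_cancel_left₀ (Complex.ofReal_ne_zero.2 targetMu_ne_zero),
        D.absNorm_above (D.isAbove_uPlace i)]

theorem coe_targetToSpher (φ : D.target) :
    ((D.targetToSpher φ : D.spherPart) : D.targetSpace).1 = D.targetClass φ := rfl

set_option maxHeartbeats 400000 in
theorem bijective_targetToSpher : Function.Bijective D.targetToSpher := by
  refine ⟨fun φ ψ h => D.targetClass_injective ?_, fun x => ?_⟩
  · rw [← D.coe_targetToSpher φ, ← D.coe_targetToSpher ψ, h]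
  · have hx := (Submodule.mem_iInf _).1 x.2
    have key : ∀ i, D.placeOp (D.uPlace i) (iwTKer (D.map_loc'_of_above (D.isAbove_uPlace i)))
        x.1.1 = ((targetMu : ℂ) * (Ideal.absNorm D.u.asIdeal : ℂ)) • x.1.1 := fun i => by
      have h1 : (D.tEnd (D.isAbove_uPlace i) x.1 : cuspClasses D.quot') =
          (Ideal.absNorm D.u.asIdeal : ℂ) • x.1.1 :=
        (congrArg Subtype.val (End.mem_eigenspace_iff.1 (hx i))).trans (Submodule.coe_smul _ _)
      rw [tEnd, D.coe_placeAlg, inv_smul_eq_iff₀ (Complex.ofReal_ne_zero.2 targetMu_ne_zero),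
        smul_smul] at h1
      exact h1
    obtain ⟨φ, hφ⟩ := D.exists_targetClass_eq (e := x.1.1) x.1.2 fun w hw => by
      obtain ⟨i, rfl⟩ := D.exists_uPlace_eq hw
      rw [D.absNorm_above hw, ← singleOp_apply (D := D.quot')]
      exact key i
    exact ⟨φ, Subtype.ext (Subtype.ext hφ)⟩

theorem trace_eq_trace_of_bijective {R M N : Type*} [CommRing R] [AddCommGroup M] [Module R M]
    [AddCommGroup N] [Module R N] (L : M →ₗ[R] N) (hL : Function.Bijective L) (B : Module.End R N)
    (C : Module.End R M) (h : ∀ φ, B (L φ) = L (C φ)) :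
    LinearMap.trace R N B = LinearMap.trace R M C := by
  have e : B = (LinearEquiv.ofBijective L hL).conj C := LinearMap.ext fun x => by
    obtain ⟨φ, rfl⟩ := (LinearEquiv.ofBijective L hL).surjective x
    rw [LinearEquiv.conj_apply_apply, LinearEquiv.symm_apply_apply]
    exact h φ
  rw [e, LinearMap.trace_conj']

section Pair

variable {k : KerFamily D.lev.loc} {k' : KerFamily D.lev'.loc}
  (h : Set.MapsTo ((D.withFam k k').op' * D.twist) D.targetSpace D.targetSpace)

/-- The pair followed by the twist, on the target classes. -/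
def pairEnd : Module.End ℂ D.targetSpace :=
  LinearMap.restrict (((D.withFam k k').op' * D.twist :
    cuspClasses D.quot' →L[ℂ] cuspClasses D.quot') :
      cuspClasses D.quot' →ₗ[ℂ] cuspClasses D.quot') h

theorem coe_pairEnd (e : D.targetSpace) :
    (D.pairEnd h e : cuspClasses D.quot') = (D.withFam k k').op' (D.twist e.1) := rfl

variable (hk : ∀ w ∉ D.bad', k'.ker w = 1)
include hk

theorem pairEnd_mul_tEnd (i : ZMod 3) :
    D.pairEnd h * D.tEnd (D.isAbove_uPlace i) =
      D.tEnd (D.isAbove_uPlace (i + 1)) * D.pairEnd h :=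
  D.restrict_mul_placeAlg h _ _ _ _
    (D.mul_twist_mul_placeOp hk _ _ (D.uPlace_succ i)).1

theorem pairEnd_mul_wEnd (i : ZMod 3) :
    D.pairEnd h * D.wEnd (D.isAbove_uPlace i) =
      D.wEnd (D.isAbove_uPlace (i + 1)) * D.pairEnd h :=
  D.restrict_mul_placeAlg h _ _ _ _
    (D.mul_twist_mul_placeOp hk _ _ (D.uPlace_succ i)).2

theorem mapsTo_pairEnd : Set.MapsTo (D.pairEnd h) D.spherPart D.spherPart :=
  have := D.finiteDimensional_targetSpace
  mapsTo_spherical (Ideal.absNorm D.u.asIdeal : ℂ) (fun i => D.tEnd (D.isAbove_uPlace i))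
    (D.pairEnd h) (D.pairEnd_mul_tEnd h hk)

theorem trace_pairEnd : LinearMap.trace ℂ D.targetSpace (D.pairEnd h) =
    2 * LinearMap.trace ℂ D.spherPart
      (LinearMap.restrict (D.pairEnd h) (D.mapsTo_pairEnd h hk)) := by
  have := D.finiteDimensional_targetSpace
  have hne : ∀ i j, i ≠ j → D.uPlace i ≠ D.uPlace j := fun i j hij he' =>
    hij (D.uPlace_injective he')
  have hc : ∀ (i j : ZMod 3) (l : ∀ i, Subalgebra.centralizer ℂ {D.xKer' (D.isAbove_uPlace i)}),
      Commute (D.placeAlg _ (l i)) (D.placeAlg _ (l j)) := fun i j l => by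
    rcases eq_or_ne i j with rfl | hij
    · exact Commute.refl _
    · exact D.commute_placeAlg _ _ (hne i j hij) _ _
  exact trace_eq_two_mul_trace_spherical (Ideal.absNorm D.u.asIdeal : ℂ) (D.targetXVal : ℂ)
    (fun i => D.tEnd (D.isAbove_uPlace i)) (fun i => D.wEnd (D.isAbove_uPlace i))
    (fun i => D.isIwahoriPair_end _) (fun i => D.iwahoriX_end _) D.sq_targetXVal_ne
    (Nat.cast_add_one_ne_zero _) (fun i j => hc i j fun i => D.tMem (D.isAbove_uPlace i))
    (fun i j hij => D.commute_placeAlg _ _ (hne i j hij) _ _)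
    (fun i j => hc i j fun i => D.wMem (D.isAbove_uPlace i))
    (D.pairEnd h) (D.pairEnd_mul_tEnd h hk) (D.pairEnd_mul_wEnd h hk) (D.mapsTo_pairEnd h hk)

end Pair

/-- The pair at the bad places with the twist, on the spherical part. -/
theorem pairEnd_targetToSpher {e : D.forms →ₗ[ℂ] D.forms}
    (hJ : IsLevelProj D.formsRep e D.target)
    (he : ∀ φ H, IsStab D.formsRep D.targetGroup H φ → e φ = avgOver D.formsRep D.targetGroup H φ)
    {k : KerFamily D.lev.loc} (g : gfSupported D.bad')
    (h : Set.MapsTo ((D.withFam k (D.pairFam g)).op' * D.twist) D.targetSpace D.targetSpace)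
    (φ : D.target) :
    D.pairEnd h (D.targetToSpher φ : D.targetSpace) =
      (D.targetToSpher ((((targetMu : ℂ) * ((nbrs (g : GfK K') ((1 : GfK K') :
          Yf (productLevel D.lev'.loc))).ncard : ℂ)) •
        (levelOp hJ g * D.deepEnd * (D.targetTwist * D.targetTwist))) φ) : D.targetSpace) := by
  refine Subtype.ext ?_
  rw [coe_pairEnd, coe_targetToSpher, coe_targetToSpher, D.twist_targetClass φ,
    D.op'_pairFam_targetClass hJ he k g, LinearMap.smul_apply, map_smul]
  rfl

/-- **The twisted trace on the target classes is twice the one on the target.** -/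
theorem trace_restrict_eq {e : D.forms →ₗ[ℂ] D.forms} (hJ : IsLevelProj D.formsRep e D.target)
    (he : ∀ φ H, IsStab D.formsRep D.targetGroup H φ → e φ = avgOver D.formsRep D.targetGroup H φ)
    {g : gfSupported D.bad'} {k : KerFamily D.lev.loc}
    (h : Set.MapsTo ((D.withFam k (D.pairFam g)).op' * D.twist) D.targetSpace D.targetSpace) :
    LinearMap.trace ℂ D.targetSpace (D.pairEnd h) =
      2 * (((targetMu : ℂ) * ((nbrs (g : GfK K') ((1 : GfK K') :
          Yf (productLevel D.lev'.loc))).ncard : ℂ)) *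
        LinearMap.trace ℂ D.target
          (levelOp hJ g * D.deepEnd * (D.targetTwist * D.targetTwist))) := by
  rw [D.trace_pairEnd h fun x hx => D.pairFam_off g hx]
  refine congrArg (2 * ·) ((trace_eq_trace_of_bijective (M := D.target) (N := D.spherPart)
    D.targetToSpher D.bijective_targetToSpher _
    (((targetMu : ℂ) * ((nbrs (g : GfK K') ((1 : GfK K') :
      Yf (productLevel D.lev'.loc))).ncard : ℂ)) •
        (levelOp hJ g * D.deepEnd * (D.targetTwist * D.targetTwist)))
    fun φ => Subtype.ext ?_).trans (map_smul _ _ _))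
  exact D.pairEnd_targetToSpher hJ he g h φ

/-- **The class of the target has a nonzero twisted trace.** -/
theorem exists_trace_targetSpace_ne_zero (hN : ∀ w ∈ D.base.deep', Deep.DeepAt w D.deep.N₀) :
    ∃ k k', D.IsBadPart k k' ∧
    ∀ h : Set.MapsTo ((D.withFam k k').op' * D.twist) D.targetSpace D.targetSpace,
      LinearMap.trace ℂ D.targetSpace (LinearMap.restrict
        (((D.withFam k k').op' * D.twist : cuspClasses D.quot' →L[ℂ] cuspClasses D.quot') :
          cuspClasses D.quot' →ₗ[ℂ] cuspClasses D.quot') h) ≠ 0 := by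
  obtain ⟨e, hJ, he, g, hg, htr⟩ := D.exists_trace_target_ne_zero
  refine ⟨_, _, D.isBadPart_badBelow (D.pairFam g) hN (fun w hw => D.isDeepKer_pairFam hg w hw)
    fun w hw => D.pairFam_off g hw, fun h => ?_⟩
  rw [← pairEnd, D.trace_restrict_eq hJ he h]
  exact mul_ne_zero two_ne_zero (mul_ne_zero
    (mul_ne_zero (Complex.ofReal_ne_zero.2 targetMu_ne_zero) (D.nbrs_ncard_ne_zero _)) htr)

end GenData

end Fermat.Agent.Extra.LTGen

end
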