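import Fermat.Agent.Extra.LTGen.Descent.AlephFamily
import Fermat.Agent.Extra.LTGen.Descent.Assembly
import Fermat.Agent.Extra.LTGen.Descent.Downstairs
import Fermat.Agent.Extra.LTGen.Descent.Moments
import Fermat.Agent.Extra.LTGen.Descent.PairBounds
import Fermat.Agent.Extra.LTGen.Descent.Pieces
import Fermat.Agent.Extra.LTGen.Descent.Sides
import Fermat.Agent.Extra.LTGen.Descent.Spectrum
import Fermat.Agent.Extra.LTGen.Descent.TargetClass

/-!
# The trace comparison of the general descent

For a modulus deep at the bad places with one place above, the data descends.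
-/

set_option autoImplicit false

noncomputable section

namespace Fermat.Agent.Extra.LTGen

open Fermat.Agent.LT Fermat.Agent.LT.Descent
open Fermat.Agent.LT.Adelic Fermat.Agent.LT.Tame Fermat.Agent.LT.Spectral
open Fermat.Agent.LT.Descent.Places
open NumberField IsDedekindDomain Matrix
open scoped MatrixGroups InnerProductSpace

variable {K : Type} [Field K] [NumberField K] {K' : Type} [Field K'] [NumberField K']
  [Algebra K K'] {Φ : Frame K Unit} {Φ' : Frame K' (Fin 3)} {tw : CubicTwist Φ Φ'}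

namespace GenData

variable (D : GenData tw)

/-- The twisted operator at the bad places maps the target classes to themselves. -/
theorem mapsTo_targetSpace {k : KerFamily D.lev.loc} {k' : KerFamily D.lev'.loc}
    (h3 : D.IsBadPart k k') :
    Set.MapsTo ((D.withFam k k').op' * D.twist) D.targetSpace D.targetSpace := by
  intro v hv
  have hl : ∀ p ∈ [((1 : ℂ), D.basePair)], p.2.IsPlain := by simp [isPlain_base]
  have hB := (D.sideUp _ hl k k' h3).mapsTo_B (m := targetMu) (L := D.targetVal)
    (L' := D.targetVal) (fun j => D.targetVal_atomPerm j) hv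
  have hc : Commute D.basePair.op' ((D.withFam k k').op' * D.twist) := by
    refine Commute.mul_right ?_ D.commute_twist_base.symm
    refine TestPair.commute_op' _ _ ?_
    show (KerFamily.one _).comp k' = k'.comp (KerFamily.one _)
    exact KerFamily.ext' fun w => (LKer.one_comp _).trans (LKer.comp_one _).symm
  have e : (D.sideUp _ hl k k' h3).B v =
      (targetMu : ℂ) • ((D.withFam k k').op' * D.twist) v := by
    show (D.sumOp' [((1 : ℂ), D.basePair)] * (D.withFam k k').op' * D.twist) v = _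
    rw [mul_assoc, show D.sumOp' [((1 : ℂ), D.basePair)] = D.basePair.op' by simp [sumOp'], hc.eq]
    show ((D.withFam k k').op' * D.twist) (D.basePair.op' v) = _
    rw [show D.basePair.op' v = (targetMu : ℂ) • v from (mem_jointSpace.1 hv).1, map_smul]
  rw [e] at hB
  exact (Submodule.smul_mem_iff _ (Complex.ofReal_ne_zero.2 targetMu_ne_zero)).1 hB

/-- A scalar cuspidal combination on the target gives the descended form. -/
theorem hasDescended_of_cuspidalSum (hN : ∀ w ∈ placesAbove (K' := K') D.base.deepPlaces, Deep.DeepAt w D.deep.N₀) (l : List (ℂ × D.TestPair)) (hl : D.IsCuspidalSum l)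
    (hlp : ∀ p ∈ l, p.2.IsPlain) {s : ℂ} (hs : s ≠ 0)
    (hscal : ∀ e ∈ D.targetSpace, D.sumOp' l e = s • e) : D.HasDescended := by
  obtain ⟨k, k', h3, htr⟩ := D.exists_trace_targetSpace_ne_zero hN
  obtain ⟨ρ, r, hρ, hsd, hsu⟩ := D.exists_spectrum
  obtain ⟨hA, hAR, hA', hAR'⟩ := D.sumOp_commute hlp
  refine (D.exists_isTargetVector l k k' (D.sideDown l hlp k k' h3) (D.sideUp l hlp k k' h3)
    rfl (fun _ => rfl) (fun _ => rfl) rfl rfl (fun _ => rfl) (fun _ => rfl) rfl rfl
    hA hAR hA' hAR' hρ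
    (fun m L v ω hm hv h1 _ h2 h3 => hsd m L v ω hm hv h1 h2 h3)
    (fun m L v ω hm hv h1 hπ h2 h3 => hsu m L v ω hm hv h1 hπ h2 h3)
    (fun L => ?_) hs hscal htr (D.mapsTo_targetSpace h3)).elim
    fun _ he => D.hasDescended_of_isTargetVector he
  obtain ⟨a, b, a', b', T, ha, hb, ha', hb', hbd⟩ := D.exists_monomial_bound L l hlp k k' h3
  obtain ⟨n₀, hn⟩ := D.exists_hasSum_pair ha hb ha' hb' T
  exact ⟨n₀ + L.length + 1, fun n h => hn l (D.monoPair L n k k') hl
    fun p hp => hbd n₀ n (by omega) p hp⟩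

end GenData

namespace GenBase

variable (B : GenBase tw)

/-- The modulus making every bad place with one place above deep. -/
def deepModulus : ℕ := 2 * 3 ^ 10 * ∏ v ∈ B.bad_finite.toFinset, Ideal.absNorm v.asIdeal

theorem deepModulus_ne_zero : B.deepModulus ≠ 0 :=
  mul_ne_zero (by norm_num) (Finset.prod_ne_zero_iff.2 fun v _ => by
    rw [Ne, Ideal.absNorm_eq_zero_iff]; exact v.ne_bot)

theorem intValuation_lt_of_deepModulus_dvd {m : ℕ} (h : B.deepModulus ∣ m)
    {w : HeightOneSpectrum (𝓞 K')} (hw : w ∈ B.bad') :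
    w.intValuation (m : 𝓞 K') < w.intValuation ((2 * 3 ^ 10 : ℕ) : 𝓞 K') := by
  obtain ⟨v, hv, hvw⟩ := hw
  obtain ⟨c, rfl⟩ := h
  have hlt : w.intValuation ((∏ v ∈ B.bad_finite.toFinset, Ideal.absNorm v.asIdeal : ℕ) : 𝓞 K')
      < 1 := by
    rw [w.intValuation_lt_one_iff_mem, Nat.cast_prod]
    refine Ideal.prod_mem w.asIdeal (i := v) (B.bad_finite.mem_toFinset.2 hv) ?_
    have hmem := (hvw (Ideal.absNorm v.asIdeal : 𝓞 K)).2 (Ideal.absNorm_mem _)
    rwa [map_natCast] at hmem
  rw [deepModulus, Nat.cast_mul, Nat.cast_mul _ (∏ v ∈ B.bad_finite.toFinset, _), map_mul, map_mul]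
  refine lt_of_le_of_lt (mul_le_of_le_one_right' (w.intValuation_le_one _)) ?_
  have h0 : w.intValuation ((2 * 3 ^ 10 : ℕ) : 𝓞 K') ≠ 0 :=
    w.intValuation_ne_zero _ (Nat.cast_ne_zero.2 (by norm_num))
  exact mul_lt_of_lt_one_right (zero_lt_iff.2 h0) hlt

end GenBase

/-- **The trace comparison.** -/
theorem stmtDescendedGen : StmtDescendedGen := by
  intro K _ _ K' _ _ _ Φ Φ' tw B
  refine ⟨B.deepModulus, B.deepModulus_ne_zero, fun D hB hN _ => ?_⟩
  subst hB
  obtain ⟨l, s, hl, hlp, hs, hscal⟩ := D.exists_cuspidalSum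
  exact D.hasDescended_of_cuspidalSum
    (fun w hw => D.base.intValuation_lt_of_deepModulus_dvd hN
      (hw.imp fun _ h => ⟨h.1.1, h.2⟩)) l hl hlp hs hscal

end Fermat.Agent.Extra.LTGen

end
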