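import Fermat.Agent.Extra.LTGen.Descent.PairTrace

/-!
# Integrable diagonals of test pairs

For a high power at the places over `u` both diagonals have finite mass; the base pair has bounded
point functionals.
-/

set_option autoImplicit false

noncomputable section

namespace Fermat.Agent.Extra.LTGen

open Fermat.Agent.LT Fermat.Agent.LT.Descent

open Fermat.Agent.LT.Adelic Fermat.Agent.LT.Spectral Fermat.Agent.LT.Descent.Places
open MeasureTheory NumberField IsDedekindDomain Matrix
open scoped MatrixGroups InnerProductSpace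

variable {K : Type*} [Field K] [NumberField K] {K' : Type*} [Field K'] [NumberField K']
  [Algebra K K'] {Φ : Frame K Unit} {Φ' : Frame K' (Fin 3)} {tw : CubicTwist Φ Φ'}

namespace GenData

variable (D : GenData tw)

/-- For high exponents at the places over `u` both diagonals have finite mass. -/
theorem exists_integrable_diag {a b : 𝓞 K} (ha : a ≠ 0) (hb : b ≠ 0) {a' b' : 𝓞 K'} (ha' : a' ≠ 0)
    (hb' : b' ≠ 0) (T : ℝ) :
    ∃ n0 : ℕ, ∀ t : D.TestPair, t.IsBounded D a b a' b' T n0 →
      Integrable (fun x => perKer PGL(2, K) (testKernel (fun _ => t.arch) t.ker) x x) D.quot.ν ∧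
      Integrable (fun x => perKer PGL(2, K') (testKernel t.arch' t.ker') x (twistPt D.sigmaY x))
        D.quot'.ν := by
  obtain ⟨w, hw⟩ := exists_isAbove (K' := K') D.u
  obtain ⟨n1, h1⟩ := exists_support_classes Φ D.u ha hb T
  obtain ⟨n2, h2⟩ := exists_twisted_support_classes Φ tw (S := placesAbove {D.u})
    (fun v hv => (D.placePerm_mem_placesAbove_iff _ v).2 hv)
    (fun x hx => by
      obtain ⟨v, hv, hvx⟩ := hx
      rw [Set.mem_singleton_iff] at hv
      exact hv ▸ IsAbove.liesOver hvx)
    ⟨w, ⟨D.u, rfl, hw⟩, fun x => D.u_split.valuation_algebraMap D.gen hw x⟩ ha' hb' T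
  refine ⟨max n1 n2, fun t hbd => ?_⟩
  obtain ⟨P, hP, hPn, hbig⟩ := hbd.big
  obtain ⟨P', hP', hPn', hbig'⟩ := hbd.big'
  obtain ⟨C, hC, hs⟩ := h1 _ _ t.ker P (fun _ => hbd.range) hbig hP fun n h =>
    lt_of_le_of_lt (by exact_mod_cast le_max_left n1 n2) (hPn n h)
  obtain ⟨C', hC', hs'⟩ := h2 _ D.sigmaY (fun _ => rfl) _ t.ker' P' hbd.range' hbig' hP' fun n h =>
    lt_of_le_of_lt (by exact_mod_cast le_max_right n1 n2) (hPn' n h)
  exact ⟨integrable_perKer_diag _ _ measurable_id
      (lintegral_support_ne_top D.quot.level D.quot.isWeight C (fun c h => (hC c h).2.2) hs),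
    integrable_perKer_diag _ _ measurable_twistPt
      (lintegral_twisted_support_ne_top tw D.quot'.level D.isTwistMap_sigmaY D.quot'.isWeight C'
        (fun c h => (hC' c h).2.2) hs')⟩

namespace TestPair

variable {D}

theorem hasCuspBound_arch_base :
    HasCuspBound D.quot (fun _ : Unit => D.basePair.arch) (HKer.id (Tame.productLevel D.lev.loc)) :=
  ((D.hasCuspBound_baseRoot.comp_left (fun _ => PPKer.comp baseKer baseKer) (HKer.id _)).congr
    (fun _ p q => congrArg (fun k : PPKer => k p q) (ppker_comp_assoc baseKer baseKer baseKer)))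
    fun y z => HKer.id_comp_apply _ y z

end TestPair

end GenData

end Fermat.Agent.Extra.LTGen

end
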